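import Fermat.Agent.LanglandsTunnell.Trace.TraceSpecProof
import Fermat.Agent.LanglandsTunnell.Local.PrimeTransfer
import Fermat.Agent.LanglandsTunnell.CFT.HasseNorm

/-!
# The twisted trace identity holds

`traceSpec` is `traceSpec_of` fed with the local transfer at every prime and the Hasse norm
theorem for cubic extensions.
-/

set_option autoImplicit false

namespace FLTAgent.LanglandsTunnell.Trace

open FLTAgent.LanglandsTunnell

theorem traceSpec : TraceSpec :=
  traceSpec_of LanglandsTunnell.CFT.hasseNormSpec LanglandsTunnell.Local.localTransferSpec

end FLTAgent.LanglandsTunnell.Trace
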