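import Fermat.Agent.LanglandsTunnell.Trace.H3Conv
import Mathlib.MeasureTheory.Integral.Bochner.Set

/-!
# Compact balls, integrability and associativity of convolution on hyperbolic three-space

Hyperbolic balls are compact; for continuous compactly supported point pair invariants the
convolution `h3conv` is associative, continuous and compactly supported.
-/

set_option autoImplicit false

noncomputable section

namespace FLTAgent.LanglandsTunnell.Trace

open FLTAgent.LanglandsTunnell MeasureTheory Complex Set
open scoped ENNReal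

/-- The ball in coordinates. -/
def ballCoords (P : H3) (B : ℝ) : Set (ℂ × ℝ) :=
  {x | ‖x.1 - P.z‖ ^ 2 + P.t ^ 2 + x.2 ^ 2 ≤ 2 * B * P.t * x.2}

theorem isCompact_ballCoords (P : H3) (B : ℝ) : IsCompact (ballCoords P B) := by
  refine Metric.isCompact_of_isClosed_isBounded (isClosed_le (by fun_prop) (by fun_prop)) ?_
  refine ((Metric.isBounded_closedBall (x := P.z) (r := 2 * |B| * P.t)).prod
    (Metric.isBounded_Icc (-(2 * |B| * P.t)) (2 * |B| * P.t))).subset fun x hx => ?_
  have hx' : ‖x.1 - P.z‖ ^ 2 + P.t ^ 2 + x.2 ^ 2 ≤ 2 * B * P.t * x.2 := hx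
  have hC : 0 ≤ 2 * |B| * P.t := by have := P.t_pos; positivity
  have hle : 2 * B * P.t * x.2 ≤ 2 * |B| * P.t * |x.2| := by
    rw [mul_assoc, mul_assoc, mul_assoc, mul_assoc]
    refine mul_le_mul_of_nonneg_left ?_ zero_le_two
    calc B * (P.t * x.2) ≤ |B * (P.t * x.2)| := le_abs_self _
      _ = |B| * (P.t * |x.2|) := by rw [abs_mul, abs_mul, abs_of_pos P.t_pos]
  have h1 : |x.2| ≤ 2 * |B| * P.t := by
    have h : |x.2| * |x.2| ≤ 2 * |B| * P.t * |x.2| := by
      rw [← sq, sq_abs]
      nlinarith [norm_nonneg (x.1 - P.z)]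
    rcases (abs_nonneg x.2).eq_or_lt with h0 | h0
    · exact h0 ▸ hC
    · exact le_of_mul_le_mul_right h h0
  refine ⟨mem_closedBall_iff_norm.mpr ?_, abs_le.mp h1⟩
  nlinarith [norm_nonneg (x.1 - P.z), mul_le_mul_of_nonneg_left h1 hC]

theorem ballCoords_subset (P : H3) {B : ℝ} (hB : 0 ≤ B) :
    ballCoords P B ⊆ H3.halfSpace := fun x hx => by
  have hx' : ‖x.1 - P.z‖ ^ 2 + P.t ^ 2 + x.2 ^ 2 ≤ 2 * B * P.t * x.2 := hx
  by_contra h
  have h' : x.2 ≤ 0 := not_lt.mp h
  have h2 : 2 * B * P.t * x.2 ≤ 0 :=
    mul_nonpos_of_nonneg_of_nonpos (by have := P.t_pos; positivity) h'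
  nlinarith [norm_nonneg (x.1 - P.z), P.t_pos]

/-- Balls are compact. -/
theorem isCompact_ball (P : H3) (B : ℝ) : IsCompact {Q | H3.coshDist P Q ≤ B} := by
  rcases lt_or_ge B 0 with h | h
  · have : {Q | H3.coshDist P Q ≤ B} = ∅ := by
      ext Q
      simp only [mem_ofPred_eq, mem_empty_iff_false, iff_false, not_le]
      linarith [H3.one_le_coshDist P Q]
    rw [this]
    exact isCompact_empty
  · have he : {Q | H3.coshDist P Q ≤ B} = H3.coords ⁻¹' ballCoords P B := by
      ext Q
      simp only [mem_ofPred_eq, mem_preimage, ballCoords, H3.coords, H3.coshDist]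
      rw [div_le_iff₀ (by have := P.t_pos; have := Q.t_pos; positivity), ← norm_sub_rev P.z Q.z]
      constructor <;> intro hh <;> linarith
    rw [he]
    exact H3.isOpenEmbedding_coords.isInducing.isCompact_preimage' (isCompact_ballCoords P B)
      (H3.range_coords ▸ ballCoords_subset P h)

instance isFiniteMeasureOnCompacts_volH3 : IsFiniteMeasureOnCompacts H3.volH3 := by
  refine ⟨fun K hK => ?_⟩
  have hKm : MeasurableSet K := hK.isClosed.measurableSet
  rw [← lintegral_indicator_one hKm, H3.lintegral_vol (measurable_one.indicator hKm)]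
  have hS := hK.image H3.continuous_coords
  have hSsub : H3.coords '' K ⊆ H3.halfSpace := by rintro _ ⟨P, -, rfl⟩; exact P.t_pos
  obtain ⟨C, hC⟩ := hS.exists_bound_of_continuousOn (f := fun x : ℂ × ℝ => 1 / x.2 ^ 3)
    (continuousOn_const.div ((continuous_snd.pow 3).continuousOn)
      fun x hx => pow_ne_zero 3 (ne_of_gt (hSsub hx)))
  calc ∫⁻ x in H3.halfSpace, ENNReal.ofReal (1 / x.2 ^ 3) * K.indicator 1 (H3.mkPt x)
      ≤ ∫⁻ x in H3.halfSpace, (H3.coords '' K).indicator (fun _ => ENNReal.ofReal C) x := by
        refine setLIntegral_mono' H3.isOpen_halfSpace.measurableSet fun x hx => ?_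
        by_cases hm : H3.mkPt x ∈ K
        · have hx' : x ∈ H3.coords '' K := ⟨_, hm, H3.coords_mkPt hx⟩
          rw [indicator_of_mem hm, indicator_of_mem hx', Pi.one_apply, mul_one]
          exact ENNReal.ofReal_le_ofReal ((le_abs_self _).trans (hC x hx'))
        · simp [indicator_of_notMem hm]
    _ ≤ ∫⁻ x, (H3.coords '' K).indicator (fun _ => ENNReal.ofReal C) x :=
      setLIntegral_le_lintegral _ _
    _ < ∞ := by
        rw [lintegral_indicator_const hS.measurableSet]
        exact ENNReal.mul_lt_top ENNReal.ofReal_lt_top hS.measure_lt_top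

theorem continuous_coshDist {X : Type*} [TopologicalSpace X] {f g : X → H3} (hf : Continuous f)
    (hg : Continuous g) : Continuous fun x => H3.coshDist (f x) (g x) := by
  have hz1 : Continuous fun x => (f x).z := H3.continuous_z.comp hf
  have hz2 : Continuous fun x => (g x).z := H3.continuous_z.comp hg
  have ht1 : Continuous fun x => (f x).t := H3.continuous_t.comp hf
  have ht2 : Continuous fun x => (g x).t := H3.continuous_t.comp hg
  show Continuous fun x => (‖(f x).z - (g x).z‖ ^ 2 + (f x).t ^ 2 + (g x).t ^ 2) /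
    (2 * (f x).t * (g x).t)
  exact ((((hz1.sub hz2).norm.pow 2).add (ht1.pow 2)).add (ht2.pow 2)).div
    ((continuous_const.mul ht1).mul ht2) fun x =>
      (mul_pos (mul_pos two_pos (f x).t_pos) (g x).t_pos).ne'

/-- A compactly supported point pair invariant vanishes outside a ball. -/
theorem exists_radius {k : ℝ → ℂ} (hk : HasCompactSupport k) :
    ∃ B : ℝ, ∀ P Q, k (H3.coshDist P Q) ≠ 0 → H3.coshDist P Q ≤ B := by
  obtain ⟨B, hB⟩ := hk.isBounded.bddAbove
  exact ⟨B, fun P Q h => hB (subset_tsupport _ (Function.mem_support.mpr h))⟩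

/-- The product of a compactly supported invariant and a continuous one is integrable. -/
theorem integrable_pair {k l : ℝ → ℂ} (hk : Continuous k) (hks : HasCompactSupport k)
    (hl : Continuous l) (x y : H3) :
    Integrable (fun Q => k (H3.coshDist x Q) * l (H3.coshDist Q y)) H3.volH3 := by
  obtain ⟨B, hB⟩ := exists_radius hks
  refine Continuous.integrable_of_hasCompactSupport ?_
    (HasCompactSupport.intro (isCompact_ball x B) fun Q hQ => ?_)
  · exact (hk.comp (continuous_coshDist (f := fun _ => x) (g := fun Q => Q) continuous_const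
      continuous_id)).mul (hl.comp (continuous_coshDist (f := fun Q => Q) (g := fun _ => y)
        continuous_id continuous_const))
  · by_contra h
    exact hQ (hB _ _ (left_ne_zero_of_mul h))

/-- Point pair invariants associate. -/
theorem h3conv_assoc {k l m : ℝ → ℂ} (hk : Continuous k) (hks : HasCompactSupport k)
    (hl : Continuous l) (hm : Continuous m)
    (hms : HasCompactSupport m) :
    h3conv (h3conv k l) m = h3conv k (h3conv l m) := by
  funext c
  set y := axisPoint (Real.exp (Real.arcosh (max c 1))) (Real.exp_pos _)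
  let f : H3 → H3 → ℂ := fun Q R =>
    k (H3.coshDist H3.base Q) * l (H3.coshDist Q R) * m (H3.coshDist R y)
  have hf : Integrable (Function.uncurry f) (H3.volH3.prod H3.volH3) := by
    obtain ⟨B, hB⟩ := exists_radius hks
    obtain ⟨B', hB'⟩ := exists_radius hms
    refine Continuous.integrable_of_hasCompactSupport ?_
      (HasCompactSupport.intro ((isCompact_ball H3.base B).prod (isCompact_ball y B'))
        fun p hp => ?_)
    · exact ((hk.comp (continuous_coshDist (f := fun _ : H3 × H3 => H3.base) (g := Prod.fst)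
          continuous_const continuous_fst)).mul
        (hl.comp (continuous_coshDist (f := Prod.fst) (g := Prod.snd)
          continuous_fst continuous_snd))).mul
        (hm.comp (continuous_coshDist (f := fun p : H3 × H3 => p.2) (g := fun _ => y)
          continuous_snd continuous_const))
    · by_contra h
      refine hp ⟨hB _ _ (left_ne_zero_of_mul (left_ne_zero_of_mul h)), ?_⟩
      show H3.coshDist y p.2 ≤ B'
      rw [H3.coshDist_comm]
      exact hB' _ _ (right_ne_zero_of_mul h)
  calc h3conv (h3conv k l) m c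
      = (unitClamp c : ℂ) * ∫ R, (∫ Q, f Q R ∂H3.volH3) ∂H3.volH3 := by
        refine congrArg ((unitClamp c : ℂ) * ·) ?_
        refine integral_congr_ae (Filter.Eventually.of_forall fun R => ?_)
        show h3conv k l (H3.coshDist H3.base R) * m (H3.coshDist R y) = _
        rw [← integral_coshDist, ← integral_mul_const]
    _ = (unitClamp c : ℂ) * ∫ Q, (∫ R, f Q R ∂H3.volH3) ∂H3.volH3 := by
        rw [integral_integral_swap hf]
    _ = h3conv k (h3conv l m) c := by
        refine congrArg ((unitClamp c : ℂ) * ·) ?_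
        refine integral_congr_ae (Filter.Eventually.of_forall fun Q => ?_)
        show _ = k (H3.coshDist H3.base Q) * h3conv l m (H3.coshDist Q y)
        rw [← integral_coshDist, ← integral_const_mul]
        exact integral_congr_ae (Filter.Eventually.of_forall fun R => mul_assoc _ _ _)

/-- Linearity in the first argument. -/
theorem h3conv_sum_left {J : Type*} [Fintype J] (a : J → ℂ) (k : J → ℝ → ℂ) {l : ℝ → ℂ}
    (hk : ∀ j, Continuous (k j)) (hks : ∀ j, HasCompactSupport (k j)) (hl : Continuous l) :
    h3conv (fun x => ∑ j, a j * k j x) l = fun c => ∑ j, a j * h3conv (k j) l c := by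
  funext c
  calc h3conv (fun x => ∑ j, a j * k j x) l c
      = (unitClamp c : ℂ) * ∫ Q, ∑ j, a j * (k j (H3.coshDist H3.base Q) *
          l (H3.coshDist Q (axisPoint (Real.exp (Real.arcosh (max c 1))) (Real.exp_pos _))))
            ∂H3.volH3 := by
        refine congrArg ((unitClamp c : ℂ) * ·) ?_
        refine integral_congr_ae (Filter.Eventually.of_forall fun Q => ?_)
        show (∑ j, a j * k j (H3.coshDist H3.base Q)) * l _ = _
        rw [Finset.sum_mul]
        exact Finset.sum_congr rfl fun j _ => mul_assoc _ _ _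
    _ = ∑ j, a j * h3conv (k j) l c := by
        rw [integral_finsetSum _ fun j _ => (integrable_pair (hk j) (hks j) hl _ _).const_mul _,
          Finset.mul_sum]
        refine Finset.sum_congr rfl fun j _ => ?_
        rw [integral_const_mul, mul_left_comm]
        rfl

theorem continuousOn_h3conv {k l : ℝ → ℂ} (hk : Continuous k) (hks : HasCompactSupport k)
    (hl : Continuous l) : ContinuousOn (h3conv k l) (Ici 1) := by
  obtain ⟨B, hB⟩ := exists_radius hks
  have hax : Continuous fun c : ℝ =>
      axisPoint (Real.exp (Real.arcosh (max c 1))) (Real.exp_pos _) :=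
    H3.continuous_mk_iff.mpr ⟨continuous_const,
      Real.continuous_exp.comp (Real.continuousOn_arcosh.comp_continuous
        (continuous_id.max continuous_const) fun c => le_max_right c 1)⟩
  let F : ℝ → H3 → ℂ := fun c Q => k (H3.coshDist H3.base Q) *
    l (H3.coshDist Q (axisPoint (Real.exp (Real.arcosh (max c 1))) (Real.exp_pos _)))
  have hF : Continuous (Function.uncurry F) :=
    (hk.comp (continuous_coshDist (f := fun _ : ℝ × H3 => H3.base) (g := Prod.snd)
      continuous_const continuous_snd)).mul
      (hl.comp (continuous_coshDist (f := fun p : ℝ × H3 => p.2)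
        (g := fun p => axisPoint (Real.exp (Real.arcosh (max p.1 1))) (Real.exp_pos _))
        continuous_snd (hax.comp continuous_fst)))
  refine ((Complex.continuous_ofReal.comp continuous_unitClamp).mul
    (continuous_parametric_integral_of_continuous (μ := H3.volH3) hF
      (isCompact_ball H3.base B))).continuousOn.congr fun c hc => ?_
  refine congrArg ((unitClamp c : ℂ) * ·) ?_
  show _ = ∫ y in {Q | H3.coshDist H3.base Q ≤ B}, F c y ∂H3.volH3
  rw [setIntegral_eq_integral_of_forall_compl_eq_zero]
  · simp only [F]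
    rfl
  · intro Q hQ
    by_contra h
    exact hQ (hB _ _ (left_ne_zero_of_mul h))

/-- The convolution vanishes beyond a bound on `[1, ∞)`. -/
theorem exists_bound_h3conv {k l : ℝ → ℂ} (hks : HasCompactSupport k) (hls : HasCompactSupport l) :
    ∃ B : ℝ, ∀ c : ℝ, 1 ≤ c → h3conv k l c ≠ 0 → c ≤ B := by
  obtain ⟨B, hB⟩ := exists_radius hks
  obtain ⟨B', hB'⟩ := exists_radius hls
  refine ⟨4 * |B| * |B'|, fun c hc h => ?_⟩
  obtain ⟨Q, hQ⟩ : ∃ Q, k (H3.coshDist H3.base Q) *
      l (H3.coshDist Q (axisPoint (Real.exp (Real.arcosh c)) (Real.exp_pos _))) ≠ 0 := by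
    by_contra hall
    push Not at hall
    apply h
    rw [h3conv_of_one_le k l hc]
    show ∫ Q, k (H3.coshDist H3.base Q) *
      l (H3.coshDist Q (axisPoint (Real.exp (Real.arcosh (max c 1))) (Real.exp_pos _)))
        ∂H3.volH3 = 0
    simp [max_eq_left hc, hall]
  have aux : ∀ (P R : H3) (b : ℝ), H3.coshDist P R ≤ b → R.t ≤ 2 * |b| * P.t := by
    intro P R b hb
    rw [H3.coshDist, div_le_iff₀ (by have := P.t_pos; have := R.t_pos; positivity)] at hb
    have h1 : R.t * R.t ≤ 2 * |b| * P.t * R.t := by
      have hbb : b * (2 * P.t * R.t) ≤ |b| * (2 * P.t * R.t) :=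
        mul_le_mul_of_nonneg_right (le_abs_self b) (by have := P.t_pos; have := R.t_pos; positivity)
      nlinarith [norm_nonneg (P.z - R.z)]
    exact le_of_mul_le_mul_right h1 R.t_pos
  have h1 := aux _ _ _ (hB _ _ (left_ne_zero_of_mul hQ))
  have h2 := aux _ _ _ (hB' _ _ (right_ne_zero_of_mul hQ))
  simp only [axisPoint, H3.base, mul_one] at h1 h2
  rw [Real.exp_arcosh hc] at h2
  have h3 : 2 * |B'| * Q.t ≤ 2 * |B'| * (2 * |B|) :=
    mul_le_mul_of_nonneg_left h1 (by positivity)
  linarith [Real.sqrt_nonneg (c ^ 2 - 1)]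

/-- The convolution is continuous. -/
theorem continuous_h3conv {k l : ℝ → ℂ} (hk : Continuous k) (hks : HasCompactSupport k)
    (hl : Continuous l) : Continuous (h3conv k l) := by
  have h1 : ContinuousOn (h3conv k l) (Ici 1) := continuousOn_h3conv hk hks hl
  have e : h3conv k l = fun c => (unitClamp c : ℂ) * h3conv k l (max c 1) := by
    funext c
    rw [h3conv_of_one_le k l (le_max_right c 1)]
    simp only [max_eq_left (le_max_right c 1)]
    rfl
  rw [e]
  exact (Complex.continuous_ofReal.comp continuous_unitClamp).mul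
    (h1.comp_continuous (continuous_id.max continuous_const) fun c => le_max_right c 1)

/-- The convolution has compact support. -/
theorem hasCompactSupport_h3conv {k l : ℝ → ℂ} (hks : HasCompactSupport k)
    (hls : HasCompactSupport l) : HasCompactSupport (h3conv k l) := by
  obtain ⟨B, hB⟩ := exists_bound_h3conv hks hls
  refine HasCompactSupport.intro (isCompact_Icc (a := (0 : ℝ)) (b := max B 1)) fun c hc => ?_
  rw [Set.mem_Icc, not_and_or, not_le, not_le] at hc
  rcases hc with hc | hc
  · rw [h3conv, unitClamp_of_nonpos hc.le, Complex.ofReal_zero, zero_mul]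
  · by_contra h
    exact absurd (hB c ((le_max_right B 1).trans hc.le) h)
      (not_le.mpr ((le_max_left B 1).trans_lt hc))

end FLTAgent.LanglandsTunnell.Trace
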