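import Mathlib.MeasureTheory.Group.Action
import Mathlib.MeasureTheory.Integral.Lebesgue.Countable
import Mathlib.MeasureTheory.Constructions.Polish.Basic
import Mathlib.GroupTheory.GroupAction.Quotient
import Mathlib.GroupTheory.Index

/-!
# Weights for a group action and the unfolding of sums over orbits

A weight is a nonnegative function with sum one over every orbit. Integrals of invariant functions
against a weight are independent of the weight, so a weight replaces a fundamental domain.
-/

set_option autoImplicit false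

noncomputable section

namespace FLTAgent.LanglandsTunnell.Trace

open MeasureTheory MulAction
open scoped ENNReal

variable (G : Type*) [Group G] {Y : Type*} [MeasurableSpace Y] [MulAction G Y] (μ : Measure Y)

/-- A weight whose sum over almost every orbit is one. -/
structure IsWeight (w : Y → ℝ≥0∞) : Prop where
  measurable : Measurable w
  sum_eq : ∀ᵐ x ∂μ, ∑' g : G, w (g • x) = 1

variable {G μ} [Countable G] [MeasurableConstSMul G Y] [SMulInvariantMeasure G Y μ]

instance countable_cosets (H : Subgroup G) : Countable (G ⧸ H) :=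
  Quotient.countable

omit [Countable G] [MeasurableSpace Y] [MulAction G Y] [MeasurableConstSMul G Y]
  [SMulInvariantMeasure G Y μ] in
/-- Every element is uniquely a chosen coset representative times an element of the subgroup. -/
theorem bijective_out_mul (H : Subgroup G) :
    Function.Bijective fun p : (G ⧸ H) × H => p.1.out * (p.2 : G) := by
  refine ⟨fun ⟨q, h⟩ ⟨q', h'⟩ e => ?_, fun g => ?_⟩
  · have hq : q = q' := by
      have e' := congrArg (fun g : G => (g : G ⧸ H)) e
      simpa [QuotientGroup.mk_mul_of_mem _ h.2, QuotientGroup.mk_mul_of_mem _ h'.2] using e'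
    subst hq
    simpa using e
  · obtain ⟨h, hh⟩ := QuotientGroup.mk_out_eq_mul H g
    exact ⟨((g : G ⧸ H), h⁻¹), by simp [hh]⟩

omit [Countable G] in
theorem lintegral_smul (g : G) {f : Y → ℝ≥0∞} (hf : Measurable f) :
    ∫⁻ x, f (g • x) ∂μ = ∫⁻ x, f x ∂μ :=
  (measurePreserving_smul g μ).lintegral_comp hf

/-- The integral of an invariant function against a weight can be computed with every function
having sum one on the orbits where the invariant function is nonzero. -/
theorem IsWeight.lintegral_eq_of_support {w w' : Y → ℝ≥0∞} (hw : IsWeight G μ w)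
    (hw'm : Measurable w') {F : Y → ℝ≥0∞}
    (hw' : ∀ᵐ x ∂μ, F x ≠ 0 → ∑' g : G, w' (g • x) = 1)
    (hF : Measurable F) (hinv : ∀ (g : G) x, F (g • x) = F x) :
    ∫⁻ x, w x * F x ∂μ = ∫⁻ x, w' x * F x ∂μ := by
  have hm : ∀ g : G, Measurable fun x => w x * F x * w' (g • x) := fun g =>
    (hw.measurable.mul hF).mul (hw'm.comp (measurable_const_smul g))
  calc ∫⁻ x, w x * F x ∂μ = ∫⁻ x, ∑' g : G, w x * F x * w' (g • x) ∂μ := by
        refine lintegral_congr_ae (hw'.mono fun x hx => ?_)
        dsimp only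
        rcases eq_or_ne (F x) 0 with h | h
        · simp [h]
        · rw [ENNReal.tsum_mul_left, hx h, mul_one]
    _ = ∑' g : G, ∫⁻ x, w x * F x * w' (g • x) ∂μ :=
        lintegral_tsum fun g => (hm g).aemeasurable
    _ = ∑' g : G, ∫⁻ x, w' x * F x * w (g • x) ∂μ := by
        rw [← (Equiv.inv G).tsum_eq]
        refine tsum_congr fun g => ?_
        rw [← lintegral_smul (μ := μ) g (hm _)]
        refine lintegral_congr fun x => ?_
        simp only [Equiv.inv_apply, inv_smul_smul, hinv]
        ring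
    _ = ∫⁻ x, ∑' g : G, w' x * F x * w (g • x) ∂μ :=
        (lintegral_tsum fun g => ((hw'm.mul hF).mul
          (hw.measurable.comp (measurable_const_smul g))).aemeasurable).symm
    _ = ∫⁻ x, w' x * F x ∂μ := by
        refine lintegral_congr_ae (hw.sum_eq.mono fun x hx => ?_)
        dsimp only
        rw [ENNReal.tsum_mul_left, hx, mul_one]

/-- Integrals of invariant functions do not depend on the weight. -/
theorem IsWeight.lintegral_eq {w w' : Y → ℝ≥0∞} (hw : IsWeight G μ w) (hw' : IsWeight G μ w')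
    {F : Y → ℝ≥0∞} (hF : Measurable F) (hinv : ∀ (g : G) x, F (g • x) = F x) :
    ∫⁻ x, w x * F x ∂μ = ∫⁻ x, w' x * F x ∂μ :=
  hw.lintegral_eq_of_support hw'.measurable (hw'.sum_eq.mono fun _ h _ => h) hF hinv

omit [Countable G] [MeasurableConstSMul G Y] [SMulInvariantMeasure G Y μ] in
/-- The indicator of a fundamental set is a weight. -/
theorem isWeight_indicator {D : Set Y} (hD : MeasurableSet D)
    (h : ∀ᵐ x ∂μ, ∃! g : G, g • x ∈ D) : IsWeight G μ (D.indicator 1) := by
  refine ⟨measurable_one.indicator hD, h.mono fun x ⟨g, hg, hu⟩ => ?_⟩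
  rw [tsum_eq_single g fun g' hg' => Set.indicator_of_notMem (fun hm => hg' (hu g' hm)) _,
    Set.indicator_of_mem hg, Pi.one_apply]

/-- The weight induced on a subgroup. -/
def restrictWeight (H : Subgroup G) (w : Y → ℝ≥0∞) : Y → ℝ≥0∞ :=
  fun x => ∑' q : G ⧸ H, w (q.out • x)

omit [SMulInvariantMeasure G Y μ] in
theorem IsWeight.restrict {w : Y → ℝ≥0∞} (hw : IsWeight G μ w) (H : Subgroup G) :
    IsWeight H μ (restrictWeight H w) := by
  refine ⟨Measurable.tsum fun q => hw.measurable.comp (measurable_const_smul _),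
    hw.sum_eq.mono fun x hx => ?_⟩
  rw [← hx, ← (Equiv.ofBijective _ (bijective_out_mul H)).tsum_eq, ENNReal.tsum_prod']
  simp only [restrictWeight]
  rw [ENNReal.tsum_comm]
  refine tsum_congr fun q => tsum_congr fun h => ?_
  exact congrArg w (mul_smul q.out (h : G) x).symm

omit [MeasurableConstSMul G Y] [SMulInvariantMeasure G Y μ] in
/-- A weight of a subgroup of finite index, divided by the index, is a weight. -/
theorem IsWeight.of_subgroup {H : Subgroup G} {w : Y → ℝ≥0∞} (hH : H.index ≠ 0)
    (hm : ∀ g : G, MeasurePreserving (fun x => g • x) μ μ) (hw : IsWeight H μ w) :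
    IsWeight G μ (fun x => (H.index : ℝ≥0∞)⁻¹ * w x) := by
  refine ⟨hw.measurable.const_mul _, ?_⟩
  have hq : ∀ᵐ x ∂μ, ∀ q : G ⧸ H, ∑' h : H, w (h • q.out⁻¹ • x) = 1 :=
    ae_all_iff.mpr fun q => (hm q.out⁻¹).quasiMeasurePreserving.ae hw.sum_eq
  refine hq.mono fun x hx => ?_
  rw [ENNReal.tsum_mul_left, ← (Equiv.inv G).tsum_eq,
    ← (Equiv.ofBijective _ (bijective_out_mul H)).tsum_eq, ENNReal.tsum_prod']
  have h1 : ∀ q : G ⧸ H, ∑' h : H,
      w ((Equiv.inv G) (Equiv.ofBijective _ (bijective_out_mul H) (q, h)) • x) = 1 := by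
    intro q
    rw [← (Equiv.inv H).tsum_eq, ← hx q]
    refine tsum_congr fun h => congrArg w ?_
    show (q.out * ((h⁻¹ : H) : G))⁻¹ • x = (h : G) • q.out⁻¹ • x
    rw [← mul_smul, mul_inv_rev, InvMemClass.coe_inv, inv_inv]
  simp only [h1]
  have : Fintype (G ⧸ H) := Subgroup.fintypeOfIndexNeZero hH
  rw [tsum_fintype, Finset.sum_const, Finset.card_univ, nsmul_one, Subgroup.index_eq_card,
    Nat.card_eq_fintype_card]
  exact ENNReal.inv_mul_cancel (Nat.cast_ne_zero.mpr Fintype.card_ne_zero)
    (ENNReal.natCast_ne_top _)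

variable {S : Type*} [MulAction G S] {F : S → Y → ℝ≥0∞}

/-- The unfolding of the sum over one orbit. -/
theorem lintegral_orbit {w : Y → ℝ≥0∞} (hw : IsWeight G μ w) (hF : ∀ s, Measurable (F s))
    (hequiv : ∀ (g : G) s x, F (g • s) (g • x) = F s x) (s : S) :
    ∫⁻ x, w x * ∑' q : G ⧸ stabilizer G s, F (q.out • s) x ∂μ =
      ∫⁻ x, restrictWeight (stabilizer G s) w x * F s x ∂μ := by
  simp only [← ENNReal.tsum_mul_left, restrictWeight, ← ENNReal.tsum_mul_right]
  rw [lintegral_tsum fun q => (hw.measurable.fun_mul (hF _)).aemeasurable,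
    lintegral_tsum (f := fun (q : G ⧸ stabilizer G s) x => w (q.out • x) * F s x) fun q =>
      ((hw.measurable.comp (measurable_const_smul _)).mul (hF _)).aemeasurable]
  refine tsum_congr fun q => ?_
  rw [← lintegral_smul (μ := μ) q.out (hw.measurable.fun_mul (hF _))]
  exact lintegral_congr fun x => by simp only [hequiv]

omit [MeasurableSpace Y] [Countable G] [MeasurableConstSMul G Y] in
theorem stabilizer_invariant (hequiv : ∀ (g : G) s x, F (g • s) (g • x) = F s x) (s : S)
    (h : stabilizer G s) (x : Y) : F s (h • x) = F s x := by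
  have e := hequiv (h : G) s x
  rwa [mem_stabilizer_iff.mp h.2] at e

/-- The unfolding of the sum over `S`, with representatives of the orbits contributing to it. -/
theorem lintegral_unfold {w : Y → ℝ≥0∞} (hw : IsWeight G μ w)
    (hF : ∀ s, Measurable (F s)) (hequiv : ∀ (g : G) s x, F (g • s) (g • x) = F s x)
    {Ω : Type*} [Countable Ω] (rep : Ω → S)
    (hinj : ∀ o o' (g : G), g • rep o = rep o' → o = o')
    (hsurj : ∀ s x, F s x ≠ 0 → ∃ o, ∃ g : G, g • rep o = s) :
    ∫⁻ x, w x * ∑' s, F s x ∂μ =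
      ∑' o, ∫⁻ x, restrictWeight (stabilizer G (rep o)) w x * F (rep o) x ∂μ := by
  let f : (Σ o, G ⧸ stabilizer G (rep o)) → S := fun oq => oq.2.out • rep oq.1
  have hf : Function.Injective f := by
    rintro ⟨o, q⟩ ⟨o', q'⟩ h
    simp only [f] at h
    obtain rfl : o = o' :=
      hinj o o' (q'.out⁻¹ * q.out) (by rw [mul_smul, h, inv_smul_smul])
    congr 1
    rw [← q.out_eq, ← q'.out_eq]
    refine QuotientGroup.eq.mpr (mem_stabilizer_iff.mpr ?_)
    rw [mul_smul, ← h, inv_smul_smul]
  have e : ∀ x, ∑' s, F s x = ∑' o, ∑' q : G ⧸ stabilizer G (rep o), F (q.out • rep o) x := by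
    intro x
    rw [← hf.tsum_eq (f := fun s => F s x), ENNReal.tsum_sigma']
    intro s hs
    obtain ⟨o, g, rfl⟩ := hsurj s x hs
    refine ⟨⟨o, (g : G ⧸ stabilizer G (rep o))⟩, ?_⟩
    obtain ⟨h, hh⟩ := QuotientGroup.mk_out_eq_mul (stabilizer G (rep o)) g
    simp only [f]
    rw [hh, mul_smul, mem_stabilizer_iff.mp h.2]
  simp only [e, ← ENNReal.tsum_mul_left (a := w _)]
  rw [lintegral_tsum fun o => ((Measurable.tsum fun q : G ⧸ stabilizer G (rep o) =>
    hw.measurable.fun_mul (hF _))).aemeasurable]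
  refine tsum_congr fun o => ?_
  simp only [ENNReal.tsum_mul_left]
  exact lintegral_orbit hw hF hequiv (rep o)

end FLTAgent.LanglandsTunnell.Trace
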