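import Fermat.Agent.LanglandsTunnell.Trace.H3Compact
import Mathlib.MeasureTheory.Constructions.Pi

/-!
# The three step chain at infinity

Three point pair invariants linked cyclically push forward to their convolution at each vertex.
-/

set_option autoImplicit false

noncomputable section

namespace FLTAgent.LanglandsTunnell.Trace

open FLTAgent.LanglandsTunnell MeasureTheory Set
open scoped ENNReal

/-- Convolution of nonnegative point pair invariants. -/
def lconv (k l : ℝ → ℝ≥0∞) (c : ℝ) : ℝ≥0∞ :=
  ENNReal.ofReal (unitClamp c) * ∫⁻ Q, k (H3.coshDist H3.base Q) *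
    l (H3.coshDist Q (axisPoint (Real.exp (Real.arcosh (max c 1))) (Real.exp_pos _))) ∂H3.volH3

theorem lintegral_coshDist (k l : ℝ → ℝ≥0∞) (x y : H3) :
    ∫⁻ Q, k (H3.coshDist x Q) * l (H3.coshDist Q y) ∂H3.volH3 = lconv k l (H3.coshDist x y) := by
  rw [lconv, unitClamp_of_one_le (H3.one_le_coshDist x y), ENNReal.ofReal_one, one_mul]
  obtain ⟨g, hx, hy⟩ := exists_to_axis x y
  rw [← (H3.measurePreserving_smul g⁻¹).lintegral_comp_emb (measurableEmbedding_const_smul g⁻¹)]
  refine lintegral_congr fun Q => ?_
  rw [← H3.coshDist_smul g x, ← H3.coshDist_smul g (g⁻¹ • Q), smul_inv_smul, hx, hy]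
  simp only [max_eq_left (H3.one_le_coshDist x y)]

theorem measurable_coshDist {α : Type*} [MeasurableSpace α] {f g : α → H3} (hf : Measurable f)
    (hg : Measurable g) : Measurable fun a => H3.coshDist (f a) (g a) := by
  have hc : ∀ {h : α → H3}, Measurable h →
      Measurable (fun a => (h a).z) ∧ Measurable (fun a => (h a).t) := fun hh =>
    ⟨H3.continuous_z.measurable.comp hh, H3.continuous_t.measurable.comp hh⟩
  obtain ⟨hz1, ht1⟩ := hc hf
  obtain ⟨hz2, ht2⟩ := hc hg
  exact ((((hz1.sub hz2).norm.pow_const 2).add (ht1.pow_const 2)).add (ht2.pow_const 2)).div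
    ((measurable_const.mul ht1).mul ht2)

/-- The three coordinates in the order `i, e i, e (e i)`. -/
def chainPoint (e : Fin 3 ≃ Fin 3) (i : Fin 3) (p : H3 × H3 × H3) (j : Fin 3) : H3 :=
  if j = i then p.1 else if j = e i then p.2.1 else p.2.2

variable {e : Fin 3 ≃ Fin 3}

theorem chain_indices (he : ∀ j, e j ≠ j) (h3 : ∀ j, e (e (e j)) = j) (i : Fin 3) :
    e i ≠ i ∧ e (e i) ≠ i ∧ e (e i) ≠ e i ∧ ∀ j, j = i ∨ j = e i ∨ j = e (e i) := by
  have h2 : e (e i) ≠ i := fun h => he i (by have := h3 i; rwa [h] at this)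
  refine ⟨he i, h2, he (e i), fun j => ?_⟩
  have h1 := he i
  have h4 := he (e i)
  omega

theorem chainPoint_eq (he : ∀ j, e j ≠ j) (h3 : ∀ j, e (e (e j)) = j) (i : Fin 3)
    (p : H3 × H3 × H3) : chainPoint e i p i = p.1 ∧ chainPoint e i p (e i) = p.2.1 ∧
      chainPoint e i p (e (e i)) = p.2.2 := by
  obtain ⟨h1, h2, h4, -⟩ := chain_indices he h3 i
  simp [chainPoint, h1, h2, h4]

theorem measurable_chainPoint (i : Fin 3) : Measurable (chainPoint e i) := by
  refine measurable_pi_lambda _ fun j => ?_
  unfold chainPoint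
  split_ifs
  · exact measurable_fst
  · exact measurable_fst.comp measurable_snd
  · exact measurable_snd.comp measurable_snd

theorem prod_chain {M : Type*} [CommMonoid M] (he : ∀ j, e j ≠ j) (h3 : ∀ j, e (e (e j)) = j)
    (i : Fin 3) (f : Fin 3 → M) : ∏ j, f j = f i * f (e i) * f (e (e i)) := by
  obtain ⟨h1, h2, h4, hall⟩ := chain_indices he h3 i
  have hu : (Finset.univ : Finset (Fin 3)) = {i, e i, e (e i)} := by
    ext j
    simpa using hall j
  rw [hu, Finset.prod_insert (by simp [h1.symm, h2.symm]),
    Finset.prod_insert (by simp [h4.symm]), Finset.prod_singleton, mul_assoc]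

theorem measurePreserving_chainPoint (he : ∀ j, e j ≠ j) (h3 : ∀ j, e (e (e j)) = j) (i : Fin 3) :
    MeasurePreserving (chainPoint e i) (H3.volH3.prod (H3.volH3.prod H3.volH3))
      (Measure.pi fun _ : Fin 3 => H3.volH3) := by
  obtain ⟨h1, h2, h4, hall⟩ := chain_indices he h3 i
  refine ⟨measurable_chainPoint i, (Measure.pi_eq fun s hs => ?_).symm⟩
  rw [Measure.map_apply (measurable_chainPoint i) (MeasurableSet.univ_pi hs)]
  have hpre : chainPoint e i ⁻¹' univ.pi s = s i ×ˢ s (e i) ×ˢ s (e (e i)) := by
    ext p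
    obtain ⟨p1, p2, p3⟩ := chainPoint_eq he h3 i p
    simp only [mem_preimage, mem_univ_pi, mem_prod]
    refine ⟨fun h => ⟨p1 ▸ h i, p2 ▸ h (e i), p3 ▸ h (e (e i))⟩, fun h j => ?_⟩
    rcases hall j with hj | hj | hj <;> rw [hj]
    · rw [p1]; exact h.1
    · rw [p2]; exact h.2.1
    · rw [p3]; exact h.2.2
  rw [hpre, Measure.prod_prod, Measure.prod_prod, prod_chain he h3 i fun j => H3.volH3 (s j),
    mul_assoc]

/-- The cyclic density of three invariants twisted by `g`. -/
def chainDensity (e : Fin 3 ≃ Fin 3) (k : Fin 3 → ℝ → ℝ≥0∞) (g : Fin 3 → GL (Fin 2) ℂ)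
    (Q : Fin 3 → H3) : ℝ≥0∞ :=
  ∏ i, k i (H3.coshDist (Q i) (g i • Q (e i)))

theorem measurable_chainDensity {k : Fin 3 → ℝ → ℝ≥0∞} (hk : ∀ i, Measurable (k i))
    (g : Fin 3 → GL (Fin 2) ℂ) : Measurable (chainDensity e k g) :=
  Finset.measurable_prod _ fun i _ => (hk i).comp (measurable_coshDist (measurable_pi_apply i)
    ((continuous_const_smul (g i)).measurable.comp (measurable_pi_apply (e i))))

/-- The convolution seen from the vertex `i`. -/
def chainKernel (e : Fin 3 ≃ Fin 3) (k : Fin 3 → ℝ → ℝ≥0∞) (i : Fin 3) : ℝ → ℝ≥0∞ :=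
  lconv (lconv (k i) (k (e i))) (k (e (e i)))

/-- The chain pushes forward to the convolution at the vertex `i`. -/
theorem chain_push (he : ∀ j, e j ≠ j) (h3 : ∀ j, e (e (e j)) = j) {k : Fin 3 → ℝ → ℝ≥0∞}
    (hk : ∀ i, Measurable (k i)) (g : Fin 3 → GL (Fin 2) ℂ) (i : Fin 3) :
    Measure.map (fun Q => Q i)
        ((Measure.pi fun _ : Fin 3 => H3.volH3).withDensity (chainDensity e k g)) =
      H3.volH3.withDensity fun P =>
        chainKernel e k i (H3.coshDist P ((g i * g (e i) * g (e (e i))) • P)) := by
  refine Measure.ext fun s hs => ?_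
  have hf : Measurable (s.indicator (1 : H3 → ℝ≥0∞)) := measurable_one.indicator hs
  rw [Measure.map_apply (measurable_pi_apply i) hs, withDensity_apply _ hs,
    withDensity_apply _ (measurable_pi_apply i hs), ← lintegral_indicator hs,
    ← lintegral_indicator (measurable_pi_apply i hs),
    ← (measurePreserving_chainPoint he h3 i).lintegral_comp
      ((measurable_chainDensity hk g).indicator (measurable_pi_apply i hs))]
  set ki := k i
  set k1 := k (e i)
  set k2 := k (e (e i))
  let F : H3 × H3 × H3 → ℝ≥0∞ := fun p => s.indicator 1 p.1 *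
    (ki (H3.coshDist p.1 (g i • p.2.1)) * k1 (H3.coshDist p.2.1 (g (e i) • p.2.2)) *
      k2 (H3.coshDist p.2.2 (g (e (e i)) • p.1)))
  have hFm : Measurable F :=
    (hf.comp measurable_fst).mul ((((hk i).comp (measurable_coshDist measurable_fst
      ((continuous_const_smul _).measurable.comp (measurable_fst.comp measurable_snd)))).mul
      ((hk (e i)).comp (measurable_coshDist (measurable_fst.comp measurable_snd)
        ((continuous_const_smul _).measurable.comp (measurable_snd.comp measurable_snd))))).mul
      ((hk (e (e i))).comp (measurable_coshDist (measurable_snd.comp measurable_snd)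
        ((continuous_const_smul _).measurable.comp measurable_fst))))
  calc ∫⁻ p, ((fun Q : Fin 3 → H3 => Q i) ⁻¹' s).indicator (chainDensity e k g)
        (chainPoint e i p) ∂(H3.volH3.prod (H3.volH3.prod H3.volH3))
      = ∫⁻ p, F p ∂(H3.volH3.prod (H3.volH3.prod H3.volH3)) := by
        refine lintegral_congr fun p => ?_
        obtain ⟨p1, p2, p3⟩ := chainPoint_eq he h3 i p
        have hd : chainDensity e k g (chainPoint e i p) =
            ki (H3.coshDist p.1 (g i • p.2.1)) * k1 (H3.coshDist p.2.1 (g (e i) • p.2.2)) *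
              k2 (H3.coshDist p.2.2 (g (e (e i)) • p.1)) := by
          rw [chainDensity, prod_chain he h3 i, h3, p1, p2, p3]
        by_cases hm : p.1 ∈ s
        · rw [indicator_of_mem (show chainPoint e i p ∈ (fun Q : Fin 3 → H3 => Q i) ⁻¹' s by
            simpa [p1] using hm)]
          simp [F, hd, hm]
        · rw [indicator_of_notMem (show chainPoint e i p ∉ (fun Q : Fin 3 → H3 => Q i) ⁻¹' s by
            simpa [p1] using hm)]
          simp [F, hm]
    _ = ∫⁻ a, ∫⁻ c, ∫⁻ b, F (a, b, c) ∂H3.volH3 ∂H3.volH3 ∂H3.volH3 := by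
        rw [lintegral_prod _ hFm.aemeasurable]
        exact lintegral_congr fun a =>
          lintegral_prod_symm' _ (hFm.comp measurable_prodMk_left)
    _ = ∫⁻ a, s.indicator (fun P => lconv (lconv ki k1) k2
          (H3.coshDist P ((g i * g (e i) * g (e (e i))) • P))) a ∂H3.volH3 := by
        refine lintegral_congr fun a => ?_
        by_cases hm : a ∈ s
        swap
        · simp [F, hm]
        simp only [F, indicator_of_mem hm, Pi.one_apply, one_mul]
        have hin : ∀ c, ∫⁻ b, ki (H3.coshDist a (g i • b)) *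
            k1 (H3.coshDist b (g (e i) • c)) * k2 (H3.coshDist c (g (e (e i)) • a)) ∂H3.volH3 =
            lconv ki k1 (H3.coshDist a ((g i * g (e i)) • c)) *
              k2 (H3.coshDist ((g i * g (e i)) • c) ((g i * g (e i) * g (e (e i))) • a)) := by
          intro c
          have hmm : Measurable fun b : H3 => ki (H3.coshDist a (g i • b)) *
              k1 (H3.coshDist b (g (e i) • c)) :=
            ((hk i).comp (measurable_coshDist measurable_const
              (continuous_const_smul (g i)).measurable)).mul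
              ((hk (e i)).comp (measurable_coshDist measurable_id measurable_const))
          rw [lintegral_mul_const _ hmm,
            ← lintegral_coshDist, mul_smul _ (g (e (e i))), H3.coshDist_smul]
          congr 1
          conv_rhs => rw [← (H3.measurePreserving_smul (g i)).lintegral_comp_emb
            (measurableEmbedding_const_smul (g i))]
          exact lintegral_congr fun b => by
            simp only [ki, k1, mul_smul, H3.coshDist_smul]
        simp only [hin]
        rw [(H3.measurePreserving_smul (g i * g (e i))).lintegral_comp_emb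
          (measurableEmbedding_const_smul (g i * g (e i)))
          (fun c => lconv ki k1 (H3.coshDist a c) *
            k2 (H3.coshDist c ((g i * g (e i) * g (e (e i))) • a))), lintegral_coshDist]

/-- The nonnegative convolution of real invariants is the complex one. -/
theorem h3conv_ofReal {k l : ℝ → ℝ} (hk : Continuous k) (hks : HasCompactSupport k)
    (hl : Continuous l) (hk0 : ∀ x, 0 ≤ k x) (hl0 : ∀ x, 0 ≤ l x) (c : ℝ) :
    lconv (fun x => ENNReal.ofReal (k x)) (fun x => ENNReal.ofReal (l x)) c ≠ ∞ ∧
    h3conv (fun x => (k x : ℂ)) (fun x => (l x : ℂ)) c =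
      ((lconv (fun x => ENNReal.ofReal (k x)) (fun x => ENNReal.ofReal (l x)) c).toReal : ℂ) := by
  set y := axisPoint (Real.exp (Real.arcosh (max c 1))) (Real.exp_pos _)
  have hi := (integrable_pair (k := fun x => (k x : ℂ)) (l := fun x => (l x : ℂ))
    (Complex.continuous_ofReal.comp hk) (hks.comp_left Complex.ofReal_zero)
    (Complex.continuous_ofReal.comp hl) H3.base y).re
  have hi' : Integrable (fun Q => k (H3.coshDist H3.base Q) * l (H3.coshDist Q y)) H3.volH3 := by
    simpa using hi
  have he : lconv (fun x => ENNReal.ofReal (k x)) (fun x => ENNReal.ofReal (l x)) c =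
      ENNReal.ofReal (unitClamp c) *
        ENNReal.ofReal (∫ Q, k (H3.coshDist H3.base Q) * l (H3.coshDist Q y) ∂H3.volH3) := by
    rw [ofReal_integral_eq_lintegral_ofReal hi'
      (Filter.Eventually.of_forall fun Q => mul_nonneg (hk0 _) (hl0 _))]
    exact congrArg (ENNReal.ofReal (unitClamp c) * ·)
      (lintegral_congr fun Q => (ENNReal.ofReal_mul (hk0 _)).symm)
  refine ⟨he ▸ ENNReal.mul_ne_top ENNReal.ofReal_ne_top ENNReal.ofReal_ne_top, ?_⟩
  rw [he, ENNReal.toReal_mul, ENNReal.toReal_ofReal (unitClamp_nonneg c),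
    ENNReal.toReal_ofReal (integral_nonneg fun Q => mul_nonneg (hk0 _) (hl0 _)),
    Complex.ofReal_mul, ← integral_complex_ofReal]
  exact congrArg ((unitClamp c : ℂ) * ·)
    (integral_congr_ae (Filter.Eventually.of_forall fun Q => (Complex.ofReal_mul _ _).symm))

end FLTAgent.LanglandsTunnell.Trace
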