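import Fermat.Agent.LanglandsTunnell.Trace.Truncation
import Mathlib.Analysis.SpecialFunctions.Pow.Real

/-!
# The exact expansion of a truncated twisted kernel integral

High cusps of a point near its twisted translate are fixed by the twisted translation, so classes
without fixed cusps are untouched by truncation and classes with two fixed cusps only see those
two cusps.
-/

set_option autoImplicit false

noncomputable section

namespace FLTAgent.LanglandsTunnell.Trace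

open MeasureTheory MulAction Set
open scoped ENNReal

variable {G Y C S : Type*} [Group G] [MulAction G Y] [MulAction G C] [MulAction G S]

/-- A cusp high enough at a point near its translate by `g • τ` is fixed by `g • θ`. -/
theorem fixed_of_high {ℓ : C → Y → ℝ} {θ : C → C} {τ : Y → Y}
    (hequiv : ∀ (g : G) c x, ℓ (g • c) (g • x) = ℓ c x) (hτ : ∀ c x, ℓ (θ c) (τ x) = ℓ c x)
    (hsep : ∀ c c' x, c ≠ c' → ℓ c x + ℓ c' x ≤ 0) {g : G} {x : Y} {D : ℝ}
    (hnear : ∀ c, |ℓ c x - ℓ c (g • τ x)| ≤ D) {c : C} (hc : D < ℓ c x) : g • θ c = c := by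
  by_contra hne
  have h1 := hsep _ _ (g • τ x) hne
  rw [hequiv, hτ] at h1
  have h2 := abs_le.mp (hnear c)
  linarith [abs_nonneg (ℓ c x - ℓ c (g • τ x)), hnear c]

/-- The function cutting off every cusp above `L`. -/
def cuspTrunc (ℓ : C → Y → ℝ) (L : ℝ) : Y → ℝ≥0∞ :=
  {x | ∀ c, ℓ c x ≤ L}.indicator 1

theorem cuspTrunc_smul {ℓ : C → Y → ℝ} (hequiv : ∀ (g : G) c x, ℓ (g • c) (g • x) = ℓ c x)
    (L : ℝ) (g : G) (x : Y) : cuspTrunc ℓ L (g • x) = cuspTrunc ℓ L x := by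
  have h : (∀ c, ℓ c (g • x) ≤ L) ↔ ∀ c, ℓ c x ≤ L := by
    refine ⟨fun h c => hequiv g c x ▸ h (g • c), fun h c => ?_⟩
    rw [← smul_inv_smul g c, hequiv]
    exact h _
  simp only [cuspTrunc, indicator, mem_ofPred_eq, Pi.one_apply]
  classical exact if_congr h rfl rfl

variable [Countable G] [MeasurableSpace Y] [MeasurableConstSMul G Y]
  {μ : Measure Y} [SMulInvariantMeasure G Y μ] [SFinite μ] [Countable C]

omit [Countable G] [SMulInvariantMeasure G Y μ] [SFinite μ] [MeasurableConstSMul G Y] in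
theorem measurable_cuspTrunc {ℓ : C → Y → ℝ} (hℓ : ∀ c, Measurable (ℓ c)) (L : ℝ) :
    Measurable (cuspTrunc ℓ L) := by
  refine measurable_one.indicator ?_
  rw [show {x | ∀ c, ℓ c x ≤ L} = ⋂ c, {x | ℓ c x ≤ L} by ext; simp]
  exact MeasurableSet.iInter fun c => hℓ c measurableSet_Iic

/-- Exact expansion of a truncated integral: the classes in `Ωe` have no high cusps, those in
`Ωh` only `c₁` and `c₀`. -/
theorem lintegral_truncated_expansion {F : S → Y → ℝ≥0∞} (hF : ∀ s, Measurable (F s))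
    (hFequiv : ∀ (g : G) s x, F (g • s) (g • x) = F s x)
    {ℓ : C → Y → ℝ} (hℓ : ∀ c, Measurable (ℓ c))
    (hequiv : ∀ (g : G) c x, ℓ (g • c) (g • x) = ℓ c x)
    {w : Y → ℝ≥0∞} (hw : IsWeight G μ w)
    {Ωe Ωh : Type*} [Countable Ωe] [Countable Ωh] (rep : Ωe ⊕ Ωh → S)
    (hinj : ∀ o o' (g : G), g • rep o = rep o' → o = o')
    (hsurj : ∀ s x, F s x ≠ 0 → ∃ o, ∃ g : G, g • rep o = s)
    {D κ : ℝ} (hell : ∀ o x, F (rep (.inl o)) x ≠ 0 → ∀ c, ℓ c x ≤ D)
    (c₁ c₀ : Ωh → C)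
    (hhyp : ∀ o x, F (rep (.inr o)) x ≠ 0 → ∀ c, c ≠ c₁ o → c ≠ c₀ o → ℓ c x ≤ D)
    (Φ : Ωh → ℝ → Y → Y)
    (hΦ : ∀ o, TorusFlow (stabilizer G (rep (.inr o))) μ (Φ o) (ℓ (c₁ o)) (ℓ (c₀ o)) κ)
    (hFΦ : ∀ o s x, F (rep (.inr o)) (Φ o s x) = F (rep (.inr o)) x)
    (R : Ωh → Y → ℝ≥0∞)
    (hR : ∀ o, IsTransversal (stabilizer G (rep (.inr o))) (Φ o) (R o))
    (wh : Ωh → Y → ℝ≥0∞) (hwh : ∀ o, IsWeight (stabilizer G (rep (.inr o))) μ (wh o))
    {L : ℝ} (hL : 0 ≤ L) (hDL : D ≤ L) :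
    ENNReal.ofReal κ * ∫⁻ x, w x * (cuspTrunc ℓ L x * ∑' s, F s x) ∂μ =
      ENNReal.ofReal κ * (∑' o, ∫⁻ x,
          restrictWeight (stabilizer G (rep (.inl o))) w x * F (rep (.inl o)) x ∂μ) +
        ∑' o, (ENNReal.ofReal (2 * L) * slopeTerm μ (wh o) (R o) (F (rep (.inr o))) +
          constTerm μ (wh o) (R o) (F (rep (.inr o))) (ℓ (c₁ o)) (ℓ (c₀ o))) := by
  have hχ : ∀ s x, cuspTrunc ℓ L x * F s x ≠ 0 → F s x ≠ 0 :=
    fun s x h => right_ne_zero_of_mul h
  simp only [← ENNReal.tsum_mul_left (a := cuspTrunc ℓ L _)]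
  rw [lintegral_unfold (F := fun s x => cuspTrunc ℓ L x * F s x) hw
      (fun s => (measurable_cuspTrunc hℓ L).fun_mul (hF s))
      (fun g s x => by rw [cuspTrunc_smul hequiv, hFequiv])
      rep hinj (fun s x h => hsurj s x (hχ s x h)),
    Summable.tsum_sum ENNReal.summable ENNReal.summable, mul_add]
  congr 1
  · congr 1
    refine tsum_congr fun o => lintegral_congr fun x => ?_
    rcases eq_or_ne (F (rep (.inl o)) x) 0 with h | h
    · simp [h]
    · rw [cuspTrunc, indicator_of_mem (show x ∈ {x | ∀ c, ℓ c x ≤ L} from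
        fun c => (hell o x h c).trans hDL), Pi.one_apply, one_mul]
  · rw [← ENNReal.tsum_mul_left]
    refine tsum_congr fun o => ?_
    have hH : ∀ (g : stabilizer G (rep (.inr o))) x,
        F (rep (.inr o)) (g • x) = F (rep (.inr o)) x :=
      fun g x => stabilizer_invariant hFequiv _ g x
    rw [← (hΦ o).lintegral_truncation (hR o) (hw.restrict _) (hwh o) (hF _) hH (hFΦ o) hL]
    congr 1
    refine lintegral_congr fun x => ?_
    congr 1
    rcases eq_or_ne (F (rep (.inr o)) x) 0 with h | h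
    · simp [h]
    · rw [mul_comm]
      congr 1
      have hiff : (∀ c, ℓ c x ≤ L) ↔ ℓ (c₁ o) x ≤ L ∧ ℓ (c₀ o) x ≤ L := by
        refine ⟨fun h' => ⟨h' _, h' _⟩, fun h' c => ?_⟩
        rcases eq_or_ne c (c₁ o) with rfl | h₁
        · exact h'.1
        rcases eq_or_ne c (c₀ o) with rfl | h₀
        · exact h'.2
        exact (hhyp o x h c h₁ h₀).trans hDL
      simp only [cuspTrunc, truncation, indicator, mem_ofPred_eq, Pi.one_apply]
      classical exact if_congr hiff rfl rfl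

end FLTAgent.LanglandsTunnell.Trace
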