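import Fermat.Agent.LanglandsTunnell.Geom.Action
import Fermat.Agent.LanglandsTunnell.Trace.Expansion
import Fermat.Agent.LanglandsTunnell.Trace.Chain
import Mathlib.LinearAlgebra.Projectivization.Action

/-!
# Points, cusps, logarithmic heights and the flow of the diagonal torus

The data needed by the truncated expansion on the space of points of a totally complex field.
-/

set_option autoImplicit false

noncomputable section

namespace FLTAgent.LanglandsTunnell.Trace

open FLTAgent.LanglandsTunnell FLTAgent.LanglandsTunnell.Geom NumberField Matrix MeasureTheory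
open scoped LinearAlgebra.Projectivization ENNReal

variable {F : Type} [Field F] [NumberField F] {ι : Type} [Fintype ι] {n : Ideal (𝓞 F)}

variable (F) in
/-- The cusps: lines of `F²`. -/
abbrev Cusp : Type := ℙ F (Fin 2 → F)

/-- `PGL₂(F)` acts on cusps. -/
instance cuspAction : MulAction (PGLF F) (Cusp F) :=
  MulAction.compHom _ (QuotientGroup.lift (Subgroup.center (GL (Fin 2) F))
    (MulAction.toPermHom (GL (Fin 2) F) (Cusp F)) (by
      intro z hz
      rw [GeneralLinearGroup.center_eq_range_scalar] at hz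
      obtain ⟨c, rfl⟩ := hz
      refine MonoidHom.mem_ker.mpr (Equiv.ext fun x => ?_)
      induction x using Projectivization.ind with
      | h v hv =>
        show GeneralLinearGroup.scalar (Fin 2) c • Projectivization.mk F v hv = _
        rw [Projectivization.smul_mk, Equiv.Perm.one_apply, Projectivization.mk_eq_mk_iff]
        exact ⟨c, by simp [Units.smul_def]⟩) :
      PGLF F →* Equiv.Perm (Cusp F))

omit [NumberField F] in
theorem cusp_smul_mk (g : GL (Fin 2) F) (c : Cusp F) : (g : PGLF F) • c = g • c := rfl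

omit [NumberField F] in
theorem gl_smul_vec (g : GL (Fin 2) F) (v : Fin 2 → F) : g • v = g.val *ᵥ v := rfl

instance countable_cusp : Countable (Cusp F) := by
  have := countable_field (F := F)
  exact Quotient.countable

omit [NumberField F] in
theorem det_rep_ne_zero {c c' : Cusp F} (h : c ≠ c') :
    c.rep 0 * c'.rep 1 - c.rep 1 * c'.rep 0 ≠ 0 := by
  intro h0
  apply h
  rw [← Projectivization.mk_rep c, ← Projectivization.mk_rep c', Projectivization.mk_eq_mk_iff']
  have hw := c'.rep_nonzero
  rcases eq_or_ne (c'.rep 0) 0 with h' | h'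
  · have h1 : c'.rep 1 ≠ 0 := fun h1 => hw (funext fun i => by fin_cases i <;> assumption)
    refine ⟨c.rep 1 / c'.rep 1, funext fun i => ?_⟩
    rw [h', mul_zero, sub_zero] at h0
    fin_cases i
    · simp [h', (mul_eq_zero.mp h0).resolve_right h1]
    · simp [h1]
  · refine ⟨c.rep 0 / c'.rep 0, funext fun i => ?_⟩
    fin_cases i
    · simp [h']
    · simp only [Fin.mk_one, Pi.smul_apply, smul_eq_mul]
      field_simp
      linear_combination h0

variable (Φ : PlaceChoice F ι)

/-- The logarithmic height of a cusp seen from a point. -/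
def logHeight (c : Cusp F) (x : Pt F ι n) : ℝ := Real.log (height Φ x c.rep)

theorem logHeight_mk {v : Fin 2 → F} (hv : v ≠ 0) (x : Pt F ι n) :
    logHeight Φ (Projectivization.mk F v hv) x = Real.log (height Φ x v) := by
  obtain ⟨a, ha⟩ := Projectivization.exists_smul_eq_mk_rep F v hv
  rw [logHeight, ← ha, Units.smul_def, height_smul Φ x a.ne_zero hv]

theorem logHeight_act (γ : GL (Fin 2) F) (c : Cusp F) (x : Pt F ι n) :
    logHeight Φ (γ • c) (act Φ γ x) = logHeight Φ c x := by
  induction c using Projectivization.ind with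
  | h v hv =>
    rw [Projectivization.smul_mk, logHeight_mk, logHeight_mk, gl_smul_vec, height_act]

theorem logHeight_pgl (q : PGLF F) (c : Cusp F) (x : Pt F ι n) :
    letI := pglAction (n := n) Φ
    logHeight Φ (q • c) (q • x) = logHeight Φ c x := by
  let := pglAction (n := n) Φ
  have h : q • c = q.out • c := by
    conv_lhs => rw [← q.out_eq]
    rfl
  rw [h]
  exact logHeight_act Φ q.out c x

theorem logHeight_add_le {c c' : Cusp F} (h : c ≠ c') (x : Pt F ι n) :
    logHeight Φ c x + logHeight Φ c' x ≤ 0 := by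
  rw [logHeight, logHeight, ← Real.log_mul (height_pos Φ x c.rep_nonzero).ne'
    (height_pos Φ x c'.rep_nonzero).ne']
  exact Real.log_nonpos (mul_nonneg (height_pos Φ x c.rep_nonzero).le
    (height_pos Φ x c'.rep_nonzero).le) (height_mul_le_one Φ x (det_rep_ne_zero h))

theorem measurable_logHeight [Countable (FinPt F n)] (c : Cusp F) :
    Measurable fun x : Pt F ι n => logHeight Φ c x := by
  refine measurable_from_prod_countable_right fun y => ?_
  exact (continuous_height Φ y c.rep_nonzero).measurable.log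

omit [NumberField F] in
theorem sfinite_volPt [Countable (FinPt F n)] : SFinite (volPt : Measure (Pt F ι n)) := by
  have : SigmaFinite H3.volH3 := H3.sigmaFinite_volH3
  unfold volPt
  infer_instance

/-- A fundamental domain gives a weight. -/
theorem isWeight_of_fundDomain {D : Set (Pt F ι n)} (hD : IsFundDomain Φ D) :
    letI := pglAction (n := n) Φ
    IsWeight (PGLF F) volPt (D.indicator 1) :=
  letI := pglAction (n := n) Φ
  isWeight_indicator hD.measurable hD.unique

/-! ### The flow -/

/-- `diag(e ^ s, 1)`. -/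
def scaleG (s : ℝ) : GL (Fin 2) ℂ :=
  Matrix.GeneralLinearGroup.mkOfDetNeZero !![(Real.exp s : ℂ), 0; 0, 1]
    (by simp [Matrix.det_fin_two_of, Complex.exp_ne_zero])

theorem scaleG_mul (s t : ℝ) : scaleG s * scaleG t = scaleG (s + t) := by
  refine Matrix.GeneralLinearGroup.ext fun i j => ?_
  fin_cases i <;> fin_cases j <;>
    simp [scaleG, Matrix.GeneralLinearGroup.val_mkOfDetNeZero, Matrix.mul_apply, Real.exp_add]

theorem scaleG_zero : scaleG 0 = 1 := by
  refine Matrix.GeneralLinearGroup.ext fun i j => ?_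
  fin_cases i <;> fin_cases j <;> simp [scaleG, Matrix.GeneralLinearGroup.val_mkOfDetNeZero]

/-- A diagonal element commutes with the scaling. -/
theorem scaleG_comm {g : GL (Fin 2) ℂ} (h01 : g.val 0 1 = 0) (h10 : g.val 1 0 = 0) (s : ℝ) :
    scaleG s * g = g * scaleG s := by
  refine Matrix.GeneralLinearGroup.ext fun i j => ?_
  fin_cases i <;> fin_cases j <;>
    simp [scaleG, Matrix.GeneralLinearGroup.val_mkOfDetNeZero, Matrix.mul_apply, h01, h10, mul_comm]

/-- The flow: simultaneous scaling at every infinite place. -/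
def flow (s : ℝ) (x : Pt F ι n) : Pt F ι n := (x.1, fun i => scaleG s • x.2 i)

omit [NumberField F] [Fintype ι] in
theorem flow_act {γ : GL (Fin 2) F} (h01 : γ.val 0 1 = 0) (h10 : γ.val 1 0 = 0) (s : ℝ)
    (x : Pt F ι n) : flow s (act Φ γ x) = act Φ γ (flow s x) := by
  refine Prod.ext rfl (funext fun i => ?_)
  show scaleG s • GeneralLinearGroup.map (Φ.emb i) γ • x.2 i =
    GeneralLinearGroup.map (Φ.emb i) γ • scaleG s • x.2 i
  rw [smul_smul, smul_smul, scaleG_comm (by simp [h01]) (by simp [h10])]

omit [NumberField F] [Fintype ι] in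
theorem flow_neg (s : ℝ) (x : Pt F ι n) : flow s (flow (-s) x) = x := by
  simp [flow, smul_smul, scaleG_mul, scaleG_zero]

omit [NumberField F] [Fintype ι] in
theorem measurable_flow : Measurable fun p : ℝ × Pt F ι n => flow p.1 p.2 := by
  refine (measurable_fst.comp measurable_snd).prodMk (measurable_pi_iff.mpr fun i => ?_)
  have h : (fun p : ℝ × Pt F ι n => scaleG p.1 • p.2.2 i) =
      fun p => H3.mkPt ((Real.exp p.1 : ℂ) * (p.2.2 i).z, Real.exp p.1 * (p.2.2 i).t) := by
    funext p
    have hpos : 0 < Real.exp p.1 * (p.2.2 i).t := mul_pos (Real.exp_pos _) (p.2.2 i).t_pos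
    rw [H3.mkPt, dif_pos hpos]
    refine H3.ext ?_ ?_
    · rw [H3.smul_z]
      simp [scaleG, Matrix.GeneralLinearGroup.val_mkOfDetNeZero, H3.denom]
    · rw [H3.smul_t]
      simp [scaleG, Matrix.GeneralLinearGroup.val_mkOfDetNeZero, H3.denom, Matrix.det_fin_two_of,
        Complex.norm_exp]
  show Measurable fun p : ℝ × Pt F ι n => scaleG p.1 • p.2.2 i
  rw [h]
  have hi : Measurable fun p : ℝ × Pt F ι n => p.2.2 i :=
    (measurable_pi_apply i).comp (measurable_snd.comp measurable_snd)
  have hs : Measurable fun p : ℝ × Pt F ι n => Real.exp p.1 :=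
    Real.measurable_exp.comp measurable_fst
  exact H3.measurable_mkPt.comp (((Complex.measurable_ofReal.comp hs).mul
    (H3.continuous_z.measurable.comp hi)).prodMk (hs.mul (H3.continuous_t.measurable.comp hi)))

omit [NumberField F] in
theorem measurePreserving_flow [Countable (FinPt F n)] (s : ℝ) :
    MeasurePreserving (flow s) (volPt : Measure (Pt F ι n)) volPt := by
  have : SigmaFinite H3.volH3 := H3.sigmaFinite_volH3
  exact (MeasurePreserving.id _).prod (measurePreserving_pi _ _ fun _ =>
    H3.measurePreserving_smul _)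

variable (F) in
/-- The cusp `∞`. -/
def cuspInf : Cusp F := Projectivization.mk F ![1, 0] (by simp)

variable (F) in
/-- The cusp `0`. -/
def cuspZero : Cusp F := Projectivization.mk F ![0, 1] (by simp)

theorem cuspInf_ne_zero : cuspInf F ≠ cuspZero F := by
  simp only [cuspInf, cuspZero, ne_eq, Projectivization.mk_eq_mk_iff']
  rintro ⟨a, ha⟩
  have := congrFun ha 0
  simp at this

theorem height_flow (s : ℝ) (x : Pt F ι n) (v : Fin 2 → F) (r : ℝ)
    (h : ∀ i (P : H3), (scaleG s • P).qform (Φ.emb i ∘ v) = Real.exp r * P.qform (Φ.emb i ∘ v)) :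
    height Φ (flow s x) v = Real.exp (-(2 * Fintype.card ι * r)) * height Φ x v := by
  obtain ⟨⟨g⟩, P⟩ := x
  show (sizeFn Φ g (fun i => scaleG s • P i) v)⁻¹ = _ * (sizeFn Φ g P v)⁻¹
  have he : (∏ i, (scaleG s • P i).qform (Φ.emb i ∘ v) ^ 2) =
      Real.exp (2 * Fintype.card ι * r) * ∏ i, (P i).qform (Φ.emb i ∘ v) ^ 2 := by
    simp only [h, mul_pow, Finset.prod_mul_distrib, Finset.prod_const, Finset.card_univ]
    rw [← Real.exp_nat_mul, ← Real.exp_nat_mul]
    congr 2
    push_cast
    ring
  simp only [sizeFn, he, Real.exp_neg, mul_inv]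
  ring

theorem logHeight_inf_flow (s : ℝ) (x : Pt F ι n) :
    logHeight Φ (cuspInf F) (flow s x) =
      logHeight Φ (cuspInf F) x + 2 * Fintype.card ι * s := by
  have hv : ![(1 : F), 0] ≠ 0 := by simp
  rw [cuspInf, logHeight_mk, logHeight_mk, height_flow Φ s x _ (-s) fun i P => ?_,
    Real.log_mul (Real.exp_ne_zero _) (height_pos Φ x hv).ne', Real.log_exp]
  · ring
  · have e : Φ.emb i ∘ ![(1 : F), 0] = ![1, 0] := funext fun j => by fin_cases j <;> simp
    rw [e, H3.qform_fst, H3.qform_fst, H3.smul_t]
    simp [scaleG, Matrix.GeneralLinearGroup.val_mkOfDetNeZero, H3.denom, Matrix.det_fin_two_of,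
      Complex.norm_exp, Real.exp_neg]
    ring

theorem logHeight_zero_flow (s : ℝ) (x : Pt F ι n) :
    logHeight Φ (cuspZero F) (flow s x) =
      logHeight Φ (cuspZero F) x - 2 * Fintype.card ι * s := by
  have hv : ![(0 : F), 1] ≠ 0 := by simp
  rw [cuspZero, logHeight_mk, logHeight_mk, height_flow Φ s x _ s fun i P => ?_,
    Real.log_mul (Real.exp_ne_zero _) (height_pos Φ x hv).ne', Real.log_exp]
  · ring
  · have e : Φ.emb i ∘ ![(0 : F), 1] = ![0, 1] := funext fun j => by fin_cases j <;> simp
    have hmul : (scaleG s).val *ᵥ ![(0 : ℂ), 1] = ![0, 1] := by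
      funext j
      fin_cases j <;>
        simp [scaleG, Matrix.GeneralLinearGroup.val_mkOfDetNeZero, Matrix.mulVec, dotProduct,
          Fin.sum_univ_two]
    have hq := H3.qform_smul (scaleG s) P ![(0 : ℂ), 1]
    rw [hmul] at hq
    rw [e, hq]
    simp [scaleG, Matrix.GeneralLinearGroup.val_mkOfDetNeZero, Matrix.det_fin_two_of,
      Complex.norm_exp]

end FLTAgent.LanglandsTunnell.Trace
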