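import Mathlib.LinearAlgebra.Matrix.Charpoly.Coeff
import Mathlib.Tactic.LinearCombination

/-!
# Pairs of coordinates in the algebra generated by a matrix of size two

`qMul` and `qNorm` are multiplication and norm in `R[X]/(X² - T X + Δ)` on pairs, and `qMat G`
identifies the pairs with the commutant of a regular matrix `G` of trace `T` and determinant `Δ`.
-/

set_option autoImplicit false

noncomputable section

namespace FLTAgent.LanglandsTunnell.Trace

open Matrix

variable {R S : Type*} [CommRing R] [CommRing S]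

/-- The product in `R[X]/(X² - T X + Δ)`. -/
def qMul (T Δ : R) (u v : R × R) : R × R :=
  (u.1 * v.1 - Δ * (u.2 * v.2), u.1 * v.2 + u.2 * v.1 + T * (u.2 * v.2))

/-- The product of three conjugates. -/
def qNorm (T Δ : R) (θ : R → R) (u : R × R) : R × R :=
  qMul T Δ (qMul T Δ u (Prod.map θ θ u)) (Prod.map θ θ (Prod.map θ θ u))

theorem map_qMul (f : R →+* S) (T Δ : R) (u v : R × R) :
    Prod.map f f (qMul T Δ u v) = qMul (f T) (f Δ) (Prod.map f f u) (Prod.map f f v) := by
  simp [qMul, Prod.map]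

theorem map_qNorm (f : R →+* S) (T Δ : R) {θ : R → R} {θ' : S → S}
    (h : ∀ x, f (θ x) = θ' (f x)) (u : R × R) :
    Prod.map f f (qNorm T Δ θ u) = qNorm (f T) (f Δ) θ' (Prod.map f f u) := by
  simp only [qNorm, map_qMul]
  simp [Prod.map, h]

/-- Multiplication by a scalar. -/
def qScale (c : R) (u : R × R) : R × R := (c * u.1, c * u.2)

theorem qNorm_scale (T Δ : R) (θ : R →+* R) (c : R) (u : R × R) :
    qNorm T Δ θ (qScale c u) = qScale (c * θ c * θ (θ c)) (qNorm T Δ θ u) := by
  ext <;> simp [qNorm, qScale, qMul, Prod.map] <;> ring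

theorem qMul_eval {a T Δ : R} (ha : a * a = T * a - Δ) (u v : R × R) :
    (u.1 + u.2 * a) * (v.1 + v.2 * a) = (qMul T Δ u v).1 + (qMul T Δ u v).2 * a := by
  simp only [qMul]
  linear_combination u.2 * v.2 * ha

/-- The matrix of a pair. -/
def qMat (G : Matrix (Fin 2) (Fin 2) R) (u : R × R) : Matrix (Fin 2) (Fin 2) R :=
  u.1 • 1 + u.2 • G

theorem qMat_apply (G : Matrix (Fin 2) (Fin 2) R) (u : R × R) (i j : Fin 2) :
    qMat G u i j = u.1 * (if i = j then 1 else 0) + u.2 * G i j := by
  simp [qMat, Matrix.one_apply]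

theorem qMat_mul (G : Matrix (Fin 2) (Fin 2) R) (u v : R × R) :
    qMat G u * qMat G v = qMat G (qMul G.trace G.det u v) := by
  ext i j
  simp only [Matrix.mul_apply, Fin.sum_univ_two, qMat_apply, qMul, Matrix.trace_fin_two,
    Matrix.det_fin_two]
  fin_cases i <;> fin_cases j <;> simp <;> ring

theorem qMat_map (f : R →+* S) (G : Matrix (Fin 2) (Fin 2) R) (u : R × R) :
    (qMat G u).map f = qMat (G.map f) (Prod.map f f u) := by
  ext i j
  simp only [Matrix.map_apply, qMat_apply, Prod.map, map_add, map_mul]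
  fin_cases i <;> fin_cases j <;> simp

theorem commute_qMat (G : Matrix (Fin 2) (Fin 2) R) (u : R × R) : Commute G (qMat G u) :=
  ((Commute.one_right G).smul_right _).add_right ((Commute.refl G).smul_right _)

theorem qMat_norm (G : Matrix (Fin 2) (Fin 2) R) (θ : R →+* R) (hG : G.map θ = G) (u : R × R) :
    qMat G u * (qMat G u).map θ * ((qMat G u).map θ).map θ =
      qMat G (qNorm G.trace G.det θ u) := by
  rw [qMat_map, hG, qMat_map, hG, qMat_mul, qMat_mul]
  rfl

theorem exists_qMat_of_commute {G X : Matrix (Fin 2) (Fin 2) R}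
    (hD : IsUnit (G.trace ^ 2 - 4 * G.det)) (h : X * G = G * X) : ∃ u, X = qMat G u := by
  obtain ⟨p, q, r, s, rfl⟩ : ∃ p q r s, G = !![p, q; r, s] := ⟨_, _, _, _, Matrix.eta_fin_two G⟩
  obtain ⟨x₁, x₂, x₃, x₄, rfl⟩ : ∃ a b c e, X = !![a, b; c, e] := ⟨_, _, _, _, Matrix.eta_fin_two X⟩
  have h00 := congrFun (congrFun h 0) 0
  have h01 := congrFun (congrFun h 0) 1
  have h10 := congrFun (congrFun h 1) 0
  simp [Matrix.mul_apply, Fin.sum_univ_two] at h00 h01 h10
  simp [Matrix.trace_fin_two, Matrix.det_fin_two] at hD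
  obtain ⟨w, hw⟩ := hD.exists_left_inv
  set y := w * ((p - s) * (x₁ - x₄) + 2 * r * x₂ + 2 * q * x₃)
  refine ⟨(x₁ - y * p, y), ?_⟩
  ext i j
  rw [qMat_apply]
  fin_cases i <;> fin_cases j <;> simp [y]
  · linear_combination -x₂ * hw - w * (p - s) * h01 + 2 * w * q * h00
  · linear_combination -x₃ * hw + w * (p - s) * h10 - 2 * w * r * h00
  · linear_combination (x₁ - x₄) * hw - 2 * w * r * h01 + 2 * w * q * h10

theorem qMat_injective {G : Matrix (Fin 2) (Fin 2) R} (hD : IsUnit (G.trace ^ 2 - 4 * G.det))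
    {u v : R × R} (h : qMat G u = qMat G v) : u = v := by
  have e := fun i j => congrFun (congrFun h i) j
  have h00 := e 0 0
  have h01 := e 0 1
  have h10 := e 1 0
  have h11 := e 1 1
  simp [qMat_apply] at h00 h01 h10 h11
  simp only [Matrix.trace_fin_two, Matrix.det_fin_two] at hD
  have hy : u.2 = v.2 := hD.mul_left_cancel (by
    linear_combination (G 0 0 - G 1 1) * (h00 - h11) + 4 * G 1 0 * h01)
  exact Prod.ext (by rw [hy] at h00; linear_combination h00) hy

end FLTAgent.LanglandsTunnell.Trace
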