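import Fermat.Agent.LanglandsTunnell.Trace.Side
import Fermat.Agent.LanglandsTunnell.Local.TransferSpec

/-!
# The sum of the two standard heights

`cuspSum` is minus the sum of the heights at `∞` and `0`. It splits into a finite part and parts
at the places, is nonnegative, and is invariant under classes of diagonal matrices.
-/

set_option autoImplicit false

noncomputable section

namespace FLTAgent.LanglandsTunnell.Trace

open FLTAgent.LanglandsTunnell FLTAgent.LanglandsTunnell.Geom NumberField Matrix
open FLTAgent.LanglandsTunnell.Local (finHeight)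

variable {F : Type} [Field F] [NumberField F] {ι : Type} [Fintype ι] {n : Ideal (𝓞 F)}
  (Φ : PlaceChoice F ι)

/-- Minus the sum of the heights at infinity and zero. -/
def cuspSum (x : Pt F ι n) : ℝ := -(logHeight Φ (cuspInf F) x + logHeight Φ (cuspZero F) x)

/-- The contribution of one place. -/
def infHeight (P : H3) : ℝ := 2 * Real.log (P.qform ![1, 0]) + 2 * Real.log (P.qform ![0, 1])

theorem logHeight_split {v : Fin 2 → F} (hv : v ≠ 0) {w : Fin 2 → ℂ}
    (hw : ∀ i, Φ.emb i ∘ v = w) (hb : H3.base.qform w = 1) (g : GL (Fin 2) (AF F)) (P : ι → H3) :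
    Real.log (LanglandsTunnell.Geom.height (n := n) Φ ((g : FinPt F n), P) v) =
      Real.log (LanglandsTunnell.Geom.height (n := n) Φ ((g : FinPt F n), fun _ => H3.base) v) -
        ∑ i, 2 * Real.log ((P i).qform w) := by
  have hw0 : w ≠ 0 := by rintro rfl; simp [H3.qform] at hb
  have hI := nrm_pos (coordFrac_ne_zero g hv)
  have hd := nrm_pos (ideleFrac_ne_zero (GeneralLinearGroup.det g))
  rw [height_mk, height_mk, sizeFn, sizeFn, Real.log_inv, Real.log_inv]
  simp only [hw, hb, one_pow, Finset.prod_const_one, mul_one]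
  rw [Real.log_mul (div_pos (pow_pos hI 2) hd).ne'
    (Finset.prod_pos fun i _ => pow_pos (H3.qform_pos _ hw0) 2).ne',
    Real.log_prod fun i _ => (pow_pos (H3.qform_pos _ hw0) 2).ne']
  simp only [Real.log_pow, Nat.cast_ofNat]
  ring

theorem cuspSum_eq (x : Pt F ι n) :
    cuspSum Φ x = finHeight Φ x.1 + ∑ i, infHeight (x.2 i) := by
  obtain ⟨g, hg⟩ := QuotientGroup.mk_surjective x.1
  obtain ⟨x1, P⟩ := x
  subst hg
  have h1 : ∀ i, Φ.emb i ∘ ![(1 : F), 0] = ![1, 0] := fun i => funext fun j => by
    fin_cases j <;> simp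
  have h0 : ∀ i, Φ.emb i ∘ ![(0 : F), 1] = ![0, 1] := fun i => funext fun j => by
    fin_cases j <;> simp
  simp only [cuspSum, finHeight, cuspInf, cuspZero, logHeight_mk]
  rw [logHeight_split Φ (by simp) h1 (by simp [H3.qform, H3.base]) g P,
    logHeight_split Φ (by simp) h0 (by simp [H3.qform, H3.base]) g P]
  simp only [infHeight, Finset.sum_add_distrib]
  ring

theorem cuspSum_nonneg (x : Pt F ι n) : 0 ≤ cuspSum Φ x :=
  neg_nonneg.mpr (logHeight_add_le Φ cuspInf_ne_zero x)

theorem cuspSum_act {q : PGLF F} (hq : IsDiagClass q) (x : Pt F ι n) :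
    cuspSum Φ (act Φ q.out x) = cuspSum Φ x := by
  let := pglAction (n := n) Φ
  have h := fun c => logHeight_pgl Φ q c x
  have e1 := h (cuspInf F)
  have e0 := h (cuspZero F)
  rw [hq.fix.1] at e1
  rw [hq.fix.2] at e0
  show -(logHeight Φ (cuspInf F) (q • x) + logHeight Φ (cuspZero F) (q • x)) = _
  rw [e1, e0]
  rfl

theorem measurable_cuspSum [Countable (FinPt F n)] :
    Measurable (cuspSum (n := n) Φ) :=
  ((measurable_logHeight Φ _).add (measurable_logHeight Φ _)).neg

end FLTAgent.LanglandsTunnell.Trace
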