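import Fermat.Agent.LanglandsTunnell.Trace.KernelParts
import Fermat.Agent.LanglandsTunnell.AdelicNbrs
import Fermat.Agent.LanglandsTunnell.Local.Components
import Fermat.Agent.LanglandsTunnell.Local.Heights
import Mathlib.RingTheory.DedekindDomain.Factorization

/-!
# The parity of the determinant at a marked place

A parity of ideles killing units is constant on cosets and moves by the letters of a word. A
word with an odd number of letters at a marked place only joins a point to translates by elements
whose determinant is not `±` a square (`plain_regular`).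
-/

set_option autoImplicit false

noncomputable section

namespace FLTAgent.LanglandsTunnell.Trace

open FLTAgent.LanglandsTunnell FLTAgent.LanglandsTunnell.Geom NumberField Matrix
open IsDedekindDomain
open scoped nonZeroDivisors

variable {F : Type} [Field F] [NumberField F] {n : Ideal (𝓞 F)}

/-- Ideles that are units at every place. -/
def unitAF (F : Type) [Field F] : Subgroup (AF F)ˣ where
  carrier := {z | (z : AF F) ∈ intAF F ∧ ((z⁻¹ : (AF F)ˣ) : AF F) ∈ intAF F}
  one_mem' := by simp [one_mem]
  mul_mem' {a b} ha hb := ⟨by rw [Units.val_mul]; exact mul_mem ha.1 hb.1,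
    by rw [_root_.mul_inv_rev, Units.val_mul]; exact mul_mem hb.2 ha.2⟩
  inv_mem' {a} ha := ⟨ha.2, by rw [inv_inv]; exact ha.1⟩

theorem det_principal_mem {k : GL (Fin 2) (AF F)} (hk : k ∈ principalSubgroup n) :
    GeneralLinearGroup.det k ∈ unitAF F := by
  have h : ∀ {k : GL (Fin 2) (AF F)}, k ∈ principalSubgroup n →
      (GeneralLinearGroup.det k : AF F) ∈ intAF F := fun {k} hk => by
    rw [GeneralLinearGroup.val_det_apply, Matrix.det_fin_two]
    exact sub_mem (mul_mem (hk.1.mem_intAF 0 0) (hk.1.mem_intAF 1 1))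
      (mul_mem (hk.1.mem_intAF 0 1) (hk.1.mem_intAF 1 0))
  exact ⟨h hk, by rw [← map_inv]; exact h (inv_mem hk)⟩

theorem map_mem_unitAF {F' : Type} [Field F'] (f : F →+* F') {z : (AF F)ˣ} (hz : z ∈ unitAF F) :
    Units.map (mapAF f).toRingHom.toMonoidHom z ∈ unitAF F' :=
  ⟨mapAF_mem_intAF f hz.1, mapAF_mem_intAF f hz.2⟩

/-- The order at `v` of the ideal of an idele. -/
def idOrd (v : HeightOneSpectrum (𝓞 F)) (z : (AF F)ˣ) : ℤ :=
  FractionalIdeal.count F v (ideleFrac z)

variable (v : HeightOneSpectrum (𝓞 F))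

theorem idOrd_mul (z z' : (AF F)ˣ) : idOrd v (z * z') = idOrd v z + idOrd v z' := by
  rw [idOrd, ideleFrac_mul, FractionalIdeal.count_mul F v (ideleFrac_ne_zero z)
    (ideleFrac_ne_zero z')]
  rfl

theorem idOrd_unit {z : (AF F)ˣ} (hz : z ∈ unitAF F) : idOrd v z = 0 := by
  rw [idOrd, ideleFrac_eq_one hz.1 hz.2, FractionalIdeal.count_one]

open scoped Classical in
theorem idOrd_uniformizer {w : Ideal (𝓞 F)} (hw : w.IsPrime) (hw0 : w ≠ ⊥) {π : (AF F)ˣ}
    (hπ : IsUniformizerAt n w π) : idOrd v π = if v.asIdeal = w then 1 else 0 := by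
  rw [idOrd, LanglandsTunnell.Local.ideleFrac_uniformizer hw0 hπ]
  have h := FractionalIdeal.count_maximal (K := F) v ⟨w, hw, hw0⟩
  simp only [HeightOneSpectrum.ext_iff] at h
  rw [h]
  simp [eq_comm]

/-- A parity of ideles that kills units. -/
structure IdeleParity (F : Type) [Field F] : Type where
  val : (AF F)ˣ → ZMod 2
  map_mul : ∀ a b, val (a * b) = val a + val b
  unit : ∀ z ∈ unitAF F, val z = 0

omit [NumberField F] in
theorem IdeleParity.det_scalar (ψ : IdeleParity F) (z : (AF F)ˣ) :
    ψ.val (GeneralLinearGroup.det (GeneralLinearGroup.scalar (Fin 2) z)) = 0 := by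
  have : GeneralLinearGroup.det (GeneralLinearGroup.scalar (Fin 2) z) = z * z :=
    Units.ext (by simp [GeneralLinearGroup.scalar, pow_two])
  rw [this, ψ.map_mul]
  exact CharTwo.add_self_eq_zero _

/-- The parity of the determinant is constant on cosets. -/
theorem IdeleParity.det_eq_of_mk_eq (ψ : IdeleParity F) {g g' : GL (Fin 2) (AF F)}
    (h : (g : FinPt F n) = g') :
    ψ.val (GeneralLinearGroup.det g') = ψ.val (GeneralLinearGroup.det g) := by
  obtain ⟨k, hk, z, rfl⟩ := exists_level_decomp h
  rw [_root_.map_mul, _root_.map_mul, ψ.map_mul, ψ.map_mul, ψ.unit _ (det_principal_mem hk),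
    ψ.det_scalar, add_zero, add_zero]

/-- A word moves the parity of the determinant by the sum over its letters. -/
theorem IdeleParity.det_word (ψ : IdeleParity F) (par : Ideal (𝓞 F) → ZMod 2)
    {ws : List (Ideal (𝓞 F))}
    (hpar : ∀ w ∈ ws, ∀ π, IsUniformizerAt n w π → ψ.val π = par w)
    {g g' : GL (Fin 2) (AF F)}
    (h : wordCount n ws (g : FinPt F n) (g' : FinPt F n) ≠ 0) :
    ψ.val (GeneralLinearGroup.det g') = ψ.val (GeneralLinearGroup.det g) + (ws.map par).sum := by
  induction ws generalizing g with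
  | nil =>
    simp only [wordCount, ne_eq, ite_eq_right_iff, Classical.not_imp] at h
    rw [ψ.det_eq_of_mk_eq h.1]
    simp
  | cons w ws ih =>
    simp only [wordCount] at h
    obtain ⟨u, hu, hu'⟩ := exists_ne_zero_of_finsum_mem_ne_zero h
    obtain ⟨g₁, k, π, hg₁, hk, hπ, hu1⟩ := hu
    obtain ⟨g₂, rfl⟩ := QuotientGroup.mk_surjective u
    rw [ih (fun x hx => hpar x (List.mem_cons_of_mem _ hx)) hu', ψ.det_eq_of_mk_eq hu1,
      ψ.det_eq_of_mk_eq hg₁, _root_.map_mul, _root_.map_mul, ψ.map_mul, ψ.map_mul,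
      ψ.unit _ (det_principal_mem hk), add_zero,
      show GeneralLinearGroup.det (diagUnit π) = π from
        Units.ext (by simp [diagUnit, Matrix.det_fin_two_of]),
      hpar w List.mem_cons_self π hπ]
    simp [List.map_cons, List.sum_cons]
    ring

/-- The plain parity at `v`. -/
def plainParity : IdeleParity F where
  val z := (idOrd v z : ZMod 2)
  map_mul a b := by rw [idOrd_mul]; push_cast; rfl
  unit z hz := by rw [idOrd_unit v hz]; rfl

theorem plainParity_toAF (x : Fˣ) :
    (plainParity v).val (Units.map (toAF F : F →* AF F) x) =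
      (FractionalIdeal.count F v (FractionalIdeal.spanSingleton (𝓞 F)⁰ (x : F)) : ZMod 2) := by
  show (idOrd v _ : ZMod 2) = _
  rw [idOrd, ideleFrac_toAF]

/-- Squares have even order. -/
theorem count_sq_eq_zero {x : F} (hx : x ≠ 0) :
    ((FractionalIdeal.count F v (FractionalIdeal.spanSingleton (𝓞 F)⁰ (x * x)) : ℤ) : ZMod 2) =
      0 := by
  rw [← FractionalIdeal.spanSingleton_mul_spanSingleton,
    FractionalIdeal.count_mul F v (FractionalIdeal.spanSingleton_ne_zero_iff.mpr hx)
      (FractionalIdeal.spanSingleton_ne_zero_iff.mpr hx)]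
  push_cast
  exact CharTwo.add_self_eq_zero _

/-- A sign has order zero. -/
theorem count_sign_eq_zero {ε : F} (h : ε * ε = 1) :
    ((FractionalIdeal.count F v (FractionalIdeal.spanSingleton (𝓞 F)⁰ ε) : ℤ) : ZMod 2) = 0 := by
  rcases mul_self_eq_one_iff.mp h with rfl | rfl
  · rw [FractionalIdeal.spanSingleton_one, FractionalIdeal.count_one]
    rfl
  · have h2 : FractionalIdeal.spanSingleton (𝓞 F)⁰ (-1 : F) *
        FractionalIdeal.spanSingleton (𝓞 F)⁰ (-1 : F) = 1 := by
      rw [FractionalIdeal.spanSingleton_mul_spanSingleton, h, FractionalIdeal.spanSingleton_one]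
    have hne := left_ne_zero_of_mul_eq_one h2
    have h3 := congrArg (FractionalIdeal.count F v) h2
    rw [FractionalIdeal.count_mul F v hne hne, FractionalIdeal.count_one] at h3
    rw [show FractionalIdeal.count F v (FractionalIdeal.spanSingleton (𝓞 F)⁰ (-1 : F)) = 0 by omega]
    rfl

/-- A signed square has even order. -/
theorem count_sign_mul_sq {ε x : F} (hε : ε * ε = 1) (hx : x ≠ 0) :
    ((FractionalIdeal.count F v
      (FractionalIdeal.spanSingleton (𝓞 F)⁰ (ε * (x * x))) : ℤ) : ZMod 2) = 0 := by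
  rw [← FractionalIdeal.spanSingleton_mul_spanSingleton,
    FractionalIdeal.count_mul F v
      (FractionalIdeal.spanSingleton_ne_zero_iff.mpr (left_ne_zero_of_mul_eq_one hε))
      (FractionalIdeal.spanSingleton_ne_zero_iff.mpr (mul_ne_zero hx hx)),
    Int.cast_add, count_sq_eq_zero v hx, add_zero, count_sign_eq_zero v hε]

/-- A marked place of the plain side: a word with an odd number of letters at `v` joins a point
only to translates by elements that are regular and, up to squares, of nonsquare determinant. -/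
theorem plain_regular {ws : List (Ideal (𝓞 F))}
    (hws : ∀ w ∈ ws, w.IsPrime ∧ w ≠ ⊥)
    (hodd : (ws.map fun w => open scoped Classical in if v.asIdeal = w then (1 : ZMod 2) else 0).sum
      = 1)
    {γ : GL (Fin 2) F} {g : GL (Fin 2) (AF F)}
    (h : wordCount n ws (g : FinPt F n)
      (GeneralLinearGroup.map (toAF F) γ • (g : FinPt F n)) ≠ 0) :
    ∀ x : F, γ.1.det ≠ x * x ∧ γ.1.det ≠ -(x * x) := by
  intro x
  suffices hmain : ∀ ε : F, ε * ε = 1 → γ.1.det ≠ ε * (x * x) from
    ⟨fun hx => hmain 1 (one_mul 1) (by rw [hx, one_mul]),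
      fun hx => hmain (-1) (by ring) (by rw [hx, neg_one_mul])⟩
  intro ε hε hx
  classical
  have hd := (plainParity v).det_word (fun w => if v.asIdeal = w then (1 : ZMod 2) else 0)
    (fun w hw π hπ => by
      show (idOrd v π : ZMod 2) = _
      rw [idOrd_uniformizer v (hws w hw).1 (hws w hw).2 hπ]
      split_ifs <;> simp) (g' := GeneralLinearGroup.map (toAF F) γ * g) h
  rw [_root_.map_mul, (plainParity v).map_mul, hodd,
    show GeneralLinearGroup.det (GeneralLinearGroup.map (toAF F) γ) =
      Units.map (toAF F : F →* AF F) (GeneralLinearGroup.det γ) from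
      Units.ext ((toAF F).map_det γ.1).symm, plainParity_toAF,
    GeneralLinearGroup.val_det_apply, hx] at hd
  have hx0 : x ≠ 0 := fun h0 => (GeneralLinearGroup.det γ).ne_zero (by
    rw [GeneralLinearGroup.val_det_apply, hx, h0, mul_zero, mul_zero])
  rw [count_sign_mul_sq v hε hx0] at hd
  have h10 : (1 : ZMod 2) = 0 := by linear_combination -hd
  exact one_ne_zero h10

/-- Regularity, and no diagonal element of trace zero, from a determinant not `±` a square. -/
theorem regular_of_det_nonsquare {γ : Matrix (Fin 2) (Fin 2) F}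
    (h : ∀ x : F, γ.det ≠ x * x ∧ γ.det ≠ -(x * x)) :
    γ.trace ^ 2 ≠ 4 * γ.det ∧ (γ 0 1 = 0 → γ 1 0 = 0 → γ.trace ≠ 0) := by
  refine ⟨fun he => (h (γ.trace / 2)).1 ?_, fun h01 h10 h0 => (h (γ 0 0)).2 ?_⟩
  · field_simp
    linear_combination -he
  · rw [Matrix.trace_fin_two] at h0
    rw [Matrix.det_fin_two, h01, h10, show γ 1 1 = -γ 0 0 by linear_combination h0]
    ring

end FLTAgent.LanglandsTunnell.Trace
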