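import Fermat.Agent.LanglandsTunnell.Trace.Twists
import Fermat.Agent.LanglandsTunnell.Trace.Parity
import Fermat.Agent.LanglandsTunnell.Local.TransferSpec

/-!
# Representatives of the classes that occur

Classes over `E` of elements whose determinant is not `±` a square; the split ones are represented
by diagonal matrices, and those that are norms by elements of the centraliser over `M`.
-/

set_option autoImplicit false

noncomputable section

namespace FLTAgent.LanglandsTunnell.Trace

open FLTAgent.LanglandsTunnell FLTAgent.LanglandsTunnell.Geom NumberField Matrix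
open FLTAgent.LanglandsTunnell.Local (IsNormOf IsDiagMat IsRegularMat overE)
open scoped FLTAgent.LanglandsTunnell.Isolation

section Nonsq

variable {K : Type} [Field K] [NumberField K]

/-- Some, hence every, lift has determinant not `±` a square. -/
def IsNonsq (q : PGLF K) : Prop :=
  ∃ d : GL (Fin 2) K, (d : PGLF K) = q ∧ ∀ x : K, d.val.det ≠ x * x ∧ d.val.det ≠ -(x * x)

omit [NumberField K] in
theorem IsNonsq.lift {q : PGLF K} (h : IsNonsq q) {d : GL (Fin 2) K} (hd : (d : PGLF K) = q) :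
    ∀ x : K, d.val.det ≠ x * x ∧ d.val.det ≠ -(x * x) := by
  obtain ⟨d₀, hd₀, h⟩ := h
  rw [← hd₀, QuotientGroup.eq, GeneralLinearGroup.center_eq_range_scalar] at hd
  obtain ⟨z, hz⟩ := hd
  have hdet : d₀.val.det = d.val.det * ((z : K) * z) := by
    rw [show d₀ = d * GeneralLinearGroup.scalar (Fin 2) z by rw [hz, mul_inv_cancel_left],
      Units.val_mul, Matrix.det_mul]
    simp [GeneralLinearGroup.scalar, pow_two]
  intro x
  constructor <;> intro hx
  · exact (h (x * z)).1 (by rw [hdet, hx]; ring)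
  · exact (h (x * z)).2 (by rw [hdet, hx]; ring)

omit [NumberField K] in
theorem IsNonsq.conj {q : PGLF K} (h : IsNonsq q) (p : PGLF K) : IsNonsq (p * q * p⁻¹) := by
  obtain ⟨d, rfl, hd⟩ := h
  obtain ⟨g, rfl⟩ := QuotientGroup.mk_surjective p
  refine ⟨g * d * g⁻¹, rfl, fun x => ?_⟩
  rw [Units.val_mul, Units.val_mul, Matrix.det_mul, Matrix.det_mul, mul_comm g.val.det,
    mul_assoc, ← Matrix.det_mul, ← Units.val_mul, mul_inv_cancel, Units.val_one, Matrix.det_one,
    mul_one]
  exact hd x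

theorem IsNonsq.regular {q : PGLF K} (h : IsNonsq q) : IsRegular q := by
  obtain ⟨d, rfl, hd⟩ := h
  refine ⟨d.val, d.isUnit, ?_, (regular_of_det_nonsquare hd).1⟩
  exact congrArg (QuotientGroup.mk : GL (Fin 2) K → PGLF K) (Units.ext rfl)

omit [NumberField K] in
/-- An eigenvector of a regular matrix diagonalises it. -/
theorem exists_diag_of_eigen {γ : GL (Fin 2) K} (hreg : γ.val.trace ^ 2 ≠ 4 * γ.val.det)
    {v : Fin 2 → K} (hv : v ≠ 0) {l : K} (hl : γ.val *ᵥ v = l • v) :
    ∃ g : GL (Fin 2) K, (g * γ * g⁻¹).val 0 1 = 0 ∧ (g * γ * g⁻¹).val 1 0 = 0 := by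
  set A := γ.val
  have hdet0 : (A - l • (1 : Matrix (Fin 2) (Fin 2) K)).det = 0 :=
    Matrix.exists_mulVec_eq_zero_iff.mp ⟨v, hv, by
      rw [Matrix.sub_mulVec, Matrix.smul_mulVec, Matrix.one_mulVec, hl, sub_self]⟩
  simp [Matrix.det_fin_two] at hdet0
  set m : K := A.trace - l
  have htr : A.trace = A 0 0 + A 1 1 := Matrix.trace_fin_two A
  have hd : A.det = A 0 0 * A 1 1 - A 0 1 * A 1 0 := Matrix.det_fin_two A
  have hlm : l ≠ m := fun h => hreg (by
    have ht : A.trace = 2 * l := by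
      have := h
      simp only [m] at this
      linear_combination -this
    have : A.det = l * l := by linear_combination hd + hdet0 + l * ht - l * htr
    rw [ht, this]
    ring)
  obtain ⟨w, hw, hwm⟩ : ∃ w : Fin 2 → K, w ≠ 0 ∧ A *ᵥ w = m • w := by
    have h0 : (A - m • (1 : Matrix (Fin 2) (Fin 2) K)).det = 0 := by
      simp [Matrix.det_fin_two, m, htr]
      linear_combination hdet0
    obtain ⟨w, hw, h⟩ := Matrix.exists_mulVec_eq_zero_iff.mpr h0
    rw [Matrix.sub_mulVec, Matrix.smul_mulVec, Matrix.one_mulVec, sub_eq_zero] at h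
    exact ⟨w, hw, h⟩
  let Q : Matrix (Fin 2) (Fin 2) K := !![v 0, w 0; v 1, w 1]
  have hQ : Q.det ≠ 0 := by
    intro h0
    obtain ⟨c, hc, hc0⟩ := Matrix.exists_mulVec_eq_zero_iff.mpr h0
    have e : c 0 • v + c 1 • w = 0 := by
      funext j
      have := congrFun hc0 j
      fin_cases j <;> simp [Q, Matrix.mulVec, dotProduct, Fin.sum_univ_two] at this ⊢ <;>
        linear_combination this
    have e2 : (c 0 * l) • v + (c 1 * m) • w = 0 := by
      have := congrArg (A *ᵥ ·) e
      simpa [Matrix.mulVec_add, Matrix.mulVec_smul, hl, hwm, smul_smul] using this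
    have e3 : (c 1 * (m - l)) • w = 0 := by
      funext j
      have a1 := congrFun e j
      have a2 := congrFun e2 j
      simp only [Pi.add_apply, Pi.smul_apply, smul_eq_mul, Pi.zero_apply] at a1 a2 ⊢
      linear_combination a2 - l * a1
    have h1 : c 1 = 0 := by
      rcases smul_eq_zero.mp e3 with h | h
      · exact (mul_eq_zero.mp h).resolve_right (sub_ne_zero.mpr (Ne.symm hlm))
      · exact absurd h hw
    rw [h1, zero_smul, add_zero] at e
    have h2 : c 0 = 0 := (smul_eq_zero.mp e).resolve_right hv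
    exact hc (funext fun j => by fin_cases j <;> assumption)
  set Qu : GL (Fin 2) K := GeneralLinearGroup.mkOfDetNeZero Q hQ
  have hAQ : A * Q = Q * !![l, 0; 0, m] := by
    have e1 := congrFun hl
    have e2 := congrFun hwm
    ext i j
    have a1 := e1 i
    have a2 := e2 i
    simp [Matrix.mulVec, dotProduct, Fin.sum_univ_two] at a1 a2
    fin_cases j <;> fin_cases i <;> simp_all [Q, Matrix.mul_apply, Fin.sum_univ_two, mul_comm]
  have hconj : (Qu⁻¹ * γ * Qu⁻¹⁻¹).val = !![l, 0; 0, m] := by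
    rw [inv_inv, Units.val_mul, Units.val_mul, mul_assoc]
    show (Qu⁻¹).val * (A * Qu.val) = _
    rw [show Qu.val = Q from rfl, hAQ, ← mul_assoc, show (Qu⁻¹).val * Q = 1 from Qu.inv_mul,
      one_mul]
  exact ⟨Qu⁻¹, by rw [hconj]; simp, by rw [hconj]; simp⟩

omit [NumberField K] in
theorem diag_of_commute {γ t : Matrix (Fin 2) (Fin 2) K} (h01 : γ 0 1 = 0) (h10 : γ 1 0 = 0)
    (hreg : γ.trace ^ 2 ≠ 4 * γ.det) (h : γ * t = t * γ) : t 0 1 = 0 ∧ t 1 0 = 0 := by
  have hne : γ 0 0 - γ 1 1 ≠ 0 := fun h0 => hreg (by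
    rw [Matrix.trace_fin_two, Matrix.det_fin_two, h01, h10,
      show γ 0 0 = γ 1 1 from sub_eq_zero.mp h0]
    ring)
  have e1 := congrFun (congrFun h 0) 1
  have e2 := congrFun (congrFun h 1) 0
  simp [Matrix.mul_apply, Fin.sum_univ_two, h01, h10] at e1 e2
  exact ⟨
    (mul_eq_zero.mp (show (γ 0 0 - γ 1 1) * t 0 1 = 0 by linear_combination e1)).resolve_left hne,
    (mul_eq_zero.mp (show (γ 0 0 - γ 1 1) * t 1 0 = 0 by linear_combination -e2)).resolve_left hne⟩

omit [NumberField K] in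
/-- A fixed cusp gives an eigenvector. -/
theorem eigen_of_fix {g : GL (Fin 2) K} {c : Cusp K}
    (h : (g : PGLF K) • c = c) : ∃ (v : Fin 2 → K) (_ : v ≠ 0) (l : K),
      g.val *ᵥ v = l • v ∧ ∃ hv : v ≠ 0, c = Projectivization.mk K v hv := by
  induction c using Projectivization.ind with | _ v hv => ?_
  rw [cusp_smul_mk, Projectivization.smul_mk, Projectivization.mk_eq_mk_iff'] at h
  obtain ⟨l, hl⟩ := h
  exact ⟨v, hv, l, hl.symm, hv, rfl⟩

/-- A regular diagonal element fixes only the cusps at infinity and zero. -/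
theorem fix_of_diag {g : GL (Fin 2) K} (h01 : g.val 0 1 = 0)
    (h10 : g.val 1 0 = 0) (hreg : g.val.trace ^ 2 ≠ 4 * g.val.det) {c : Cusp K}
    (h : (g : PGLF K) • c = c) : c = cuspInf K ∨ c = cuspZero K := by
  obtain ⟨v, -, l, hl, hv, rfl⟩ := eigen_of_fix h
  have e0 := congrFun hl 0
  have e1 := congrFun hl 1
  simp [Matrix.mulVec, dotProduct, Fin.sum_univ_two, h01, h10] at e0 e1
  by_cases h1 : v 1 = 0
  · left
    rw [cuspInf, Projectivization.mk_eq_mk_iff']
    exact ⟨v 0, funext fun j => by fin_cases j <;> simp [h1]⟩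
  · right
    rw [cuspZero, Projectivization.mk_eq_mk_iff']
    refine ⟨v 1, funext fun j => ?_⟩
    fin_cases j
    · by_contra hv0
      have hv0' : v 0 ≠ 0 := fun h => hv0 (by simp [h])
      refine hreg ?_
      rw [Matrix.trace_fin_two, Matrix.det_fin_two, h01, h10, e0.resolve_right hv0',
        e1.resolve_right h1]
      ring
    · simp

end Nonsq

section Classes

variable {D : Datum}

/-- Classes of elements of `PGL(2, E)`. -/
abbrev ConjClass (D : Datum) : Type :=
  MulAction.orbitRel.Quotient (PGLF D.E) (Twisted (MonoidHom.id (PGLF D.E)))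

theorem conjClass_eq_iff {s s' : Twisted (MonoidHom.id (PGLF D.E))} :
    (⟦s⟧ : ConjClass D) = ⟦s'⟧ ↔ ∃ g : PGLF D.E, g • s' = s := by
  rw [Quotient.eq]
  rfl

/-- Classes without diagonal members. -/
def EllClass (D : Datum) : Type :=
  {o : ConjClass D // IsNonsq o.out.val ∧ ∀ g : PGLF D.E, ¬ IsDiagClass (g • o.out).val}

/-- Classes with a diagonal member. -/
def HypClass (D : Datum) : Type :=
  {o : ConjClass D // IsNonsq o.out.val ∧ ∃ g : PGLF D.E, IsDiagClass (g • o.out).val}

instance countable_ellClass : Countable (EllClass D) := by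
  have : Countable (PGLF D.E) := countable_PGLF
  have : Countable (Twisted (MonoidHom.id (PGLF D.E))) := inferInstanceAs (Countable (PGLF D.E))
  exact Subtype.countable

instance countable_hypClass : Countable (HypClass D) := by
  have : Countable (PGLF D.E) := countable_PGLF
  have : Countable (Twisted (MonoidHom.id (PGLF D.E))) := inferInstanceAs (Countable (PGLF D.E))
  exact Subtype.countable

/-- The chosen matrix of a class. -/
def classMat : EllClass D ⊕ HypClass D → GL (Fin 2) D.E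
  | .inl o => o.1.out.val.out
  | .inr o => o.2.2.choose_spec.choose

theorem classMat_inr (o : HypClass D) :
    ∃ g : PGLF D.E, ((classMat (.inr o) : GL (Fin 2) D.E) : PGLF D.E) = (g • o.1.out).val ∧
      (classMat (.inr o)).val 0 1 = 0 ∧ (classMat (.inr o)).val 1 0 = 0 :=
  ⟨o.2.2.choose, o.2.2.choose_spec.choose_spec⟩

/-- The class of a representative. -/
def classOf : EllClass D ⊕ HypClass D → ConjClass D
  | .inl o => o.1
  | .inr o => o.1

theorem classMat_spec (o : EllClass D ⊕ HypClass D) :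
    (⟦Twisted.of _ ((classMat o : GL (Fin 2) D.E) : PGLF D.E)⟧ : ConjClass D) = classOf o ∧
      IsNonsq ((classMat o : GL (Fin 2) D.E) : PGLF D.E) := by
  cases o with
  | inl o =>
    have h : ((classMat (.inl o) : GL (Fin 2) D.E) : PGLF D.E) = o.1.out.val :=
      QuotientGroup.out_eq' _
    exact ⟨by rw [h]; exact o.1.out_eq, h ▸ o.2.1⟩
  | inr o =>
    obtain ⟨g, h, -⟩ := classMat_inr o
    refine ⟨?_, h ▸ o.2.1.conj g⟩
    rw [h]
    conv_rhs => rw [show classOf (.inr o) = o.1 from rfl, ← o.1.out_eq]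
    exact conjClass_eq_iff.mpr ⟨g, rfl⟩

theorem classMat_regular (o : EllClass D ⊕ HypClass D) : IsRegularMat D (classMat o) :=
  (regular_of_det_nonsquare ((classMat_spec o).2.lift rfl)).1

theorem classMat_trace (o : HypClass D) : (classMat (.inr o)).val.trace ≠ 0 := by
  obtain ⟨g, -, h01, h10⟩ := classMat_inr o
  exact (regular_of_det_nonsquare ((classMat_spec (.inr o)).2.lift rfl)).2 h01 h10

theorem classMat_injective {o o' : EllClass D ⊕ HypClass D} {g : PGLF D.E}
    (h : g • Twisted.of (MonoidHom.id (PGLF D.E)) ((classMat o : GL (Fin 2) D.E) : PGLF D.E) =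
      Twisted.of _ ((classMat o' : GL (Fin 2) D.E) : PGLF D.E)) : o = o' := by
  have hc : classOf o = classOf o' := by
    rw [← (classMat_spec o).1, ← (classMat_spec o').1]
    exact (conjClass_eq_iff.mpr ⟨g, h⟩).symm
  rcases o with ⟨a, ha1, ha⟩ | ⟨a, ha1, ha⟩ <;> rcases o' with ⟨b, hb1, hb⟩ | ⟨b, hb1, hb⟩ <;>
    obtain rfl : a = b := hc
  · rfl
  · exact absurd hb.choose_spec (ha _)
  · exact absurd ha.choose_spec (hb _)
  · rfl

theorem classMat_surjective {q : PGLF D.E} (hq : IsNonsq q) :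
    ∃ (o : EllClass D ⊕ HypClass D) (g : PGLF D.E),
      g • Twisted.of (MonoidHom.id (PGLF D.E)) ((classMat o : GL (Fin 2) D.E) : PGLF D.E) =
        Twisted.of _ q := by
  set c : ConjClass D := ⟦Twisted.of _ q⟧
  obtain ⟨g, hg⟩ := conjClass_eq_iff.mp (c.out_eq : (⟦c.out⟧ : ConjClass D) = ⟦Twisted.of _ q⟧)
  have hns : IsNonsq c.out.val := by rw [← hg]; exact hq.conj g
  obtain ⟨o, ho⟩ : ∃ o : EllClass D ⊕ HypClass D, classOf o = c := by
    by_cases h : ∃ g : PGLF D.E, IsDiagClass (g • c.out).val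
    · exact ⟨.inr ⟨c, hns, h⟩, rfl⟩
    · exact ⟨.inl ⟨c, hns, not_exists.mp h⟩, rfl⟩
  exact ⟨o, conjClass_eq_iff.mp (((classMat_spec o).1.trans ho).symm)⟩

theorem classMat_elliptic (o : EllClass D) (c : Cusp D.E) :
    ((classMat (.inl o) : GL (Fin 2) D.E) : PGLF D.E) • c ≠ c := fun h => by
  obtain ⟨v, hv, l, hl, -⟩ := eigen_of_fix h
  obtain ⟨g, h01, h10⟩ := exists_diag_of_eigen (classMat_regular (.inl o)) hv hl
  refine o.2.2 (g : PGLF D.E) ⟨g * classMat (.inl o) * g⁻¹, ?_, h01, h10⟩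
  show ((g * classMat (.inl o) * g⁻¹ : GL (Fin 2) D.E) : PGLF D.E) =
    (g : PGLF D.E) * o.1.out.val * (MonoidHom.id (PGLF D.E) (g : PGLF D.E))⁻¹
  rw [show o.1.out.val = ((classMat (.inl o) : GL (Fin 2) D.E) : PGLF D.E) from
    (QuotientGroup.out_eq' _).symm]
  rfl

/-- An elliptic class stays elliptic over `M`. -/
theorem classMat_elliptic_incl {s : D.M ≃ₐ[D.E] D.M} (hs : IsCubicTwist s) (o : EllClass D)
    (c : Cusp D.M) :
    ((GeneralLinearGroup.map D.incl (classMat (.inl o)) : GL (Fin 2) D.M) : PGLF D.M) • c ≠ c := by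
  intro h
  obtain ⟨v, hv, l, hl, -⟩ := eigen_of_fix h
  set A := (classMat (.inl o)).val
  have hroot : ∀ (y : D.M), (A.map (algebraMap D.E D.M) - y • (1 : Matrix _ _ D.M)).det = 0 ↔
      y * y - algebraMap D.E D.M A.trace * y + algebraMap D.E D.M A.det = 0 := fun y => by
    simp only [Matrix.det_fin_two, Matrix.trace_fin_two, Matrix.sub_apply, Matrix.map_apply,
      Matrix.smul_apply, Matrix.one_apply_eq, Matrix.one_apply_ne zero_ne_one,
      Matrix.one_apply_ne one_ne_zero, smul_eq_mul, mul_one, mul_zero, sub_zero, map_add,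
      map_sub, map_mul]
    constructor <;> intro h <;> linear_combination h
  have hl0 := (hroot l).mp (Matrix.exists_mulVec_eq_zero_iff.mp ⟨v, hv, by
    rw [Matrix.sub_mulVec, Matrix.smul_mulVec, Matrix.one_mulVec, sub_eq_zero]
    exact hl⟩)
  have hsl0 : s l * s l - algebraMap D.E D.M A.trace * s l + algebraMap D.E D.M A.det = 0 := by
    have := congrArg s hl0
    simpa using this
  set τ := algebraMap D.E D.M A.trace
  have hcases : s l = l ∨ s l = τ - l := by
    have h2 : (s l - l) * (s l - (τ - l)) = 0 := by linear_combination hsl0 - hl0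
    rcases mul_eq_zero.mp h2 with h | h
    · exact Or.inl (sub_eq_zero.mp h)
    · exact Or.inr (sub_eq_zero.mp h)
  have hsl : s l = l := by
    rcases hcases with h | h
    · exact h
    · have h2 : s (s l) = l := by rw [h, map_sub, AlgEquiv.commutes, h]; ring
      have h3 := hs.cube l
      rwa [h2] at h3
  obtain ⟨lE, hlE⟩ := hs.fixed l hsl
  have hlE0 : (A - lE • (1 : Matrix (Fin 2) (Fin 2) D.E)).det = 0 := by
    apply (algebraMap D.E D.M).injective
    rw [map_zero, RingHom.map_det, ← (hroot l).mpr hl0]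
    congr 1
    ext i j
    fin_cases i <;> fin_cases j <;> simp [hlE]
  obtain ⟨w, hw, hw0⟩ := Matrix.exists_mulVec_eq_zero_iff.mpr hlE0
  rw [Matrix.sub_mulVec, Matrix.smul_mulVec, Matrix.one_mulVec, sub_eq_zero] at hw0
  refine classMat_elliptic o (Projectivization.mk D.E w hw) ?_
  rw [cusp_smul_mk, Projectivization.smul_mk, Projectivization.mk_eq_mk_iff']
  exact ⟨lE, hw0.symm⟩

variable {σ : D.M ≃ₐ[ℚ] D.M}

/-- The classes that are norms. -/
def IsNormClass (σ : D.M ≃ₐ[ℚ] D.M) (o : EllClass D ⊕ HypClass D) : Prop :=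
  ∃ δ, IsNormOf D σ (classMat o) δ

theorem pglNorm_of_isNormOf {hfix : ∀ x, σ (D.incl x) = D.incl x} {γ : GL (Fin 2) D.E}
    {δ : GL (Fin 2) D.M} (h : IsNormOf D σ γ δ) :
    pglNorm (overE hfix) (δ : PGLF D.M) = pglMap (algebraMap D.E D.M) (γ : PGLF D.E) := by
  obtain ⟨-, z, hz⟩ := h
  show ((δ * GeneralLinearGroup.map σ.toAlgHom.toRingHom δ *
      GeneralLinearGroup.map σ.toAlgHom.toRingHom
        (GeneralLinearGroup.map σ.toAlgHom.toRingHom δ) : GL (Fin 2) D.M) : PGLF D.M) = _
  rw [hz]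
  show pglMap D.incl ((GeneralLinearGroup.scalar (Fin 2) z * γ : GL (Fin 2) D.E) : PGLF D.E) = _
  rw [QuotientGroup.mk_mul, (QuotientGroup.eq_one_iff _).mpr (by
    rw [GeneralLinearGroup.center_eq_range_scalar]; exact ⟨z, rfl⟩), one_mul]
  rfl

theorem exists_isNormOf {hfix : ∀ x, σ (D.incl x) = D.incl x} (hs : IsCubicTwist (overE hfix))
    {γ : GL (Fin 2) D.E} {d : PGLF D.M}
    (h : pglNorm (overE hfix) d = pglMap (algebraMap D.E D.M) (γ : PGLF D.E)) :
    ∃ δ : GL (Fin 2) D.M, (δ : PGLF D.M) = d ∧ IsNormOf D σ γ δ := by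
  have hγ : (γ : PGLF D.E) = pglMk γ.val γ.isUnit :=
    congrArg (QuotientGroup.mk : GL (Fin 2) D.E → PGLF D.E) (Units.ext rfl)
  rw [hγ] at h
  obtain ⟨B, hB, z, hz, hBd, hN⟩ := rational_norm_lift h
  obtain ⟨e, he, -, hNe, hc⟩ := commute_of_scalar_norm hs two_ne_zero hB
    (fun h0 => (GeneralLinearGroup.det γ).ne_zero (by rw [GeneralLinearGroup.val_det_apply, h0]))
    hz hN
  refine ⟨hB.unit, hBd, Units.ext hc.symm.eq, Units.mk0 e he, Units.ext ?_⟩
  show twNorm (overE hfix) B = (Matrix.map _ D.incl)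
  rw [hNe]
  congr 1
  rw [Units.val_mul]
  ext i j
  simp [GeneralLinearGroup.scalar, Matrix.smul_apply]

end Classes

end FLTAgent.LanglandsTunnell.Trace
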