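import Fermat.Agent.LanglandsTunnell.Trace.ClassCore
import Fermat.Agent.LanglandsTunnell.Trace.CuspSum
import Fermat.Agent.LanglandsTunnell.Trace.Reps

/-!
# The balance of one class

The integrals over a torus of the twisted density and of the plain densities of one regular class
balance with the signed coefficients of the descended word.
-/

set_option autoImplicit false

noncomputable section

namespace FLTAgent.LanglandsTunnell.Trace

open FLTAgent.LanglandsTunnell FLTAgent.LanglandsTunnell.Geom NumberField Matrix MeasureTheory Set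
open FLTAgent.LanglandsTunnell.Local (lvE lvM glE glEM twAct PlainPush TwistedPush IsNormOf cM
  finHeight IsDiagMat)
open scoped ENNReal FLTAgent.LanglandsTunnell.Isolation

variable {D : Datum}

/-- The torus of a class over `E`. -/
abbrev torE (γ : GL (Fin 2) D.E) : Subgroup (PGLF D.E) := torus γ.val

/-- Its image over `M`. -/
abbrev torM (γ : GL (Fin 2) D.E) : Subgroup (PGLF D.M) :=
  (torE γ).map (pglMap (algebraMap D.E D.M))

theorem torE_lift {γ : GL (Fin 2) D.E} :
    ∀ h ∈ torE γ, ∃ t : GL (Fin 2) D.E, (t : PGLF D.E) = h ∧ Commute t γ := by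
  rintro h ⟨t, ht, rfl⟩
  exact ⟨t, rfl, ((Subgroup.mem_centralizer_iff.mp ht) γ rfl).symm⟩

theorem torE_diag {γ : GL (Fin 2) D.E} (hreg : γ.val.trace ^ 2 ≠ 4 * γ.val.det)
    (h01 : γ.val 0 1 = 0) (h10 : γ.val 1 0 = 0) : ∀ h ∈ torE γ, IsDiagClass h := fun h hh => by
  obtain ⟨t, rfl, ht⟩ := torE_lift h hh
  obtain ⟨a, b⟩ := diag_of_commute h01 h10 hreg (congrArg Units.val ht.symm.eq)
  exact ⟨t, rfl, a, b⟩

theorem torM_diag {γ : GL (Fin 2) D.E} (hreg : γ.val.trace ^ 2 ≠ 4 * γ.val.det)
    (h01 : γ.val 0 1 = 0) (h10 : γ.val 1 0 = 0) : ∀ h ∈ torM γ, IsDiagClass h := by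
  rintro h ⟨q, hq, rfl⟩
  obtain ⟨t, rfl, a, b⟩ := torE_diag hreg h01 h10 q hq
  refine ⟨GeneralLinearGroup.map D.incl t, rfl, ?_, ?_⟩
  · show D.incl (t.val 0 1) = 0
    rw [a, map_zero]
  · show D.incl (t.val 1 0) = 0
    rw [b, map_zero]

theorem diag_normOf {σ : D.M ≃ₐ[ℚ] D.M} {γ : GL (Fin 2) D.E} {δ : GL (Fin 2) D.M}
    (hreg : γ.val.trace ^ 2 ≠ 4 * γ.val.det) (h01 : γ.val 0 1 = 0) (h10 : γ.val 1 0 = 0)
    (h : IsNormOf D σ γ δ) : IsDiagClass (δ : PGLF D.M) := by
  obtain ⟨a, b⟩ := diag_of_commute (γ := γ.val.map (algebraMap D.E D.M)) (t := δ.val)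
    (by simp [h01]) (by simp [h10]) (regular_map hreg) (congrArg Units.val h.1.symm.eq)
  exact ⟨δ, rfl, a, b⟩

variable {σ : D.M ≃ₐ[ℚ] D.M} {e : Fin 3 ≃ Fin 3} {P : ExtPlaces D}
  {hfix : ∀ x, σ (D.incl x) = D.incl x}
  {he : ∀ i, P.placesM.emb (e i) = (P.placesM.emb i).comp σ.toAlgHom.toRingHom}
  {R : Finset Nat.Primes} {N₀ N₁ N N' k Bd : ℕ}

/-- The weight of a torus on the plain side. -/
def wtE (P : ExtPlaces D) (SE : Set (Pt D.E Unit (lvE D N))) (γ : GL (Fin 2) D.E) :
    Pt D.E Unit (lvE D N) → ℝ≥0∞ :=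
  letI := pglAction (n := lvE D N) P.placesE
  restrictWeight (torE γ) (SE.indicator 1)

/-- The weight of a torus on the twisted side. -/
def wtM (P : ExtPlaces D) (SM : Set (Pt D.M (Fin 3) (lvM D N'))) (γ : GL (Fin 2) D.E) :
    Pt D.M (Fin 3) (lvM D N') → ℝ≥0∞ :=
  letI := pglAction (n := lvM D N') P.placesM
  restrictWeight (torM γ) (SM.indicator 1)

/-- The density of a class and a word on the plain side. -/
def plainDen (P : ExtPlaces D) (hn : lvE D N ≠ ⊥) (ws : List (Ideal (𝓞 D.E))) (ker : ℝ → ℝ)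
    (γ : GL (Fin 2) D.E) : Pt D.E Unit (lvE D N) → ℝ≥0∞ :=
  sideDensity (plainTwist P.placesE hn) (wordCount (lvE D N) ws) (fun _ => ker)
    (Twisted.of _ (γ : PGLF D.E))

/-- The density of a class and a word on the twisted side. -/
def twDen (P : ExtPlaces D) (hfix : ∀ x, σ (D.incl x) = D.incl x)
    (he : ∀ i, P.placesM.emb (e i) = (P.placesM.emb i).comp σ.toAlgHom.toRingHom) (hN' : N' ≠ 0)
    (R : Finset Nat.Primes) (N₀ N₁ : ℕ) (W : List (Ideal (𝓞 D.M))) (kp : Fin 3 → ℝ → ℝ)
    (δ : GL (Fin 2) D.M) : Pt D.M (Fin 3) (lvM D N') → ℝ≥0∞ :=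
  sideDensity (cubicTwist P hfix he hN') (preCount (ramCount D σ R N₀ N₁ N') W) kp
    (Twisted.of _ (δ : PGLF D.M))

/-- The standard transversal over `E`. -/
def tvE (P : ExtPlaces D) : Pt D.E Unit (lvE D N) → ℝ≥0∞ :=
  stdTransversal (logHeight P.placesE (cuspInf D.E)) (speed Unit)

/-- The standard transversal over `M`. -/
def tvM (P : ExtPlaces D) : Pt D.M (Fin 3) (lvM D N') → ℝ≥0∞ :=
  stdTransversal (logHeight P.placesM (cuspInf D.M)) (speed (Fin 3))

/-- The height sum as a weight. -/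
def cuspWeight (P : ExtPlaces D) (y : Pt D.E Unit (lvE D N)) : ℝ≥0∞ :=
  ENNReal.ofReal (cuspSum P.placesE y)

theorem constTerm_eq_coreInt {γ : GL (Fin 2) D.E} {n₀ : FinPt D.E (lvE D N) → ℝ≥0∞}
    {ker : ℝ → ℝ} (w T : Pt D.E Unit (lvE D N) → ℝ≥0∞) :
    constTerm volPt w T (coreDensity P.placesE γ n₀ ker) (logHeight P.placesE (cuspInf D.E))
      (logHeight P.placesE (cuspZero D.E)) =
      coreInt P.placesE γ ker (fun y => w y * T y * cuspWeight P y) n₀ := by
  refine lintegral_congr fun y => ?_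
  show w y * T y * coreDensity _ _ _ _ y * ENNReal.ofReal (cuspSum P.placesE y) =
    w y * T y * ENNReal.ofReal (cuspSum P.placesE y) * coreDensity P.placesE γ n₀ ker y
  ring

section Plain

variable {hn : lvE D N ≠ ⊥} {SE : Set (Pt D.E Unit (lvE D N))}
  (hSE : IsFundDomain P.placesE SE) {L : List (ℂ × List (Ideal (𝓞 D.E)))}
  {γ : GL (Fin 2) D.E} (π : PlainPush D N L γ) (hL : ∀ a ∈ L, ∀ w ∈ a.2, w ≠ ⊥)
  {ker : ℝ → ℝ} (hker : Continuous ker) {a : ℂ × List (Ideal (𝓞 D.E))} (ha : a ∈ L)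

include hSE hL hker ha in
/-- The torus integral of a plain density. -/
theorem plain_torus :
    ∫⁻ y, wtE P SE γ y * plainDen P hn a.2 ker γ y ∂volPt =
      coreInt P.placesE γ ker (wtE P SE γ)
        (fun z => ENNReal.ofReal (wordSum π.proj γ a.2 (fun _ => 1) z)) := by
  let := pglAction (n := lvE D N) P.placesE
  have : Countable (FinPt D.E (lvE D N)) := countable_finPt hn
  have : Countable (PGLF D.E) := countable_PGLF
  have := measurableConstSMul_pgl (n := lvE D N) P.placesE
  have := smulInvariant_pgl (ι := Unit) P.placesE hn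
  have hT := plain_transfer (P := P) (hn := hn) (cnt := wordCount (lvE D N) a.2)
    (fun h v u => wordCount_smul a.2 h v u) hker π (torE γ) torE_lift
    (fun _ => ENNReal.ofReal 1) (fun _ _ _ _ _ _ => rfl)
  have hw := (isWeight_of_fundDomain P.placesE hSE).restrict (torE γ)
  have h := hT.lintegral_weight_eq hw hw
  simp only [ENNReal.ofReal_one, mul_one] at h
  refine h.trans ?_
  unfold coreInt wtE
  congr 1
  funext y
  congr 2
  funext z
  rw [← fibSum_word π hn hL ha (f := fun _ => 1) (fun _ => zero_le_one) z]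
  simp

variable (h01 : γ.val 0 1 = 0) (h10 : γ.val 1 0 = 0)
  (hreg : γ.val.trace ^ 2 ≠ 4 * γ.val.det) {dE : FinPt D.E (lvE D N) → ℝ}
  (hdE0 : ∀ u, 0 ≤ dE u)
  (hdE : ∀ u, finHeight P.placesE u = finHeight P.placesE (π.proj u) + dE u)

include hSE hL hker ha h01 h10 hreg hdE0 hdE in
/-- The slope and the constant of a split plain class. -/
theorem plain_hyperbolic :
    slopeTerm volPt (wtE P SE γ) (tvE P) (plainDen P hn a.2 ker γ) =
        coreInt P.placesE γ ker (fun y => wtE P SE γ y * tvE P y)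
          (fun z => ENNReal.ofReal (wordSum π.proj γ a.2 (fun _ => 1) z)) ∧
      constTerm volPt (wtE P SE γ) (tvE P) (plainDen P hn a.2 ker γ)
          (logHeight P.placesE (cuspInf D.E)) (logHeight P.placesE (cuspZero D.E)) =
        coreInt P.placesE γ ker (fun y => wtE P SE γ y * tvE P y * cuspWeight P y)
            (fun z => ENNReal.ofReal (wordSum π.proj γ a.2 (fun _ => 1) z)) +
          coreInt P.placesE γ ker (fun y => wtE P SE γ y * tvE P y)
            (fun z => ENNReal.ofReal (wordSum π.proj γ a.2 dE z)) := by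
  let := pglAction (n := lvE D N) P.placesE
  have : Countable (FinPt D.E (lvE D N)) := countable_finPt hn
  have : Countable (PGLF D.E) := countable_PGLF
  have := measurableConstSMul_pgl (n := lvE D N) P.placesE
  have := smulInvariant_pgl (ι := Unit) P.placesE hn
  have := sfinite_volPt (F := D.E) (ι := Unit) (n := lvE D N)
  have hinv : ∀ h ∈ torE γ, ∀ t : GL (Fin 2) D.E, (t : PGLF D.E) = h → Commute t γ → ∀ u,
      dE (glE D t • u) = dE u := by
    intro h hh t ht htc u
    have hd := torE_diag hreg h01 h10 h hh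
    rw [← ht] at hd
    have h1 := cuspSum_act P.placesE hd ((u, fun _ => H3.base) : Pt D.E Unit (lvE D N))
    have h2 := cuspSum_act P.placesE hd ((π.proj u, fun _ => H3.base) : Pt D.E Unit (lvE D N))
    rw [act_out, cuspSum_eq, cuspSum_eq] at h1 h2
    have e1 := hdE (glE D t • u)
    have e2 := hdE u
    rw [π.proj_smul t htc u] at e1
    have h1' : finHeight P.placesE (glE D t • u) +
        ∑ i : Unit, infHeight (GeneralLinearGroup.map (P.placesE.emb i) t • H3.base) =
          finHeight P.placesE u + ∑ _i : Unit, infHeight H3.base := h1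
    have h2' : finHeight P.placesE (glE D t • π.proj u) +
        ∑ i : Unit, infHeight (GeneralLinearGroup.map (P.placesE.emb i) t • H3.base) =
          finHeight P.placesE (π.proj u) + ∑ _i : Unit, infHeight H3.base := h2
    linarith
  have hcnt := fun (h : GL (Fin 2) (AF D.E)) v u => wordCount_smul (n := lvE D N) a.2 h v u
  have hT := plain_transfer (P := P) (hn := hn) hcnt hker π (torE γ) torE_lift
    (fun _ => ENNReal.ofReal 1) (fun _ _ _ _ _ _ => rfl)
  simp only [ENNReal.ofReal_one, mul_one] at hT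
  have hT₂ := plain_transfer (P := P) (hn := hn) hcnt hker π (torE γ) torE_lift
    (fun u => ENNReal.ofReal (dE u)) (fun h hh t ht htc u => by rw [hinv h hh t ht htc u])
  have hw := (isWeight_of_fundDomain P.placesE hSE).restrict (torE γ)
  have hF : TorusFlow (torE γ) volPt (flow (n := lvE D N)) (logHeight P.placesE (cuspInf D.E))
      (logHeight P.placesE (cuspZero D.E)) (speed Unit) :=
    torusFlow_diag (torE_diag hreg h01 h10)
  have hdiag : IsDiagClass (γ : PGLF D.E) := ⟨γ, rfl, h01, h10⟩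
  have h := hyperbolic_transfer (q := fun _ : Unit => pushE π.proj) hF hF (fun _ => hT) ()
    (fun s x => sideDensity_flow (plainTwist P.placesE hn) (s := Twisted.of _ (γ : PGLF D.E))
      hdiag s x)
    (fun _ s x => rfl) (d := fun x => ENNReal.ofReal (dE x.1))
    ((measurable_of_countable fun u => ENNReal.ofReal (dE u)).comp measurable_fst)
    (fun h x _ => by
      obtain ⟨t, ht, htc⟩ := torE_lift h.1 h.2
      show ENNReal.ofReal (dE (act P.placesE (h : PGLF D.E).out x).1) = _
      rw [← ht, act_out]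
      exact congrArg _ (hinv h.1 h.2 t ht htc x.1))
    hT₂ (fun x _ => by
      show ENNReal.ofReal (cuspSum P.placesE x) =
        ∑ _i : Unit, ENNReal.ofReal (cuspSum P.placesE (pushE π.proj x)) + _
      rw [Fintype.sum_unique, ← ENNReal.ofReal_add (cuspSum_nonneg _ _) (hdE0 x.1)]
      congr 1
      rw [cuspSum_eq, cuspSum_eq, hdE x.1]
      simp only [pushE]
      ring)
    (fun s x _ => rfl) hF.isTransversal_std hF.isTransversal_std hw hw
  have hn1 : (fibSum π.proj fun u => (wordCount (lvE D N) a.2 u (glE D γ • u) : ℝ≥0∞)) =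
      fun z => ENNReal.ofReal (wordSum π.proj γ a.2 (fun _ => 1) z) := funext fun z => by
    rw [← fibSum_word π hn hL ha (f := fun _ => 1) (fun _ => zero_le_one) z]
    simp
  have hn2 : (fibSum π.proj fun u =>
      (wordCount (lvE D N) a.2 u (glE D γ • u) : ℝ≥0∞) * ENNReal.ofReal (dE u)) =
      fun z => ENNReal.ofReal (wordSum π.proj γ a.2 dE z) :=
    funext fun z => fibSum_word π hn hL ha hdE0 z
  rw [hn1, hn2] at h
  refine ⟨h.1, h.2.trans ?_⟩
  rw [constTerm_eq_coreInt, Fintype.card_unit, Nat.cast_one, one_mul]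
  rfl

end Plain

section Twisted

variable {c : ℝ} (hne : σ ≠ AlgEquiv.refl) (hlev : IsTestLevel D σ k Bd R N₀ N₁ N N')
  {SM : Set (Pt D.M (Fin 3) (lvM D N'))} (hSM : IsFundDomain P.placesM SM)
  {SE : Set (Pt D.E Unit (lvE D N))} (hSE : IsFundDomain P.placesE SE)
  {W : List (Ideal (𝓞 D.M))} (hW : ∀ w ∈ W, w ≠ ⊥) {kp : Fin 3 → ℝ → ℝ} (hk : GoodParts kp)
  {γ : GL (Fin 2) D.E} (hreg : γ.val.trace ^ 2 ≠ 4 * γ.val.det) {δ : GL (Fin 2) D.M}
  (hδ : IsNormOf D σ γ δ) (T : TwistedPush D σ R N₀ N₁ N N' W γ δ)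
  {X : FinPt D.E (lvE D N) → ℝ}

include hlev hW in
/-- A complex fibre sum as a density. -/
theorem fibSum_twisted {f : FinPt D.M (lvM D N') → ℝ} (hf : ∀ v, 0 ≤ f v) (i : Fin 3)
    (z : FinPt D.E (lvE D N)) :
    fibSum (T.q i) (fun v => (twCount D σ R N₀ N₁ N' W δ v : ℝ≥0∞) * ENNReal.ofReal (f v)) z =
        ENNReal.ofReal (T.sum D i (fun v => (f v : ℂ)) z).re ∧
      0 ≤ (T.sum D i (fun v => (f v : ℂ)) z).re := by
  classical
  have hcM : ∀ v, cM D σ R N₀ N₁ N' W v (twAct D σ δ v) = (twCount D σ R N₀ N₁ N' W δ v : ℂ) :=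
    fun v => cM_eq hlev hW _ _
  have hfin : {v | T.q i v = z ∧ twCount D σ R N₀ N₁ N' W δ v ≠ 0}.Finite :=
    (T.finite i z).subset fun v hv => ⟨hv.1, by rw [hcM, Nat.cast_ne_zero]; exact hv.2⟩
  have hre : (T.sum D i (fun v => (f v : ℂ)) z).re =
      ∑ v ∈ hfin.toFinset, f v * (twCount D σ R N₀ N₁ N' W δ v : ℝ) := by
    rw [TwistedPush.sum, finsum_mem_eq_sum_of_subset (s := {v | T.q i v = z}) _
      (t := hfin.toFinset) (fun v hv => hfin.mem_toFinset.mpr ⟨hv.1, fun h0 => hv.2 (by
        show _ * _ = (0 : ℂ)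
        rw [hcM, h0, Nat.cast_zero, mul_zero])⟩)
      (fun v hv => (hfin.mem_toFinset.mp hv).1), Complex.re_sum]
    exact Finset.sum_congr rfl fun v _ => by rw [hcM]; simp
  refine ⟨?_, hre ▸ Finset.sum_nonneg fun v _ => mul_nonneg (hf v) (Nat.cast_nonneg _)⟩
  rw [hre, ← fibSum_ofReal (q := T.q i) (fun v => mul_nonneg (hf v) (Nat.cast_nonneg _))
    hfin.toFinset (fun v hv => (hfin.mem_toFinset.mp hv).1)
    fun v hv h => hfin.mem_toFinset.mpr ⟨hv, fun h0 => h (by rw [h0, Nat.cast_zero, mul_zero])⟩]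
  congr 1
  funext v
  rw [ENNReal.ofReal_mul (hf v), ENNReal.ofReal_natCast, mul_comm]

variable (hsum : ∀ i z, (T.sum D i (fun _ => 1) z).re = X z)

include hlev hW hsum in
theorem fibSum_twisted_one (i : Fin 3) :
    fibSum (T.q i) (fun v => (twCount D σ R N₀ N₁ N' W δ v : ℝ≥0∞) * ENNReal.ofReal 1) =
      fun z => ENNReal.ofReal (X z) :=
  funext fun z => by
    rw [(fibSum_twisted hlev hW T (f := fun _ => 1) (fun _ => zero_le_one) i z).1, ← hsum i z]
    simp only [Complex.ofReal_one]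

include hne hlev hSM hSE hW hk hreg hδ hsum in
/-- The torus integral of a twisted density. -/
theorem twisted_torus :
    ∫⁻ x, wtM P SM γ x * twDen P hfix he hlev.ne_zero R N₀ N₁ W kp δ x ∂volPt =
      coreInt P.placesE γ (triKer kp) (wtE P SE γ) (fun z => ENNReal.ofReal (X z)) := by
  let := pglAction (n := lvM D N') P.placesM
  let := pglAction (n := lvE D N) P.placesE
  have hn : lvE D N ≠ ⊥ := by
    have : N ≠ 0 := fun h => hlev.ne_zero (Nat.eq_zero_of_zero_dvd (h ▸ hlev.dvd))
    simp [this]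
  have hnM : lvM D N' ≠ ⊥ := by simp [hlev.ne_zero]
  have : Countable (FinPt D.M (lvM D N')) := countable_finPt hnM
  have : Countable (FinPt D.E (lvE D N)) := countable_finPt hn
  have : Countable (PGLF D.E) := countable_PGLF
  have : Countable (PGLF D.M) := countable_PGLF
  have := measurableConstSMul_pgl (n := lvE D N) P.placesE
  have := smulInvariant_pgl (ι := Unit) P.placesE hn
  have := measurableConstSMul_pgl (n := lvM D N') P.placesM
  have := smulInvariant_pgl (ι := Fin 3) P.placesM hnM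
  have hT := twisted_transfer (hfix := hfix) (he := he) hne hlev (hN' := hlev.ne_zero) hW hk hreg
    hδ T (torE γ) torE_lift 0 (fun _ => ENNReal.ofReal 1) (fun _ _ _ _ _ _ _ => rfl)
  rw [fibSum_twisted_one hlev hW T hsum 0] at hT
  have h := hT.lintegral_weight_eq
    ((isWeight_of_fundDomain P.placesM hSM).restrict (torM γ))
    ((isWeight_of_fundDomain P.placesE hSE).restrict (torE γ))
  simp only [ENNReal.ofReal_one, mul_one] at h
  exact h

variable (h01 : γ.val 0 1 = 0) (h10 : γ.val 1 0 = 0) {dM : FinPt D.M (lvM D N') → ℝ}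
  (hdM0 : ∀ v, 0 ≤ dM v)
  (hdM : ∀ v, cM D σ R N₀ N₁ N' W v (twAct D σ δ v) ≠ 0 →
    finHeight P.placesM v = (∑ i, finHeight P.placesE (T.q i v)) + dM v)

include hne hlev hSM hSE hW hk hreg hδ hsum h01 h10 hdM0 hdM in
/-- The slope and the constant of a split twisted class. -/
theorem twisted_hyperbolic :
    slopeTerm volPt (wtM P SM γ) (tvM P) (twDen P hfix he hlev.ne_zero R N₀ N₁ W kp δ) =
        coreInt P.placesE γ (triKer kp) (fun y => wtE P SE γ y * tvE P y)
          (fun z => ENNReal.ofReal (X z)) ∧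
      constTerm volPt (wtM P SM γ) (tvM P) (twDen P hfix he hlev.ne_zero R N₀ N₁ W kp δ)
          (logHeight P.placesM (cuspInf D.M)) (logHeight P.placesM (cuspZero D.M)) =
        3 * coreInt P.placesE γ (triKer kp) (fun y => wtE P SE γ y * tvE P y * cuspWeight P y)
            (fun z => ENNReal.ofReal (X z)) +
          coreInt P.placesE γ (triKer kp) (fun y => wtE P SE γ y * tvE P y)
            (fun z => ENNReal.ofReal (T.sum D 0 (fun v => (dM v : ℂ)) z).re) := by
  let := pglAction (n := lvM D N') P.placesM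
  let := pglAction (n := lvE D N) P.placesE
  have hn : lvE D N ≠ ⊥ := by
    have : N ≠ 0 := fun h => hlev.ne_zero (Nat.eq_zero_of_zero_dvd (h ▸ hlev.dvd))
    simp [this]
  have hnM : lvM D N' ≠ ⊥ := by simp [hlev.ne_zero]
  have : Countable (FinPt D.M (lvM D N')) := countable_finPt hnM
  have : Countable (FinPt D.E (lvE D N)) := countable_finPt hn
  have : Countable (PGLF D.E) := countable_PGLF
  have : Countable (PGLF D.M) := countable_PGLF
  have := measurableConstSMul_pgl (n := lvE D N) P.placesE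
  have := smulInvariant_pgl (ι := Unit) P.placesE hn
  have := measurableConstSMul_pgl (n := lvM D N') P.placesM
  have := smulInvariant_pgl (ι := Fin 3) P.placesM hnM
  have := sfinite_volPt (F := D.E) (ι := Unit) (n := lvE D N)
  have := sfinite_volPt (F := D.M) (ι := Fin 3) (n := lvM D N')
  have hcM : ∀ v, twCount D σ R N₀ N₁ N' W δ v ≠ 0 →
      cM D σ R N₀ N₁ N' W v (twAct D σ δ v) ≠ 0 := fun v h => by
    rw [cM_eq hlev hW, Nat.cast_ne_zero]; exact h
  have hsumd : ∀ x : Pt D.M (Fin 3) (lvM D N'), twCount D σ R N₀ N₁ N' W δ x.1 ≠ 0 →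
      cuspSum P.placesM x = (∑ i, cuspSum P.placesE (pushM (T.q i) i x)) + dM x.1 := by
    intro x hx
    simp only [cuspSum_eq, pushM, Fintype.sum_unique, Finset.sum_add_distrib, hdM x.1 (hcM _ hx)]
    ring
  have hinv : ∀ h ∈ torE γ, ∀ t : GL (Fin 2) D.E, (t : PGLF D.E) = h → Commute t γ → ∀ v,
      twCount D σ R N₀ N₁ N' W δ v ≠ 0 → dM (glEM D t • v) = dM v := by
    intro h hh t ht htc v hv
    have hdE := torE_diag hreg h01 h10 h hh
    rw [← ht] at hdE
    have hdMt : IsDiagClass ((GeneralLinearGroup.map D.incl t : GL (Fin 2) D.M) : PGLF D.M) :=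
      torM_diag hreg h01 h10 _ ⟨h, hh, by rw [← ht]; rfl⟩
    let x : Pt D.M (Fin 3) (lvM D N') := (v, fun _ => H3.base)
    have hx' : twCount D σ R N₀ N₁ N' W δ (act P.placesM (GeneralLinearGroup.map D.incl t) x).1
        ≠ 0 := by
      rw [act_incl_fst, twCount_smul hfix hδ hreg htc]; exact hv
    have e1 := hsumd _ hx'
    have e2 := hsumd x hv
    have e3 := cuspSum_act P.placesM hdMt x
    rw [act_out] at e3
    have e4 : ∀ i, cuspSum P.placesE (pushM (T.q i) i (act P.placesM
        (GeneralLinearGroup.map D.incl t) x)) = cuspSum P.placesE (pushM (T.q i) i x) := fun i => by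
      have hp : pushM (T.q i) i (act P.placesM (GeneralLinearGroup.map D.incl t) x) =
          act P.placesE t (pushM (T.q i) i x) :=
        Prod.ext (T.q_smul i t htc v (hcM v hv)) (funext fun _ => act_incl_snd t x i)
      rw [hp, ← act_out P.placesE t, cuspSum_act P.placesE hdE]
    rw [e3, Finset.sum_congr rfl fun i _ => e4 i, act_incl_fst] at e1
    have e5 : dM (glEM D t • x.1) = dM x.1 := by linarith
    exact e5
  set e' := ((torE γ).equivMapOfInjective _ (injective_pglMap (algebraMap D.E D.M))).symm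
  have hT : ∀ i, IsTransfer volPt volPt e' (pushM (T.q i) i)
      (twDen P hfix he hlev.ne_zero R N₀ N₁ W kp δ)
      (coreDensity P.placesE γ (fun z => ENNReal.ofReal (X z)) (triKer kp)) := fun i => by
    have h := twisted_transfer (hfix := hfix) (he := he) hne hlev (hN' := hlev.ne_zero) hW hk hreg
      hδ T (torE γ) torE_lift i (fun _ => ENNReal.ofReal 1) (fun _ _ _ _ _ _ _ => rfl)
    rw [fibSum_twisted_one hlev hW T hsum i] at h
    simp only [ENNReal.ofReal_one, mul_one] at h
    exact h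
  have hT₂ := twisted_transfer (hfix := hfix) (he := he) hne hlev (hN' := hlev.ne_zero) hW hk hreg
    hδ T (torE γ) torE_lift 0 (fun v => ENNReal.ofReal (dM v))
    (fun h hh t ht htc v hv => by rw [hinv h hh t ht htc v hv])
  rw [show fibSum (T.q 0) (fun v => (twCount D σ R N₀ N₁ N' W δ v : ℝ≥0∞) *
      ENNReal.ofReal (dM v)) = fun z => ENNReal.ofReal (T.sum D 0 (fun v => (dM v : ℂ)) z).re from
    funext fun z => (fibSum_twisted hlev hW T hdM0 0 z).1] at hT₂
  have hne0 : ∀ x, twDen P hfix he hlev.ne_zero R N₀ N₁ W kp δ x ≠ 0 →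
      twCount D σ R N₀ N₁ N' W δ x.1 ≠ 0 := by
    intro x hx h0
    refine hx ?_
    show pairDensity _ _ x (act P.placesM (δ : PGLF D.M).out _) = 0
    rw [act_out]
    show (twCount D σ R N₀ N₁ N' W δ x.1 : ℝ≥0∞) * _ = 0
    rw [h0, Nat.cast_zero, zero_mul]
  have h := hyperbolic_transfer (q := fun i => pushM (T.q i) i)
    (torusFlow_diag (F := D.E) (Φ := P.placesE) (n := lvE D N) (torE_diag hreg h01 h10))
    (torusFlow_diag (F := D.M) (Φ := P.placesM) (n := lvM D N') (torM_diag hreg h01 h10))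
    hT 0
    (fun s x => sideDensity_flow (cubicTwist P hfix he hlev.ne_zero)
      (s := Twisted.of _ (δ : PGLF D.M)) (diag_normOf hreg h01 h10 hδ) s x)
    (fun _ s x => rfl) (d := fun x => ENNReal.ofReal (dM x.1))
    ((measurable_of_countable fun v => ENNReal.ofReal (dM v)).comp measurable_fst)
    (fun h x hx => by
      obtain ⟨q, hq, hqh⟩ := h.2
      obtain ⟨t, ht, htc⟩ := torE_lift q hq
      show ENNReal.ofReal (dM (act P.placesM (h : PGLF D.M).out x).1) = _
      rw [← hqh, ← ht,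
        show pglMap (algebraMap D.E D.M) (t : PGLF D.E) =
          ((GeneralLinearGroup.map D.incl t : GL (Fin 2) D.M) : PGLF D.M) from rfl, act_out,
        act_incl_fst, hinv q hq t ht htc _ (hne0 x hx)])
    hT₂ (fun x hx => by
      show ENNReal.ofReal (cuspSum P.placesM x) =
        (∑ i, ENNReal.ofReal (cuspSum P.placesE (pushM (T.q i) i x))) + _
      rw [← ENNReal.ofReal_sum_of_nonneg fun i _ => cuspSum_nonneg _ _,
        ← ENNReal.ofReal_add (Finset.sum_nonneg fun i _ => cuspSum_nonneg _ _) (hdM0 x.1),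
        hsumd x (hne0 x hx)])
    (fun s x _ => rfl)
    (torusFlow_diag (F := D.E) (Φ := P.placesE) (n := lvE D N)
      (torE_diag hreg h01 h10)).isTransversal_std
    (torusFlow_diag (F := D.M) (Φ := P.placesM) (n := lvM D N')
      (torM_diag hreg h01 h10)).isTransversal_std
    ((isWeight_of_fundDomain P.placesE hSE).restrict (torE γ))
    ((isWeight_of_fundDomain P.placesM hSM).restrict (torM γ))
  refine ⟨h.1, h.2.trans ?_⟩
  rw [constTerm_eq_coreInt, Fintype.card_fin]
  norm_num
  rfl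

end Twisted

end FLTAgent.LanglandsTunnell.Trace
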