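import Fermat.Agent.LanglandsTunnell.Trace.PushCore

/-!
# Linear functionals of core densities and fibre sums

`coreInt` is a linear functional of the finite factor of a core density; an identity of real
finite factors becomes a balance of nonnegative values of it, and the fibre sums of the words of a
list are the densities it is applied to.
-/

set_option autoImplicit false

noncomputable section

namespace FLTAgent.LanglandsTunnell.Trace

open FLTAgent.LanglandsTunnell FLTAgent.LanglandsTunnell.Geom NumberField Matrix MeasureTheory Set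
open FLTAgent.LanglandsTunnell.Local (lvE lvM glE glEM twAct PlainPush TwistedPush cM pieceKer)
open scoped ENNReal

section Core

variable {E : Type} [Field E] [NumberField E] {n : Ideal (𝓞 E)} (Φ : PlaceChoice E Unit)
  (γ : GL (Fin 2) E) (ker : ℝ → ℝ) (m : Pt E Unit n → ℝ≥0∞)

/-- A linear functional of the finite factor of a core density. -/
def coreInt (n₀ : FinPt E n → ℝ≥0∞) : ℝ≥0∞ := ∫⁻ y, m y * coreDensity Φ γ n₀ ker y ∂volPt

variable {ker m} [Countable (FinPt E n)] (hker : Continuous ker) (hm : Measurable m)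

include hker hm in
theorem coreInt_combination {J : Type*} [Fintype J] (n₁ : FinPt E n → ℝ≥0∞) (a : J → ℝ≥0∞)
    (nJ : J → FinPt E n → ℝ≥0∞) :
    coreInt Φ γ ker m (fun z => n₁ z + ∑ j, a j * nJ j z) =
      coreInt Φ γ ker m n₁ + ∑ j, a j * coreInt Φ γ ker m (nJ j) := by
  have hmeas : ∀ n₀, Measurable fun y => m y * coreDensity Φ γ n₀ ker y := fun n₀ =>
    hm.mul (measurable_coreDensity Φ γ n₀ hker)
  have he : ∀ y, m y * coreDensity Φ γ (fun z => n₁ z + ∑ j, a j * nJ j z) ker y =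
      m y * coreDensity Φ γ n₁ ker y + ∑ j, a j * (m y * coreDensity Φ γ (nJ j) ker y) := by
    intro y
    simp only [coreDensity, add_mul, Finset.sum_mul, mul_add, Finset.mul_sum]
    congr 1
    exact Finset.sum_congr rfl fun j _ => by ring
  unfold coreInt
  rw [lintegral_congr he, lintegral_add_left (hmeas n₁),
    lintegral_finsetSum _ fun j _ => (hmeas (nJ j)).const_mul (a j)]
  exact congrArg _ (Finset.sum_congr rfl fun j _ => lintegral_const_mul _ (hmeas (nJ j)))

include hker hm in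
/-- An identity of finite factors passes to functionals. -/
theorem coreInt_balance {J : Type*} [Fintype J] {n₁ : FinPt E n → ℝ≥0∞} {a b : J → ℝ≥0∞}
    {nJ : J → FinPt E n → ℝ≥0∞}
    (h : ∀ z, n₁ z + ∑ j, a j * nJ j z = ∑ j, b j * nJ j z) :
    coreInt Φ γ ker m n₁ + ∑ j, a j * coreInt Φ γ ker m (nJ j) =
      ∑ j, b j * coreInt Φ γ ker m (nJ j) := by
  have hz := coreInt_combination Φ γ hker hm (fun _ => 0) b nJ
  have h0 : coreInt Φ γ ker m (fun _ : FinPt E n => (0 : ℝ≥0∞)) = 0 := by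
    simp [coreInt, coreDensity]
  rw [h0, zero_add] at hz
  rw [← coreInt_combination Φ γ hker hm, ← hz]
  congr 1
  funext z
  rw [zero_add]
  exact h z

end Core

/-- A signed identity as a balance of nonnegative sums. -/
theorem signed_balance {J : Type*} [Fintype J] (r S : J → ℝ) (hS : ∀ j, 0 ≤ S j) {x : ℝ}
    (hx : 0 ≤ x) (h : x = ∑ j, r j * S j) :
    ENNReal.ofReal x + ∑ j, ENNReal.ofReal (-r j) * ENNReal.ofReal (S j) =
      ∑ j, ENNReal.ofReal (r j) * ENNReal.ofReal (S j) := by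
  have hf : ∀ t : J → ℝ, ∑ j, ENNReal.ofReal (t j) * ENNReal.ofReal (S j) =
      ENNReal.ofReal (∑ j, max (t j) 0 * S j) := fun t => by
    rw [ENNReal.ofReal_sum_of_nonneg fun j _ => mul_nonneg (le_max_right _ _) (hS j)]
    refine Finset.sum_congr rfl fun j _ => ?_
    rw [ENNReal.ofReal_mul (le_max_right _ _), ENNReal.ofReal_max, ENNReal.ofReal_zero, max_eq_left]
    exact zero_le
  rw [hf, hf, ← ENNReal.ofReal_add hx
    (Finset.sum_nonneg fun j _ => mul_nonneg (le_max_right _ _) (hS j)), h,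
      ← Finset.sum_add_distrib]
  congr 1
  refine Finset.sum_congr rfl fun j _ => ?_
  rcases le_total (r j) 0 with h' | h'
  · rw [max_eq_left (neg_nonneg.mpr h'), max_eq_right h']; ring
  · rw [max_eq_right (neg_nonpos.mpr h'), max_eq_left h']; ring

/-- A fibre sum of nonnegative reals with finite support. -/
theorem fibSum_ofReal {X X' : Type*} {q : X' → X} {g : X' → ℝ} (hg : ∀ v, 0 ≤ g v) {z : X}
    (U : Finset X') (hU : ∀ v ∈ U, q v = z) (hsup : ∀ v, q v = z → g v ≠ 0 → v ∈ U) :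
    fibSum q (fun v => ENNReal.ofReal (g v)) z = ENNReal.ofReal (∑ v ∈ U, g v) := by
  rw [fibSum, tsum_eq_sum (s := U) fun v hv => ?_, ENNReal.ofReal_sum_of_nonneg fun v _ => hg v]
  · exact Finset.sum_congr rfl fun v hv => Set.indicator_of_mem
      (show v ∈ {v | q v = z} from hU v hv) _
  · by_cases h : q v = z
    · rw [Set.indicator_of_mem (show v ∈ {v | q v = z} from h)]
      by_contra h0
      exact hv (hsup v h fun h1 => h0 (by rw [h1, ENNReal.ofReal_zero]))
    · exact Set.indicator_of_notMem (show v ∉ {v | q v = z} from h) _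

variable {D : Datum} {N : ℕ}

/-- The real fibre sum of one word. -/
def wordSum (proj : FinPt D.E (lvE D N) → FinPt D.E (lvE D N)) (γ : GL (Fin 2) D.E)
    (ws : List (Ideal (𝓞 D.E))) (f : FinPt D.E (lvE D N) → ℝ) (z : FinPt D.E (lvE D N)) : ℝ :=
  ∑ᶠ u ∈ {u | proj u = z}, f u * (wordCount (lvE D N) ws u (glE D γ • u) : ℝ)

theorem wordSum_nonneg {proj : FinPt D.E (lvE D N) → FinPt D.E (lvE D N)} {γ : GL (Fin 2) D.E}
    {ws : List (Ideal (𝓞 D.E))} {f : FinPt D.E (lvE D N) → ℝ} (hf : ∀ u, 0 ≤ f u)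
    (z : FinPt D.E (lvE D N)) : 0 ≤ wordSum proj γ ws f z :=
  finsum_mem_induction (fun x => 0 ≤ x) le_rfl (fun _ _ => add_nonneg)
    fun u _ => mul_nonneg (hf u) (Nat.cast_nonneg _)

variable {γ : GL (Fin 2) D.E} {L : List (ℂ × List (Ideal (𝓞 D.E)))} (π : PlainPush D N L γ)
  (hn : lvE D N ≠ ⊥) (hL : ∀ a ∈ L, ∀ w ∈ a.2, w ≠ ⊥)

include hn hL in
theorem finite_wordFibre {a : ℂ × List (Ideal (𝓞 D.E))} (ha : a ∈ L) (z : FinPt D.E (lvE D N)) :
    {u | π.proj u = z ∧ wordCount (lvE D N) a.2 u (glE D γ • u) ≠ 0}.Finite := by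
  refine (π.finite a ha z).subset fun u hu => ⟨hu.1, ?_⟩
  rw [wordKernel_eq hn (hL a ha), Nat.cast_ne_zero]
  exact hu.2

include hn hL in
/-- The fibre sums of one word as a density. -/
theorem fibSum_word {a : ℂ × List (Ideal (𝓞 D.E))} (ha : a ∈ L) {f : FinPt D.E (lvE D N) → ℝ}
    (hf : ∀ u, 0 ≤ f u) (z : FinPt D.E (lvE D N)) :
    fibSum π.proj (fun u => (wordCount (lvE D N) a.2 u (glE D γ • u) : ℝ≥0∞) *
      ENNReal.ofReal (f u)) z = ENNReal.ofReal (wordSum π.proj γ a.2 f z) := by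
  have hfin := finite_wordFibre π hn hL ha z
  have hsup : ∀ v, π.proj v = z → f v * (wordCount (lvE D N) a.2 v (glE D γ • v) : ℝ) ≠ 0 →
      v ∈ hfin.toFinset := fun v hv h =>
    hfin.mem_toFinset.mpr ⟨hv, fun h0 => h (by rw [h0, Nat.cast_zero, mul_zero])⟩
  rw [wordSum, finsum_mem_eq_sum_of_subset (s := {u | π.proj u = z}) _
      (fun v hv => hsup v hv.1 hv.2)
      (fun v hv => (hfin.mem_toFinset.mp hv).1),
    ← fibSum_ofReal (q := π.proj) (fun v => mul_nonneg (hf v) (Nat.cast_nonneg _)) hfin.toFinset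
      (fun v hv => (hfin.mem_toFinset.mp hv).1) hsup]
  congr 1
  funext v
  rw [ENNReal.ofReal_mul (hf v), ENNReal.ofReal_natCast, mul_comm]

include hn hL in
/-- The plain sums of a list are combinations of the sums of its words. -/
theorem plainSum_re {L' : List (ℂ × List (Ideal (𝓞 D.E)))} (hsub : ∀ a ∈ L', a ∈ L)
    (f : FinPt D.E (lvE D N) → ℝ) (z : FinPt D.E (lvE D N)) :
    (π.sum D L' (fun u => (f u : ℂ)) z).re =
      ∑ a : Fin L'.length, (L'[a].1).re * wordSum π.proj γ L'[a].2 f z := by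
  classical
  have hmem : ∀ a : Fin L'.length, L'[a] ∈ L := fun a => hsub _ (List.getElem_mem _)
  set U := Finset.univ.biUnion fun a : Fin L'.length =>
    (finite_wordFibre π hn hL (hmem a) z).toFinset
  have hU : ↑U ⊆ {u | π.proj u = z} := fun u hu => by
    obtain ⟨a, -, ha⟩ := Finset.mem_biUnion.mp hu
    exact ((finite_wordFibre π hn hL (hmem a) z).mem_toFinset.mp ha).1
  have hpk : ∀ u, pieceKer D N L' u (glE D γ • u) =
      ∑ a : Fin L'.length, L'[a].1 * (wordCount (lvE D N) L'[a].2 u (glE D γ • u) : ℂ) :=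
        fun u => by
    rw [pieceKer, ← List.sum_ofFn]
    congr 1
    refine List.ext_getElem (by simp) fun i h1 h2 => ?_
    simp only [List.getElem_map, List.getElem_ofFn]
    rw [wordKernel_eq hn (hL _ (hsub _ (List.getElem_mem _)))]
    rfl
  have hin : ∀ (a : Fin L'.length) u, π.proj u = z →
      wordCount (lvE D N) L'[a].2 u (glE D γ • u) ≠ 0 → u ∈ U := fun a u hu h =>
    Finset.mem_biUnion.mpr
      ⟨a, Finset.mem_univ a, (finite_wordFibre π hn hL (hmem a) z).mem_toFinset.mpr ⟨hu, h⟩⟩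
  rw [PlainPush.sum, finsum_mem_eq_sum_of_subset (s := {u | π.proj u = z}) _ (fun u hu => ?_) hU]
  · simp only [hpk, Finset.mul_sum]
    rw [Finset.sum_comm, Complex.re_sum]
    refine Finset.sum_congr rfl fun a _ => ?_
    rw [wordSum, finsum_mem_eq_sum_of_subset (s := {u | π.proj u = z}) _
      (fun u hu => hin a u hu.1 fun h0 => hu.2 ?_) hU,
      Complex.re_sum, Finset.mul_sum]
    · refine Finset.sum_congr rfl fun u _ => ?_
      simp [Complex.mul_re]
      ring
    · rw [h0, Nat.cast_zero, mul_zero]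
  · obtain ⟨hu1, hu2⟩ := hu
    have hne : pieceKer D N L' u (glE D γ • u) ≠ 0 := right_ne_zero_of_mul hu2
    rw [hpk] at hne
    obtain ⟨a, -, ha⟩ := Finset.exists_ne_zero_of_sum_ne_zero hne
    exact hin a u hu1 fun h0 => ha (by rw [h0, Nat.cast_zero, mul_zero])

end FLTAgent.LanglandsTunnell.Trace
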