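import Fermat.Agent.LanglandsTunnell.Trace.TwistedTorus
import Fermat.Agent.LanglandsTunnell.Kernels
import Mathlib.GroupTheory.Index

/-!
# Twisted classes in `PGL(2)`

The regular twisted classes over `M` are the regular classes over `E` that are norms, and the
twisted centraliser contains the rational torus with the same index as the centraliser.
-/

set_option autoImplicit false

noncomputable section

namespace FLTAgent.LanglandsTunnell.Trace

open Matrix FLTAgent.LanglandsTunnell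

/-- A group with the twisted conjugation `g • s = g s θ(g)⁻¹`. -/
def Twisted {G : Type*} [Group G] (_θ : G →* G) : Type _ := G

variable {G : Type*} [Group G] {θ : G →* G}

/-- Points of the twisted space. -/
def Twisted.of (θ : G →* G) (g : G) : Twisted θ := g

/-- The underlying group element. -/
def Twisted.val (s : Twisted θ) : G := s

instance twistedAction : MulAction G (Twisted θ) where
  smul g s := Twisted.of θ (g * s.val * (θ g)⁻¹)
  one_smul s := by
    show (1 : G) * s.val * (θ 1)⁻¹ = s.val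
    simp
  mul_smul g h s := by
    show g * h * s.val * (θ (g * h))⁻¹ = g * (h * s.val * (θ h)⁻¹) * (θ g)⁻¹
    simp [mul_assoc]

theorem Twisted.smul_eq_iff (g : G) (s s' : Twisted θ) :
    g • s = s' ↔ g * s.val = s'.val * θ g := by
  show g * s.val * (θ g)⁻¹ = s'.val ↔ _
  rw [mul_inv_eq_iff_eq_mul]

variable {K : Type} [Field K]

/-- The class of an invertible matrix. -/
def pglMk (A : Matrix (Fin 2) (Fin 2) K) (h : IsUnit A) : PGLF K :=
  ((h.unit : GL (Fin 2) K) : PGLF K)

theorem pglMk_surjective (q : PGLF K) : ∃ A h, pglMk A h = q :=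
  ⟨q.out.val, q.out.isUnit, by
    rw [pglMk, show (q.out.isUnit.unit : GL (Fin 2) K) = q.out from Units.ext rfl]
    exact q.out_eq⟩

theorem pglMk_eq_iff {A B : Matrix (Fin 2) (Fin 2) K} (hA : IsUnit A) (hB : IsUnit B) :
    pglMk A hA = pglMk B hB ↔ ∃ z : K, z ≠ 0 ∧ B = z • A := by
  rw [pglMk, pglMk, QuotientGroup.eq, GeneralLinearGroup.center_eq_range_scalar]
  constructor
  · rintro ⟨c, hc⟩
    refine ⟨(c : K), c.ne_zero, ?_⟩
    have h : hB.unit = hA.unit * GeneralLinearGroup.scalar (Fin 2) c := by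
      rw [hc, mul_inv_cancel_left]
    have h' := congrArg Units.val h
    rw [Units.val_mul, IsUnit.unit_spec, IsUnit.unit_spec] at h'
    rw [h']
    ext i j
    fin_cases i <;> fin_cases j <;> simp [Matrix.mul_apply, mul_comm]
  · rintro ⟨z, hz, rfl⟩
    refine ⟨Units.mk0 z hz, ?_⟩
    rw [eq_inv_mul_iff_mul_eq]
    refine Units.ext ?_
    rw [Units.val_mul, IsUnit.unit_spec, IsUnit.unit_spec]
    ext i j
    fin_cases i <;> fin_cases j <;> simp [Matrix.mul_apply, mul_comm]

theorem pglMk_mul {A B : Matrix (Fin 2) (Fin 2) K} (hA : IsUnit A) (hB : IsUnit B) :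
    pglMk A hA * pglMk B hB = pglMk (A * B) (hA.mul hB) := by
  rw [pglMk, pglMk, pglMk, ← QuotientGroup.mk_mul]
  exact congrArg _ (Units.ext rfl)

variable {E M : Type} [Field E] [Field M] [Algebra E M]

/-- The map induced by a ring homomorphism. -/
def pglMap {K L : Type} [Field K] [Field L] (f : K →+* L) : PGLF K →* PGLF L :=
  QuotientGroup.map _ _ (GeneralLinearGroup.map f) (by
    intro z hz
    rw [GeneralLinearGroup.center_eq_range_scalar] at hz
    obtain ⟨c, rfl⟩ := hz
    show GeneralLinearGroup.map f _ ∈ Subgroup.center _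
    rw [GeneralLinearGroup.center_eq_range_scalar]
    refine ⟨Units.map f.toMonoidHom c, Units.ext (Matrix.ext fun i j => ?_)⟩
    fin_cases i <;> fin_cases j <;> simp)

theorem isUnit_map_matrix {K L : Type} [Field K] [Field L] (f : K →+* L)
    {A : Matrix (Fin 2) (Fin 2) K} (hA : IsUnit A) : IsUnit (A.map f) :=
  hA.map f.mapMatrix

theorem pglMap_mk {K L : Type} [Field K] [Field L] (f : K →+* L) (A : Matrix (Fin 2) (Fin 2) K)
    (hA : IsUnit A) : pglMap f (pglMk A hA) = pglMk (A.map f) (isUnit_map_matrix f hA) := by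
  show ((GeneralLinearGroup.map f hA.unit : GL (Fin 2) L) : PGLF L) = _
  exact congrArg _ (Units.ext rfl)

variable (σ : M ≃ₐ[E] M)

/-- The twist on `PGL₂(M)`. -/
def pglTwist : PGLF M →* PGLF M := pglMap σ.toRingEquiv.toRingHom

/-- The twisted norm. -/
def pglNorm (d : PGLF M) : PGLF M := d * pglTwist σ d * pglTwist σ (pglTwist σ d)

/-- A regular class: distinct eigenvalues. -/
def IsRegular (q : PGLF K) : Prop :=
  ∃ A h, pglMk A h = q ∧ A.trace ^ 2 ≠ 4 * A.det

variable {σ}

theorem pglTwist_mk (A : Matrix (Fin 2) (Fin 2) M) (hA : IsUnit A) :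
    pglTwist σ (pglMk A hA) = pglMk (twist σ A) (isUnit_twist hA) :=
  pglMap_mk _ A hA

theorem isUnit_twNorm {A : Matrix (Fin 2) (Fin 2) M} (hA : IsUnit A) : IsUnit (twNorm σ A) :=
  (hA.mul (isUnit_twist hA)).mul (isUnit_twist (isUnit_twist hA))

theorem pglNorm_mk (A : Matrix (Fin 2) (Fin 2) M) (hA : IsUnit A) :
    pglNorm σ (pglMk A hA) = pglMk (twNorm σ A) (isUnit_twNorm hA) := by
  simp only [pglNorm, pglTwist_mk, pglMk_mul]
  rfl

theorem smul_mk_iff {g A B : Matrix (Fin 2) (Fin 2) M} (hg : IsUnit g) (hA : IsUnit A)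
    (hB : IsUnit B) :
    pglMk g hg • Twisted.of (pglTwist σ) (pglMk A hA) = Twisted.of (pglTwist σ) (pglMk B hB) ↔
      ∃ w : M, w ≠ 0 ∧ g * A = (w • B) * twist σ g := by
  rw [Twisted.smul_eq_iff]
  show pglMk g hg * pglMk A hA = pglMk B hB * pglTwist σ (pglMk g hg) ↔ _
  rw [pglTwist_mk, pglMk_mul, pglMk_mul, eq_comm, pglMk_eq_iff]
  simp only [Matrix.smul_mul]

theorem regular_iff {A : Matrix (Fin 2) (Fin 2) K} (hA : IsUnit A) :
    IsRegular (pglMk A hA) ↔ A.trace ^ 2 ≠ 4 * A.det := by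
  refine ⟨?_, fun h => ⟨A, hA, rfl, h⟩⟩
  rintro ⟨B, hB, hBA, hreg⟩
  obtain ⟨z, hz, rfl⟩ := (pglMk_eq_iff hB hA).mp hBA
  intro h
  apply hreg
  rw [Matrix.trace_smul, Matrix.det_smul, Fintype.card_fin, smul_eq_mul] at h
  exact mul_left_cancel₀ (pow_ne_zero 2 hz) (by linear_combination h)

/-- Every class with regular norm meets the classes with rational norm. -/
theorem exists_rational_class (hσ : IsCubicTwist σ) {d : PGLF M} (h : IsRegular (pglNorm σ d)) :
    ∃ (g : PGLF M) (q : PGLF E), IsRegular q ∧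
      pglNorm σ (g • Twisted.of (pglTwist σ) d).val = pglMap (algebraMap E M) q := by
  obtain ⟨A, hA, rfl⟩ := pglMk_surjective d
  rw [pglNorm_mk, regular_iff] at h
  obtain ⟨g, B, t, c, hg, hgB, hc, htc, hN⟩ := exists_rational_norm hσ hA h
  have hB : IsUnit B := by
    have hh : IsUnit (B * twist σ g) := hgB ▸ hg.mul hA
    rw [Matrix.isUnit_iff_isUnit_det, Matrix.det_mul] at hh
    rw [Matrix.isUnit_iff_isUnit_det]
    exact isUnit_of_mul_isUnit_left hh
  have hC : IsUnit (companion2 t c) := by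
    rw [Matrix.isUnit_iff_isUnit_det, isUnit_iff_ne_zero]
    simpa [companion2, Matrix.det_fin_two_of] using hc
  refine ⟨pglMk g hg, pglMk _ hC, (regular_iff hC).mpr ?_, ?_⟩
  · simpa [companion2, Matrix.trace_fin_two_of, Matrix.det_fin_two_of] using htc
  · have hs : pglMk g hg • Twisted.of (pglTwist σ) (pglMk A hA) =
        Twisted.of (pglTwist σ) (pglMk B hB) :=
      (smul_mk_iff hg hA hB).mpr ⟨1, one_ne_zero, by rw [one_smul]; exact hgB⟩
    rw [hs]
    show pglNorm σ (pglMk B hB) = _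
    rw [pglNorm_mk, pglMap_mk, pglMk_eq_iff]
    exact ⟨1, one_ne_zero, by rw [one_smul, hN]⟩

theorem rational_norm_lift {d : PGLF M} {C : Matrix (Fin 2) (Fin 2) E} {hC : IsUnit C}
    (h : pglNorm σ d = pglMap (algebraMap E M) (pglMk C hC)) :
    ∃ (B : Matrix (Fin 2) (Fin 2) M) (hB : IsUnit B) (z : M), z ≠ 0 ∧ pglMk B hB = d ∧
      twNorm σ B = z • C.map (algebraMap E M) := by
  obtain ⟨B, hB, rfl⟩ := pglMk_surjective d
  rw [pglNorm_mk, pglMap_mk, eq_comm, pglMk_eq_iff] at h
  obtain ⟨z, hz, hz'⟩ := h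
  exact ⟨B, hB, z, hz, rfl, hz'⟩

theorem commute_of_scalar_norm (hσ : IsCubicTwist σ) (h2 : (2 : M) ≠ 0)
    {B : Matrix (Fin 2) (Fin 2) M} (hB : IsUnit B) {C : Matrix (Fin 2) (Fin 2) E}
    (hC : C.det ≠ 0) {z : M} (hz : z ≠ 0) (hN : twNorm σ B = z • C.map (algebraMap E M)) :
    ∃ e : E, e ≠ 0 ∧ algebraMap E M e = z ∧ twNorm σ B = (e • C).map (algebraMap E M) ∧
      Commute (C.map (algebraMap E M)) B := by
  have hd := (twNorm_invariants hσ hB).2
  rw [hN, Matrix.det_smul, Fintype.card_fin, det_mapAlg, map_mul, AlgEquiv.commutes] at hd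
  have hz' : σ z = z := mem_of_sq_mem hσ h2
    (mul_right_cancel₀ (b := algebraMap E M C.det) (by simpa using hC) hd)
  obtain ⟨e, he⟩ := hσ.fixed z hz'
  have hN' : twNorm σ B = (e • C).map (algebraMap E M) := by
    rw [hN, ← he]
    ext i j
    simp
  refine ⟨e, fun h => hz (by rw [← he, h, map_zero]), he, hN', ?_⟩
  have h := commute_of_rational_norm hσ hN'
  have he' : (e • C).map (algebraMap E M) = z • C.map (algebraMap E M) := hN' ▸ hN
  rw [he', Matrix.smul_mul, Matrix.mul_smul] at h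
  exact smul_right_injective _ hz h

/-- Twisted classes with the same rational regular norm are equal. -/
theorem class_eq_of_norm_eq (hσ : IsCubicTwist σ) (h2 : (2 : M) ≠ 0) {q : PGLF E}
    (hq : IsRegular q) {d d' : PGLF M} (h : pglNorm σ d = pglMap (algebraMap E M) q)
    (h' : pglNorm σ d' = pglMap (algebraMap E M) q) :
    ∃ g : PGLF M, g • Twisted.of (pglTwist σ) d = Twisted.of (pglTwist σ) d' := by
  obtain ⟨C, hC, rfl, hreg⟩ := hq
  obtain ⟨B, hB, z, hz, rfl, hN⟩ := rational_norm_lift h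
  obtain ⟨B', hB', z', hz', rfl, hN'⟩ := rational_norm_lift h'
  have hd : C.det ≠ 0 := ((Matrix.isUnit_iff_isUnit_det C).mp hC).ne_zero
  obtain ⟨-, -, -, -, hc⟩ := commute_of_scalar_norm hσ h2 hB hd hz hN
  obtain ⟨-, -, -, -, hc'⟩ := commute_of_scalar_norm hσ h2 hB' hd hz' hN'
  obtain ⟨g, w, hg, hw, -, hgB⟩ := twisted_conj_of_twNorm_eq hσ hreg hB hB' hc hc'
    (z := z' / z) (by rw [hN', hN, smul_smul, div_mul_cancel₀ _ hz])
  exact ⟨pglMk g hg, (smul_mk_iff hg hB hB').mpr ⟨w, hw, hgB⟩⟩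

/-- Twisted conjugate classes have conjugate rational norms. -/
theorem norm_conj_of_class_eq (hσ : IsCubicTwist σ) (h2 : (2 : M) ≠ 0) {q q' : PGLF E}
    (hq : IsRegular q) {d d' : PGLF M} (h : pglNorm σ d = pglMap (algebraMap E M) q)
    (h' : pglNorm σ d' = pglMap (algebraMap E M) q') {g : PGLF M}
    (hg : g • Twisted.of (pglTwist σ) d = Twisted.of (pglTwist σ) d') :
    ∃ p : PGLF E, p * q = q' * p := by
  obtain ⟨C, hC, rfl, hreg⟩ := hq
  obtain ⟨C', hC', rfl⟩ := pglMk_surjective q'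
  obtain ⟨B, hB, z, hz, rfl, hN⟩ := rational_norm_lift h
  obtain ⟨B', hB', z', hz', rfl, hN'⟩ := rational_norm_lift h'
  obtain ⟨g, hgu, rfl⟩ := pglMk_surjective g
  obtain ⟨w, -, hgB⟩ := (smul_mk_iff hgu hB hB').mp hg
  have h1 := twNorm_conj hσ hgB
  rw [twNorm_smul, hN, hN'] at h1
  set r := (w * σ w * σ (σ w)) * z' / z with hr
  have h3 : g * C.map (algebraMap E M) = (r • C'.map (algebraMap E M)) * g := by
    refine smul_right_injective _ hz ?_
    show z • (g * C.map (algebraMap E M)) = z • ((r • C'.map (algebraMap E M)) * g)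
    rw [← Matrix.mul_smul, h1, ← Matrix.smul_mul z, smul_smul, smul_smul, hr]
    congr 2
    field_simp
  obtain ⟨e, P, -, hP, hPC⟩ := exists_rational_conj hσ h2 hreg
    ((Matrix.isUnit_iff_isUnit_det C').mp hC').ne_zero hgu h3
  refine ⟨pglMk P hP, ?_⟩
  rw [pglMk_mul, pglMk_mul, eq_comm, pglMk_eq_iff]
  refine ⟨e, ?_, by rw [hPC, Matrix.smul_mul]⟩
  rintro rfl
  rw [zero_smul, Matrix.zero_mul] at hPC
  exact (hP.mul hC).ne_zero hPC

/-! ### The twisted centraliser -/

/-- The torus of a regular element. -/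
def torus (C : Matrix (Fin 2) (Fin 2) E) : Subgroup (PGLF E) :=
  (Subgroup.centralizer {P : GL (Fin 2) E | P.val = C}).map (QuotientGroup.mk' _)

theorem mem_torus_iff {C : Matrix (Fin 2) (Fin 2) E} (hC : IsUnit C)
    {P : Matrix (Fin 2) (Fin 2) E} (hP : IsUnit P) :
    pglMk P hP ∈ torus C ↔ P * C = C * P := by
  constructor
  · rintro ⟨Q, hQ, hQP⟩
    have h := Subgroup.mem_centralizer_iff.mp hQ hC.unit hC.unit_spec
    have h' := congrArg Units.val h
    rw [Units.val_mul, Units.val_mul, IsUnit.unit_spec] at h'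
    have he : pglMk Q.val Q.isUnit = pglMk P hP := by
      rw [← hQP]
      show ((Q.isUnit.unit : GL (Fin 2) E) : PGLF E) = (Q : PGLF E)
      rw [show (Q.isUnit.unit : GL (Fin 2) E) = Q from Units.ext rfl]
    obtain ⟨z, -, rfl⟩ := (pglMk_eq_iff Q.isUnit hP).mp he
    rw [Matrix.smul_mul, Matrix.mul_smul, ← h']
  · intro h
    refine ⟨hP.unit, Subgroup.mem_centralizer_iff.mpr fun X hX => Units.ext ?_, rfl⟩
    rw [Units.val_mul, Units.val_mul, hX, IsUnit.unit_spec, h]

/-- A subgroup reached by every product of two outside elements has index two or one. -/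
theorem index_eq_ite {X : Type*} [Group X] (H : Subgroup X) (p : Prop) [Decidable p]
    (h1 : ∀ x, x ∈ H ∨ p) (h2 : ∀ x y, x ∉ H → y ∉ H → x * y ∈ H) (h3 : p → ∃ x, x ∉ H) :
    H.index = if p then 2 else 1 := by
  split_ifs with hp
  · obtain ⟨a, ha⟩ := h3 hp
    refine Subgroup.index_eq_two_iff.mpr ⟨a, fun b => ?_⟩
    by_cases hb : b ∈ H
    · exact Or.inr ⟨hb, fun h => ha (by simpa using H.mul_mem (H.inv_mem hb) h)⟩
    · exact Or.inl ⟨h2 b a hb ha, hb⟩
  · exact Subgroup.index_eq_one.mpr (eq_top_iff.mpr fun x _ => (h1 x).resolve_right hp)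

theorem conj_anti {R : Type*} [Ring R] (u : Rˣ) {J K : R} (h : J * K = -(K * J)) :
    (↑u * J * ↑u⁻¹) * (↑u * K * ↑u⁻¹) = -((↑u * K * ↑u⁻¹) * (↑u * J * ↑u⁻¹)) := by
  have e : ∀ A B : R, (↑u * A * ↑u⁻¹) * (↑u * B * ↑u⁻¹) = ↑u * (A * B) * ↑u⁻¹ := fun A B => by
    simp only [mul_assoc, Units.inv_mul_cancel_left]
  rw [e, e, h, mul_neg, neg_mul]

/-- In trace zero some invertible matrix anticommutes. -/
theorem exists_anti {C : Matrix (Fin 2) (Fin 2) E} (hreg : C.trace ^ 2 ≠ 4 * C.det)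
    (h0 : C.trace = 0) : ∃ R : Matrix (Fin 2) (Fin 2) E, IsUnit R ∧ R * C = -(C * R) := by
  obtain ⟨P, hP, hCP⟩ := exists_conj_companion hreg
  obtain ⟨u, rfl⟩ := hP
  have hJ : IsUnit (!![1, 0; 0, -1] : Matrix (Fin 2) (Fin 2) E) := by
    rw [Matrix.isUnit_iff_isUnit_det]
    simp [Matrix.det_fin_two_of]
  have hJC : !![1, 0; 0, -1] * companion2 C.trace C.det =
      -(companion2 C.trace C.det * !![1, 0; 0, -1]) := by
    rw [h0]
    ext i j
    fin_cases i <;> fin_cases j <;> simp [companion2, Matrix.mul_apply]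
  refine ⟨_, (u.isUnit.mul hJ).mul u⁻¹.isUnit, ?_⟩
  have hC' : C = (u : Matrix (Fin 2) (Fin 2) E) * companion2 C.trace C.det *
      (↑u⁻¹ : Matrix (Fin 2) (Fin 2) E) := by
    rw [← hCP, Units.mul_inv_cancel_right]
  have h := conj_anti u hJC
  rw [← hC'] at h
  exact h

open scoped Classical in
/-- The centraliser of a regular element contains the torus with index two in trace zero. -/
theorem index_torus (h2 : (2 : E) ≠ 0) {C : Matrix (Fin 2) (Fin 2) E} (hC : IsUnit C)
    (hreg : C.trace ^ 2 ≠ 4 * C.det) :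
    torus C ≤ MulAction.stabilizer (PGLF E)
        (Twisted.of (MonoidHom.id (PGLF E)) (pglMk C hC)) ∧
      ((torus C).subgroupOf (MulAction.stabilizer (PGLF E)
        (Twisted.of (MonoidHom.id (PGLF E)) (pglMk C hC)))).index =
        if C.trace = 0 then 2 else 1 := by
  have hst : ∀ (P : Matrix (Fin 2) (Fin 2) E) (hP : IsUnit P),
      pglMk P hP ∈ MulAction.stabilizer (PGLF E) (Twisted.of (MonoidHom.id _) (pglMk C hC)) ↔
        ∃ z : E, z ≠ 0 ∧ P * C = z • (C * P) := fun P hP => by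
    rw [MulAction.mem_stabilizer_iff, Twisted.smul_eq_iff]
    show pglMk P hP * pglMk C hC = pglMk C hC * pglMk P hP ↔ _
    rw [pglMk_mul, pglMk_mul, eq_comm, pglMk_eq_iff]
  have hsign : ∀ (P : Matrix (Fin 2) (Fin 2) E), IsUnit P → ∀ z : E, P * C = z • (C * P) →
      P * C = C * P ∨ (C.trace = 0 ∧ P * C = -(C * P)) := fun P hP z hz => by
    obtain ⟨u, rfl⟩ := hP
    have hconj : C = (↑u⁻¹ : Matrix (Fin 2) (Fin 2) E) * (z • C) * u := by
      rw [Matrix.mul_assoc, Matrix.smul_mul, ← hz, Units.inv_mul_cancel_left]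
    have hd := congrArg Matrix.det hconj
    have ht := congrArg Matrix.trace hconj
    rw [Matrix.det_units_conj', Matrix.det_smul, Fintype.card_fin] at hd
    rw [Matrix.trace_units_conj', Matrix.trace_smul, smul_eq_mul] at ht
    rcases sq_eq_one_iff.mp
      ((mul_eq_right₀ ((Matrix.isUnit_iff_isUnit_det C).mp hC).ne_zero).mp hd.symm) with h1 | h1
    · exact Or.inl (by rw [hz, h1, one_smul])
    · refine Or.inr ⟨?_, by rw [hz, h1, neg_one_smul]⟩
      rw [h1, neg_one_mul] at ht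
      exact (mul_eq_zero.mp (show (2 : E) * C.trace = 0 by linear_combination ht)).resolve_left h2
  refine ⟨fun x hx => ?_, index_eq_ite _ _ (fun x => ?_) (fun x y hx hy => ?_) (fun h0 => ?_)⟩
  · obtain ⟨P, hP, rfl⟩ := pglMk_surjective x
    exact (hst P hP).mpr ⟨1, one_ne_zero, by rw [one_smul]; exact (mem_torus_iff hC hP).mp hx⟩
  · obtain ⟨P, hP, hx⟩ := pglMk_surjective x.1
    have hmem := hx ▸ x.2
    obtain ⟨z, -, hz⟩ := (hst P hP).mp hmem
    rcases hsign P hP z hz with h | h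
    · exact Or.inl (show x.1 ∈ torus C from hx ▸ (mem_torus_iff hC hP).mpr h)
    · exact Or.inr h.1
  · obtain ⟨P, hP, hxP⟩ := pglMk_surjective x.1
    obtain ⟨Q, hQ, hyQ⟩ := pglMk_surjective y.1
    have anti : ∀ (R : Matrix (Fin 2) (Fin 2) E) (hR : IsUnit R) (u : MulAction.stabilizer (PGLF E)
        (Twisted.of (MonoidHom.id _) (pglMk C hC))), pglMk R hR = u.1 → u.1 ∉ torus C →
        R * C = -(C * R) := fun R hR u hu hnot => by
      obtain ⟨z, -, hz⟩ := (hst R hR).mp (hu ▸ u.2)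
      exact ((hsign R hR z hz).resolve_left
        fun h => hnot (hu ▸ (mem_torus_iff hC hR).mpr h)).2
    have h1 := anti P hP x hxP hx
    have h3 := anti Q hQ y hyQ hy
    show x.1 * y.1 ∈ torus C
    rw [← hxP, ← hyQ, pglMk_mul]
    refine (mem_torus_iff hC _).mpr ?_
    rw [Matrix.mul_assoc, h3, Matrix.mul_neg, ← Matrix.mul_assoc, h1, Matrix.neg_mul, neg_neg,
      Matrix.mul_assoc]
  · obtain ⟨R, hR, hRC⟩ := exists_anti hreg h0
    refine ⟨⟨pglMk R hR, (hst R hR).mpr ⟨-1, by simp, by rw [neg_one_smul]; exact hRC⟩⟩,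
      fun h => ?_⟩
    have hcm := (mem_torus_iff hC hR).mp h
    rw [hcm] at hRC
    have h2C : (2 : E) • (C * R) = 0 := by rw [two_smul]; exact eq_neg_iff_add_eq_zero.mp hRC
    exact (hC.mul hR).ne_zero ((smul_eq_zero.mp h2C).resolve_left h2)

open scoped Classical in
/-- The twisted centraliser contains the rational torus with index two in trace zero. -/
theorem index_twisted (hσ : IsCubicTwist σ) (h2 : (2 : M) ≠ 0) {C : Matrix (Fin 2) (Fin 2) E}
    (hC : IsUnit C) (hreg : C.trace ^ 2 ≠ 4 * C.det) {d : PGLF M}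
    (hd : pglNorm σ d = pglMap (algebraMap E M) (pglMk C hC)) :
    (torus C).map (pglMap (algebraMap E M)) ≤
        MulAction.stabilizer (PGLF M) (Twisted.of (pglTwist σ) d) ∧
      (((torus C).map (pglMap (algebraMap E M))).subgroupOf
        (MulAction.stabilizer (PGLF M) (Twisted.of (pglTwist σ) d))).index =
        if C.trace = 0 then 2 else 1 := by
  obtain ⟨B, hB, z, hz, rfl, hN⟩ := rational_norm_lift hd
  have hCd : C.det ≠ 0 := ((Matrix.isUnit_iff_isUnit_det C).mp hC).ne_zero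
  obtain ⟨e, he, -, hN', hBc⟩ := commute_of_scalar_norm hσ h2 hB hCd hz hN
  have hreg' : (e • C).trace ^ 2 ≠ 4 * (e • C).det := by
    rw [Matrix.trace_smul, Matrix.det_smul, Fintype.card_fin, smul_eq_mul]
    intro h
    exact hreg (mul_left_cancel₀ (pow_ne_zero 2 he) (by linear_combination h))
  have heM : algebraMap E M e ≠ 0 := by simpa using he
  have hmap : (e • C).map (algebraMap E M) = algebraMap E M e • C.map (algebraMap E M) := by
    ext i j
    simp
  have hmemT : ∀ (g : Matrix (Fin 2) (Fin 2) M) (hg : IsUnit g),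
      g * C.map (algebraMap E M) = C.map (algebraMap E M) * g →
      pglMk g hg ∈ MulAction.stabilizer (PGLF M) (Twisted.of (pglTwist σ) (pglMk B hB)) →
      pglMk g hg ∈ (torus C).map (pglMap (algebraMap E M)) := by
    intro g hg hgC hmem
    obtain ⟨w, -, hw⟩ := (smul_mk_iff hg hB hB).mp (MulAction.mem_stabilizer_iff.mp hmem)
    have hgc' : Commute ((e • C).map (algebraMap E M)) g := by
      rw [hmap]
      exact (show Commute (C.map (algebraMap E M)) g from hgC.symm).smul_left _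
    have hBc' : Commute ((e • C).map (algebraMap E M)) B := by
      rw [hmap]
      exact hBc.smul_left _
    obtain ⟨u, P, hu, hP, hPC, rfl⟩ := exists_rational_of_fixed hσ hreg' hB hg hBc' hgc' hw
    refine ⟨pglMk P hP, (mem_torus_iff hC hP).mpr ?_, ?_⟩
    · rw [Matrix.mul_smul, Matrix.smul_mul] at hPC
      exact smul_right_injective _ he hPC
    · rw [pglMap_mk, pglMk_eq_iff]
      exact ⟨u, hu, rfl⟩
  have anti : ∀ (R : Matrix (Fin 2) (Fin 2) M) (hR : IsUnit R),
      pglMk R hR ∈ MulAction.stabilizer (PGLF M) (Twisted.of (pglTwist σ) (pglMk B hB)) →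
      pglMk R hR ∉ (torus C).map (pglMap (algebraMap E M)) →
      C.trace = 0 ∧ R * C.map (algebraMap E M) = -(C.map (algebraMap E M) * R) := by
    intro R hR hmem hnot
    obtain ⟨w, -, hw⟩ := (smul_mk_iff hR hB hB).mp (MulAction.mem_stabilizer_iff.mp hmem)
    rcases conj_sign hσ ((Matrix.det_smul C e).symm ▸
      mul_ne_zero (pow_ne_zero _ he) hCd) hR hN' hw with hcom | ⟨ht, hant⟩ | h0
    · rw [hmap] at hcom
      refine absurd (hmemT R hR ?_ hmem) hnot
      have := hcom.eq
      rw [Matrix.smul_mul, Matrix.mul_smul] at this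
      exact (smul_right_injective _ heM this).symm
    · rw [hmap, Matrix.mul_smul, Matrix.smul_mul, ← smul_neg] at hant
      refine ⟨?_, smul_right_injective _ heM hant⟩
      rw [Matrix.trace_smul, smul_eq_mul] at ht
      exact (mul_eq_zero.mp ht).resolve_left he
    · exact absurd h0 h2
  refine ⟨fun x hx => ?_, index_eq_ite _ _ (fun x => ?_) (fun x y hx hy => ?_) (fun h0 => ?_)⟩
  · obtain ⟨p, hp, rfl⟩ := hx
    obtain ⟨P, hP, rfl⟩ := pglMk_surjective p
    have hPC := (mem_torus_iff hC hP).mp hp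
    rw [pglMap_mk, MulAction.mem_stabilizer_iff, smul_mk_iff]
    refine ⟨1, one_ne_zero, ?_⟩
    rw [one_smul, twist_algebraMap]
    exact commute_comm hreg
      (show Commute (C.map (algebraMap E M)) (P.map (algebraMap E M)) by
        show _ * _ = _ * _
        rw [← Matrix.map_mul, ← Matrix.map_mul, hPC]) hBc
  · obtain ⟨R, hR, hx⟩ := pglMk_surjective x.1
    by_cases hnot : pglMk R hR ∈ (torus C).map (pglMap (algebraMap E M))
    · exact Or.inl (show x.1 ∈ (torus C).map (pglMap (algebraMap E M)) from hx ▸ hnot)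
    · exact Or.inr (anti R hR (hx ▸ x.2) hnot).1
  · obtain ⟨R, hR, hxR⟩ := pglMk_surjective x.1
    obtain ⟨S, hS, hyS⟩ := pglMk_surjective y.1
    have h1 := (anti R hR (hxR ▸ x.2) (hxR ▸ hx)).2
    have h3 := (anti S hS (hyS ▸ y.2) (hyS ▸ hy)).2
    have hm : pglMk R hR * pglMk S hS ∈
        MulAction.stabilizer (PGLF M) (Twisted.of (pglTwist σ) (pglMk B hB)) :=
      hxR.symm ▸ hyS.symm ▸ mul_mem x.2 y.2
    show x.1 * y.1 ∈ (torus C).map (pglMap (algebraMap E M))
    rw [← hxR, ← hyS]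
    rw [pglMk_mul] at hm ⊢
    refine hmemT _ _ ?_ hm
    rw [Matrix.mul_assoc, h3, Matrix.mul_neg, ← Matrix.mul_assoc, h1, Matrix.neg_mul, neg_neg,
      Matrix.mul_assoc]
  · obtain ⟨H, hH, hHC⟩ := exists_anti hreg h0
    have hanti : H * (e • C) = -((e • C) * H) := by
      rw [Matrix.mul_smul, Matrix.smul_mul, hHC, smul_neg]
    obtain ⟨g, w, hg, hw, hgB, hgC⟩ := exists_other_component hσ hreg' hB hN' hH hanti
    rw [hmap, Matrix.mul_smul, Matrix.smul_mul, ← smul_neg] at hgC
    refine ⟨⟨pglMk g hg, MulAction.mem_stabilizer_iff.mpr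
      ((smul_mk_iff hg hB hB).mpr ⟨w, hw, hgB⟩)⟩, fun hin => ?_⟩
    obtain ⟨p, hp, hpg⟩ := (hin : pglMk g hg ∈ (torus C).map (pglMap (algebraMap E M)))
    obtain ⟨P, hP, rfl⟩ := pglMk_surjective p
    have hpg' : pglMap (algebraMap E M) (pglMk P hP) = pglMk g hg := hpg
    rw [pglMap_mk, pglMk_eq_iff] at hpg'
    obtain ⟨u, hu, rfl⟩ := hpg'
    have hPC := (mem_torus_iff hC hP).mp hp
    have hcm : P.map (algebraMap E M) * C.map (algebraMap E M) =
        C.map (algebraMap E M) * P.map (algebraMap E M) := by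
      rw [← Matrix.map_mul, ← Matrix.map_mul, hPC]
    have := smul_right_injective _ heM hgC
    rw [Matrix.smul_mul, Matrix.mul_smul, hcm, ← smul_neg] at this
    have h4 := smul_right_injective _ hu this
    have h2C : (2 : M) • (C.map (algebraMap E M) * P.map (algebraMap E M)) = 0 := by
      rw [two_smul]
      exact eq_neg_iff_add_eq_zero.mp h4
    exact ((isUnit_map_matrix _ hC).mul (isUnit_map_matrix _ hP)).ne_zero
      ((smul_eq_zero.mp h2C).resolve_left h2)

end FLTAgent.LanglandsTunnell.Trace
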