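import Fermat.Agent.LanglandsTunnell.Trace.Chain

/-!
# Splitting weights at infinity into nonnegative parts

A complex weight is a combination of four nonnegative ones; a triple convolution is the same
combination of the nonnegative chain convolutions `lconv` (`triple_parts`).
-/

set_option autoImplicit false

noncomputable section

namespace FLTAgent.LanglandsTunnell.Trace

open FLTAgent.LanglandsTunnell MeasureTheory Set
open scoped ENNReal

/-- The four nonnegative parts of a complex weight. -/
def cpart (k : ℝ → ℂ) (j : Fin 4) (x : ℝ) : ℝ :=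
  ![max (k x).re 0, max (-(k x).re) 0, max (k x).im 0, max (-(k x).im) 0] j

/-- The units of the four parts. -/
def cunit : Fin 4 → ℂ := ![1, -1, Complex.I, -Complex.I]

theorem sum_cpart (k : ℝ → ℂ) (x : ℝ) : k x = ∑ j, cunit j * (cpart k j x : ℂ) := by
  have h : ∀ r : ℝ, max r 0 - max (-r) 0 = r := fun r => by
    rcases le_total r 0 with h | h
    · rw [max_eq_right h, max_eq_left (neg_nonneg.mpr h)]; ring
    · rw [max_eq_left h, max_eq_right (neg_nonpos.mpr h)]; ring
  apply Complex.ext <;> simp [Fin.sum_univ_four, cunit, cpart] <;>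
    linarith [h (k x).re, h (k x).im]

theorem cpart_nonneg (k : ℝ → ℂ) (j : Fin 4) (x : ℝ) : 0 ≤ cpart k j x := by
  fin_cases j <;> simp [cpart]

theorem continuous_cpart {k : ℝ → ℂ} (hk : Continuous k) (j : Fin 4) : Continuous (cpart k j) := by
  have hr := Complex.continuous_re.comp hk
  have hi := Complex.continuous_im.comp hk
  fin_cases j
  · exact hr.max continuous_const
  · exact hr.neg.max continuous_const
  · exact hi.max continuous_const
  · exact hi.neg.max continuous_const

theorem hasCompactSupport_cpart {k : ℝ → ℂ} (hk : HasCompactSupport k) (j : Fin 4) :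
    HasCompactSupport (cpart k j) := by
  refine hk.mono fun x hx h => hx ?_
  fin_cases j <;> simp [cpart, h]

/-- An invariant continuous on `[1, ∞)` times a compactly supported one is integrable. -/
theorem integrable_outer {F m : ℝ → ℂ} (hF : ContinuousOn F (Ici 1)) (hm : Continuous m)
    (hms : HasCompactSupport m) (x y : H3) :
    Integrable (fun Q => F (H3.coshDist x Q) * m (H3.coshDist Q y)) H3.volH3 := by
  obtain ⟨B, hB⟩ := exists_radius hms
  refine Continuous.integrable_of_hasCompactSupport ?_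
    (HasCompactSupport.intro (isCompact_ball y B) fun Q hQ => ?_)
  · exact (hF.comp_continuous
      (continuous_coshDist (f := fun _ => x) (g := fun Q => Q) continuous_const continuous_id)
      fun Q => H3.one_le_coshDist x Q).mul
      (hm.comp (continuous_coshDist (f := fun Q => Q) (g := fun _ => y) continuous_id
        continuous_const))
  · by_contra h
    refine hQ ?_
    show H3.coshDist y Q ≤ B
    rw [H3.coshDist_comm]
    exact hB _ _ (right_ne_zero_of_mul h)

/-- The triple convolution of nonnegative weights is computed by `lconv`. -/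
theorem triple_ofReal {k l m : ℝ → ℝ} (hk : Continuous k) (hks : HasCompactSupport k)
    (hl : Continuous l) (hm : Continuous m) (hms : HasCompactSupport m)
    (hk0 : ∀ x, 0 ≤ k x) (hl0 : ∀ x, 0 ≤ l x) (hm0 : ∀ x, 0 ≤ m x) (c : ℝ) :
    lconv (lconv (fun x => ENNReal.ofReal (k x)) (fun x => ENNReal.ofReal (l x)))
        (fun x => ENNReal.ofReal (m x)) c ≠ ∞ ∧
      h3conv (h3conv (fun x => (k x : ℂ)) (fun x => (l x : ℂ))) (fun x => (m x : ℂ)) c =
        ((lconv (lconv (fun x => ENNReal.ofReal (k x)) (fun x => ENNReal.ofReal (l x)))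
          (fun x => ENNReal.ofReal (m x)) c).toReal : ℂ) := by
  set L := lconv (fun x => ENNReal.ofReal (k x)) (fun x => ENNReal.ofReal (l x)) with hL
  set y := axisPoint (Real.exp (Real.arcosh (max c 1))) (Real.exp_pos _)
  have hkl := fun d => h3conv_ofReal hk hks hl hk0 hl0 d
  have hF : ContinuousOn (h3conv (fun x => (k x : ℂ)) (fun x => (l x : ℂ))) (Ici 1) :=
    continuousOn_h3conv (Complex.continuous_ofReal.comp hk) (hks.comp_left Complex.ofReal_zero)
      (Complex.continuous_ofReal.comp hl)
  have hi := integrable_outer hF (m := fun x => (m x : ℂ)) (Complex.continuous_ofReal.comp hm)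
    (hms.comp_left Complex.ofReal_zero) H3.base y
  have he : ∀ Q, h3conv (fun x => (k x : ℂ)) (fun x => (l x : ℂ)) (H3.coshDist H3.base Q) *
      (m (H3.coshDist Q y) : ℂ) =
      (((L (H3.coshDist H3.base Q)).toReal * m (H3.coshDist Q y) : ℝ) : ℂ) := fun Q => by
    rw [(hkl _).2, Complex.ofReal_mul]
  have hi' : Integrable (fun Q => (L (H3.coshDist H3.base Q)).toReal * m (H3.coshDist Q y))
      H3.volH3 := by
    refine hi.re.congr (Filter.Eventually.of_forall fun Q => ?_)
    simp only [he Q]
    exact Complex.ofReal_re _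
  have hnn : ∀ Q, 0 ≤ (L (H3.coshDist H3.base Q)).toReal * m (H3.coshDist Q y) := fun Q =>
    mul_nonneg ENNReal.toReal_nonneg (hm0 _)
  have hlc : lconv L (fun x => ENNReal.ofReal (m x)) c = ENNReal.ofReal (unitClamp c) *
      ENNReal.ofReal (∫ Q, (L (H3.coshDist H3.base Q)).toReal * m (H3.coshDist Q y) ∂H3.volH3) := by
    rw [ofReal_integral_eq_lintegral_ofReal hi' (Filter.Eventually.of_forall hnn)]
    refine congrArg (ENNReal.ofReal (unitClamp c) * ·) ?_
    refine lintegral_congr fun Q => ?_
    rw [ENNReal.ofReal_mul ENNReal.toReal_nonneg, ENNReal.ofReal_toReal (hkl _).1]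
  refine ⟨hlc ▸ ENNReal.mul_ne_top ENNReal.ofReal_ne_top ENNReal.ofReal_ne_top, ?_⟩
  rw [hlc, ENNReal.toReal_mul, ENNReal.toReal_ofReal (unitClamp_nonneg c),
    ENNReal.toReal_ofReal (integral_nonneg hnn), Complex.ofReal_mul, ← integral_complex_ofReal]
  exact congrArg ((unitClamp c : ℂ) * ·) (integral_congr_ae (Filter.Eventually.of_forall he))

/-- A good triple of weights. -/
def GoodTriple (k : Fin 3 → ℝ → ℂ) : Prop := ∀ i, Continuous (k i) ∧ HasCompactSupport (k i)

variable {k : Fin 3 → ℝ → ℂ}

/-- The nonnegative parts of a triple. -/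
def triplePart (k : Fin 3 → ℝ → ℂ) (j : Fin 3 → Fin 4) (i : Fin 3) (x : ℝ) : ℝ≥0∞ :=
  ENNReal.ofReal (cpart (k i) (j i) x)

theorem h3conv_linear_left {J : Type*} [Fintype J] (b : J → ℂ) {F : J → ℝ → ℂ} {G m : ℝ → ℂ}
    (hG : ∀ d, 1 ≤ d → G d = ∑ j, b j * F j d) (hF : ∀ j, ContinuousOn (F j) (Ici 1))
    (hm : Continuous m) (hms : HasCompactSupport m) (c : ℝ) :
    h3conv G m c = ∑ j, b j * h3conv (F j) m c := by
  set y := axisPoint (Real.exp (Real.arcosh (max c 1))) (Real.exp_pos _)
  calc h3conv G m c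
      = (unitClamp c : ℂ) * ∫ Q, ∑ j,
        b j * (F j (H3.coshDist H3.base Q) * m (H3.coshDist Q y)) ∂H3.volH3 := by
        refine congrArg ((unitClamp c : ℂ) * ·) ?_
        refine integral_congr_ae (Filter.Eventually.of_forall fun Q => ?_)
        show G (H3.coshDist H3.base Q) * m _ = _
        rw [hG _ (H3.one_le_coshDist _ _), Finset.sum_mul]
        exact Finset.sum_congr rfl fun j _ => mul_assoc _ _ _
    _ = ∑ j, b j * h3conv (F j) m c := by
        rw [integral_finsetSum _ fun j _ => (integrable_outer (hF j) hm hms _ _).const_mul _,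
          Finset.mul_sum]
        refine Finset.sum_congr rfl fun j _ => ?_
        rw [integral_const_mul, mul_left_comm]
        rfl

/-- The complex triple convolution in nonnegative parts. -/
theorem triple_parts (hk : GoodTriple k) (c : ℝ) :
    h3conv (h3conv (k 0) (k 1)) (k 2) c = ∑ j0 : Fin 4, ∑ j1 : Fin 4, ∑ j2 : Fin 4,
      cunit j0 * cunit j1 * cunit j2 *
        ((lconv (lconv (triplePart k ![j0, j1, j2] 0) (triplePart k ![j0, j1, j2] 1))
          (triplePart k ![j0, j1, j2] 2) c).toReal : ℂ) := by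
  set P : Fin 3 → Fin 4 → ℝ → ℂ := fun i j x => (cpart (k i) j x : ℂ)
  have hP : ∀ i j, Continuous (P i j) ∧ HasCompactSupport (P i j) := fun i j =>
    ⟨Complex.continuous_ofReal.comp (continuous_cpart (hk i).1 j),
      (hasCompactSupport_cpart (hk i).2 j).comp_left Complex.ofReal_zero⟩
  have hs : ∀ i, k i = fun x => ∑ j, cunit j * P i j x := fun i => funext (sum_cpart (k i))
  have h2 : ∀ c, h3conv (k 0) (k 1) c =
      ∑ p : Fin 4 × Fin 4, cunit p.1 * cunit p.2 * h3conv (P 0 p.1) (P 1 p.2) c := by
    intro c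
    rw [hs 0, h3conv_sum_left _ _ (fun j => (hP 0 j).1) (fun j => (hP 0 j).2) (hk 1).1,
      Fintype.sum_prod_type]
    refine Finset.sum_congr rfl fun j0 _ => ?_
    show cunit j0 * h3conv (P 0 j0) (k 1) c = _
    rw [h3conv_comm, hs 1, h3conv_sum_left _ _ (fun j => (hP 1 j).1) (fun j => (hP 1 j).2)
      (hP 0 j0).1, Finset.mul_sum]
    exact Finset.sum_congr rfl fun j1 _ => by rw [h3conv_comm (P 0 j0)]; ring
  have hFc : ∀ p : Fin 4 × Fin 4, ContinuousOn (h3conv (P 0 p.1) (P 1 p.2)) (Ici 1) :=
    fun p => continuousOn_h3conv (hP 0 _).1 (hP 0 _).2 (hP 1 _).1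
  rw [h3conv_linear_left _ (fun d _ => h2 d) hFc (hk 2).1 (hk 2).2, Fintype.sum_prod_type]
  refine Finset.sum_congr rfl fun j0 _ => Finset.sum_congr rfl fun j1 _ => ?_
  set A := h3conv (P 0 j0) (P 1 j1)
  have hlin : h3conv A (k 2) c = ∑ j2, cunit j2 * h3conv A (P 2 j2) c := by
    calc h3conv A (k 2) c
        = (unitClamp c : ℂ) * ∫ Q, ∑ j2,
          cunit j2 * (A (H3.coshDist H3.base Q) * P 2 j2 (H3.coshDist Q
            (axisPoint (Real.exp (Real.arcosh (max c 1))) (Real.exp_pos _)))) ∂H3.volH3 := by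
          refine congrArg ((unitClamp c : ℂ) * ·) ?_
          refine integral_congr_ae (Filter.Eventually.of_forall fun Q => ?_)
          show A _ * k 2 _ = _
          rw [sum_cpart (k 2), Finset.mul_sum]
          exact Finset.sum_congr rfl fun j2 _ => by simp only [P, H3.base, axisPoint]; ring
      _ = _ := by
          rw [integral_finsetSum _ fun j2 _ => (integrable_outer
            (hFc (j0, j1)) (hP 2 j2).1 (hP 2 j2).2 _ _).const_mul _, Finset.mul_sum]
          refine Finset.sum_congr rfl fun j2 _ => ?_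
          rw [integral_const_mul, mul_left_comm]
          rfl
  rw [hlin, Finset.mul_sum]
  refine Finset.sum_congr rfl fun j2 _ => ?_
  show cunit j0 * cunit j1 * (cunit j2 * h3conv (h3conv (P 0 j0) (P 1 j1)) (P 2 j2) c) = _
  rw [(triple_ofReal (continuous_cpart (hk 0).1 j0) (hasCompactSupport_cpart (hk 0).2 j0)
    (continuous_cpart (hk 1).1 j1) (continuous_cpart (hk 2).1 j2)
    (hasCompactSupport_cpart (hk 2).2 j2) (cpart_nonneg _ _) (cpart_nonneg _ _)
    (cpart_nonneg _ _) c).2, ← mul_assoc]
  rfl

end FLTAgent.LanglandsTunnell.Trace
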