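import Fermat.Agent.LanglandsTunnell.Trace.Displacement
import Fermat.Agent.LanglandsTunnell.Trace.InfParts
import Fermat.Agent.LanglandsTunnell.Internal

/-!
# Kernels of combinations as combinations of nonnegative kernels

Hecke words become counts, weights at infinity are split into parts, and the periodised (possibly
twisted) kernels become finite combinations of sums of nonnegative densities.
-/

set_option autoImplicit false

noncomputable section

namespace FLTAgent.LanglandsTunnell.Trace

open FLTAgent.LanglandsTunnell FLTAgent.LanglandsTunnell.Geom NumberField Matrix MeasureTheory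
open scoped ENNReal

variable {F : Type} [Field F] [NumberField F] {ι : Type} [Fintype ι] {n : Ideal (𝓞 F)}

/-- The number of Hecke paths of a word. -/
def wordCount (n : Ideal (𝓞 F)) : List (Ideal (𝓞 F)) → FinPt F n → FinPt F n → ℕ
  | [], v, v' => by classical exact if v = v' then 1 else 0
  | w :: ws, v, v' => ∑ᶠ u ∈ nbrs n w v, wordCount n ws u v'

theorem wordKernel_eq (hn : n ≠ ⊥) {ws : List (Ideal (𝓞 F))} (hws : ∀ w ∈ ws, w ≠ ⊥)
    (v v' : FinPt F n) : wordKernel n ws v v' = (wordCount n ws v v' : ℂ) := by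
  induction ws generalizing v with
  | nil =>
    simp only [wordKernel, wordCount]
    split_ifs <;> simp
  | cons w ws ih =>
    have hfin := finite_nbrs hn (hws w List.mem_cons_self) v
    simp only [wordKernel, wordCount]
    rw [finsum_mem_eq_finite_toFinset_sum _ hfin, finsum_mem_eq_finite_toFinset_sum _ hfin,
      Nat.cast_sum]
    exact Finset.sum_congr rfl fun u _ => ih (fun x hx => hws x (List.mem_cons_of_mem _ hx)) u

theorem wordCount_smul (ws : List (Ideal (𝓞 F))) (h : GL (Fin 2) (AF F)) (v v' : FinPt F n) :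
    wordCount n ws (h • v) (h • v') = wordCount n ws v v' := by
  induction ws generalizing v with
  | nil =>
    classical
    simp only [wordCount]
    exact if_congr (MulAction.injective h).eq_iff rfl rfl
  | cons w ws ih =>
    simp only [wordCount, nbrs_smul (F := F) h v]
    rw [finsum_mem_image (MulAction.injective h).injOn]
    exact finsum_congr fun u => finsum_congr fun _ => ih u

theorem wordCount_finite (hn : n ≠ ⊥) {ws : List (Ideal (𝓞 F))} (hws : ∀ w ∈ ws, w ≠ ⊥)
    (v : FinPt F n) : {v' | wordCount n ws v v' ≠ 0}.Finite := by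
  induction ws generalizing v with
  | nil =>
    refine (Set.finite_singleton v).subset fun v' h => ?_
    simp only [wordCount, Set.mem_ofPred_eq, ne_eq, ite_eq_right_iff, Classical.not_imp] at h
    exact h.1.symm
  | cons w ws ih =>
    refine (((finite_nbrs hn (hws w List.mem_cons_self) v).biUnion fun u _ =>
      ih (fun x hx => hws x (List.mem_cons_of_mem _ hx)) u)).subset fun v' h => ?_
    simp only [wordCount, Set.mem_ofPred_eq] at h
    obtain ⟨u, hu, hu'⟩ := exists_ne_zero_of_finsum_mem_ne_zero h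
    exact Set.mem_biUnion hu hu'

/-- A count of pairs followed by a word. -/
def preCount (ρ : FinPt F n → FinPt F n → ℕ) (ws : List (Ideal (𝓞 F))) (v v' : FinPt F n) : ℕ :=
  ∑ᶠ u, ρ v u * wordCount n ws u v'

variable {ρ : FinPt F n → FinPt F n → ℕ}

theorem preCount_smul (hρ : ∀ (h : GL (Fin 2) (AF F)) v u, ρ (h • v) (h • u) = ρ v u)
    (ws : List (Ideal (𝓞 F))) (h : GL (Fin 2) (AF F)) (v v' : FinPt F n) :
    preCount ρ ws (h • v) (h • v') = preCount ρ ws v v' := by
  rw [preCount, ← finsum_comp_equiv (MulAction.toPerm h)]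
  exact finsum_congr fun u => by rw [MulAction.toPerm_apply, hρ, wordCount_smul]

theorem preCount_finite (hn : n ≠ ⊥) (hfin : ∀ v, {u | ρ v u ≠ 0}.Finite)
    {ws : List (Ideal (𝓞 F))} (hws : ∀ w ∈ ws, w ≠ ⊥) (v : FinPt F n) :
    {v' | preCount ρ ws v v' ≠ 0}.Finite := by
  refine ((hfin v).biUnion fun u _ => wordCount_finite hn hws u).subset fun v' h => ?_
  obtain ⟨u, hu⟩ : ∃ u, ρ v u * wordCount n ws u v' ≠ 0 := by
    by_contra h0
    push Not at h0
    exact h (finsum_eq_zero_of_forall_eq_zero h0)
  exact Set.mem_biUnion (left_ne_zero_of_mul hu) (right_ne_zero_of_mul hu)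

/-- The nonnegative density of a count and weights at infinity. -/
def pairDensity (cnt : FinPt F n → FinPt F n → ℕ) (k : ι → ℝ → ℝ≥0∞) (x y : Pt F ι n) : ℝ≥0∞ :=
  (cnt x.1 y.1 : ℝ≥0∞) * ∏ i, k i (H3.coshDist (x.2 i) (y.2 i))

variable (Φ : PlaceChoice F ι)

omit [NumberField F] in
theorem pairDensity_act {cnt : FinPt F n → FinPt F n → ℕ}
    (hcnt : ∀ (h : GL (Fin 2) (AF F)) v u, cnt (h • v) (h • u) = cnt v u) (k : ι → ℝ → ℝ≥0∞)
    (γ : GL (Fin 2) F) (x y : Pt F ι n) :
    pairDensity cnt k (act Φ γ x) (act Φ γ y) = pairDensity cnt k x y := by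
  simp only [pairDensity, act, hcnt, H3.moebius_eq_smul, H3.coshDist_smul]

/-- The parts of the weights of a term. -/
def termPart (T : Term F ι) (j : ι → Fin 4) (i : ι) (c : ℝ) : ℝ≥0∞ :=
  ENNReal.ofReal (cpart (T.inf i) (j i) c)

/-- The coefficient of a part of a term. -/
def termCoeff (T : Term F ι) (j : ι → Fin 4) : ℂ := T.coeff * ∏ i, cunit (j i)

theorem kernel_parts [DecidableEq ι] (T : Term F ι) (v : FinPt F n) (x y : Pt F ι n) (hn : n ≠ ⊥)
    (hws : ∀ w ∈ T.word, w ≠ ⊥) :
    T.kernel n (v, x.2) y = ∑ j : ι → Fin 4, termCoeff T j *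
      ((pairDensity (wordCount n T.word) (termPart T j) (v, x.2) y).toReal : ℂ) := by
  simp only [Term.kernel, wordKernel_eq hn hws]
  rw [Finset.prod_congr rfl fun i _ => sum_cpart (T.inf i) _, Fintype.prod_sum, Finset.mul_sum]
  refine Finset.sum_congr rfl fun j _ => ?_
  simp only [pairDensity, termPart, termCoeff, ENNReal.toReal_mul, ENNReal.toReal_prod,
    ENNReal.toReal_natCast, ENNReal.toReal_ofReal (cpart_nonneg _ _ _), Complex.ofReal_mul,
    Complex.ofReal_natCast, Complex.ofReal_prod, Finset.prod_mul_distrib]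
  ring

omit [NumberField F] in
theorem pairDensity_preCount (hfin : ∀ v, {u | ρ v u ≠ 0}.Finite) (ws : List (Ideal (𝓞 F)))
    {k : ι → ℝ → ℝ≥0∞} (hk : ∀ i c, k i c ≠ ∞) (x y : Pt F ι n) :
    (pairDensity (preCount ρ ws) k x y).toReal =
      ∑ u ∈ (hfin x.1).toFinset, (ρ x.1 u : ℝ) *
        (pairDensity (wordCount n ws) k (u, x.2) y).toReal := by
  have he : preCount ρ ws x.1 y.1 =
      ∑ u ∈ (hfin x.1).toFinset, ρ x.1 u * wordCount n ws u y.1 :=
    finsum_eq_sum_of_support_subset _ fun u hu =>
      (hfin x.1).mem_toFinset.mpr (left_ne_zero_of_mul (Function.mem_support.mp hu))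
  simp only [pairDensity, he, ENNReal.toReal_mul, ENNReal.toReal_natCast, Nat.cast_sum,
    Nat.cast_mul, Finset.sum_mul, mul_assoc]
  rw [ENNReal.toReal_sum fun u _ => ENNReal.mul_ne_top (ENNReal.natCast_ne_top _)
    (ENNReal.mul_ne_top (ENNReal.natCast_ne_top _) (ENNReal.prod_ne_top fun i _ => hk i _))]
  simp only [ENNReal.toReal_mul, ENNReal.toReal_natCast]

/-- A periodised kernel preceded by a count is a combination of sums of densities. -/
theorem finsum_periodise_eq [DecidableEq ι] (hn : n ≠ ⊥)
    (hfin : ∀ v, {u | ρ v u ≠ 0}.Finite) (C : Comb F ι)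
    (hC : ∀ T ∈ C, ∀ w ∈ T.word, w ≠ ⊥) (x y : Pt F ι n)
    (hloc : ∀ T ∈ C, ∀ (j : ι → Fin 4) (u : FinPt F n),
      {q : PGLF F | pairDensity (wordCount n T.word) (termPart T j) (u, x.2)
        (act Φ q.out y) ≠ 0}.Finite) :
    ∑ᶠ u, (ρ x.1 u : ℂ) * Kernel.periodise Φ (C.kernel n) (u, x.2) y =
      ∑ T : Fin C.length, ∑ j : ι → Fin 4, termCoeff C[T] j *
        ((∑' q : PGLF F, pairDensity (preCount ρ C[T].word) (termPart C[T] j) x
          (act Φ q.out y)).toReal : ℂ) := by
  classical
  set U := (hfin x.1).toFinset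
  rw [finsum_eq_sum_of_support_subset _ (s := U) fun u hu => (hfin x.1).mem_toFinset.mpr
    (Nat.cast_ne_zero.mp (left_ne_zero_of_mul (Function.mem_support.mp hu)))]
  have htop : ∀ (T : Term F ι) j cnt (a b : Pt F ι n),
      pairDensity cnt (termPart T j) a b ≠ ∞ := fun T j cnt a b =>
    ENNReal.mul_ne_top (ENNReal.natCast_ne_top _)
      (ENNReal.prod_ne_top fun i _ => ENNReal.ofReal_ne_top)
  have hfinT : ∀ (T : Fin C.length) (j : ι → Fin 4) (u : FinPt F n),
      Function.HasFiniteSupport fun q : PGLF F =>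
        (pairDensity (wordCount n C[T].word) (termPart C[T] j) (u, x.2) (act Φ q.out y)).toReal :=
    fun T j u => (hloc C[T] (List.getElem_mem _) j u).subset fun q hq h => hq (by
      simp only at h ⊢
      rw [h, ENNReal.toReal_zero])
  have hterm : ∀ u : FinPt F n, Kernel.periodise Φ (C.kernel n) (u, x.2) y =
      ∑ T : Fin C.length, ∑ j : ι → Fin 4, termCoeff C[T] j *
        ((∑' q : PGLF F, (pairDensity (wordCount n C[T].word) (termPart C[T] j) (u, x.2)
          (act Φ q.out y)).toReal : ℝ) : ℂ) := by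
    intro u
    have hs : ∀ (T : Fin C.length) (j : ι → Fin 4), Summable fun q : PGLF F =>
        termCoeff C[T] j * (((pairDensity (wordCount n C[T].word) (termPart C[T] j) (u, x.2)
          (act Φ q.out y)).toReal : ℝ) : ℂ) := fun T j =>
      summable_of_hasFiniteSupport ((hfinT T j u).subset fun q hq h => hq (by
        simp only at h ⊢
        rw [h]
        simp))
    have he : ∀ q : PGLF F, C.kernel n (u, x.2) (act Φ q.out y) =
        ∑ T : Fin C.length, ∑ j : ι → Fin 4, termCoeff C[T] j *
          (((pairDensity (wordCount n C[T].word) (termPart C[T] j) (u, x.2)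
            (act Φ q.out y)).toReal : ℝ) : ℂ) := fun q => by
      rw [Comb.kernel, ← List.sum_ofFn]
      congr 1
      refine List.ext_getElem (by simp) fun i h1 h2 => ?_
      simp only [List.getElem_map, List.getElem_ofFn]
      exact kernel_parts _ _ x _ hn (hC _ (List.getElem_mem _))
    simp only [Kernel.periodise, he]
    rw [Summable.tsum_finsetSum fun T _ => summable_sum fun j _ => hs T j]
    refine Finset.sum_congr rfl fun T _ => ?_
    rw [Summable.tsum_finsetSum fun j _ => hs T j]
    refine Finset.sum_congr rfl fun j _ => ?_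
    rw [tsum_mul_left, Complex.ofReal_tsum]
  simp only [hterm, Finset.mul_sum]
  rw [Finset.sum_comm]
  refine Finset.sum_congr rfl fun T _ => ?_
  rw [Finset.sum_comm]
  refine Finset.sum_congr rfl fun j _ => ?_
  rw [ENNReal.tsum_toReal_eq fun q => htop _ _ _ _ _]
  simp only [pairDensity_preCount hfin _ (k := termPart C[T] j) (fun i c => ENNReal.ofReal_ne_top)]
  rw [Summable.tsum_finsetSum fun u _ =>
    (summable_of_hasFiniteSupport (hfinT T j u)).mul_left _]
  simp only [tsum_mul_left, Complex.ofReal_sum, Complex.ofReal_mul, Complex.ofReal_natCast,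
    Finset.mul_sum]
  exact Finset.sum_congr rfl fun u _ => by ring

omit [NumberField F] in
theorem coe_out_smul (a : GL (Fin 2) (AF F)) (v : FinPt F n) :
    (((a • v : FinPt F n).out : GL (Fin 2) (AF F)) : FinPt F n) =
      ((a * v.out : GL (Fin 2) (AF F)) : FinPt F n) := by
  rw [QuotientGroup.out_eq']
  conv_lhs => rw [← QuotientGroup.out_eq' v]
  rfl

end FLTAgent.LanglandsTunnell.Trace
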