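import Fermat.Agent.LanglandsTunnell.Trace.ClassIndex
import Fermat.Agent.LanglandsTunnell.Trace.InfParts
import Fermat.Agent.LanglandsTunnell.Local.RamifiedPrimes

/-!
# The twist of the sextic field and the three place kernel

An automorphism of `M` over `E` (`Local.overE`) is a cubic twist permuting the three places without
fixed place; `triKer` is the point pair invariant obtained from three weights along the chain.
-/

set_option autoImplicit false

noncomputable section

namespace FLTAgent.LanglandsTunnell.Trace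

open FLTAgent.LanglandsTunnell NumberField Matrix MeasureTheory Set
open FLTAgent.LanglandsTunnell.Local (overE)
open scoped FLTAgent.LanglandsTunnell.Isolation ENNReal

variable {D : Datum} {σ : D.M ≃ₐ[ℚ] D.M}

/-- A nontrivial automorphism over `E` is a cubic twist. -/
theorem isCubicTwist_overE (hfix : ∀ x, σ (D.incl x) = D.incl x) (hne : σ ≠ AlgEquiv.refl) :
    IsCubicTwist (overE hfix) :=
  have h := Local.cubicData hne hfix
  ⟨h.cube, h.fixed, h.ne_id⟩

/-- The permutation of the three places has no fixed place and order three. -/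
theorem placePerm_spec (P : ExtPlaces D) (hfix : ∀ x, σ (D.incl x) = D.incl x)
    (hne : σ ≠ AlgEquiv.refl) {e : Fin 3 ≃ Fin 3}
    (he : ∀ i, P.placesM.emb (e i) = (P.placesM.emb i).comp σ.toAlgHom.toRingHom) :
    (∀ i, e i ≠ i) ∧ ∀ i, e (e (e i)) = i := by
  have hinj : Function.Injective P.placesM.emb := fun i j h =>
    P.placesM.bijective.1 (by simp only [h])
  refine ⟨fun i hi => hne (AlgEquiv.ext fun x => ?_), fun i => hinj (RingHom.ext fun x => ?_)⟩
  · have h := RingHom.congr_fun (he i) x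
    rw [hi] at h
    exact ((P.placesM.emb i).injective h).symm
  · have h3 : σ (σ (σ x)) = x := (isCubicTwist_overE hfix hne).cube x
    conv_rhs => rw [← h3]
    simp only [he, RingHom.comp_apply]
    rfl

/-- The kernel of three nonnegative invariants on the plain side, continuous on the line. -/
def triKer (k : Fin 3 → ℝ → ℝ) (c : ℝ) : ℝ :=
  (h3conv (h3conv (fun x => (k 0 x : ℂ)) (fun x => (k 1 x : ℂ))) (fun x => (k 2 x : ℂ)) c).re

variable {k : Fin 3 → ℝ → ℝ}

/-- Nonnegative continuous compactly supported weights. -/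
def GoodParts (k : Fin 3 → ℝ → ℝ) : Prop :=
  ∀ i, Continuous (k i) ∧ HasCompactSupport (k i) ∧ ∀ x, 0 ≤ k i x

theorem GoodParts.cast (hk : GoodParts k) (i : Fin 3) :
    Continuous (fun x => (k i x : ℂ)) ∧ HasCompactSupport (fun x => (k i x : ℂ)) :=
  ⟨Complex.continuous_ofReal.comp (hk i).1, (hk i).2.1.comp_left Complex.ofReal_zero⟩

theorem continuous_triKer (hk : GoodParts k) : Continuous (triKer k) :=
  Complex.continuous_re.comp (continuous_h3conv
    (continuous_h3conv (hk.cast 0).1 (hk.cast 0).2 (hk.cast 1).1)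
    (hasCompactSupport_h3conv (hk.cast 0).2 (hk.cast 1).2) (hk.cast 2).1)

theorem hasCompactSupport_triKer (hk : GoodParts k) : HasCompactSupport (triKer k) :=
  (hasCompactSupport_h3conv (hasCompactSupport_h3conv (hk.cast 0).2 (hk.cast 1).2)
    (hk.cast 2).2).comp_left Complex.zero_re

/-- At every vertex the chain kernel is `triKer`. -/
theorem triKer_eq (hk : GoodParts k) {e : Fin 3 ≃ Fin 3} (he : ∀ j, e j ≠ j)
    (h3 : ∀ j, e (e (e j)) = j) (i : Fin 3) (c : ℝ) :
    chainKernel e (fun i x => ENNReal.ofReal (k i x)) i c = ENNReal.ofReal (triKer k c) ∧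
      (h3conv (h3conv (fun x => (k 0 x : ℂ)) (fun x => (k 1 x : ℂ))) (fun x => (k 2 x : ℂ)) c) =
        (triKer k c : ℂ) ∧ 0 ≤ triKer k c := by
  have key : ∀ a b d : Fin 3,
      lconv (lconv (fun x => ENNReal.ofReal (k a x)) (fun x => ENNReal.ofReal (k b x)))
          (fun x => ENNReal.ofReal (k d x)) c ≠ ∞ ∧
        h3conv (h3conv (fun x => (k a x : ℂ)) (fun x => (k b x : ℂ))) (fun x => (k d x : ℂ)) c =
          ((lconv (lconv (fun x => ENNReal.ofReal (k a x)) (fun x => ENNReal.ofReal (k b x)))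
            (fun x => ENNReal.ofReal (k d x)) c).toReal : ℂ) := fun a b d =>
    triple_ofReal (hk a).1 (hk a).2.1 (hk b).1 (hk d).1 (hk d).2.1 (hk a).2.2 (hk b).2.2
      (hk d).2.2 c
  have rot : ∀ a b d : Fin 3,
      h3conv (h3conv (fun x => (k a x : ℂ)) (fun x => (k b x : ℂ))) (fun x => (k d x : ℂ)) =
        h3conv (h3conv (fun x => (k b x : ℂ)) (fun x => (k d x : ℂ))) (fun x => (k a x : ℂ)) :=
    fun a b d => by
      rw [h3conv_assoc (hk.cast a).1 (hk.cast a).2 (hk.cast b).1 (hk.cast d).1 (hk.cast d).2,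
        h3conv_comm]
  have swap : ∀ a b d : Fin 3,
      h3conv (h3conv (fun x => (k a x : ℂ)) (fun x => (k b x : ℂ))) (fun x => (k d x : ℂ)) =
        h3conv (h3conv (fun x => (k b x : ℂ)) (fun x => (k a x : ℂ))) (fun x => (k d x : ℂ)) :=
    fun a b d => by rw [h3conv_comm (fun x => (k a x : ℂ))]
  have hre : triKer k c = ((lconv (lconv (fun x => ENNReal.ofReal (k 0 x))
      (fun x => ENNReal.ofReal (k 1 x))) (fun x => ENNReal.ofReal (k 2 x)) c).toReal) := by
    rw [triKer, (key 0 1 2).2, Complex.ofReal_re]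
  refine ⟨?_, ?_, hre ▸ ENNReal.toReal_nonneg⟩
  · rw [hre, ← (ENNReal.toReal_eq_toReal_iff' (key i (e i) (e (e i))).1 (key 0 1 2).1).mp ?_,
      ENNReal.ofReal_toReal (key i (e i) (e (e i))).1]
    · rfl
    refine Complex.ofReal_injective ?_
    rw [← (key _ _ _).2, ← (key 0 1 2).2]
    obtain ⟨h1, h2, h4, -⟩ := chain_indices he h3 i
    have hall : ∀ i a b : Fin 3, a ≠ i → b ≠ i → b ≠ a →
        (i = 0 ∧ a = 1 ∧ b = 2) ∨ (i = 1 ∧ a = 2 ∧ b = 0) ∨ (i = 2 ∧ a = 0 ∧ b = 1) ∨
        (i = 0 ∧ a = 2 ∧ b = 1) ∨ (i = 1 ∧ a = 0 ∧ b = 2) ∨ (i = 2 ∧ a = 1 ∧ b = 0) := by decide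
    rcases hall i (e i) (e (e i)) h1 h2 h4 with
      ⟨hi, ha, hb⟩ | ⟨hi, ha, hb⟩ | ⟨hi, ha, hb⟩ | ⟨hi, ha, hb⟩ | ⟨hi, ha, hb⟩ | ⟨hi, ha, hb⟩ <;>
      rw [hb, ha, hi]
    · rw [← rot 0 1 2]
    · rw [rot 2 0 1]
    · rw [swap 0 2 1, rot 2 0 1]
    · rw [swap 1 0 2]
    · rw [swap 2 1 0, ← rot 0 1 2]
  · rw [(key 0 1 2).2, hre]

end FLTAgent.LanglandsTunnell.Trace
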