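import Fermat.Agent.LanglandsTunnell.Trace.Side
import Fermat.Agent.LanglandsTunnell.Trace.Setting

/-!
# The trivial and the cubic twist of the points

`plainTwist` is the identity of the points over `E`, `cubicTwist` the automorphism of the points
over `M`; a cusp fixed by a twisted element is fixed by its norm (`norm_fix_of_fix`).
-/

set_option autoImplicit false

noncomputable section

namespace FLTAgent.LanglandsTunnell.Trace

open FLTAgent.LanglandsTunnell FLTAgent.LanglandsTunnell.Geom NumberField Matrix MeasureTheory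
open FLTAgent.LanglandsTunnell.Local (overE)
open scoped ENNReal FLTAgent.LanglandsTunnell.Isolation

section Generic

variable {F : Type} [Field F] [NumberField F]

omit [NumberField F] in
theorem comp_ne_zero (f : F →+* F) {v : Fin 2 → F} (hv : v ≠ 0) : f ∘ v ≠ 0 := fun h =>
  hv (funext fun j => f.injective ((congrFun h j).trans (map_zero f).symm))

/-- The action of an automorphism on cusps. -/
def cuspMap (f : F →+* F) (c : Cusp F) : Cusp F :=
  Projectivization.mk F (f ∘ c.rep) (comp_ne_zero f c.rep_nonzero)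

omit [NumberField F] in
theorem cuspMap_mk (f : F →+* F) {v : Fin 2 → F} (hv : v ≠ 0) :
    cuspMap f (Projectivization.mk F v hv) = Projectivization.mk F (f ∘ v) (comp_ne_zero f hv) := by
  obtain ⟨a, ha⟩ := Projectivization.exists_smul_eq_mk_rep F v hv
  rw [cuspMap, Projectivization.mk_eq_mk_iff']
  refine ⟨f (a : F), funext fun j => ?_⟩
  rw [← ha]
  simp [Units.smul_def]

omit [NumberField F] in
theorem cuspMap_smul (f : F →+* F) (q : PGLF F) (c : Cusp F) :
    cuspMap f (q • c) = pglMap f q • cuspMap f c := by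
  obtain ⟨g, rfl⟩ := QuotientGroup.mk_surjective q
  induction c using Projectivization.ind with | _ v hv => ?_
  show cuspMap f ((g : PGLF F) • Projectivization.mk F v hv) =
    (GeneralLinearGroup.map f g : PGLF F) • cuspMap f (Projectivization.mk F v hv)
  rw [cusp_smul_mk, cusp_smul_mk, Projectivization.smul_mk, cuspMap_mk, cuspMap_mk,
    Projectivization.smul_mk, Projectivization.mk_eq_mk_iff']
  refine ⟨1, ?_⟩
  rw [one_smul]
  funext j
  show ((GeneralLinearGroup.map f g).val *ᵥ (f ∘ v)) j = f ((g.val *ᵥ v) j)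
  rw [RingHom.map_mulVec]
  rfl

omit [NumberField F] in
theorem cuspMap_cube {f : F →+* F} (h : ∀ x, f (f (f x)) = x) (c : Cusp F) :
    cuspMap f (cuspMap f (cuspMap f c)) = c := by
  induction c using Projectivization.ind with | _ v hv => ?_
  rw [cuspMap_mk, cuspMap_mk, cuspMap_mk, Projectivization.mk_eq_mk_iff']
  exact ⟨1, by rw [one_smul]; funext j; exact (h (v j)).symm⟩

end Generic

section Plain

variable {F : Type} [Field F] [NumberField F] {ι : Type} [Fintype ι] {n : Ideal (𝓞 F)}

/-- No twist. -/
def plainTwist (Φ : PlaceChoice F ι) (hn : n ≠ ⊥) : SideTwist Φ n where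
  θ := MonoidHom.id _
  θc := id
  τ := id
  measurable := measurable_id
  act_comm _ _ := rfl
  height _ _ := rfl
  flow_comm _ _ := rfl
  count _T hT B L := exists_encard_le_id Φ hn hT B L

end Plain

section Cubic

variable {D : Datum} {σ : D.M ≃ₐ[ℚ] D.M} {e : Fin 3 ≃ Fin 3}

/-- The twist of the sextic side. -/
def cubicTwist (P : ExtPlaces D) (hfix : ∀ x, σ (D.incl x) = D.incl x)
    (he : ∀ i, P.placesM.emb (e i) = (P.placesM.emb i).comp σ.toAlgHom.toRingHom) {N' : ℕ}
    (hN' : N' ≠ 0) : SideTwist P.placesM (Ideal.span {(N' : 𝓞 D.M)}) where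
  θ := pglTwist (overE hfix)
  θc := cuspMap σ.toAlgHom.toRingHom
  τ := sigmaPt σ.toAlgHom.toRingHom e
  measurable := by
    have : Countable (FinPt D.M (Ideal.span {(N' : 𝓞 D.M)})) :=
      countable_finPt (by simp [hN'])
    exact ((measurable_of_countable fun v : FinPt D.M (Ideal.span {(N' : 𝓞 D.M)}) =>
        ((GeneralLinearGroup.map (mapAF σ.toAlgHom.toRingHom).toRingHom v.out :
          GL (Fin 2) (AF D.M)) : FinPt D.M (Ideal.span {(N' : 𝓞 D.M)}))).comp
      measurable_fst).prodMk
      (measurable_pi_lambda _ fun i => (measurable_pi_apply (e i)).comp measurable_snd)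
  act_comm q x := by
    conv_rhs => rw [← q.out_eq]
    show _ = act P.placesM
      ((GeneralLinearGroup.map σ.toAlgHom.toRingHom q.out : GL (Fin 2) D.M) : PGLF D.M).out _
    rw [act_out, LanglandsTunnell.Geom.sigmaPt_act P.placesM σ.toAlgHom.toRingHom
      (map_span_natCast_le _ N') e he]
  height c x := by
    rw [cuspMap, logHeight_mk, height_sigmaPt P.placesM _ e he x c.rep_nonzero]
    rfl
  flow_comm _ _ := rfl
  count _T hT B L := exists_encard_le_sigmaPt P.placesM (by simp [hN']) hT B L _
    (map_span_natCast_le _ N') e he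

variable {P : ExtPlaces D} {hfix : ∀ x, σ (D.incl x) = D.incl x}
  {he : ∀ i, P.placesM.emb (e i) = (P.placesM.emb i).comp σ.toAlgHom.toRingHom} {N' : ℕ}
  {hN' : N' ≠ 0}

/-- A cusp fixed by a twisted element is fixed by its norm. -/
theorem norm_fix_of_fix (h3 : ∀ x, σ (σ (σ x)) = x) {d : PGLF D.M} {c : Cusp D.M}
    (h : d • (cubicTwist P hfix he hN').θc c = c) : pglNorm (overE hfix) d • c = c := by
  set f : D.M →+* D.M := σ.toAlgHom.toRingHom
  have hd : d • cuspMap f c = c := h
  have h1 : pglTwist (overE hfix) d • cuspMap f (cuspMap f c) = cuspMap f c := by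
    rw [← show cuspMap f (d • cuspMap f c) =
      pglTwist (overE hfix) d • cuspMap f (cuspMap f c) from cuspMap_smul f _ _, hd]
  have h2 : pglTwist (overE hfix) (pglTwist (overE hfix) d) • c =
      cuspMap f (cuspMap f c) := by
    conv_lhs => rw [← cuspMap_cube (f := f) h3 c]
    rw [← show cuspMap f (pglTwist (overE hfix) d • cuspMap f (cuspMap f c)) =
      pglTwist (overE hfix) (pglTwist (overE hfix) d) • cuspMap f (cuspMap f (cuspMap f c)) from
        cuspMap_smul f _ _, h1]
  rw [pglNorm, mul_smul, mul_smul, h2, h1, hd]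

end Cubic

end FLTAgent.LanglandsTunnell.Trace
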