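import Fermat.Agent.LanglandsTunnell.Trace.RamCount
import Fermat.Agent.LanglandsTunnell.Trace.Twists
import Fermat.Agent.LanglandsTunnell.Trace.KernelParts
import Fermat.Agent.LanglandsTunnell.Isolation.DescComb

/-!
# Kernels of the two sides as combinations of side densities

Both the twisted diagonal and the diagonal of the descended kernel are finite combinations of
periodised nonnegative side densities.
-/

set_option autoImplicit false

noncomputable section

namespace FLTAgent.LanglandsTunnell.Trace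

open FLTAgent.LanglandsTunnell FLTAgent.LanglandsTunnell.Geom NumberField Matrix MeasureTheory
open FLTAgent.LanglandsTunnell.Local (lvM lvE)
open scoped ENNReal

section General

variable {F : Type} [Field F] [NumberField F] {ι : Type} [Fintype ι] {n : Ideal (𝓞 F)}

/-- The real parts of the weights of a term. -/
def parts (T : Term F ι) (j : ι → Fin 4) (i : ι) : ℝ → ℝ := cpart (T.inf i) (j i)

omit [Fintype ι] in
theorem goodPair_wordCount (hn : n ≠ ⊥) {ws : List (Ideal (𝓞 F))} (hws : ∀ w ∈ ws, w ≠ ⊥)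
    {k : ι → ℝ → ℝ} (hk : ∀ i, Continuous (k i)) (hks : ∀ i, HasCompactSupport (k i)) :
    GoodPair (wordCount n ws) k :=
  ⟨fun h v u => wordCount_smul ws h v u, wordCount_finite hn hws, hk, hks⟩

omit [NumberField F] [Fintype ι] in
theorem continuous_parts {T : Term F ι}
    (hT : ∀ i, Continuous (T.inf i) ∧ HasCompactSupport (T.inf i)) (j : ι → Fin 4) (i : ι) :
    Continuous (parts T j i) :=
  continuous_cpart (hT i).1 _

omit [NumberField F] [Fintype ι] in
theorem hasCompactSupport_parts {T : Term F ι}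
    (hT : ∀ i, Continuous (T.inf i) ∧ HasCompactSupport (T.inf i)) (j : ι → Fin 4) (i : ι) :
    HasCompactSupport (parts T j i) :=
  hasCompactSupport_cpart (hT i).2 _

omit [NumberField F] in
theorem goodParts_parts {T : Term F (Fin 3)}
    (hT : ∀ i, Continuous (T.inf i) ∧ HasCompactSupport (T.inf i)) (j : Fin 3 → Fin 4) :
    GoodParts (parts T j) :=
  fun i => ⟨continuous_parts hT j i, hasCompactSupport_parts hT j i, cpart_nonneg _ _⟩

omit [NumberField F] in
/-- The kernel of a combination is the sum over its terms. -/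
theorem kernel_eq_sum_fin (L : Comb F ι) (x y : Pt F ι n) :
    L.kernel n x y = ∑ i : Fin L.length, Comb.kernel n [L[i]] x y := by
  rw [Comb.kernel, ← List.sum_ofFn]
  congr 1
  refine List.ext_getElem (by simp) fun i h1 h2 => ?_
  simp [Comb.kernel]

/-- Periodising is additive over the terms. -/
theorem periodise_eq_sum_fin (Φ : PlaceChoice F ι) (hn : n ≠ ⊥) {L : Comb F ι}
    (hL : L.Good fun w => w ≠ ⊥) (x y : Pt F ι n) :
    Kernel.periodise Φ (L.kernel n) x y =
      ∑ i : Fin L.length, Kernel.periodise Φ (Comb.kernel n [L[i]]) x y := by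
  simp only [Kernel.periodise, kernel_eq_sum_fin L]
  refine Summable.tsum_finsetSum fun i _ => summable_of_hasFiniteSupport
    ((LanglandsTunnell.Isolation.isNice_of_good Φ hn (C := [L[i]]) fun T hT =>
      ?_).finite_support x y)
  rw [List.mem_singleton.mp hT]
  exact hL _ (List.getElem_mem _)

theorem triKer_nonneg {k : Fin 3 → ℝ → ℝ} (hk : GoodParts k) (c : ℝ) : 0 ≤ triKer k c := by
  rw [triKer, (triple_ofReal (hk 0).1 (hk 0).2.1 (hk 1).1 (hk 2).1 (hk 2).2.1 (hk 0).2.2
    (hk 1).2.2 (hk 2).2.2 c).2, Complex.ofReal_re]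
  exact ENNReal.toReal_nonneg

omit [NumberField F] in
/-- The triple convolution of a term in the real kernels of its parts. -/
theorem triple_eq_sum_triKer {T : Term F (Fin 3)}
    (hT : ∀ i, Continuous (T.inf i) ∧ HasCompactSupport (T.inf i)) (c : ℝ) :
    h3conv (h3conv (T.inf 0) (T.inf 1)) (T.inf 2) c =
      ∑ j : Fin 3 → Fin 4, (∏ i, cunit (j i)) * (triKer (parts T j) c : ℂ) := by
  have key : ∀ j : Fin 3 → Fin 4,
      ((lconv (lconv (triplePart T.inf j 0) (triplePart T.inf j 1))
        (triplePart T.inf j 2) c).toReal :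
        ℂ) = (triKer (parts T j) c : ℂ) := by
    intro j
    have h := goodParts_parts hT j
    have h3 := (triple_ofReal (h 0).1 (h 0).2.1 (h 1).1 (h 2).1 (h 2).2.1 (h 0).2.2 (h 1).2.2
      (h 2).2.2 c).2
    rw [triKer, h3, Complex.ofReal_re]
    rfl
  rw [triple_parts (k := T.inf) hT c]
  let e : Fin 4 × Fin 4 × Fin 4 ≃ (Fin 3 → Fin 4) :=
    { toFun := fun p => ![p.1, p.2.1, p.2.2]
      invFun := fun j => (j 0, j 1, j 2)
      left_inv := fun p => rfl
      right_inv := fun j => funext fun i => by fin_cases i <;> rfl }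
  rw [← e.sum_comp, Fintype.sum_prod_type]
  refine Finset.sum_congr rfl fun a _ => ?_
  rw [Fintype.sum_prod_type]
  refine Finset.sum_congr rfl fun b _ => Finset.sum_congr rfl fun d _ => ?_
  rw [Fin.prod_univ_three, key]
  rfl

end General

section Twisted

variable {D : Datum} {σ : D.M ≃ₐ[ℚ] D.M} {e : Fin 3 ≃ Fin 3} {R : Finset Nat.Primes}
  {N₀ N₁ N N' k Bd : ℕ} (P : ExtPlaces D) (hfix : ∀ x, σ (D.incl x) = D.incl x)
  (he : ∀ i, P.placesM.emb (e i) = (P.placesM.emb i).comp σ.toAlgHom.toRingHom)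

theorem goodPair_preCount (hlev : IsTestLevel D σ k Bd R N₀ N₁ N N') {ws : List (Ideal (𝓞 D.M))}
    (hws : ∀ w ∈ ws, w ≠ ⊥) {κ : Fin 3 → ℝ → ℝ} (hκ : ∀ i, Continuous (κ i))
    (hκs : ∀ i, HasCompactSupport (κ i)) :
    GoodPair (preCount (ramCount D σ R N₀ N₁ N') ws) κ :=
  ⟨fun h v u => preCount_smul ramCount_smul ws h v u,
    preCount_finite (by simp [hlev.ne_zero]) (ramCount_finite hlev) hws, hκ, hκs⟩

include hfix he in
/-- **The twisted diagonal as a combination of side densities.** -/
theorem twistedDiag_parts (hlev : IsTestLevel D σ k Bd R N₀ N₁ N N') {C : Comb D.M (Fin 3)}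
    (hC : C.Good fun w => w ≠ ⊥) (x : Pt D.M (Fin 3) (lvM D N')) :
    twistedDiag P σ e R N₀ N₁ N' C x =
      ∑ T : Fin C.length, ∑ j : Fin 3 → Fin 4, termCoeff C[T] j *
        ((∑' s : Twisted (cubicTwist P hfix he hlev.ne_zero).θ,
          sideDensity (cubicTwist P hfix he hlev.ne_zero)
            (preCount (ramCount D σ R N₀ N₁ N') C[T].word) (parts C[T] j) s x).toReal : ℂ) := by
  classical
  have hn : lvM D N' ≠ ⊥ := by simp [hlev.ne_zero]
  simp only [twistedDiag, ramKernel_eq]
  exact finsum_periodise_eq P.placesM hn (ramCount_finite hlev) C (fun T hT => (hC T hT).2) x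
    (sigmaPt σ.toAlgHom.toRingHom e x) fun T hT j u =>
      finite_joined (goodPair_wordCount hn (hC T hT).2 (continuous_parts (hC T hT).1 j)
        (hasCompactSupport_parts (hC T hT).1 j)) (u, x.2) _

end Twisted

section Plain

variable {D : Datum}

/-- The descended term of a piece. -/
def descTerm (D : Datum) (T : Term D.M (Fin 3)) (b : ℂ × List (Ideal (𝓞 D.E))) : Term D.E Unit :=
  ⟨T.coeff * b.1, b.2, fun _ => h3conv (h3conv (T.inf 0) (T.inf 1)) (T.inf 2)⟩

theorem descComb_eq (C : Comb D.M (Fin 3)) :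
    D.descComb C = C.flatMap fun T => (D.descWord T.word).map (descTerm D T) := rfl

theorem good_descTerm {T : Term D.M (Fin 3)}
    (hT : ∀ i, Continuous (T.inf i) ∧ HasCompactSupport (T.inf i))
    {b : ℂ × List (Ideal (𝓞 D.E))} {ok : Ideal (𝓞 D.E) → Prop} (hb : ∀ v ∈ b.2, ok v) :
    Comb.Good ok [descTerm D T b] := fun S hS => by
  rw [List.mem_singleton.mp hS]
  refine ⟨fun _ => ?_, hb⟩
  have hc := continuous_h3conv (hT 0).1 (hT 0).2 (hT 1).1
  have hs := hasCompactSupport_h3conv (hT 0).2 (hT 1).2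
  exact ⟨continuous_h3conv hc hs (hT 2).1, hasCompactSupport_h3conv hs (hT 2).2⟩

theorem goodPair_triKer {n : Ideal (𝓞 D.E)} (hn : n ≠ ⊥) {T : Term D.M (Fin 3)}
    (hT : ∀ i, Continuous (T.inf i) ∧ HasCompactSupport (T.inf i)) {ws : List (Ideal (𝓞 D.E))}
    (hws : ∀ v ∈ ws, v ≠ ⊥) (j : Fin 3 → Fin 4) :
    GoodPair (wordCount n ws) (fun _ : Unit => triKer (parts T j)) :=
  goodPair_wordCount hn hws (fun _ => continuous_triKer (goodParts_parts hT j))
    fun _ => hasCompactSupport_triKer (goodParts_parts hT j)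

/-- **The descended diagonal as a combination of side densities.** -/
theorem plain_parts (P : ExtPlaces D) {n : Ideal (𝓞 D.E)} (hn : n ≠ ⊥) {T : Term D.M (Fin 3)}
    (hT : ∀ i, Continuous (T.inf i) ∧ HasCompactSupport (T.inf i))
    {b : ℂ × List (Ideal (𝓞 D.E))} (hb : ∀ v ∈ b.2, v ≠ ⊥) (y : Pt D.E Unit n) :
    Kernel.periodise P.placesE (Comb.kernel n [descTerm D T b]) y y =
      ∑ j : Fin 3 → Fin 4, (b.1 * termCoeff T j) *
        ((∑' s : Twisted (plainTwist P.placesE hn).θ, sideDensity (plainTwist P.placesE hn)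
          (wordCount n b.2) (fun _ => triKer (parts T j)) s y).toReal : ℂ) := by
  classical
  set d : (Fin 3 → Fin 4) → PGLF D.E → ℝ≥0∞ := fun j q =>
    pairDensity (wordCount n b.2) (posWeight fun _ : Unit => triKer (parts T j)) y
      (act P.placesE q.out y) with hd
  have hfin : ∀ j, Function.HasFiniteSupport fun q => (d j q).toReal := fun j =>
    (finite_joined (goodPair_triKer hn hT hb j) y y).subset fun q hq h => hq (by
      simp only [hd] at h ⊢
      rw [h, ENNReal.toReal_zero])
  have htop : ∀ j q, d j q ≠ ∞ := fun j q =>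
    ENNReal.mul_ne_top (ENNReal.natCast_ne_top _)
      (ENNReal.prod_ne_top fun i _ => ENNReal.ofReal_ne_top)
  have hk : ∀ q : PGLF D.E, Comb.kernel n [descTerm D T b] y (act P.placesE q.out y) =
      ∑ j : Fin 3 → Fin 4, (b.1 * termCoeff T j) * ((d j q).toReal : ℂ) := by
    intro q
    simp only [Comb.kernel, List.map_cons, List.map_nil, List.sum_cons, List.sum_nil, add_zero,
      Term.kernel, descTerm, wordKernel_eq hn hb, triple_eq_sum_triKer hT, hd, pairDensity,
      posWeight, Fintype.prod_unique, Finset.mul_sum, ENNReal.toReal_mul,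
      ENNReal.toReal_natCast, ENNReal.toReal_ofReal (triKer_nonneg (goodParts_parts hT _) _),
      Complex.ofReal_mul, Complex.ofReal_natCast, termCoeff]
    exact Finset.sum_congr rfl fun j _ => by ring
  show ∑' q : PGLF D.E, Comb.kernel n [descTerm D T b] y (act P.placesE q.out y) = _
  simp only [hk]
  rw [Summable.tsum_finsetSum fun j _ => summable_of_hasFiniteSupport
    ((hfin j).subset fun q hq h => hq (by
      simp only at h ⊢
      rw [h]; simp))]
  refine Finset.sum_congr rfl fun j _ => ?_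
  rw [tsum_mul_left, ← Complex.ofReal_tsum]
  congr 2
  exact (ENNReal.tsum_toReal_eq (htop j)).symm

end Plain

end FLTAgent.LanglandsTunnell.Trace
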