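import Fermat.Agent.LanglandsTunnell.Trace.Decomposition

/-!
# Products of combinations term by term

A killing combination on both ends of a test combination, on both sides of the descent, expanded
into triples of terms.
-/

set_option autoImplicit false

noncomputable section

namespace FLTAgent.LanglandsTunnell.Trace

open FLTAgent.LanglandsTunnell NumberField
open FLTAgent.LanglandsTunnell.Isolation (sum_map_comm h3conv_triple)

variable {F : Type} [Field F] {ι : Type}

/-- The product of three terms. -/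
def tripleTerm (T₁ Tc T₂ : Term F ι) : Term F ι :=
  ⟨T₁.coeff * Tc.coeff * T₂.coeff, T₁.word ++ Tc.word ++ T₂.word,
    fun i => h3conv (h3conv (T₁.inf i) (Tc.inf i)) (T₂.inf i)⟩

theorem mul_mul_eq (K C : Comb F ι) :
    (K.mul C).mul K = K.flatMap fun T₁ => C.flatMap fun Tc => K.map (tripleTerm T₁ Tc) := by
  simp only [Comb.mul, List.flatMap_assoc, List.flatMap_map]
  rfl

theorem good_inf_tripleTerm {T₁ Tc T₂ : Term F ι}
    (h₁ : ∀ i, Continuous (T₁.inf i) ∧ HasCompactSupport (T₁.inf i))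
    (hc : ∀ i, Continuous (Tc.inf i) ∧ HasCompactSupport (Tc.inf i))
    (h₂ : ∀ i, Continuous (T₂.inf i) ∧ HasCompactSupport (T₂.inf i)) (i : ι) :
    Continuous ((tripleTerm T₁ Tc T₂).inf i) ∧ HasCompactSupport ((tripleTerm T₁ Tc T₂).inf i) :=
  ⟨continuous_h3conv (continuous_h3conv (h₁ i).1 (h₁ i).2 (hc i).1)
      (hasCompactSupport_h3conv (h₁ i).2 (hc i).2) (h₂ i).1,
    hasCompactSupport_h3conv (hasCompactSupport_h3conv (h₁ i).2 (hc i).2) (h₂ i).2⟩

variable {D : Datum}

theorem descComb_degreeOne {K : Comb D.M (Fin 3)} (h : ∀ T ∈ K, ∀ w ∈ T.word, D.DegreeOne w) :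
    D.descComb K = K.map fun T => descTerm D T (1, T.word.map D.under) := by
  rw [descComb_eq, List.map_eq_flatMap]
  exact List.flatMap_congr fun T hT => by rw [descWord_degreeOne (h T hT)]; rfl

/-- The descended product of three terms. -/
theorem descTerm_tripleTerm {T₁ Tc T₂ : Term D.M (Fin 3)}
    (h₁ : ∀ i, Continuous (T₁.inf i) ∧ HasCompactSupport (T₁.inf i))
    (hc : ∀ i, Continuous (Tc.inf i) ∧ HasCompactSupport (Tc.inf i))
    (h₂ : ∀ i, Continuous (T₂.inf i) ∧ HasCompactSupport (T₂.inf i))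
    (u₁ u₂ : List (Ideal (𝓞 D.E))) (b : ℂ × List (Ideal (𝓞 D.E))) :
    tripleTerm (descTerm D T₁ (1, u₁)) (descTerm D Tc b) (descTerm D T₂ (1, u₂)) =
      descTerm D (tripleTerm T₁ Tc T₂) (b.1, u₁ ++ b.2 ++ u₂) := by
  simp only [tripleTerm, descTerm, Term.mk.injEq, true_and]
  refine ⟨by ring, funext fun _ => ?_⟩
  have hk : ∀ i, Continuous (h3conv (T₁.inf i) (Tc.inf i)) ∧
      HasCompactSupport (h3conv (T₁.inf i) (Tc.inf i)) := fun i =>
    ⟨continuous_h3conv (h₁ i).1 (h₁ i).2 (hc i).1, hasCompactSupport_h3conv (h₁ i).2 (hc i).2⟩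
  rw [h3conv_triple (a := fun i => h3conv (T₁.inf i) (Tc.inf i)) hk h₂, h3conv_triple h₁ hc]

/-- **The descended product, expanded.** -/
theorem kernel_desc_mul_mul {K C : Comb D.M (Fin 3)} {ok ok' : Ideal (𝓞 D.M) → Prop}
    (hK : K.Good ok) (hC : C.Good ok') (hdeg : ∀ T ∈ K, ∀ w ∈ T.word, D.DegreeOne w)
    (f : Term D.M (Fin 3) → List (ℂ × List (Ideal (𝓞 D.E)))) (n : Ideal (𝓞 D.E)) :
    (((D.descComb K).mul (C.flatMap fun Tc => (f Tc).map (descTerm D Tc))).mul
        (D.descComb K)).kernel n =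
      Comb.kernel n (K.flatMap fun T₁ => C.flatMap fun Tc => K.flatMap fun T₂ =>
        ((f Tc).map fun b => (b.1, T₁.word.map D.under ++ b.2 ++ T₂.word.map D.under)).map
          (descTerm D (tripleTerm T₁ Tc T₂))) := by
  funext x y
  rw [mul_mul_eq, descComb_degreeOne hdeg]
  simp only [Comb.kernel, sum_flatMap_map, List.map_map, Function.comp_def]
  refine congrArg List.sum (List.map_congr_left fun T₁ h₁ =>
    congrArg List.sum (List.map_congr_left fun Tc hc => ?_))
  rw [sum_map_comm]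
  refine congrArg List.sum (List.map_congr_left fun T₂ h₂ =>
    congrArg List.sum (List.map_congr_left fun b _ => ?_))
  rw [descTerm_tripleTerm (hK T₁ h₁).1 (hC Tc hc).1 (hK T₂ h₂).1]

/-- The descent of a triple product, term by term. -/
theorem descComb_mul_mul {K : Comb D.M (Fin 3)} (hdeg : ∀ T ∈ K, ∀ w ∈ T.word, D.DegreeOne w)
    (C : Comb D.M (Fin 3)) :
    D.descComb ((K.mul C).mul K) = K.flatMap fun T₁ => C.flatMap fun Tc => K.flatMap fun T₂ =>
      ((D.descWord Tc.word).map fun b =>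
          (b.1, T₁.word.map D.under ++ b.2 ++ T₂.word.map D.under)).map
        (descTerm D (tripleTerm T₁ Tc T₂)) := by
  rw [descComb_eq, mul_mul_eq]
  simp only [List.flatMap_assoc, List.flatMap_map]
  refine List.flatMap_congr fun T₁ h₁ => List.flatMap_congr fun Tc _ =>
    List.flatMap_congr fun T₂ h₂ => congrArg (List.map _) ?_
  simp only [tripleTerm, LanglandsTunnell.Isolation.descWord_append,
    descWord_degreeOne (hdeg T₁ h₁), descWord_degreeOne (hdeg T₂ h₂)]
  simp [List.map_map, Function.comp_def, ← List.map_eq_flatMap, List.append_assoc]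

/-- The descended sandwich, expanded. -/
theorem kernel_desc_sandwich {K C : Comb D.M (Fin 3)} {ok ok' : Ideal (𝓞 D.M) → Prop}
    (hK : K.Good ok) (hC : C.Good ok') (hdeg : ∀ T ∈ K, ∀ w ∈ T.word, D.DegreeOne w)
    (n : Ideal (𝓞 D.E)) :
    (((D.descComb K).mul (D.descComb C)).mul (D.descComb K)).kernel n =
      (D.descComb ((K.mul C).mul K)).kernel n := by
  rw [descComb_mul_mul hdeg, descComb_eq C]
  exact kernel_desc_mul_mul hK hC hdeg (fun Tc => D.descWord Tc.word) n

end FLTAgent.LanglandsTunnell.Trace
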