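import Fermat.Agent.LanglandsTunnell.Trace.Decomposition

/-!
# Integrability of the two diagonals over fundamental domains

A bound on the periodised kernel makes both diagonals bounded measurable functions, hence
integrable over a domain of finite volume.
-/

set_option autoImplicit false

noncomputable section

namespace FLTAgent.LanglandsTunnell.Trace

open FLTAgent.LanglandsTunnell FLTAgent.LanglandsTunnell.Geom NumberField Matrix MeasureTheory
open FLTAgent.LanglandsTunnell.Local (lvM lvE)
open scoped ENNReal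

attribute [local irreducible] Kernel.periodise Comb.kernel

/-- A bounded periodised kernel is integrable on the diagonal of a fundamental domain. -/
theorem integrableOn_periodise_diag {F : Type} [Field F] [NumberField F] {ι : Type} [Fintype ι]
    {n : Ideal (𝓞 F)} (Φ : PlaceChoice F ι) (hn : n ≠ ⊥) {S : Set (Pt F ι n)}
    (hS : IsFundDomain Φ S) {Y : Comb F ι} (hY : Y.Good fun w => w ≠ ⊥) {B : ℝ}
    (hB : ∀ x y, ‖Kernel.periodise Φ (Y.kernel n) x y‖ ≤ B) :
    IntegrableOn (fun y => Kernel.periodise Φ (Y.kernel n) y y) S volPt := by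
  have := LanglandsTunnell.Isolation.isFiniteMeasure_dom Φ hS
  have hm : Measurable fun y => Kernel.periodise Φ (Y.kernel n) y y :=
    (LanglandsTunnell.Isolation.isNice_of_good Φ hn hY).measurable_periodise.comp
      (measurable_id.prodMk measurable_id)
  exact Integrable.of_bound hm.aestronglyMeasurable B (Filter.Eventually.of_forall fun y => hB y y)

section Twisted

variable {D : Datum} {σ : D.M ≃ₐ[ℚ] D.M} {e : Fin 3 ≃ Fin 3} {R : Finset Nat.Primes}
  {N₀ N₁ N N' k Bd : ℕ}

theorem ramCount_le_one (v v' : FinPt D.M (lvM D N')) : ramCount D σ R N₀ N₁ N' v v' ≤ 1 := by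
  classical
  simp only [ramCount]
  split_ifs <;> simp

/-- The rows of the test count are uniformly small. -/
theorem exists_card_ramCount (hlev : IsTestLevel D σ k Bd R N₀ N₁ N N') :
    ∃ c : ℕ, ∀ v : FinPt D.M (lvM D N'), (ramCount_finite hlev v).toFinset.card ≤ c := by
  classical
  set T := (ramCount_finite hlev ((1 : GL (Fin 2) (AF D.M)) : FinPt D.M (lvM D N'))).toFinset
  refine ⟨T.card, fun v => ?_⟩
  obtain ⟨g, hg⟩ := QuotientGroup.mk_surjective v
  refine (Finset.card_le_card (t := T.image (g • ·)) fun u hu => ?_).trans Finset.card_image_le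
  have hu' := (ramCount_finite hlev v).mem_toFinset.mp hu
  refine Finset.mem_image.mpr ⟨g⁻¹ • u, (Set.Finite.mem_toFinset _).mpr ?_, smul_inv_smul g u⟩
  show ramCount D σ R N₀ N₁ N' _ _ ≠ 0
  rw [← ramCount_smul g, smul_inv_smul, MulAction.Quotient.smul_coe, smul_eq_mul, mul_one, hg]
  exact hu'

theorem twistedDiag_eq_sum (P : ExtPlaces D) (hlev : IsTestLevel D σ k Bd R N₀ N₁ N N')
    (X : Comb D.M (Fin 3)) (x : Pt D.M (Fin 3) (lvM D N')) :
    twistedDiag P σ e R N₀ N₁ N' X x = ∑ u ∈ (ramCount_finite hlev x.1).toFinset,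
      (ramCount D σ R N₀ N₁ N' x.1 u : ℂ) * Kernel.periodise P.placesM (X.kernel (lvM D N'))
        (u, x.2) (sigmaPt σ.toAlgHom.toRingHom e x) := by
  simp only [twistedDiag, ramKernel_eq]
  exact finsum_eq_sum_of_support_subset _ fun u hu => (ramCount_finite hlev x.1).mem_toFinset.mpr
    (Nat.cast_ne_zero.mp (left_ne_zero_of_mul (Function.mem_support.mp hu)))

theorem measurable_twistedDiag (P : ExtPlaces D) (hlev : IsTestLevel D σ k Bd R N₀ N₁ N N')
    {X : Comb D.M (Fin 3)} (hX : X.Good fun w => w ≠ ⊥) :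
    Measurable (twistedDiag P σ e R N₀ N₁ N' X) := by
  have hn : lvM D N' ≠ ⊥ := by simp [hlev.ne_zero]
  have : Countable (FinPt D.M (lvM D N')) := countable_finPt hn
  refine measurable_from_prod_countable_right fun v => ?_
  have hper := (LanglandsTunnell.Isolation.isNice_of_good P.placesM hn hX).measurable_periodise
  have hu : ∀ u : FinPt D.M (lvM D N'), Measurable fun Q : Fin 3 → H3 =>
      (ramCount D σ R N₀ N₁ N' v u : ℂ) * Function.uncurry
        (Kernel.periodise P.placesM (X.kernel (lvM D N')))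
        ((u, Q), sigmaPt σ.toAlgHom.toRingHom e (v, Q)) := fun u => by
    have h1 : Measurable fun Q : Fin 3 → H3 => sigmaPt σ.toAlgHom.toRingHom e
        ((v, Q) : Pt D.M (Fin 3) (lvM D N')) :=
      Measurable.prod (measurable_const (a := (sigmaPt σ.toAlgHom.toRingHom e
          ((v, fun _ => H3.base) : Pt D.M (Fin 3) (lvM D N'))).1))
        (measurable_pi_lambda _ fun i => measurable_pi_apply (e i))
    have h0 : Measurable fun Q : Fin 3 → H3 => ((u, Q) : Pt D.M (Fin 3) (lvM D N')) :=
      measurable_const.prodMk measurable_id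
    exact Measurable.const_mul (Measurable.comp hper (h0.prodMk h1)) _
  have he : (fun Q : Fin 3 → H3 => twistedDiag P σ e R N₀ N₁ N' X (v, Q)) = fun Q =>
      ∑ u ∈ (ramCount_finite hlev v).toFinset, (ramCount D σ R N₀ N₁ N' v u : ℂ) *
        Function.uncurry (Kernel.periodise P.placesM (X.kernel (lvM D N')))
          ((u, Q), sigmaPt σ.toAlgHom.toRingHom e (v, Q)) :=
    funext fun Q => twistedDiag_eq_sum P hlev X (v, Q)
  show Measurable fun Q : Fin 3 → H3 => twistedDiag P σ e R N₀ N₁ N' X (v, Q)
  rw [he]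
  exact Finset.measurable_sum _ fun u _ => hu u

/-- A bounded periodised kernel gives an integrable twisted diagonal. -/
theorem integrableOn_twistedDiag (P : ExtPlaces D) (hlev : IsTestLevel D σ k Bd R N₀ N₁ N N')
    {SM : Set (Pt D.M (Fin 3) (lvM D N'))} (hS : IsFundDomain P.placesM SM)
    {X : Comb D.M (Fin 3)} (hX : X.Good fun w => w ≠ ⊥) {B : ℝ}
    (hB : ∀ x y, ‖Kernel.periodise P.placesM (X.kernel (lvM D N')) x y‖ ≤ B) :
    IntegrableOn (twistedDiag P σ e R N₀ N₁ N' X) SM volPt := by
  have := LanglandsTunnell.Isolation.isFiniteMeasure_dom P.placesM hS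
  obtain ⟨c, hc⟩ := exists_card_ramCount hlev
  refine Integrable.of_bound (measurable_twistedDiag P hlev hX).aestronglyMeasurable (c * B)
    (Filter.Eventually.of_forall fun x => ?_)
  have hB0 : 0 ≤ B := (norm_nonneg _).trans (hB x x)
  rw [twistedDiag_eq_sum P hlev X x]
  refine (norm_sum_le _ _).trans ((Finset.sum_le_sum (g := fun _ => B) fun u _ => ?_).trans ?_)
  · rw [norm_mul, Complex.norm_natCast]
    exact (mul_le_mul (Nat.cast_le.mpr (ramCount_le_one _ _)) (hB _ _) (norm_nonneg _)
      (Nat.cast_nonneg _)).trans (by simp)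
  · rw [Finset.sum_const, nsmul_eq_mul]
    exact mul_le_mul_of_nonneg_right (Nat.cast_le.mpr (hc x.1)) hB0

end Twisted

end FLTAgent.LanglandsTunnell.Trace
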