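import Fermat.Agent.LanglandsTunnell.Trace.Points

/-!
# Heights move boundedly along bounded kernels

Bounded finite translates and points at bounded hyperbolic distance change every logarithmic
height by a bounded amount (`exists_displacement`).
-/

set_option autoImplicit false

noncomputable section

namespace FLTAgent.LanglandsTunnell.Trace

open FLTAgent.LanglandsTunnell FLTAgent.LanglandsTunnell.Geom NumberField Matrix MeasureTheory
open scoped nonZeroDivisors

variable {F : Type} [Field F] [NumberField F] {ι : Type} [Fintype ι] {n : Ideal (𝓞 F)}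

/-- The forms of two points compare up to twice the hyperbolic cosine of the distance. -/
theorem qform_le (P Q : H3) (v : Fin 2 → ℂ) :
    P.qform v ≤ 2 * H3.coshDist Q P * Q.qform v := by
  obtain ⟨g, hQ, hP⟩ := exists_to_axis Q P
  set r := Real.exp (Real.arcosh (H3.coshDist Q P)) with hr_def
  have hr : 0 < r := Real.exp_pos _
  set w := g.val *ᵥ v with hw_def
  have hd : 0 < ‖g.val.det‖ := norm_pos_iff.mpr g.det_ne_zero
  have hcosh : 2 * H3.coshDist Q P = r + r⁻¹ := by
    rw [← H3.coshDist_smul g, hQ, hP, coshDist_base_axis]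
    field_simp
    ring
  have key : (axisPoint r hr).qform w ≤ 2 * H3.coshDist Q P * H3.base.qform w := by
    rw [hcosh]
    simp only [H3.qform, axisPoint, H3.base, zero_mul, sub_zero, one_pow, one_mul, div_one]
    rw [div_le_iff₀ hr, add_mul r r⁻¹, add_mul, mul_right_comm r⁻¹, inv_mul_cancel₀ hr.ne', one_mul]
    nlinarith [Complex.normSq_nonneg (w 0), Complex.normSq_nonneg (w 1), mul_nonneg hr.le hr.le,
      mul_nonneg (mul_nonneg hr.le hr.le) (Complex.normSq_nonneg (w 0))]
  rw [← hP, ← hQ, hw_def, H3.qform_smul, H3.qform_smul, ← mul_assoc,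
    mul_comm (2 * H3.coshDist Q P), mul_assoc] at key
  exact le_of_mul_le_mul_left key hd

theorem abs_log_qform_le {P Q : H3} {B : ℝ} (h : H3.coshDist P Q ≤ B) {v : Fin 2 → ℂ}
    (hv : v ≠ 0) : |Real.log (P.qform v) - Real.log (Q.qform v)| ≤ Real.log (2 * B) := by
  have h1 : 1 ≤ B := (H3.one_le_coshDist P Q).trans h
  have hP := H3.qform_pos P hv
  have hQ := H3.qform_pos Q hv
  have a : P.qform v ≤ 2 * B * Q.qform v :=
    (qform_le P Q v).trans (mul_le_mul_of_nonneg_right (by rw [H3.coshDist_comm]; linarith) hQ.le)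
  have b : Q.qform v ≤ 2 * B * P.qform v :=
    (qform_le Q P v).trans (mul_le_mul_of_nonneg_right (by linarith) hP.le)
  have hB : (2 * B : ℝ) ≠ 0 := by linarith
  have ha := Real.log_le_log hP a
  have hb := Real.log_le_log hQ b
  rw [Real.log_mul hB hQ.ne'] at ha
  rw [Real.log_mul hB hP.ne'] at hb
  rw [abs_le]
  constructor <;> linarith

theorem natCast_coordFrac_le {g h : GL (Fin 2) (AF F)} {M : ℕ} (hh : Bounded M h)
    {v : Fin 2 → F} (hv : v ≠ 0) :
    FractionalIdeal.spanSingleton (𝓞 F)⁰ (M : F) * coordFrac g v ≤ coordFrac (g * h) v :=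
  FractionalIdeal.mul_le.mpr fun a ha c hc => by
    obtain ⟨r, rfl⟩ := (FractionalIdeal.mem_spanSingleton _).mp ha
    rw [mem_coordFrac hv] at hc ⊢
    rw [smul_mul_assoc, smul_assoc]
    refine Submodule.smul_mem _ r ?_
    rw [mem_latt] at hc ⊢
    have h1 : toAF F ∘ (((M : F) * c) • v) = (M : AF F) • (toAF F ∘ (c • v)) := funext fun j => by
      simp [mul_assoc]
    rw [h1, _root_.mul_inv_rev, Units.val_mul, ← Matrix.mulVec_mulVec, Matrix.mulVec_smul,
      Matrix.mulVec_smul, ← Matrix.smul_mulVec]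
    exact hh.2.mulVec hc

theorem natCast_sq_det_le {h : GL (Fin 2) (AF F)} {M : ℕ} (hh : Bounded M h) :
    FractionalIdeal.spanSingleton (𝓞 F)⁰ ((M : F) ^ 2) ≤
      ideleFrac (GeneralLinearGroup.det h) := by
  rw [FractionalIdeal.spanSingleton_le_iff_mem, mem_ideleFrac]
  have := hh.2.det
  rw [Matrix.det_smul, Fintype.card_fin] at this
  rwa [map_pow, map_natCast, ← map_inv, GeneralLinearGroup.val_det_apply]

/-- The logarithm of the norm of `M`. -/
def logNrm (F : Type) [Field F] [NumberField F] (M : ℕ) : ℝ :=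
  Real.log (nrm (FractionalIdeal.spanSingleton (𝓞 F)⁰ (M : F)))

theorem spanSingleton_natCast_ne_zero {M : ℕ} (hM : M ≠ 0) :
    FractionalIdeal.spanSingleton (𝓞 F)⁰ (M : F) ≠ 0 :=
  FractionalIdeal.spanSingleton_ne_zero_iff.mpr (Nat.cast_ne_zero.mpr hM)

theorem abs_log_coordFrac_le {g h : GL (Fin 2) (AF F)} {M : ℕ} (hM : M ≠ 0) (hh : Bounded M h)
    {v : Fin 2 → F} (hv : v ≠ 0) :
    |Real.log (nrm (coordFrac (g * h) v)) - Real.log (nrm (coordFrac g v))| ≤ logNrm F M := by
  have h0 := spanSingleton_natCast_ne_zero (F := F) hM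
  have hg := coordFrac_ne_zero g hv
  have hgh := coordFrac_ne_zero (g * h) hv
  have a := nrm_le_of_le (mul_ne_zero h0 hg) (natCast_coordFrac_le (g := g) hh hv)
  have b' := natCast_coordFrac_le (g := g * h) hh.inv hv
  rw [mul_inv_cancel_right] at b'
  have b := nrm_le_of_le (mul_ne_zero h0 hgh) b'
  rw [nrm_mul] at a b
  have ha := Real.log_le_log (nrm_pos hgh) a
  have hb := Real.log_le_log (nrm_pos hg) b
  rw [Real.log_mul (nrm_pos h0).ne' (nrm_pos hg).ne'] at ha
  rw [Real.log_mul (nrm_pos h0).ne' (nrm_pos hgh).ne'] at hb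
  rw [abs_le, logNrm]
  constructor <;> linarith

theorem abs_log_det_le {h : GL (Fin 2) (AF F)} {M : ℕ} (hM : M ≠ 0) (hh : Bounded M h) :
    |Real.log (nrm (ideleFrac (GeneralLinearGroup.det h)))| ≤ 2 * logNrm F M := by
  have h0 := spanSingleton_natCast_ne_zero (F := F) hM
  have hsq : FractionalIdeal.spanSingleton (𝓞 F)⁰ ((M : F) ^ 2) =
      FractionalIdeal.spanSingleton (𝓞 F)⁰ (M : F) * FractionalIdeal.spanSingleton (𝓞 F)⁰ (M : F) :=
    by rw [FractionalIdeal.spanSingleton_mul_spanSingleton, sq]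
  have a := nrm_le_of_le (hsq ▸ mul_ne_zero h0 h0) (natCast_sq_det_le hh)
  have b := nrm_le_of_le (hsq ▸ mul_ne_zero h0 h0) (natCast_sq_det_le hh.inv)
  rw [hsq, nrm_mul] at a b
  have hd := ideleFrac_mul_inv (GeneralLinearGroup.det h)
  have hd0 := ideleFrac_ne_zero (GeneralLinearGroup.det h)
  have hd1 := ideleFrac_ne_zero ((GeneralLinearGroup.det h)⁻¹)
  rw [map_inv] at b
  have hlog : Real.log (nrm (ideleFrac (GeneralLinearGroup.det h))) +
      Real.log (nrm (ideleFrac (GeneralLinearGroup.det h)⁻¹)) = 0 := by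
    rw [← Real.log_mul (nrm_pos hd0).ne' (nrm_pos hd1).ne', ← nrm_mul, hd, nrm_one, Real.log_one]
  have ha := Real.log_le_log (nrm_pos hd0) a
  have hb := Real.log_le_log (nrm_pos hd1) b
  rw [Real.log_mul (nrm_pos h0).ne' (nrm_pos h0).ne'] at ha hb
  rw [abs_le, logNrm]
  constructor <;> linarith

variable (Φ : PlaceChoice F ι)

theorem logHeight_eq (c : Cusp F) (g : GL (Fin 2) (AF F)) (P : ι → H3) :
    logHeight (n := n) Φ c ((g : FinPt F n), P) =
      Real.log (nrm (ideleFrac (GeneralLinearGroup.det g))) -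
        2 * Real.log (nrm (coordFrac g c.rep)) -
        2 * ∑ i, Real.log ((P i).qform (Φ.emb i ∘ c.rep)) := by
  have hv := c.rep_nonzero
  have hq : ∀ i, 0 < (P i).qform (Φ.emb i ∘ c.rep) := fun i => H3.qform_pos _ fun h => hv (funext
    fun j => (Φ.emb i).injective ((congrFun h j).trans (map_zero _).symm))
  have hI := nrm_pos (coordFrac_ne_zero g hv)
  have hd := nrm_pos (ideleFrac_ne_zero (GeneralLinearGroup.det g))
  rw [logHeight, height_mk, Real.log_inv, sizeFn,
    Real.log_mul (div_pos (pow_pos hI 2) hd).ne'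
      (Finset.prod_pos fun i _ => pow_pos (hq i) 2).ne',
    Real.log_div (pow_pos hI 2).ne' hd.ne', Real.log_pow,
    Real.log_prod fun i _ => (pow_pos (hq i) 2).ne', Finset.mul_sum]
  simp only [Real.log_pow, Nat.cast_ofNat]
  ring

/-- A point and a point in a finite right translate of it at bounded distance have all heights
close. -/
theorem exists_displacement {S : Set (FinPt F n)} (hS : S.Finite) (B : ℝ) :
    ∃ D : ℝ, ∀ (x y : Pt F ι n) (g : GL (Fin 2) (AF F)), (g : FinPt F n) = x.1 →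
      g⁻¹ • y.1 ∈ S → (∀ i, H3.coshDist (x.2 i) (y.2 i) ≤ B) →
      ∀ c, |logHeight Φ c x - logHeight Φ c y| ≤ D := by
  classical
  choose M hM hb using fun s : FinPt F n => exists_bounded s.out
  set N := ∏ s ∈ hS.toFinset, M s
  refine ⟨4 * logNrm F N + 2 * Fintype.card ι * Real.log (2 * B),
    fun x y g hg hy hB c => ?_⟩
  obtain ⟨xf, xi⟩ := x
  obtain ⟨yf, yi⟩ := y
  simp only at hg hy hB
  subst hg
  set h := (g⁻¹ • yf).out
  have hh : Bounded N h := (hb _).mono (Finset.dvd_prod_of_mem M (hS.mem_toFinset.mpr hy))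
  have hN : N ≠ 0 := Finset.prod_ne_zero_iff.mpr fun s _ => hM s
  have hyf : yf = ((g * h : GL (Fin 2) (AF F)) : FinPt F n) := by
    rw [← smul_eq_mul, ← MulAction.Quotient.smul_coe]
    show yf = g • ((g⁻¹ • yf).out : FinPt F n)
    rw [QuotientGroup.out_eq', smul_inv_smul]
  rw [hyf, logHeight_eq, logHeight_eq, map_mul, ideleFrac_mul, nrm_mul,
    Real.log_mul (nrm_pos (ideleFrac_ne_zero _)).ne' (nrm_pos (ideleFrac_ne_zero _)).ne']
  have h1 := abs_le.mp (abs_log_coordFrac_le (g := g) hN hh c.rep_nonzero)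
  have h2 := abs_le.mp (abs_log_det_le hN hh)
  have h3 : |∑ i, Real.log ((xi i).qform (Φ.emb i ∘ c.rep)) -
      ∑ i, Real.log ((yi i).qform (Φ.emb i ∘ c.rep))| ≤ Fintype.card ι * Real.log (2 * B) := by
    rw [← Finset.sum_sub_distrib]
    refine (Finset.abs_sum_le_sum_abs _ _).trans ?_
    refine (Finset.sum_le_card_nsmul _ _ _ fun i _ => abs_log_qform_le (hB i) ?_).trans
      (by rw [Finset.card_univ, nsmul_eq_mul])
    exact fun h0 => c.rep_nonzero (funext fun j =>
      (Φ.emb i).injective ((congrFun h0 j).trans (map_zero _).symm))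
  obtain ⟨h3l, h3r⟩ := abs_le.mp h3
  obtain ⟨h1l, h1r⟩ := h1
  obtain ⟨h2l, h2r⟩ := h2
  rw [abs_le]
  constructor <;> linarith

end FLTAgent.LanglandsTunnell.Trace
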