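import Fermat.Agent.LanglandsTunnell.Trace.Parity
import Fermat.Agent.LanglandsTunnell.Trace.Setting

/-!
# The parity at a marked prime of degree one on the twisted side

The parity summed over the orbit of an automorphism of order three shows that a marked prime
of degree one forces a norm whose determinant is not `±` a square (`twisted_regular`); the
determinant of a test element is a unit (`det_ramElement`).
-/

set_option autoImplicit false

noncomputable section

namespace FLTAgent.LanglandsTunnell.Trace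

open FLTAgent.LanglandsTunnell FLTAgent.LanglandsTunnell.Geom NumberField Matrix
open IsDedekindDomain
open scoped nonZeroDivisors

variable {F : Type} [Field F] [NumberField F]

omit [NumberField F] in
theorem mapAF_id (z : AF F) : mapAF (RingHom.id F) z = z := by
  have h : mapAF (RingHom.id F) = AlgHom.id ℤ (AF F) := by ext <;> simp [mapAF]
  rw [h]
  rfl

theorem mapAF_mapAF {F' F'' : Type} [Field F'] [Field F''] (f : F →+* F') (g : F' →+* F'')
    (z : AF F) : mapAF g (mapAF f z) = mapAF (g.comp f) z :=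
  AlgHom.congr_fun (mapAF_comp f g) z

/-- The image of a uniformizer under an automorphism. -/
theorem isUniformizerAt_map {n : Ideal (𝓞 F)} (f : F ≃+* F)
    (hn : n.map (RingOfIntegers.mapRingHom f.toRingHom) ≤ n) {w : Ideal (𝓞 F)} {π : (AF F)ˣ}
    (hπ : IsUniformizerAt n w π) :
    IsUniformizerAt n (w.map (RingOfIntegers.mapRingHom f.toRingHom))
      (Units.map (mapAF f.toRingHom).toRingHom.toMonoidHom π) := by
  have hinv : ∀ x, mapAF f.symm.toRingHom (mapAF f.toRingHom x) = x := fun x => by
    rw [mapAF_mapAF, show f.symm.toRingHom.comp f.toRingHom = RingHom.id F from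
      RingHom.ext f.symm_apply_apply, mapAF_id]
  have hinv' : ∀ x, mapAF f.toRingHom (mapAF f.symm.toRingHom x) = x := fun x => by
    rw [mapAF_mapAF, show f.toRingHom.comp f.symm.toRingHom = RingHom.id F from
      RingHom.ext f.apply_symm_apply, mapAF_id]
  obtain ⟨h1, h2⟩ := hπ
  refine ⟨?_, ?_⟩
  · have h := idealAF_mono hn (mapAF_mem_idealAF f.toRingHom h1)
    rw [map_sub, map_one] at h
    exact h
  · ext x
    constructor
    · intro hx
      have h := mapAF_mem_idealAF f.symm.toRingHom hx
      rw [Ideal.map_map, show (RingOfIntegers.mapRingHom f.symm.toRingHom).comp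
        (RingOfIntegers.mapRingHom f.toRingHom) = RingHom.id (𝓞 F) from
          RingHom.ext fun a => RingOfIntegers.ext (f.symm_apply_apply a),
        Ideal.map_id, h2] at h
      obtain ⟨y, hy, hyx⟩ := h
      refine ⟨mapAF f.toRingHom y, mapAF_mem_intAF _ hy, ?_⟩
      show mapAF f.toRingHom (π : AF F) * mapAF f.toRingHom y = x
      rw [← map_mul, show (π : AF F) * y = mapAF f.symm.toRingHom x from hyx, hinv']
    · rintro ⟨y, hy, rfl⟩
      have hmem : (π : AF F) * mapAF f.symm.toRingHom y ∈ idealAF F w := by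
        rw [h2]; exact ⟨_, mapAF_mem_intAF _ hy, rfl⟩
      have h := mapAF_mem_idealAF f.toRingHom hmem
      rw [map_mul, hinv'] at h
      exact h

variable (v : HeightOneSpectrum (𝓞 F)) (f : F ≃+* F)

/-- The idele map of an automorphism. -/
def autUnits : (AF F)ˣ →* (AF F)ˣ := Units.map (mapAF f.toRingHom).toRingHom.toMonoidHom

/-- The parity summed over the orbit of an automorphism of order three. -/
def orbitParity : IdeleParity F where
  val z := ((idOrd v z + idOrd v (autUnits f z) + idOrd v (autUnits f (autUnits f z)) : ℤ) : ZMod 2)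
  map_mul a b := by
    simp only [map_mul, idOrd_mul]
    push_cast
    ring
  unit z hz := by
    rw [idOrd_unit v hz, idOrd_unit v (z := autUnits f z) (map_mem_unitAF _ hz),
      idOrd_unit v (z := autUnits f (autUnits f z)) (map_mem_unitAF _ (map_mem_unitAF _ hz))]
    rfl

variable {v f}

theorem orbitParity_aut (h3 : ∀ x, f (f (f x)) = x) (z : (AF F)ˣ) :
    (orbitParity v f).val (autUnits f z) = (orbitParity v f).val z := by
  have hcube : autUnits f (autUnits f (autUnits f z)) = z := Units.ext (by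
    show mapAF f.toRingHom (mapAF f.toRingHom (mapAF f.toRingHom (z : AF F))) = _
    rw [mapAF_mapAF, mapAF_mapAF, show (f.toRingHom.comp f.toRingHom).comp f.toRingHom =
      RingHom.id F from RingHom.ext h3, mapAF_id])
  show ((_ + _ + _ : ℤ) : ZMod 2) = ((_ + _ + _ : ℤ) : ZMod 2)
  rw [hcube]
  congr 1
  ring

/-- The norm of the determinant. -/
theorem orbitParity_toAF (x : Fˣ) :
    (orbitParity v f).val (Units.map (toAF F : F →* AF F) x) =
      ((FractionalIdeal.count F v (FractionalIdeal.spanSingleton (𝓞 F)⁰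
        ((x : F) * f x * f (f x))) : ℤ) : ZMod 2) := by
  have hmap : ∀ y : Fˣ, autUnits f (Units.map (toAF F : F →* AF F) y) =
      Units.map (toAF F : F →* AF F) (Units.map (f : F →* F) y) := fun y =>
    Units.ext (mapAF_toAF f.toRingHom (y : F))
  show ((_ + _ + _ : ℤ) : ZMod 2) = _
  rw [hmap, hmap]
  simp only [idOrd, ideleFrac_toAF, Units.coe_map, MonoidHom.coe_coe]
  rw [← FractionalIdeal.spanSingleton_mul_spanSingleton,
    ← FractionalIdeal.spanSingleton_mul_spanSingleton, FractionalIdeal.count_mul,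
    FractionalIdeal.count_mul] <;>
    simp [FractionalIdeal.spanSingleton_ne_zero_iff, x.ne_zero, map_ne_zero_iff _ f.injective]

open scoped Classical in
/-- The orbit parity of a uniformizer. -/
theorem orbitParity_uniformizer {n : Ideal (𝓞 F)}
    (hn : n.map (RingOfIntegers.mapRingHom f.toRingHom) ≤ n) {w : Ideal (𝓞 F)} (hw : w.IsPrime)
    (hw0 : w ≠ ⊥) {π : (AF F)ˣ} (hπ : IsUniformizerAt n w π) :
    (orbitParity v f).val π = (if v.asIdeal = w then 1 else 0) +
      (if v.asIdeal = w.map (RingOfIntegers.mapRingHom f.toRingHom) then 1 else 0) +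
      (if v.asIdeal = (w.map (RingOfIntegers.mapRingHom f.toRingHom)).map
        (RingOfIntegers.mapRingHom f.toRingHom) then 1 else 0) := by
  have hmap : ∀ {w : Ideal (𝓞 F)}, w.IsPrime → w ≠ ⊥ →
      (w.map (RingOfIntegers.mapRingHom f.toRingHom)).IsPrime ∧
        w.map (RingOfIntegers.mapRingHom f.toRingHom) ≠ ⊥ := by
    intro w hw hw0
    have he : w.map (RingOfIntegers.mapRingHom f.toRingHom) =
        w.map (RingOfIntegers.mapRingEquiv f : 𝓞 F →+* 𝓞 F) := rfl
    refine ⟨he ▸ Ideal.map_isPrime_of_equiv (RingOfIntegers.mapRingEquiv f), fun h => hw0 ?_⟩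
    rw [he] at h
    exact (Ideal.map_eq_bot_iff_of_injective
      (f := (RingOfIntegers.mapRingEquiv f : 𝓞 F →+* 𝓞 F))
        (RingOfIntegers.mapRingEquiv f).injective).mp h
  have h1 := isUniformizerAt_map f hn hπ
  have h2 := isUniformizerAt_map f hn h1
  show ((_ + _ + _ : ℤ) : ZMod 2) = _
  rw [idOrd_uniformizer v hw hw0 hπ]
  unfold autUnits
  rw [idOrd_uniformizer v (hmap hw hw0).1 (hmap hw hw0).2 h1,
    idOrd_uniformizer v (hmap (hmap hw hw0).1 (hmap hw hw0).2).1
      (hmap (hmap hw hw0).1 (hmap hw hw0).2).2 h2]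
  push_cast
  split_ifs <;> simp

section Datum

variable {D : Datum} {σ : D.M ≃ₐ[ℚ] D.M}

theorem orbit_indicator (hfix : ∀ x, σ (D.incl x) = D.incl x)
    (h3 : ∀ x, σ (σ (σ x)) = x) {u₀ w : Ideal (𝓞 D.M)}
    (hw : w = u₀ ∨ D.under w ≠ D.under u₀) :
    open scoped Classical in
    (if u₀ = w then (1 : ZMod 2) else 0) +
      (if u₀ = w.map (RingOfIntegers.mapRingHom σ.toRingEquiv.toRingHom) then 1 else 0) +
      (if u₀ = (w.map (RingOfIntegers.mapRingHom σ.toRingEquiv.toRingHom)).map
        (RingOfIntegers.mapRingHom σ.toRingEquiv.toRingHom) then 1 else 0) =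
      if u₀ = w then 1 else 0 := by
  classical
  set s := RingOfIntegers.mapRingHom σ.toRingEquiv.toRingHom
  have hsss : ∀ I : Ideal (𝓞 D.M), ((I.map s).map s).map s = I := fun I => by
    rw [Ideal.map_map, Ideal.map_map, show (s.comp s).comp s = RingHom.id (𝓞 D.M) from
      RingHom.ext fun a => RingOfIntegers.ext (h3 a), Ideal.map_id]
  have hunder : ∀ I : Ideal (𝓞 D.M), D.under (I.map s) = D.under I := fun I => by
    let se : 𝓞 D.M ≃+* 𝓞 D.M := RingOfIntegers.mapRingEquiv σ.toRingEquiv
    have he : I.map s = I.map (se : 𝓞 D.M →+* 𝓞 D.M) := rfl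
    ext x
    rw [he, Datum.under, Datum.under, Ideal.mem_comap, Ideal.mem_comap, Ideal.map_comap_of_equiv,
      Ideal.mem_comap]
    have hx : se.symm (RingOfIntegers.mapRingHom D.incl x) = RingOfIntegers.mapRingHom D.incl x :=
      se.symm_apply_eq.mpr (RingOfIntegers.ext (hfix x).symm)
    exact iff_of_eq (congrArg (· ∈ I) hx)
  rcases hw with rfl | hw
  · by_cases h : w = w.map s
    · rw [if_pos rfl, ← h, if_pos rfl, ← h, if_pos rfl]
      decide
    · rw [if_pos rfl, if_neg h, if_neg (fun h2 => h (by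
        conv_rhs => rw [h2, hsss]))]
      simp
  · have hne : ∀ I, D.under I = D.under w → u₀ ≠ I := fun I hI h => hw (by rw [h, hI])
    rw [if_neg (hne w rfl), if_neg (hne _ (hunder w)), if_neg (hne _ ((hunder _).trans (hunder w)))]
    simp

/-- The twisted side: a marked degree one prime forces a norm of determinant not `±` a square. -/
theorem twisted_regular (hfix : ∀ x, σ (D.incl x) = D.incl x) (h3 : ∀ x, σ (σ (σ x)) = x)
    {N' : ℕ} {u₀ : Ideal (𝓞 D.M)} (hu : u₀.IsPrime) (hu0 : u₀ ≠ ⊥)
    {W : List (Ideal (𝓞 D.M))} (hW : ∀ w ∈ W, w.IsPrime ∧ w ≠ ⊥)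
    (hsep : ∀ w ∈ W, w = u₀ ∨ D.under w ≠ D.under u₀)
    (hodd : open scoped Classical in (W.map fun w => if u₀ = w then (1 : ZMod 2) else 0).sum = 1)
    {δ : GL (Fin 2) D.M} {g ω : GL (Fin 2) (AF D.M)}
    (hω : GeneralLinearGroup.det ω ∈ unitAF D.M)
    (h : wordCount (Ideal.span {(N' : 𝓞 D.M)}) W
      ((g * ω : GL (Fin 2) (AF D.M)) : FinPt D.M (Ideal.span {(N' : 𝓞 D.M)}))
      ((GeneralLinearGroup.map (toAF D.M) δ *
        GeneralLinearGroup.map (mapAF σ.toRingEquiv.toRingHom).toRingHom g :
          GL (Fin 2) (AF D.M)) : FinPt D.M (Ideal.span {(N' : 𝓞 D.M)})) ≠ 0) :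
    ∀ x : D.M, δ.1.det * σ δ.1.det * σ (σ δ.1.det) ≠ x * x ∧
      δ.1.det * σ δ.1.det * σ (σ δ.1.det) ≠ -(x * x) := by
  intro x
  suffices hmain : ∀ ε : D.M, ε * ε = 1 → δ.1.det * σ δ.1.det * σ (σ δ.1.det) ≠ ε * (x * x) from
    ⟨fun hx => hmain 1 (one_mul 1) (by rw [hx, one_mul]),
      fun hx => hmain (-1) (by ring) (by rw [hx, neg_one_mul])⟩
  intro ε hε hx
  classical
  let v : HeightOneSpectrum (𝓞 D.M) := ⟨u₀, hu, hu0⟩
  set f : D.M ≃+* D.M := σ.toRingEquiv
  have hd := (orbitParity v f).det_word (fun w => if u₀ = w then (1 : ZMod 2) else 0)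
    (fun w hw π hπ => by
      rw [orbitParity_uniformizer (map_span_natCast_le f.toRingHom N') (hW w hw).1 (hW w hw).2 hπ]
      exact orbit_indicator hfix h3 (hsep w hw)) h
  have hdet : GeneralLinearGroup.det (GeneralLinearGroup.map (mapAF f.toRingHom).toRingHom g) =
      autUnits f (GeneralLinearGroup.det g) :=
    Units.ext ((mapAF f.toRingHom).toRingHom.map_det g.1).symm
  rw [_root_.map_mul, (orbitParity v f).map_mul, hdet, orbitParity_aut h3, _root_.map_mul,
    (orbitParity v f).map_mul, (orbitParity v f).unit _ hω, add_zero, hodd,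
    show GeneralLinearGroup.det (GeneralLinearGroup.map (toAF D.M) δ) =
      Units.map (toAF D.M : D.M →* AF D.M) (GeneralLinearGroup.det δ) from
      Units.ext ((toAF D.M).map_det δ.1).symm, orbitParity_toAF,
    GeneralLinearGroup.val_det_apply] at hd
  have hδ0 : δ.1.det ≠ 0 := by
    rw [← GeneralLinearGroup.val_det_apply]; exact (GeneralLinearGroup.det δ).ne_zero
  have hx0 : x ≠ 0 := fun h0 => by
    rw [h0, mul_zero, mul_zero] at hx
    simp [hδ0] at hx
  rw [show f δ.1.det = σ δ.1.det from rfl, show f (σ δ.1.det) = σ (σ δ.1.det) from rfl, hx,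
    count_sign_mul_sq v hε hx0] at hd
  have h10 : (1 : ZMod 2) = 0 := by linear_combination -hd
  exact one_ne_zero h10

/-- The determinant of a test element is a unit at every place. -/
theorem det_ramElement {R : Finset Nat.Primes} {N₀ N N' : ℕ} {ω : GL (Fin 2) (AF D.M)}
    (h : ramElement D σ R N₀ N N' ω) : GeneralLinearGroup.det ω ∈ unitAF D.M := by
  have key : ∀ p : Nat.Primes, ∃ a ∈ unitAF D.M,
      Units.map (compAF (F := D.M) p).toRingHom.toMonoidHom (GeneralLinearGroup.det ω) =
        Units.map (compAF (F := D.M) p).toRingHom.toMonoidHom a := by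
    intro p
    have hnat : ∀ X : GL (Fin 2) (AF D.M),
        GeneralLinearGroup.det (GeneralLinearGroup.map (compAF (F := D.M) p).toRingHom X) =
          Units.map (compAF (F := D.M) p).toRingHom.toMonoidHom (GeneralLinearGroup.det X) :=
      fun X => Units.ext ((compAF (F := D.M) p).toRingHom.map_det X.1).symm
    by_cases hp : p ∈ R
    · obtain ⟨k, hk, y, hy, he⟩ := h.1 p hp
      refine ⟨GeneralLinearGroup.det (k * GeneralLinearGroup.map (mapAF D.incl).toRingHom y *
        (GeneralLinearGroup.map (mapAF σ.toAlgHom.toRingHom).toRingHom k)⁻¹), ?_,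
        by rw [← hnat, he, hnat]⟩
      rw [map_mul, map_mul, map_inv]
      refine mul_mem (mul_mem (det_principal_mem hk) ?_) (inv_mem ?_)
      · rw [show GeneralLinearGroup.det (GeneralLinearGroup.map (mapAF D.incl).toRingHom y) =
          Units.map (mapAF D.incl).toRingHom.toMonoidHom (GeneralLinearGroup.det y) from
            Units.ext ((mapAF D.incl).toRingHom.map_det y.1).symm]
        exact map_mem_unitAF _ (det_principal_mem hy)
      · rw [show GeneralLinearGroup.det
            (GeneralLinearGroup.map (mapAF σ.toAlgHom.toRingHom).toRingHom k) =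
          Units.map (mapAF σ.toAlgHom.toRingHom).toRingHom.toMonoidHom
            (GeneralLinearGroup.det k) from
            Units.ext ((mapAF σ.toAlgHom.toRingHom).toRingHom.map_det k.1).symm]
        exact map_mem_unitAF _ (det_principal_mem hk)
    · obtain ⟨k, hk, he⟩ := h.2 p hp
      exact ⟨_, det_principal_mem hk, by rw [← hnat, he, hnat]⟩
  refine ⟨LanglandsTunnell.Local.mem_intAF_iff_comp.mpr fun p => ?_,
    LanglandsTunnell.Local.mem_intAF_iff_comp.mpr fun p => ?_⟩
  · obtain ⟨a, ha, he⟩ := key p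
    obtain ⟨o, ho⟩ := LanglandsTunnell.Local.mem_intAF_iff_comp.mp ha.1 p
    exact ⟨o, ho.trans (congrArg Units.val he).symm⟩
  · obtain ⟨a, ha, he⟩ := key p
    obtain ⟨o, ho⟩ := LanglandsTunnell.Local.mem_intAF_iff_comp.mp ha.2 p
    refine ⟨o, ho.trans ?_⟩
    have := congrArg Inv.inv he
    rw [← map_inv, ← map_inv] at this
    exact (congrArg Units.val this).symm

end Datum

end FLTAgent.LanglandsTunnell.Trace
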