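import Fermat.Agent.LanglandsTunnell.Trace.ClassBalance
import Fermat.Agent.LanglandsTunnell.Trace.ParityTwist

/-!
# The truncated expansions of the two sides over classes

For the trivial twist over `E` and the cubic twist over `M`, the truncated integral of a word is
a sum over the classes of elliptic terms and of affine terms at the split classes
(`plain_expansion`, `tw_expansion`).
-/

set_option autoImplicit false

noncomputable section

namespace FLTAgent.LanglandsTunnell.Trace

open FLTAgent.LanglandsTunnell FLTAgent.LanglandsTunnell.Geom NumberField Matrix MeasureTheory Set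
open FLTAgent.LanglandsTunnell.Local (lvE lvM glE IsNormOf overE)
open scoped ENNReal FLTAgent.LanglandsTunnell.Isolation

theorem tsum_subtype_dite {α : Type*} {p : α → Prop} [DecidablePred p] (g : Subtype p → ℝ≥0∞) :
    ∑' o : Subtype p, g o = ∑' a, if h : p a then g ⟨a, h⟩ else 0 := by
  conv_rhs => rw [← Subtype.val_injective.tsum_eq (f := fun a => if h : p a then g ⟨a, h⟩ else 0)
    (fun a ha => ⟨⟨a, by
      by_contra h
      exact Function.mem_support.mp ha (dif_neg h)⟩, rfl⟩)]
  exact tsum_congr fun o => by simp [o.2]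

/-- The integral over a stabiliser through a subgroup of finite index. -/
theorem lintegral_stabilizer {G Y : Type*} [Group G] [Countable G] [MeasurableSpace Y]
    [MulAction G Y] [MeasurableConstSMul G Y] {μ : Measure Y} [SMulInvariantMeasure G Y μ]
    {S H : Subgroup G} (hHS : H ≤ S) {i : ℕ} (hi : (H.subgroupOf S).index = i) (hi0 : i ≠ 0)
    {w : Y → ℝ≥0∞} (hw : IsWeight G μ w) {F : Y → ℝ≥0∞} (hF : Measurable F)
    (hinv : ∀ (g : S) x, F (g • x) = F x) :
    ∫⁻ x, restrictWeight S w x * F x ∂μ = (i : ℝ≥0∞)⁻¹ * ∫⁻ x, restrictWeight H w x * F x ∂μ := by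
  have hH := hw.restrict H
  have hH' : IsWeight (H.subgroupOf S) μ (restrictWeight H w) := by
    refine ⟨hH.measurable, hH.sum_eq.mono fun x hx => ?_⟩
    rw [← hx, ← (Subgroup.subgroupOfEquivOfLe hHS).toEquiv.tsum_eq
      fun h : H => restrictWeight H w (h • x)]
    rfl
  have hm : ∀ g : S, MeasurePreserving (fun x : Y => g • x) μ μ := fun g =>
    measurePreserving_smul (g : G) μ
  have h2 := hH'.of_subgroup (by rw [hi]; exact hi0) hm
  rw [(hw.restrict S).lintegral_eq h2 hF hinv, hi]
  simp only [mul_assoc]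
  exact lintegral_const_mul _ (hH.measurable.mul hF)

variable {D : Datum}

/-- The index of the torus in a stabiliser. -/
def classIdx (γ : GL (Fin 2) D.E) : ℕ := if γ.val.trace = 0 then 2 else 1

theorem mk_eq_pglMk {K : Type} [Field K] (g : GL (Fin 2) K) :
    (g : PGLF K) = pglMk g.val g.isUnit :=
  congrArg (QuotientGroup.mk : GL (Fin 2) K → PGLF K) (Units.ext rfl)

theorem torE_stabilizer (γ : GL (Fin 2) D.E) (hreg : γ.val.trace ^ 2 ≠ 4 * γ.val.det) :
    torE γ ≤ MulAction.stabilizer (PGLF D.E)
        (Twisted.of (MonoidHom.id (PGLF D.E)) (γ : PGLF D.E)) ∧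
      ((torE γ).subgroupOf (MulAction.stabilizer (PGLF D.E)
        (Twisted.of (MonoidHom.id (PGLF D.E)) (γ : PGLF D.E)))).index = classIdx γ := by
  rw [mk_eq_pglMk]
  refine ⟨(index_torus two_ne_zero γ.isUnit hreg).1, ?_⟩
  rw [(index_torus two_ne_zero γ.isUnit hreg).2, classIdx]
  split_ifs <;> rfl

theorem torE_eq_stabilizer (o : HypClass D) :
    MulAction.stabilizer (PGLF D.E)
        (Twisted.of (MonoidHom.id (PGLF D.E)) ((classMat (.inr o) : GL (Fin 2) D.E) : PGLF D.E)) =
      torE (classMat (.inr o)) := by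
  obtain ⟨hle, hidx⟩ := torE_stabilizer (classMat (.inr o)) (classMat_regular _)
  rw [classIdx, if_neg (classMat_trace o), Subgroup.index_eq_one, Subgroup.subgroupOf_eq_top]
    at hidx
  exact le_antisymm hidx hle

variable {σ : D.M ≃ₐ[ℚ] D.M} {e : Fin 3 ≃ Fin 3} {P : ExtPlaces D}
  {hfix : ∀ x, σ (D.incl x) = D.incl x}
  {he : ∀ i, P.placesM.emb (e i) = (P.placesM.emb i).comp σ.toAlgHom.toRingHom}
  {R : Finset Nat.Primes} {N₀ N₁ N N' k Bd : ℕ}

theorem torM_stabilizer (hne : σ ≠ AlgEquiv.refl) (γ : GL (Fin 2) D.E)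
    (hreg : γ.val.trace ^ 2 ≠ 4 * γ.val.det) {δ : GL (Fin 2) D.M} (h : IsNormOf D σ γ δ) :
    torM γ ≤ MulAction.stabilizer (PGLF D.M)
        (Twisted.of (pglTwist (overE hfix)) (δ : PGLF D.M)) ∧
      ((torM γ).subgroupOf (MulAction.stabilizer (PGLF D.M)
        (Twisted.of (pglTwist (overE hfix)) (δ : PGLF D.M)))).index = classIdx γ := by
  have hd := pglNorm_of_isNormOf (hfix := hfix) h
  rw [mk_eq_pglMk γ] at hd
  refine ⟨(index_twisted (isCubicTwist_overE hfix hne) two_ne_zero γ.isUnit hreg hd).1, ?_⟩
  rw [(index_twisted (isCubicTwist_overE hfix hne) two_ne_zero γ.isUnit hreg hd).2, classIdx]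
  split_ifs <;> rfl

/-- The norm class predicate over the split classes. -/
abbrev HypNorm (σ : D.M ≃ₐ[ℚ] D.M) (o : HypClass D) : Prop := IsNormClass σ (.inr o)

/-- The norm class predicate over the other classes. -/
abbrev EllNorm (σ : D.M ≃ₐ[ℚ] D.M) (o : EllClass D) : Prop := IsNormClass σ (.inl o)

section Plain

variable (hn : lvE D N ≠ ⊥) (SE : Set (Pt D.E Unit (lvE D N))) (ws : List (Ideal (𝓞 D.E)))
  (ker : ℝ → ℝ)

/-- The truncated plain integral of a word. -/
def plainTrunc (P : ExtPlaces D) (L : ℝ) : ℝ≥0∞ :=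
  ∫⁻ y, SE.indicator 1 y * (cuspTrunc (logHeight (n := lvE D N) P.placesE) L y *
    ∑' s : Twisted (plainTwist P.placesE hn).θ,
      sideDensity (plainTwist P.placesE hn) (wordCount (lvE D N) ws) (fun _ => ker) s y) ∂volPt

/-- The elliptic term of a class. -/
def plainEll (P : ExtPlaces D) (o : EllClass D) : ℝ≥0∞ :=
  (classIdx (classMat (.inl o)) : ℝ≥0∞)⁻¹ *
    ∫⁻ y, wtE P SE (classMat (.inl o)) y * plainDen P hn ws ker (classMat (.inl o)) y ∂volPt

/-- The slope of a split class. -/
def plainSlope (P : ExtPlaces D) (o : HypClass D) : ℝ≥0∞ :=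
  slopeTerm volPt (wtE P SE (classMat (.inr o))) (tvE P) (plainDen P hn ws ker (classMat (.inr o)))

/-- The constant of a split class. -/
def plainConst (P : ExtPlaces D) (o : HypClass D) : ℝ≥0∞ :=
  constTerm volPt (wtE P SE (classMat (.inr o))) (tvE P) (plainDen P hn ws ker (classMat (.inr o)))
    (logHeight P.placesE (cuspInf D.E)) (logHeight P.placesE (cuspZero D.E))

variable {hn SE ws ker}

/-- The expansion of the plain side. -/
theorem plain_expansion (hSE : IsFundDomain P.placesE SE) (hker : Continuous ker)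
    (hkerc : HasCompactSupport ker) (hws : ∀ w ∈ ws, w ≠ ⊥)
    (hodd : ∀ (q : PGLF D.E) (y : Pt D.E Unit (lvE D N)),
      sideDensity (plainTwist P.placesE hn) (wordCount (lvE D N) ws) (fun _ => ker)
        (Twisted.of _ q) y ≠ 0 → IsNonsq q) :
    ∃ L₀ : ℝ, 0 < L₀ ∧ ∀ L, L₀ ≤ L →
      2 * plainTrunc hn SE ws ker P L = 2 * (∑' o, plainEll hn SE ws ker P o) +
        ∑' o, (ENNReal.ofReal (2 * L) * plainSlope hn SE ws ker P o +
          plainConst hn SE ws ker P o) := by
  let := pglAction (n := lvE D N) P.placesE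
  have : Countable (FinPt D.E (lvE D N)) := countable_finPt hn
  have : Countable (PGLF D.E) := countable_PGLF
  have := measurableConstSMul_pgl (n := lvE D N) P.placesE
  have := smulInvariant_pgl (ι := Unit) P.placesE hn
  have hP : GoodPair (ι := Unit) (wordCount (lvE D N) ws) (fun _ => ker) :=
    ⟨fun h v u => wordCount_smul ws h v u, wordCount_finite hn hws, fun _ => hker, fun _ => hkerc⟩
  obtain ⟨L₀, hL₀, h⟩ := side_expansion (plainTwist P.placesE hn) hn hP hSE
    (fun o : EllClass D ⊕ HypClass D => Twisted.of _ ((classMat o : GL (Fin 2) D.E) : PGLF D.E))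
    (fun o o' g hg => classMat_injective hg)
    (fun s x hs => classMat_surjective (hodd s.val x hs))
    (fun o c => classMat_elliptic o c)
    (fun o c hc => by
      obtain ⟨g, -, h01, h10⟩ := classMat_inr o
      exact fix_of_diag h01 h10 (classMat_regular _) hc)
    (fun o => ⟨_, rfl, (classMat_inr o).choose_spec.2.1, (classMat_inr o).choose_spec.2.2⟩)
    (fun o => torE (classMat (.inr o)))
    (fun o => torE_diag (classMat_regular _) (classMat_inr o).choose_spec.2.1
      (classMat_inr o).choose_spec.2.2)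
    torE_eq_stabilizer
  have h2 : ENNReal.ofReal (speed Unit) = 2 := by simp [speed]
  refine ⟨L₀, hL₀, fun L hL => ?_⟩
  have h' := h L hL
  rw [h2] at h'
  simp only [plainTrunc, plainSlope, plainConst, wtE, tvE, plainDen, plainEll]
  rw [h']
  refine congrArg₂ (· + ·) (congrArg (2 * ·) (tsum_congr fun o => ?_)) rfl
  obtain ⟨hle, hidx⟩ := torE_stabilizer (classMat (.inl o)) (classMat_regular _)
  have hF := measurable_sideDensity (plainTwist P.placesE hn) hP
    (Twisted.of (plainTwist P.placesE hn).θ ((classMat (.inl o) : GL (Fin 2) D.E) : PGLF D.E))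
  have hw := isWeight_of_fundDomain P.placesE hSE
  have hinv : ∀ (g : MulAction.stabilizer (PGLF D.E) (Twisted.of (plainTwist P.placesE hn).θ
      ((classMat (.inl o) : GL (Fin 2) D.E) : PGLF D.E))) (x : Pt D.E Unit (lvE D N)),
      sideDensity (plainTwist P.placesE hn) (wordCount (lvE D N) ws) (fun _ => ker)
        (Twisted.of (plainTwist P.placesE hn).θ ((classMat (.inl o) : GL (Fin 2) D.E) : PGLF D.E))
          (g • x) =
      sideDensity (plainTwist P.placesE hn) (wordCount (lvE D N) ws) (fun _ => ker)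
        (Twisted.of (plainTwist P.placesE hn).θ ((classMat (.inl o) : GL (Fin 2) D.E) : PGLF D.E))
          x :=
    fun g x => stabilizer_invariant (F := sideDensity (plainTwist P.placesE hn)
      (wordCount (lvE D N) ws) (fun _ => ker))
      (fun g s x => sideDensity_equivariant _ hP g s x) _ g x
  exact lintegral_stabilizer (i := classIdx (classMat (.inl o)))
    (H := torE (classMat (.inl o))) hle hidx
    (by unfold classIdx; split_ifs <;> norm_num) hw hF hinv

end Plain

section Twisted

variable (hN' : N' ≠ 0) (SM : Set (Pt D.M (Fin 3) (lvM D N'))) (W : List (Ideal (𝓞 D.M)))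
  (kp : Fin 3 → ℝ → ℝ)

/-- The truncated twisted integral of a word. -/
def twTrunc (P : ExtPlaces D) (hfix : ∀ x, σ (D.incl x) = D.incl x)
    (he : ∀ i, P.placesM.emb (e i) = (P.placesM.emb i).comp σ.toAlgHom.toRingHom)
    (R : Finset Nat.Primes) (N₀ N₁ : ℕ) (L : ℝ) : ℝ≥0∞ :=
  ∫⁻ x, SM.indicator 1 x * (cuspTrunc (logHeight (n := lvM D N') P.placesM) L x *
    ∑' s : Twisted (cubicTwist P hfix he hN').θ,
      sideDensity (cubicTwist P hfix he hN') (preCount (ramCount D σ R N₀ N₁ N') W) kp s x) ∂volPt

open scoped Classical in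
/-- The elliptic term of a class, zero when it is no norm. -/
def twEll (P : ExtPlaces D) (hfix : ∀ x, σ (D.incl x) = D.incl x)
    (he : ∀ i, P.placesM.emb (e i) = (P.placesM.emb i).comp σ.toAlgHom.toRingHom)
    (R : Finset Nat.Primes) (N₀ N₁ : ℕ) (o : EllClass D) : ℝ≥0∞ :=
  if h : EllNorm σ o then (classIdx (classMat (.inl o)) : ℝ≥0∞)⁻¹ *
    ∫⁻ x, wtM P SM (classMat (.inl o)) x * twDen P hfix he hN' R N₀ N₁ W kp h.choose x ∂volPt
  else 0

open scoped Classical in
/-- The slope of a split class, zero when it is no norm. -/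
def twSlope (P : ExtPlaces D) (hfix : ∀ x, σ (D.incl x) = D.incl x)
    (he : ∀ i, P.placesM.emb (e i) = (P.placesM.emb i).comp σ.toAlgHom.toRingHom)
    (R : Finset Nat.Primes) (N₀ N₁ : ℕ) (o : HypClass D) : ℝ≥0∞ :=
  if h : HypNorm σ o then slopeTerm volPt (wtM P SM (classMat (.inr o))) (tvM P)
    (twDen P hfix he hN' R N₀ N₁ W kp h.choose)
  else 0

open scoped Classical in
/-- The constant of a split class, zero when it is no norm. -/
def twConst (P : ExtPlaces D) (hfix : ∀ x, σ (D.incl x) = D.incl x)
    (he : ∀ i, P.placesM.emb (e i) = (P.placesM.emb i).comp σ.toAlgHom.toRingHom)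
    (R : Finset Nat.Primes) (N₀ N₁ : ℕ) (o : HypClass D) : ℝ≥0∞ :=
  if h : HypNorm σ o then constTerm volPt (wtM P SM (classMat (.inr o))) (tvM P)
    (twDen P hfix he hN' R N₀ N₁ W kp h.choose)
    (logHeight P.placesM (cuspInf D.M)) (logHeight P.placesM (cuspZero D.M))
  else 0

variable {hN' SM W kp}

/-- The expansion of the twisted side. -/
theorem tw_expansion (hne : σ ≠ AlgEquiv.refl) (hlev : IsTestLevel D σ k Bd R N₀ N₁ N N')
    (hSM : IsFundDomain P.placesM SM) (hk : GoodParts kp) (hW : ∀ w ∈ W, w ≠ ⊥)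
    (hodd : ∀ (d : PGLF D.M) (x : Pt D.M (Fin 3) (lvM D N')),
      sideDensity (cubicTwist P hfix he hN') (preCount (ramCount D σ R N₀ N₁ N') W) kp
        (Twisted.of _ d) x ≠ 0 → IsNonsq (pglNorm (overE hfix) d)) :
    ∃ L₀ : ℝ, 0 < L₀ ∧ ∀ L, L₀ ≤ L →
      6 * twTrunc hN' SM W kp P hfix he R N₀ N₁ L =
        6 * (∑' o, twEll hN' SM W kp P hfix he R N₀ N₁ o) +
        ∑' o, (ENNReal.ofReal (2 * L) * twSlope hN' SM W kp P hfix he R N₀ N₁ o +
          twConst hN' SM W kp P hfix he R N₀ N₁ o) := by
  classical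
  let := pglAction (n := lvM D N') P.placesM
  have hnM : lvM D N' ≠ ⊥ := by simp [hN']
  have : Countable (FinPt D.M (lvM D N')) := countable_finPt hnM
  have : Countable (PGLF D.M) := countable_PGLF
  have := measurableConstSMul_pgl (n := lvM D N') P.placesM
  have := smulInvariant_pgl (ι := Fin 3) P.placesM hnM
  have hs := isCubicTwist_overE hfix hne
  set tw := cubicTwist P hfix he hN'
  have hP : GoodPair (preCount (ramCount D σ R N₀ N₁ N') W) kp :=
    ⟨preCount_smul ramCount_smul W, preCount_finite hnM (ramCount_finite hlev) hW,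
      fun i => (hk i).1, fun i => (hk i).2.1⟩
  let rep : {o : EllClass D // EllNorm σ o} ⊕ {o : HypClass D // HypNorm σ o} → Twisted tw.θ :=
    Sum.elim (fun o => Twisted.of _ (o.2.choose : PGLF D.M))
      (fun o => Twisted.of _ (o.2.choose : PGLF D.M))
  let emb : {o : EllClass D // EllNorm σ o} ⊕ {o : HypClass D // HypNorm σ o} →
      EllClass D ⊕ HypClass D := Sum.map Subtype.val Subtype.val
  have hrepN : ∀ o, pglNorm (overE hfix) (rep o).val =
      pglMap (algebraMap D.E D.M) ((classMat (emb o) : GL (Fin 2) D.E) : PGLF D.E) := by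
    rintro (o | o) <;> exact pglNorm_of_isNormOf o.2.choose_spec
  have hregq : ∀ o, IsRegular ((classMat (emb o) : GL (Fin 2) D.E) : PGLF D.E) := fun o =>
    (classMat_spec _).2.regular
  have : Countable {o : EllClass D // EllNorm σ o} := Subtype.countable
  have : Countable {o : HypClass D // HypNorm σ o} := Subtype.countable
  obtain ⟨L₀, hL₀, h⟩ := side_expansion tw hnM hP hSM rep
    (fun o o' g hg => by
      obtain ⟨p, hp⟩ := norm_conj_of_class_eq hs two_ne_zero (hregq o) (hrepN o) (hrepN o') hg
      have h1 : emb o = emb o' := classMat_injective (g := p) ((Twisted.smul_eq_iff _ _ _).mpr hp)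
      exact (Sum.map_injective.mpr ⟨Subtype.val_injective, Subtype.val_injective⟩) h1)
    (fun s x hs' => by
      have hns := hodd s.val x hs'
      obtain ⟨g, q, hqreg, hq⟩ := exists_rational_class hs hns.regular
      have hg : pglNorm (overE hfix) (g • Twisted.of (pglTwist (overE hfix)) s.val).val =
          g * pglNorm (overE hfix) s.val * g⁻¹ := by
        have h3 : pglTwist (overE hfix) (pglTwist (overE hfix) (pglTwist (overE hfix) g)) = g := by
          obtain ⟨a, rfl⟩ := QuotientGroup.mk_surjective g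
          refine congrArg QuotientGroup.mk (Units.ext (Matrix.ext fun i j => hs.cube _))
        show g * s.val * (pglTwist (overE hfix) g)⁻¹ *
            pglTwist (overE hfix) (g * s.val * (pglTwist (overE hfix) g)⁻¹) *
            pglTwist (overE hfix) (pglTwist (overE hfix) (g * s.val *
              (pglTwist (overE hfix) g)⁻¹)) =
          g * (s.val * pglTwist (overE hfix) s.val *
            pglTwist (overE hfix) (pglTwist (overE hfix) s.val)) * g⁻¹
        simp only [map_mul, map_inv, h3]
        group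
      have hqns : IsNonsq q := by
        obtain ⟨c, rfl⟩ := QuotientGroup.mk_surjective q
        have hM : IsNonsq (pglMap (algebraMap D.E D.M) (c : PGLF D.E)) := by
          rw [← hq, hg]; exact hns.conj g
        refine ⟨c, rfl, fun y => ?_⟩
        have := hM.lift (d := GeneralLinearGroup.map (algebraMap D.E D.M) c) rfl
          (algebraMap D.E D.M y)
        have hdet : (GeneralLinearGroup.map (algebraMap D.E D.M) c).val.det =
            algebraMap D.E D.M c.val.det := ((algebraMap D.E D.M).map_det c.val).symm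
        rw [hdet] at this
        exact ⟨fun h => this.1 (by rw [h, map_mul]), fun h => this.2 (by rw [h, map_neg, map_mul])⟩
      obtain ⟨o, p, hp⟩ := classMat_surjective hqns
      set a := pglMap (algebraMap D.E D.M) p⁻¹ * g
      have hpq : p⁻¹ * q * p = ((classMat o : GL (Fin 2) D.E) : PGLF D.E) := by
        have := (Twisted.smul_eq_iff _ _ _).mp hp
        simp only [Twisted.val, Twisted.of, MonoidHom.id_apply] at this
        rw [mul_assoc, ← this, inv_mul_cancel_left]
      have hgen : ∀ (b d : PGLF D.M), pglTwist (overE hfix) b = b →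
          pglNorm (overE hfix) (b * d * b⁻¹) = b * pglNorm (overE hfix) d * b⁻¹ := by
        intro b d hb
        simp only [pglNorm, map_mul, map_inv, hb]
        group
      have hb : pglTwist (overE hfix) (pglMap (algebraMap D.E D.M) p⁻¹) =
          pglMap (algebraMap D.E D.M) p⁻¹ := by
        obtain ⟨c, hc⟩ := QuotientGroup.mk_surjective p⁻¹
        rw [← hc]
        exact congrArg QuotientGroup.mk (Units.ext (Matrix.ext fun i j =>
          (overE hfix).commutes _))
      have hN : pglNorm (overE hfix) (a • Twisted.of (pglTwist (overE hfix)) s.val).val =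
          pglMap (algebraMap D.E D.M) ((classMat o : GL (Fin 2) D.E) : PGLF D.E) := by
        rw [← hpq, map_mul, map_mul, ← hq]
        have e1 : (a • Twisted.of (pglTwist (overE hfix)) s.val).val =
            pglMap (algebraMap D.E D.M) p⁻¹ *
              (g • Twisted.of (pglTwist (overE hfix)) s.val).val *
              (pglMap (algebraMap D.E D.M) p⁻¹)⁻¹ := by
          show a * s.val * (pglTwist (overE hfix) a)⁻¹ =
            _ * (g * s.val * (pglTwist (overE hfix) g)⁻¹) * _
          simp only [a, map_mul, hb]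
          group
        rw [e1, hgen _ _ hb, ← map_inv, inv_inv]
      obtain ⟨δ', hδ', hnorm⟩ := exists_isNormOf hs hN
      obtain ⟨o', ho'⟩ : ∃ o' : {o : EllClass D // EllNorm σ o} ⊕ {o : HypClass D // HypNorm σ o},
          emb o' = o := by
        rcases o with o | o
        · exact ⟨.inl ⟨o, δ', hnorm⟩, rfl⟩
        · exact ⟨.inr ⟨o, δ', hnorm⟩, rfl⟩
      obtain ⟨b, hb'⟩ := class_eq_of_norm_eq hs two_ne_zero (hregq o') (hrepN o')
        (d' := (a • Twisted.of (pglTwist (overE hfix)) s.val).val) (by rw [ho']; exact hN)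
      refine ⟨o', a⁻¹ * b, ?_⟩
      rw [mul_smul]
      exact (congrArg (a⁻¹ • ·) hb').trans (inv_smul_smul a _))
    (fun o c hc => classMat_elliptic_incl hs o.1 c (by
      have h := norm_fix_of_fix hs.cube hc
      rw [hrepN (.inl o)] at h
      exact h))
    (fun o c hc => by
      have h := norm_fix_of_fix hs.cube hc
      rw [hrepN (.inr o)] at h
      obtain ⟨g, -, h01, h10⟩ := classMat_inr o.1
      exact fix_of_diag (g := GeneralLinearGroup.map D.incl (classMat (.inr o.1)))
        (by show D.incl _ = 0; rw [h01, map_zero]) (by show D.incl _ = 0; rw [h10, map_zero])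
        (regular_map (classMat_regular _)) h)
    (fun o => by
      obtain ⟨g, -, h01, h10⟩ := classMat_inr o.1
      exact diag_normOf (classMat_regular _) h01 h10 o.2.choose_spec)
    (fun o => torM (classMat (.inr o.1)))
    (fun o => by
      obtain ⟨g, -, h01, h10⟩ := classMat_inr o.1
      exact torM_diag (classMat_regular _) h01 h10)
    (fun o => by
      obtain ⟨hle, hidx⟩ := torM_stabilizer (hfix := hfix) hne (classMat (.inr o.1))
        (classMat_regular _) o.2.choose_spec
      rw [classIdx, if_neg (classMat_trace o.1), Subgroup.index_eq_one,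
        Subgroup.subgroupOf_eq_top] at hidx
      exact le_antisymm hidx hle)
  have h6 : ENNReal.ofReal (speed (Fin 3)) = 6 := by norm_num [speed]
  refine ⟨L₀, hL₀, fun L hL => ?_⟩
  have h' := h L hL
  rw [h6] at h'
  refine h'.trans ?_
  congr 1
  · rw [tsum_congr fun o : {o : EllClass D // EllNorm σ o} => ?_,
      tsum_subtype_dite fun o : {o : EllClass D // EllNorm σ o} =>
        (classIdx (classMat (.inl o.1)) : ℝ≥0∞)⁻¹ *
          ∫⁻ x, wtM P SM (classMat (.inl o.1)) x *
            twDen P hfix he hN' R N₀ N₁ W kp o.2.choose x ∂volPt]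
    · rfl
    obtain ⟨hle, hidx⟩ := torM_stabilizer (hfix := hfix) hne (classMat (.inl o.1))
      (classMat_regular _) o.2.choose_spec
    have hinv : ∀ (g : MulAction.stabilizer (PGLF D.M) (rep (.inl o)))
        (x : Pt D.M (Fin 3) (lvM D N')),
        sideDensity tw (preCount (ramCount D σ R N₀ N₁ N') W) kp (rep (.inl o)) (g • x) =
          sideDensity tw (preCount (ramCount D σ R N₀ N₁ N') W) kp (rep (.inl o)) x :=
      fun g x => stabilizer_invariant
        (F := sideDensity tw (preCount (ramCount D σ R N₀ N₁ N') W) kp)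
        (fun g s x => sideDensity_equivariant tw hP g s x) _ g x
    exact lintegral_stabilizer (i := classIdx (classMat (.inl o.1)))
      (H := torM (classMat (.inl o.1))) hle hidx (by unfold classIdx; split_ifs <;> norm_num)
      (isWeight_of_fundDomain P.placesM hSM) (measurable_sideDensity tw hP _) hinv
  · rw [tsum_subtype_dite]
    refine tsum_congr fun o => ?_
    by_cases hN : HypNorm σ o
    · rw [dif_pos hN, twSlope, twConst, dif_pos hN, dif_pos hN]
      rfl
    · rw [dif_neg hN, twSlope, twConst, dif_neg hN, dif_neg hN, mul_zero, add_zero]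

end Twisted

end FLTAgent.LanglandsTunnell.Trace
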