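import Fermat.Agent.LanglandsTunnell.Kernels
import Fermat.Agent.LanglandsTunnell.Geom.H3Measure
import Mathlib.Analysis.SpecialFunctions.Arcosh
import Mathlib.MeasureTheory.Integral.Prod

/-!
# Convolution of point pair invariants on hyperbolic three-space

Moving two points to the vertical axis shows that `h3conv` computes the composition of two
point pair invariants (`integral_coshDist`), and that point pair invariants commute.
-/

set_option autoImplicit false

noncomputable section

namespace FLTAgent.LanglandsTunnell.Trace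

open FLTAgent.LanglandsTunnell MeasureTheory Complex ComplexConjugate
open scoped ENNReal

/-- The point at height `r` above the origin. -/
def axisPoint (r : ℝ) (hr : 0 < r) : H3 := ⟨0, r, hr⟩

theorem coshDist_base_axis (r : ℝ) (hr : 0 < r) :
    H3.coshDist H3.base (axisPoint r hr) = (1 + r ^ 2) / (2 * r) := by
  simp [H3.coshDist, H3.base, axisPoint]

/-- The Weyl element. -/
def flipG : GL (Fin 2) ℂ :=
  Matrix.GeneralLinearGroup.mkOfDetNeZero !![0, 1; 1, 0] (by simp [Matrix.det_fin_two_of])

theorem flipG_base : flipG • H3.base = H3.base := by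
  refine H3.ext ?_ ?_ <;>
    simp [flipG, H3.smul_z, H3.smul_t, H3.denom, H3.base,
      Matrix.GeneralLinearGroup.val_mkOfDetNeZero]

theorem flipG_axis (r : ℝ) (hr : 0 < r) :
    flipG • axisPoint r hr = axisPoint r⁻¹ (inv_pos.mpr hr) := by
  refine H3.ext ?_ ?_
  · simp [flipG, H3.smul_z, H3.denom, axisPoint, Matrix.GeneralLinearGroup.val_mkOfDetNeZero]
  · simp [flipG, H3.smul_t, H3.denom, axisPoint, Matrix.GeneralLinearGroup.val_mkOfDetNeZero]
    field_simp

/-- A point is moved to the base point. -/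
theorem exists_to_base (x : H3) : ∃ g : GL (Fin 2) ℂ, g • x = H3.base := by
  have ht : (x.t : ℂ) ≠ 0 := by exact_mod_cast x.t_ne_zero
  refine ⟨Matrix.GeneralLinearGroup.mkOfDetNeZero !![1, -x.z; 0, (x.t : ℂ)]
    (by simpa [Matrix.det_fin_two_of] using ht), H3.ext ?_ ?_⟩
  · simp [H3.smul_z, H3.denom, H3.base, Matrix.GeneralLinearGroup.val_mkOfDetNeZero]
  · have := x.t_ne_zero
    simp [H3.smul_t, H3.denom, H3.base, Matrix.GeneralLinearGroup.val_mkOfDetNeZero,
      Matrix.det_fin_two_of, Complex.normSq_ofReal, abs_of_pos x.t_pos]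
    exact this

/-- A rotation around the base point brings any point to the vertical axis. -/
theorem exists_rotation (y : H3) :
    ∃ g : GL (Fin 2) ℂ, g • H3.base = H3.base ∧ (g • y).z = 0 := by
  rcases eq_or_ne y.z 0 with h | h
  · exact ⟨1, one_smul _ _, by rwa [one_smul]⟩
  set a : ℝ := ‖y.z‖
  have ha : a ≠ 0 := norm_ne_zero_iff.mpr h
  set N : ℝ := Complex.normSq y.z + y.t ^ 2
  obtain ⟨x, hx⟩ : ∃ x : ℝ, x ^ 2 * a + x * (1 - N) - a = 0 := by
    refine ⟨((N - 1) + Real.sqrt ((1 - N) ^ 2 + 4 * a ^ 2)) / (2 * a), ?_⟩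
    have hs := Real.sq_sqrt (by positivity : (0 : ℝ) ≤ (1 - N) ^ 2 + 4 * a ^ 2)
    field_simp
    linear_combination hs
  set u : ℂ := y.z / (a : ℂ)
  have hac : (a : ℂ) ≠ 0 := by exact_mod_cast ha
  have hu : u * conj u = 1 := by
    simp only [u, map_div₀, Complex.conj_ofReal, div_mul_div_comm]
    rw [Complex.mul_conj, div_eq_one_iff_eq (mul_ne_zero hac hac), Complex.normSq_eq_norm_sq]
    push_cast
    ring
  have hdet : (Matrix.of ![![(x : ℂ), u], ![-conj u, (x : ℂ)]]).det = ((x ^ 2 + 1 : ℝ) : ℂ) := by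
    simp [Matrix.det_fin_two]
    linear_combination hu
  refine ⟨Matrix.GeneralLinearGroup.mkOfDetNeZero (Matrix.of ![![(x : ℂ), u], ![-conj u, (x : ℂ)]])
    (by rw [hdet]; exact_mod_cast (by positivity : (0 : ℝ) < x ^ 2 + 1).ne'), H3.ext ?_ ?_, ?_⟩
  · simp [H3.smul_z, H3.base, Matrix.GeneralLinearGroup.val_mkOfDetNeZero]
    left
    ring
  · have hn : Complex.normSq u = 1 := by
      apply Complex.ofReal_injective
      rw [Complex.normSq_eq_conj_mul_self, Complex.ofReal_one, mul_comm, hu]
    simp only [H3.smul_t, Matrix.GeneralLinearGroup.val_mkOfDetNeZero, hdet, Complex.norm_real,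
      Real.norm_eq_abs, abs_of_pos (by positivity : (0 : ℝ) < x ^ 2 + 1), H3.base]
    simp [H3.denom, Matrix.GeneralLinearGroup.val_mkOfDetNeZero, Complex.normSq_ofReal, hn]
    field_simp
  · have hz : y.z = (a : ℂ) * u := by simp only [u]; field_simp
    have hN : ((N : ℝ) : ℂ) = (a : ℂ) ^ 2 + (y.t : ℂ) ^ 2 := by
      simp [N, Complex.normSq_eq_norm_sq, a]
    simp only [H3.smul_z, Matrix.GeneralLinearGroup.val_mkOfDetNeZero, Matrix.of_apply,
      Matrix.cons_val', Matrix.cons_val_zero, Matrix.cons_val_one, Matrix.cons_val_fin_one,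
      Fin.isValue, map_add, map_mul, map_neg, Complex.conj_conj, Complex.conj_ofReal,
      div_eq_zero_iff]
    left
    rw [hz]
    have hx' : (x : ℂ) ^ 2 * a + x * (1 - (N : ℂ)) - a = 0 := by exact_mod_cast hx
    simp only [map_mul, Complex.conj_ofReal]
    linear_combination u * hx' + (x : ℂ) * u * hN - ((x : ℂ) * u * (a : ℂ) ^ 2 + (a : ℂ) * u) * hu

/-- Two points are moved to the base point and a point above it, at the same distance. -/
theorem exists_to_axis (x y : H3) :
    ∃ (g : GL (Fin 2) ℂ), g • x = H3.base ∧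
      g • y = axisPoint (Real.exp (Real.arcosh (H3.coshDist x y))) (Real.exp_pos _) := by
  obtain ⟨g₀, hg₀⟩ := exists_to_base x
  obtain ⟨k, hk, hkz⟩ := exists_rotation (g₀ • y)
  set r := (k • g₀ • y).t
  have hr : 0 < r := (k • g₀ • y).t_pos
  have hy : k • g₀ • y = axisPoint r hr := H3.ext hkz rfl
  have hd : H3.coshDist x y = (1 + r ^ 2) / (2 * r) := by
    rw [← coshDist_base_axis r hr, ← hy]
    conv_lhs => rw [← H3.coshDist_smul g₀, hg₀, ← H3.coshDist_smul k, hk]
  have hcosh : ∀ s : ℝ, 0 < s → (1 + s ^ 2) / (2 * s) = Real.cosh (Real.log s) := fun s hs => by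
    rw [Real.cosh_log hs]
    field_simp
    ring
  rcases le_or_gt 1 r with h | h
  · refine ⟨k * g₀, by rw [mul_smul, hg₀, hk], ?_⟩
    rw [mul_smul, hy]
    refine H3.ext rfl ?_
    simp only [axisPoint]
    rw [hd, hcosh r hr, Real.arcosh_cosh (Real.log_nonneg h), Real.exp_log hr]
  · refine ⟨flipG * (k * g₀), by rw [mul_smul, mul_smul, hg₀, hk, flipG_base], ?_⟩
    rw [mul_smul, mul_smul, hy, flipG_axis]
    refine H3.ext rfl ?_
    simp only [axisPoint]
    rw [hd, hcosh r hr, ← Real.cosh_neg, ← Real.log_inv,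
      Real.arcosh_cosh (Real.log_nonneg (one_le_inv₀ hr |>.mpr h.le)),
      Real.exp_log (inv_pos.mpr hr)]

/-- The action by a fixed element as an equivalence of measurable spaces. -/
theorem integral_smul_comp (g : GL (Fin 2) ℂ) (f : H3 → ℂ) :
    ∫ Q, f (g • Q) ∂H3.volH3 = ∫ Q, f Q ∂H3.volH3 :=
  (H3.measurePreserving_smul g).integral_comp (measurableEmbedding_const_smul g) f

/-- `h3conv` computes the composition of two point pair invariants. -/
theorem integral_coshDist (k l : ℝ → ℂ) (x y : H3) :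
    ∫ Q, k (H3.coshDist x Q) * l (H3.coshDist Q y) ∂H3.volH3 =
      h3conv k l (H3.coshDist x y) := by
  rw [h3conv_of_one_le k l (H3.one_le_coshDist x y)]
  obtain ⟨g, hx, hy⟩ := exists_to_axis x y
  rw [← integral_smul_comp g⁻¹]
  refine integral_congr_ae (Filter.Eventually.of_forall fun Q => ?_)
  simp only
  rw [← H3.coshDist_smul g x, ← H3.coshDist_smul g (g⁻¹ • Q), smul_inv_smul, hx, hy]
  simp only [max_eq_left (H3.one_le_coshDist x y)]
  rfl

/-- Point pair invariants commute. -/
theorem h3conv_comm (k l : ℝ → ℂ) : h3conv k l = h3conv l k := by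
  have key : ∀ x y : H3,
      h3conv k l (H3.coshDist x y) = h3conv l k (H3.coshDist x y) := fun x y => by
    rw [← integral_coshDist, H3.coshDist_comm x y, ← integral_coshDist]
    refine integral_congr_ae (Filter.Eventually.of_forall fun Q => ?_)
    simp only
    rw [mul_comm, H3.coshDist_comm Q y, H3.coshDist_comm x Q]
  funext c
  have h : ∀ k l : ℝ → ℂ, h3conv k l c = (unitClamp c : ℂ) * h3conv k l (H3.coshDist H3.base
      (axisPoint (Real.exp (Real.arcosh (max c 1))) (Real.exp_pos _))) := fun k l => by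
    rw [← integral_coshDist]
    rfl
  rw [h, h, key]

end FLTAgent.LanglandsTunnell.Trace
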