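import Fermat.Agent.LanglandsTunnell.Trace.TwistedClass
import Mathlib.LinearAlgebra.Matrix.Adjugate
import Mathlib.GroupTheory.SpecificGroups.Cyclic.Basic

/-!
# The torus of a regular norm

Norms on the centraliser of a rational regular element: Hilbert 90, injectivity of the norm on
twisted classes, and the twisted centraliser.
-/

set_option autoImplicit false

noncomputable section

namespace FLTAgent.LanglandsTunnell.Trace

open Matrix

variable {E M : Type*} [Field E] [Field M] [Algebra E M] {σ : M ≃ₐ[E] M}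

theorem det_mapAlg (A : Matrix (Fin 2) (Fin 2) E) :
    (A.map (algebraMap E M)).det = algebraMap E M A.det := by
  simp [Matrix.det_fin_two]

/-- Independence of the three automorphisms. -/
theorem exists_combination_ne_zero (hσ : IsCubicTwist σ) (a b : M) :
    ∃ c : M, c + a * σ c + b * σ (σ c) ≠ 0 := by
  by_contra h
  push Not at h
  obtain ⟨x, hx⟩ := hσ.ne_one
  have key : ∀ c, (x - σ x) * c + b * (σ (σ x) - σ x) * σ (σ c) = 0 := fun c => by
    have h1 := h (x * c)
    simp only [map_mul] at h1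
    linear_combination h1 - σ x * h c
  have k1 := key 1
  simp only [map_one, mul_one] at k1
  have k2 : ∀ c, σ (σ c) = c := fun c => by
    have h2 : (x - σ x) * (c - σ (σ c)) = 0 := by linear_combination key c - σ (σ c) * k1
    rcases mul_eq_zero.mp h2 with h3 | h3
    · exact absurd (sub_eq_zero.mp h3).symm hx
    · exact (sub_eq_zero.mp h3).symm
  exact hx (by have := hσ.cube x; rwa [k2] at this)

/-- Hilbert 90 for scalars. -/
theorem exists_scalar_h90 (hσ : IsCubicTwist σ) {w : M} (hw : w * σ w * σ (σ w) = 1) :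
    ∃ u : M, u ≠ 0 ∧ w * σ u = u := by
  obtain ⟨c, hc⟩ := exists_combination_ne_zero hσ w (w * σ w)
  refine ⟨_, hc, ?_⟩
  simp only [map_add, map_mul, hσ.cube]
  linear_combination c * hw

section Torus

variable {γ : Matrix (Fin 2) (Fin 2) E}

local notation "γM" => Matrix.map γ (algebraMap E M)

theorem commute_twist {X : Matrix (Fin 2) (Fin 2) M} (h : Commute γM X) :
    Commute γM (twist σ X) := by
  have := congrArg (twist σ) h.eq
  show _ * _ = _ * _
  simpa only [twist_mul, twist_algebraMap] using this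

theorem regular_map (hreg : γ.trace ^ 2 ≠ 4 * γ.det) :
    (γM).trace ^ 2 ≠ 4 * (γM).det := by
  intro h
  apply hreg
  apply (algebraMap E M).injective
  simpa [Matrix.trace_fin_two, Matrix.det_fin_two, map_ofNat] using h

theorem commute_comm (hreg : γ.trace ^ 2 ≠ 4 * γ.det) {X Y : Matrix (Fin 2) (Fin 2) M}
    (hX : Commute γM X) (hY : Commute γM Y) : Commute X Y := by
  obtain ⟨x, y, rfl⟩ := exists_eq_of_commute (regular_map hreg) hX.eq
  obtain ⟨x', y', rfl⟩ := exists_eq_of_commute (regular_map hreg) hY.eq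
  simp only [Commute, SemiconjBy, Matrix.add_mul, Matrix.mul_add, Matrix.smul_mul, Matrix.mul_smul,
    Matrix.one_mul, Matrix.mul_one, smul_smul, smul_add, mul_comm x' x, mul_comm y' x,
    mul_comm x' y, mul_comm y' y]
  abel

theorem twNorm_mul (hreg : γ.trace ^ 2 ≠ 4 * γ.det) {X Y : Matrix (Fin 2) (Fin 2) M}
    (hX : Commute γM X) (hY : Commute γM Y) :
    twNorm σ (X * Y) = twNorm σ X * twNorm σ Y := by
  have c1 := commute_comm hreg hY (commute_twist (σ := σ) hX)
  have c2 := commute_comm hreg (hY.mul_right (commute_twist (σ := σ) hY))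
    (commute_twist (σ := σ) (commute_twist (σ := σ) hX))
  calc twNorm σ (X * Y)
      = X * (Y * twist σ X) * twist σ Y * (twist σ (twist σ X) * twist σ (twist σ Y)) := by
        simp only [twNorm, twist_mul, Matrix.mul_assoc]
    _ = X * twist σ X * ((Y * twist σ Y) * twist σ (twist σ X)) * twist σ (twist σ Y) := by
        rw [c1.eq]; simp only [Matrix.mul_assoc]
    _ = twNorm σ X * twNorm σ Y := by rw [c2.eq]; simp only [twNorm, Matrix.mul_assoc]

theorem twist_twNorm (hσ : IsCubicTwist σ) (hreg : γ.trace ^ 2 ≠ 4 * γ.det)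
    {X : Matrix (Fin 2) (Fin 2) M} (hX : Commute γM X) :
    twist σ (twNorm σ X) = twNorm σ X := by
  have c := commute_comm hreg hX
    ((commute_twist (σ := σ) hX).mul_right (commute_twist (σ := σ) (commute_twist (σ := σ) hX)))
  rw [twNorm, twist_mul, twist_mul, twist_cube hσ, Matrix.mul_assoc X, c.eq]

/-- Hilbert 90 in the centraliser. -/
theorem exists_torus_h90 (hσ : IsCubicTwist σ) (hreg : γ.trace ^ 2 ≠ 4 * γ.det)
    {ρ : Matrix (Fin 2) (Fin 2) M} (hρ : Commute γM ρ) (h1 : twNorm σ ρ = 1) :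
    ∃ g : Matrix (Fin 2) (Fin 2) M, IsUnit g ∧ Commute γM g ∧ ρ * twist σ g = g := by
  obtain ⟨x₁, y₁, e₁⟩ := exists_eq_of_commute (regular_map hreg) hρ.eq
  obtain ⟨x₂, y₂, e₂⟩ := exists_eq_of_commute (regular_map hreg)
    (hρ.mul_right (commute_twist (σ := σ) hρ)).eq
  let g : M → Matrix (Fin 2) (Fin 2) M := fun c =>
    c • 1 + σ c • ρ + σ (σ c) • (ρ * twist σ ρ)
  have hfix : ∀ c, ρ * twist σ (g c) = g c := fun c => by
    have ha : ρ * (twist σ ρ * twist σ (twist σ ρ)) = 1 := by rw [← Matrix.mul_assoc]; exact h1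
    have hadd : ∀ A B : Matrix (Fin 2) (Fin 2) M, twist σ (A + B) = twist σ A + twist σ B :=
      fun A B => Matrix.map_add _ (map_add σ) A B
    simp only [g, hadd, twist_smul, twist_one, twist_mul, hσ.cube, Matrix.mul_add,
      Matrix.mul_smul, ha, Matrix.mul_one]
    abel
  have hcomm : ∀ c, Commute γM (g c) := fun c =>
    (((Commute.one_right _).smul_right c).add_right (hρ.smul_right _)).add_right
      ((hρ.mul_right (commute_twist (σ := σ) hρ)).smul_right _)
  let X : M → M := fun c => c + σ c * x₁ + σ (σ c) * x₂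
  let Y : M → M := fun c => σ c * y₁ + σ (σ c) * y₂
  have hg : ∀ c, g c = X c • 1 + Y c • γM := fun c => by
    simp only [g, X, Y]
    rw [e₂, e₁]
    simp only [smul_add, smul_smul, add_smul]
    abel
  have hdet : ∀ c, (g c).det = X c ^ 2 + (γM).trace * X c * Y c + (γM).det * Y c ^ 2 := fun c => by
    rw [hg]
    simp [Matrix.det_fin_two, Matrix.trace_fin_two]
    ring
  -- two linear forms, neither identically zero, cut out the singular elements
  obtain ⟨r, r', hr⟩ : ∃ r r' : M, ∀ c, (g c).det = 0 → X c + r * Y c = 0 ∨ X c + r' * Y c = 0 := by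
    by_cases hroot : ∃ r : M, r ^ 2 - (γM).trace * r + (γM).det = 0
    · obtain ⟨r, hr⟩ := hroot
      refine ⟨r, (γM).trace - r, fun c hc => mul_eq_zero.mp ?_⟩
      rw [hdet] at hc
      linear_combination hc - Y c ^ 2 * hr
    · refine ⟨0, 0, fun c hc => Or.inl ?_⟩
      rw [hdet] at hc
      rcases eq_or_ne (Y c) 0 with hy | hy
      · rw [hy] at hc
        rw [zero_mul, add_zero]
        exact eq_zero_of_pow_eq_zero (n := 2) (by linear_combination hc)
      · exact absurd ⟨-(X c / Y c), by field_simp; linear_combination hc⟩ hroot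
  have hlin : ∀ r : M, ∃ c, X c + r * Y c ≠ 0 := fun r => by
    obtain ⟨c, hc⟩ := exists_combination_ne_zero hσ (x₁ + r * y₁) (x₂ + r * y₂)
    exact ⟨c, fun h => hc (by simp only [X, Y] at h; linear_combination h)⟩
  have hadd : ∀ r c c', X (c + c') + r * Y (c + c') = (X c + r * Y c) + (X c' + r * Y c') :=
    fun r c c' => by simp only [X, Y, map_add]; ring
  obtain ⟨c, hc1, hc2⟩ : ∃ c, X c + r * Y c ≠ 0 ∧ X c + r' * Y c ≠ 0 := by
    obtain ⟨a, ha⟩ := hlin r
    obtain ⟨b, hb⟩ := hlin r'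
    by_cases ha' : X a + r' * Y a = 0
    · by_cases hb' : X b + r * Y b = 0
      · exact ⟨a + b, by rw [hadd, hb', add_zero]; exact ha, by rw [hadd, ha', zero_add]; exact hb⟩
      · exact ⟨b, hb', hb⟩
    · exact ⟨a, ha, ha'⟩
  refine ⟨g c, ?_, hcomm c, hfix c⟩
  rw [Matrix.isUnit_iff_isUnit_det, isUnit_iff_ne_zero]
  exact fun h => (hr c h).elim hc1 hc2

/-- Twisted classes in the centraliser are determined by their norms, modulo scalars. -/
theorem twisted_conj_of_twNorm_eq (hσ : IsCubicTwist σ) (hreg : γ.trace ^ 2 ≠ 4 * γ.det)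
    {B B' : Matrix (Fin 2) (Fin 2) M} (hB : IsUnit B) (hB' : IsUnit B') (hc : Commute γM B)
    (hc' : Commute γM B') {z : M} (hz : twNorm σ B' = z • twNorm σ B) :
    ∃ (g : Matrix (Fin 2) (Fin 2) M) (w : M), IsUnit g ∧ w ≠ 0 ∧ Commute γM g ∧
      g * B = (w • B') * twist σ g := by
  obtain ⟨b, rfl⟩ := hB
  have hci : Commute γM (↑b⁻¹ : Matrix (Fin 2) (Fin 2) M) := hc.units_inv_right
  set ρ := B' * (↑b⁻¹ : Matrix (Fin 2) (Fin 2) M)
  have hρc : Commute γM ρ := hc'.mul_right hci
  have hρ : twNorm σ ρ = z • 1 := by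
    rw [twNorm_mul hreg hc' hci, hz, Matrix.smul_mul, ← twNorm_mul hreg hc hci, Units.mul_inv]
    simp [twNorm]
  have hdρ : ρ.det ≠ 0 :=
    ((Matrix.isUnit_iff_isUnit_det _).mp (hB'.mul b⁻¹.isUnit)).ne_zero
  have hN : ρ.det * σ ρ.det * σ (σ ρ.det) = z ^ 2 := by
    rw [← det_twNorm, hρ, Matrix.det_smul, Matrix.det_one, mul_one, Fintype.card_fin]
  have hz0 : z ≠ 0 := by
    rintro rfl
    simp [hdρ] at hN
  have hzσ : σ z = z := by
    have h := twist_twNorm hσ hreg hρc
    rw [hρ, twist_smul, twist_one] at h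
    simpa using congrFun (congrFun h 0) 0
  obtain ⟨w, hw0, hw⟩ : ∃ w : M, w ≠ 0 ∧ twNorm σ (w • ρ) = 1 := by
    refine ⟨ρ.det / z, div_ne_zero hdρ hz0, ?_⟩
    rw [twNorm_smul, hρ, smul_smul]
    convert one_smul M (1 : Matrix (Fin 2) (Fin 2) M) using 2
    simp only [map_div₀, hzσ]
    field_simp
    linear_combination hN
  obtain ⟨g, hg, hgc, hgρ⟩ := exists_torus_h90 hσ hreg (hρc.smul_right w) hw
  refine ⟨g, w, hg, hw0, hgc, ?_⟩
  have hσg : Commute γM (twist σ g) := commute_twist hgc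
  calc g * (b : Matrix (Fin 2) (Fin 2) M)
      = (w • ρ) * (twist σ g * (b : Matrix (Fin 2) (Fin 2) M)) := by
        rw [← Matrix.mul_assoc, hgρ]
    _ = (w • B') * twist σ g := by
        rw [(commute_comm hreg hσg hc).eq, ← Matrix.mul_assoc]
        simp [ρ, Matrix.mul_assoc]

/-- Conjugacy over `M` modulo scalars is conjugacy over `E` modulo scalars. -/
theorem exists_rational_conj (hσ : IsCubicTwist σ) (h2 : (2 : M) ≠ 0)
    {γ' : Matrix (Fin 2) (Fin 2) E} (hreg : γ.trace ^ 2 ≠ 4 * γ.det) (hd' : γ'.det ≠ 0)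
    {g : Matrix (Fin 2) (Fin 2) M} (hg : IsUnit g) {z : M}
    (h : g * γM = (z • γ'.map (algebraMap E M)) * g) :
    ∃ (e : E) (P : Matrix (Fin 2) (Fin 2) E), algebraMap E M e = z ∧ IsUnit P ∧
      P * γ = (e • γ') * P := by
  obtain ⟨u, rfl⟩ := hg
  have hconj : γM = (↑u⁻¹ : Matrix (Fin 2) (Fin 2) M) * (z • γ'.map (algebraMap E M)) * u := by
    rw [Matrix.mul_assoc, ← h, ← Matrix.mul_assoc, Units.inv_mul, Matrix.one_mul]
  have ht := congrArg Matrix.trace hconj
  have hd := congrArg Matrix.det hconj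
  rw [Matrix.trace_units_conj', Matrix.trace_smul] at ht
  rw [Matrix.det_units_conj', Matrix.det_smul, Fintype.card_fin] at hd
  have hmt : ∀ A : Matrix (Fin 2) (Fin 2) E,
      (A.map (algebraMap E M)).trace = algebraMap E M A.trace := fun A => by
    simp [Matrix.trace_fin_two]
  have hmd : ∀ A : Matrix (Fin 2) (Fin 2) E,
      (A.map (algebraMap E M)).det = algebraMap E M A.det := det_mapAlg
  rw [hmt, hmt, smul_eq_mul] at ht
  rw [hmd, hmd] at hd
  have hz2 : σ z = z := by
    refine mem_of_sq_mem hσ h2 (mul_right_cancel₀ (b := algebraMap E M γ'.det) (by simpa) ?_)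
    have := congrArg σ hd
    rw [map_mul, AlgEquiv.commutes, AlgEquiv.commutes, hd] at this
    exact this.symm
  obtain ⟨e, he⟩ := hσ.fixed z hz2
  refine ⟨e, ?_⟩
  have ht' : (e • γ').trace = γ.trace := (algebraMap E M).injective (by simp [he, ht])
  have hd2 : (e • γ').det = γ.det := (algebraMap E M).injective (by simp [he, hd])
  obtain ⟨P, hP, hγP⟩ := exists_conj_companion hreg
  obtain ⟨Q, hQ, hγQ⟩ := exists_conj_companion (A := e • γ') (by rw [ht', hd2]; exact hreg)
  rw [ht', hd2] at hγQ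
  obtain ⟨p, rfl⟩ := hP
  refine ⟨Q * (↑p⁻¹ : Matrix (Fin 2) (Fin 2) E), he, hQ.mul p⁻¹.isUnit, ?_⟩
  rw [← Matrix.mul_assoc (e • γ'), hγQ, Matrix.mul_assoc Q, Matrix.mul_assoc Q]
  congr 1
  rw [Units.inv_mul_eq_iff_eq_mul, ← Matrix.mul_assoc, ← hγP, Units.mul_inv_cancel_right]

/-- The part of the twisted centraliser commuting with the norm is rational modulo scalars. -/
theorem exists_rational_of_fixed (hσ : IsCubicTwist σ) (hreg : γ.trace ^ 2 ≠ 4 * γ.det)
    {B g : Matrix (Fin 2) (Fin 2) M} (hB : IsUnit B) (hg : IsUnit g) (hBc : Commute γM B)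
    (hgc : Commute γM g) {w : M} (h : g * B = (w • B) * twist σ g) :
    ∃ (u : M) (P : Matrix (Fin 2) (Fin 2) E), u ≠ 0 ∧ IsUnit P ∧ P * γ = γ * P ∧
      g = u • P.map (algebraMap E M) := by
  have hgw : g = w • twist σ g := by
    have c := commute_comm hreg hBc (commute_twist (σ := σ) hgc)
    rw [Matrix.smul_mul, c.eq, ← Matrix.smul_mul] at h
    exact hB.mul_right_cancel h
  have hw : w * σ w * σ (σ w) = 1 := by
    have h3 : g = (w * σ w * σ (σ w)) • g := by
      conv_lhs => rw [hgw, hgw, hgw]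
      simp only [twist_smul, twist_cube hσ, smul_smul, mul_assoc, map_mul]
    obtain ⟨i, j, hij⟩ : ∃ i j, g i j ≠ 0 := by
      by_contra h0
      push Not at h0
      exact hg.ne_zero (Matrix.ext h0)
    have := congrFun (congrFun h3 i) j
    rw [Matrix.smul_apply, smul_eq_mul] at this
    exact (mul_eq_right₀ hij).mp this.symm
  obtain ⟨u, hu, hu'⟩ := exists_scalar_h90 hσ hw
  have hfix : ∀ i j, σ (g i j / u) = g i j / u := fun i j => by
    have h1 : w * σ (g i j) = g i j := by
      conv_rhs => rw [hgw]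
      simp
    have hw0 : w ≠ 0 := fun h0 => by simp [h0] at hw
    have hσu : σ u ≠ 0 := by simpa using hu
    rw [map_div₀, div_eq_div_iff hσu hu]
    refine mul_left_cancel₀ hw0 ?_
    linear_combination u * h1 - g i j * hu'
  choose p hp using fun i j => hσ.fixed _ (hfix i j)
  have hgP : g = u • (Matrix.of p).map (algebraMap E M) := by
    ext i j
    simp only [Matrix.smul_apply, Matrix.map_apply, Matrix.of_apply, hp, smul_eq_mul]
    field_simp
  refine ⟨u, Matrix.of p, hu, ?_, ?_, ?_⟩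
  · have := (Matrix.isUnit_iff_isUnit_det g).mp hg
    rw [hgP, Matrix.det_smul] at this
    have h2 := isUnit_of_mul_isUnit_right this
    rw [Matrix.isUnit_iff_isUnit_det, isUnit_iff_ne_zero]
    intro h0
    have : ((Matrix.of p).map (algebraMap E M)).det = algebraMap E M (Matrix.of p).det := by
      simp [Matrix.det_fin_two]
    rw [this, h0, map_zero] at h2
    exact not_isUnit_zero h2
  · apply Matrix.map_injective (algebraMap E M).injective
    show (Matrix.of p * γ).map (algebraMap E M) = (γ * Matrix.of p).map (algebraMap E M)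
    rw [Matrix.map_mul, Matrix.map_mul]
    have := hgc.eq
    rw [hgP, Matrix.mul_smul, Matrix.smul_mul] at this
    exact (smul_right_injective _ hu this).symm
  · exact hgP

/-- The norm of a twisted centralising element conjugates the norm to plus or minus itself. -/
theorem conj_sign (hσ : IsCubicTwist σ) (hd : γ.det ≠ 0)
    {B g : Matrix (Fin 2) (Fin 2) M} (hg : IsUnit g) (hB : twNorm σ B = γM) {w : M}
    (h : g * B = (w • B) * twist σ g) :
    Commute γM g ∨ (γ.trace = 0 ∧ g * γM = -(γM * g)) ∨ (2 : M) = 0 := by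
  have h1 := twNorm_conj hσ h
  rw [twNorm_smul, hB] at h1
  set z := w * σ w * σ (σ w)
  obtain ⟨u, rfl⟩ := hg
  have hconj : γM = (↑u⁻¹ : Matrix (Fin 2) (Fin 2) M) * (z • γM) * u := by
    rw [Matrix.mul_assoc, ← h1, ← Matrix.mul_assoc, Units.inv_mul, Matrix.one_mul]
  have ht := congrArg Matrix.trace hconj
  have hdd := congrArg Matrix.det hconj
  rw [Matrix.trace_units_conj', Matrix.trace_smul, smul_eq_mul] at ht
  rw [Matrix.det_units_conj', Matrix.det_smul, Fintype.card_fin] at hdd
  have hdne : (γM).det ≠ 0 := by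
    rw [det_mapAlg]
    simpa using hd
  have hz : z = 1 ∨ z = -1 := sq_eq_one_iff.mp (mul_eq_right₀ hdne |>.mp hdd.symm)
  rcases hz with hz | hz <;> rw [hz] at h1 ht
  · rw [one_smul] at h1
    exact Or.inl h1.symm
  · refine Or.inr ?_
    rw [neg_one_mul] at ht
    have h2 : (2 : M) * (γM).trace = 0 := by linear_combination ht
    rcases mul_eq_zero.mp h2 with h0 | h0
    · exact Or.inr h0
    · refine Or.inl ⟨(algebraMap E M).injective ?_, by simpa using h1⟩
      simpa [Matrix.trace_fin_two] using h0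

/-- In trace zero the twisted centraliser meets the other component of the normaliser. -/
theorem exists_other_component (hσ : IsCubicTwist σ) (hreg : γ.trace ^ 2 ≠ 4 * γ.det)
    {B : Matrix (Fin 2) (Fin 2) M} (hB : IsUnit B) (hN : twNorm σ B = γM)
    {h : Matrix (Fin 2) (Fin 2) E} (hh : IsUnit h) (hanti : h * γ = -(γ * h)) :
    ∃ (g : Matrix (Fin 2) (Fin 2) M) (w : M), IsUnit g ∧ w ≠ 0 ∧ g * B = (w • B) * twist σ g ∧
      g * γM = -(γM * g) := by
  obtain ⟨hu, rfl⟩ := hh
  set H : Matrix (Fin 2) (Fin 2) M := (hu : Matrix (Fin 2) (Fin 2) E).map (algebraMap E M)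
  set H' : Matrix (Fin 2) (Fin 2) M := (↑hu⁻¹ : Matrix (Fin 2) (Fin 2) E).map (algebraMap E M)
  have hHH : H * H' = 1 ∧ H' * H = 1 := by
    constructor <;> rw [← Matrix.map_mul] <;> simp
  have hHu : IsUnit H := ⟨⟨H, H', hHH.1, hHH.2⟩, rfl⟩
  have hanti' : H * γM = -(γM * H) := by
    rw [← Matrix.map_mul, hanti, ← Matrix.map_mul]
    ext i j
    simp only [Matrix.map_apply, Matrix.neg_apply, map_neg]
  have hBc : Commute γM B := commute_of_rational_norm hσ hN
  set B' := H * B * H'
  have hσH' : twist σ H' = H' := twist_algebraMap _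
  have hB'N : twNorm σ B' = (-1 : M) • twNorm σ B := by
    have hgB : H * B = B' * twist σ H := by
      rw [twist_algebraMap, Matrix.mul_assoc, hHH.2, Matrix.mul_one]
    have h1 := twNorm_conj hσ hgB
    rw [hN, hanti'] at h1
    calc twNorm σ B' = twNorm σ B' * H * H' := by rw [Matrix.mul_assoc, hHH.1, Matrix.mul_one]
      _ = -(γM * H) * H' := by rw [← h1]
      _ = (-1 : M) • twNorm σ B := by
          rw [Matrix.neg_mul, Matrix.mul_assoc, hHH.1, Matrix.mul_one, hN, neg_one_smul]
  have hanti2 : γM * H = -(H * γM) := by rw [hanti', neg_neg]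
  have hanti3 : γM * H' = -(H' * γM) := by
    calc γM * H' = H' * (H * γM) * H' := by
          rw [← Matrix.mul_assoc H', hHH.2, Matrix.one_mul]
      _ = -(H' * γM) := by
          rw [hanti', Matrix.mul_neg, Matrix.neg_mul, Matrix.mul_assoc H', Matrix.mul_assoc γM,
            hHH.1, Matrix.mul_one]
  have hB'c : Commute γM B' := by
    show γM * (H * B * H') = H * B * H' * γM
    calc γM * (H * B * H') = -(H * (γM * B) * H') := by
          rw [← Matrix.mul_assoc, ← Matrix.mul_assoc, hanti2, Matrix.neg_mul, Matrix.neg_mul,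
            Matrix.mul_assoc H]
      _ = H * B * H' * γM := by
          rw [hBc.eq, Matrix.mul_assoc (H * B) H', ← Matrix.mul_assoc H B γM,
            Matrix.mul_assoc (H * B) γM, hanti3, Matrix.mul_neg, neg_neg]
  have hB'u : IsUnit B' := (hHu.mul hB).mul ⟨⟨H', H, hHH.2, hHH.1⟩, rfl⟩
  obtain ⟨g, w, hg, hw, hgc, hg'⟩ := twisted_conj_of_twNorm_eq hσ hreg hB'u hB hB'c hBc
    (z := -1) (by rw [hB'N, smul_smul]; simp)
  refine ⟨g * H, w, hg.mul hHu, hw, ?_, ?_⟩
  · rw [twist_mul, twist_algebraMap, ← Matrix.mul_assoc (w • B), ← hg']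
    show g * H * B = g * (H * B * H') * H
    simp only [Matrix.mul_assoc, hHH.2, Matrix.mul_one]
  · rw [Matrix.mul_assoc, hanti', Matrix.mul_neg, ← Matrix.mul_assoc, ← hgc.eq, Matrix.mul_assoc]

/-- A class is a norm if the ratio of its two eigenvalues is one. -/
theorem exists_twNorm_of_ratio (hreg : γ.trace ^ 2 ≠ 4 * γ.det)
    (hd : γ.det ≠ 0) {Y : Matrix (Fin 2) (Fin 2) M} (hY : IsUnit Y) (hYc : Commute γM Y)
    (h : twNorm σ Y * (γM).adjugate = γM) :
    ∃ δ : Matrix (Fin 2) (Fin 2) M, IsUnit δ ∧ Commute γM δ ∧ twNorm σ δ = (γM).det • γM := by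
  obtain ⟨y, rfl⟩ := hY
  have hγu : IsUnit γM := by
    rw [Matrix.isUnit_iff_isUnit_det, isUnit_iff_ne_zero]
    rw [det_mapAlg]
    simpa using hd
  have hyi : Commute γM (↑y⁻¹ : Matrix (Fin 2) (Fin 2) M) := hYc.units_inv_right
  refine ⟨γM * (↑y⁻¹ : Matrix (Fin 2) (Fin 2) M), hγu.mul y⁻¹.isUnit,
    (Commute.refl _).mul_right hyi, ?_⟩
  have hsq : γM * γM = (γM).det • twNorm σ (y : Matrix (Fin 2) (Fin 2) M) := by
    calc γM * γM = twNorm σ (y : Matrix (Fin 2) (Fin 2) M) * ((γM).adjugate * γM) := by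
          rw [← Matrix.mul_assoc, h]
      _ = _ := by rw [Matrix.adjugate_mul, Matrix.mul_smul, Matrix.mul_one]
  have hNγ : twNorm σ γM = γM * γM * γM := by simp only [twNorm, twist_algebraMap]
  rw [twNorm_mul hreg (Commute.refl _) hyi, hNγ, Matrix.mul_assoc (γM) (γM), hsq,
    Matrix.mul_assoc, Matrix.smul_mul, ← twNorm_mul hreg hYc hyi, Units.mul_inv, Matrix.mul_smul]
  simp [twNorm]

end Torus

end FLTAgent.LanglandsTunnell.Trace
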