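import Fermat.Agent.LanglandsTunnell.Trace.QuadPair
import Fermat.Agent.LanglandsTunnell.Trace.TwistedTorus
import Fermat.Agent.LanglandsTunnell.Local.TransferSpec
import Fermat.Agent.LanglandsTunnell.Local.RamifiedPrimes
import Fermat.Agent.LanglandsTunnell.AdelicUnits
import Fermat.Agent.WeightOneWiring.Places
import Mathlib.RingTheory.Filtration

/-!
# Local norms are global norms, modulo scalars

A regular class over `E` which is, modulo scalars, a norm from its centraliser at every rational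
prime is a norm globally: the quotient of the two eigenvalues is a norm from the cubic extension
of the field of eigenvalues by the Hasse norm theorem.
-/

set_option autoImplicit false
set_option maxSynthPendingDepth 3

noncomputable section

namespace FLTAgent.LanglandsTunnell.Trace

open scoped TensorProduct
open FLTAgent.LanglandsTunnell FLTAgent.LanglandsTunnell.Local NumberField Matrix

/-- A quotient with numerator in a high power of a prime is a local congruence. -/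
theorem exists_ratio_mem_pow {R : Type*} [CommRing R] [IsDedekindDomain R] (v : Ideal R)
    [hv : v.IsPrime] (hv0 : v ≠ ⊥) (k : ℕ) :
    ∀ (j : ℕ) (N d : R), d ∉ v ^ j → N ∈ v ^ (k + j) →
      ∃ a b : R, b ∉ v ∧ a ∈ v ^ k ∧ N * b = d * a := by
  intro j
  induction j with
  | zero => intro N d hd _; simp at hd
  | succ j ih =>
    intro N d hd hN
    by_cases hdv : d ∈ v
    swap
    · exact ⟨N, d, hdv, Ideal.pow_le_pow_right (by omega) hN, mul_comm _ _⟩
    obtain ⟨π, hπ, hπ2⟩ := SetLike.exists_of_lt (Ideal.pow_right_strictAnti v hv0 hv.ne_top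
      (show 1 < 2 by norm_num))
    simp only [pow_one] at hπ
    have hπ0 : π ≠ 0 := fun h => hπ2 (h ▸ zero_mem _)
    obtain ⟨J, hJ⟩ : v ∣ Ideal.span {π} :=
      Ideal.dvd_iff_le.mpr ((Ideal.span_singleton_le_iff_mem v).mpr hπ)
    have hJv : ¬ J ≤ v := fun h => hπ2 (by
      show π ∈ v ^ 2
      rw [← Ideal.span_singleton_le_iff_mem, hJ, pow_two]
      exact Ideal.mul_mono_right h)
    obtain ⟨β, hβJ, hβv⟩ := SetLike.not_le_iff_exists.mp hJv
    have hβ : ∀ x ∈ v, β * x ∈ Ideal.span {π} := fun x hx => by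
      rw [hJ, mul_comm β]
      exact Ideal.mul_mem_mul hx hβJ
    obtain ⟨d', hd'⟩ := Ideal.mem_span_singleton'.mp (hβ d hdv)
    have hN' : β * N ∈ Ideal.span {π} * v ^ (k + j) := by
      rw [hJ, mul_comm v, mul_assoc, ← pow_succ', add_assoc]
      exact Ideal.mul_mem_mul hβJ hN
    obtain ⟨N', hN'', hNe⟩ := Ideal.mem_span_singleton_mul.mp hN'
    obtain ⟨a, b, hb, ha, e⟩ := ih N' d' (fun h => hd (by
      have h1 : β * d ∈ v ^ (j + 1) := by
        rw [← hd', pow_succ]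
        exact Ideal.mul_mem_mul h hπ
      exact (Ideal.IsPrime.mul_mem_pow v h1).resolve_left hβv)) hN''
    refine ⟨a, b, hb, ha, mul_left_cancel₀ (fun h => hβv (h ▸ zero_mem v) : β ≠ 0) ?_⟩
    linear_combination π * e - b * hNe + a * hd'

theorem exists_notMem_pow {R : Type*} [CommRing R] [IsDedekindDomain R] (v : Ideal R)
    [hv : v.IsPrime] {c : R} (hc : c ≠ 0) : ∃ j : ℕ, c ∉ v ^ j := by
  by_contra h
  push Not at h
  have := (Ideal.mem_iInf).mpr h
  rw [Ideal.iInf_pow_eq_bot_of_isDomain v hv.ne_top] at this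
  exact hc (Ideal.mem_bot.mp this)

/-- The fixed points contain the norms. -/
theorem qNorm_fixed {R : Type*} [CommRing R] (T Δ : R) (θ : R →+* R) (hT : θ T = T) (hΔ : θ Δ = Δ)
    (hcube : ∀ x, θ (θ (θ x)) = x) (u : R × R) :
    θ (qNorm T Δ θ u).1 = (qNorm T Δ θ u).1 ∧ θ (qNorm T Δ θ u).2 = (qNorm T Δ θ u).2 := by
  constructor <;> simp [qNorm, qMul, Prod.map, hT, hΔ, hcube] <;> ring

/-- Norms of congruent pairs are congruent. -/
theorem qNorm_congr {R : Type*} [CommRing R] (I : Ideal R) (T Δ : R) (θ : R →+* R)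
    (hI : I ≤ I.comap θ) {u v : R × R} (h1 : u.1 - v.1 ∈ I) (h2 : u.2 - v.2 ∈ I) :
    (qNorm T Δ θ u).1 - (qNorm T Δ θ v).1 ∈ I ∧ (qNorm T Δ θ u).2 - (qNorm T Δ θ v).2 ∈ I := by
  have key : ∀ x y : R, x - y ∈ I → Ideal.Quotient.mk I x = Ideal.Quotient.mk I y ∧
      Ideal.Quotient.mk I (θ x) = Ideal.Quotient.mk I (θ y) ∧
      Ideal.Quotient.mk I (θ (θ x)) = Ideal.Quotient.mk I (θ (θ y)) := fun x y h => by
    simp only [Ideal.Quotient.eq, ← map_sub]
    exact ⟨h, hI h, hI (hI h)⟩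
  obtain ⟨a1, a2, a3⟩ := key _ _ h1
  obtain ⟨b1, b2, b3⟩ := key _ _ h2
  simp only [← Ideal.Quotient.eq]
  constructor <;> simp [qNorm, qMul, Prod.map, a1, a2, a3, b1, b2, b3]

/-! ### A quadratic extension inside `ℚ̄` -/

/-- `F + F a` for a quadratic `a`. -/
def quadAlg (F : IntermediateField ℚ QB) (a t d : QB) (ht : t ∈ F) (hd : d ∈ F)
    (ha : a * a = t * a - d) : Subalgebra ℚ QB where
  carrier := {z | ∃ x ∈ F, ∃ y ∈ F, z = x + y * a}
  mul_mem' := by
    rintro _ _ ⟨x, hx, y, hy, rfl⟩ ⟨x', hx', y', hy', rfl⟩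
    exact ⟨x * x' - d * (y * y'), sub_mem (mul_mem hx hx') (mul_mem hd (mul_mem hy hy')),
      x * y' + y * x' + t * (y * y'),
      add_mem (add_mem (mul_mem hx hy') (mul_mem hy hx')) (mul_mem ht (mul_mem hy hy')),
      by linear_combination y * y' * ha⟩
  add_mem' := by
    rintro _ _ ⟨x, hx, y, hy, rfl⟩ ⟨x', hx', y', hy', rfl⟩
    exact ⟨x + x', add_mem hx hx', y + y', add_mem hy hy', by ring⟩
  algebraMap_mem' r := ⟨algebraMap ℚ QB r, F.algebraMap_mem r, 0, zero_mem _, by ring⟩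

/-- `F(a)` for a quadratic `a`. -/
def quadExt (F : IntermediateField ℚ QB) (a t d : QB) (ht : t ∈ F) (hd : d ∈ F)
    (ha : a * a = t * a - d) : IntermediateField ℚ QB :=
  (quadAlg F a t d ht hd ha).toIntermediateField fun x hx =>
    (quadAlg F a t d ht hd ha).inv_mem_of_algebraic (x := ⟨x, hx⟩)
      (Algebra.IsAlgebraic.isAlgebraic x)

theorem mem_quadExt {F : IntermediateField ℚ QB} {a t d : QB} {ht : t ∈ F} {hd : d ∈ F}
    {ha : a * a = t * a - d} {z : QB} :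
    z ∈ quadExt F a t d ht hd ha ↔ ∃ x ∈ F, ∃ y ∈ F, z = x + y * a := Iff.rfl

theorem le_quadExt (F : IntermediateField ℚ QB) (a t d : QB) (ht : t ∈ F) (hd : d ∈ F)
    (ha : a * a = t * a - d) : F ≤ quadExt F a t d ht hd ha :=
  fun x hx => ⟨x, hx, 0, zero_mem _, by ring⟩

theorem self_mem_quadExt (F : IntermediateField ℚ QB) (a t d : QB) (ht : t ∈ F) (hd : d ∈ F)
    (ha : a * a = t * a - d) : a ∈ quadExt F a t d ht hd ha :=
  ⟨0, zero_mem _, 1, one_mem _, by ring⟩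

theorem numberField_quadExt (F : IntermediateField ℚ QB) [FiniteDimensional ℚ F] (a t d : QB)
    (ht : t ∈ F) (hd : d ∈ F) (ha : a * a = t * a - d) :
    NumberField (quadExt F a t d ht hd ha) := by
  let f : (F × F) →ₗ[ℚ] quadExt F a t d ht hd ha :=
    { toFun := fun u => ⟨u.1 + u.2 * a, mem_quadExt.mpr ⟨_, u.1.2, _, u.2.2, rfl⟩⟩
      map_add' := fun u v => Subtype.ext (by simp; ring)
      map_smul' := fun r u => Subtype.ext (by simp [Algebra.smul_def]; ring) }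
  have : FiniteDimensional ℚ (quadExt F a t d ht hd ha) :=
    Module.Finite.of_surjective f fun z => by
      obtain ⟨x, hx, y, hy, e⟩ := mem_quadExt.mp z.2
      exact ⟨(⟨x, hx⟩, ⟨y, hy⟩), Subtype.ext e.symm⟩
  exact ⟨⟩

variable {D : Datum} {σ : D.M ≃ₐ[ℚ] D.M}

/-- The inclusion on integers. -/
abbrev intIncl (D : Datum) : 𝓞 D.E →+* 𝓞 D.M := RingOfIntegers.mapRingHom D.incl

/-- `σ` extended to `ℚ̄`, fixing a quadratic element over `E`. -/
theorem exists_extension (hfix : ∀ x, σ (D.incl x) = D.incl x)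
    (hcube : ∀ x, σ (σ (σ x)) = x) (t d : D.E) {a : QB}
    (ha : a * a = (t : QB) * a - (d : QB)) :
    ∃ τ : GQ, (∀ x : D.M, τ (x : QB) = ((σ x : D.M) : QB)) ∧ τ a = a := by
  have := WeightOneWiring.isGalois_QB
  set τ₀ : GQ := AlgEquiv.liftNormal σ QB
  have h0 : ∀ x : D.M, τ₀ (x : QB) = ((σ x : D.M) : QB) := fun x =>
    AlgEquiv.liftNormal_commutes σ QB x
  have hE : ∀ e : D.E, τ₀ (e : QB) = (e : QB) := fun e => by
    have := h0 (D.incl e)
    rwa [hfix] at this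
  have hroot : ∀ b : QB, b * b = (t : QB) * b - (d : QB) →
      b = a ∨ b = (t : QB) - a := fun b hb => by
    have : (b - a) * (b - ((t : QB) - a)) = 0 := by linear_combination hb - ha
    rcases mul_eq_zero.mp this with h | h
    · exact Or.inl (sub_eq_zero.mp h)
    · exact Or.inr (sub_eq_zero.mp h)
  have h2 : τ₀ (τ₀ a) = a := by
    have hb := congrArg τ₀ ha
    simp only [map_mul, map_sub, hE] at hb
    rcases hroot _ hb with h | h
    · rw [h, h]
    · rw [h, map_sub, hE, h]; ring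
  refine ⟨τ₀ * τ₀ * (τ₀ * τ₀), fun x => ?_, ?_⟩
  · simp only [AlgEquiv.mul_apply, h0, hcube]
  · simp only [AlgEquiv.mul_apply, h2]

/-- The congruences coming from one rational prime. -/
theorem exists_congr_of_local {p : Nat.Primes} (hC : CubicData D.incl σ.toRingEquiv)
    (γ : GL (Fin 2) D.E) (hreg : IsRegularMat D γ) (z : (Lp D.E p)ˣ) (X : GL (Fin 2) (Lp D.M p))
    (hX : X * Matrix.GeneralLinearGroup.map (mapLp (p := (p : ℕ)) D.incl) (compGL p (glE D γ)) =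
      Matrix.GeneralLinearGroup.map (mapLp (p := (p : ℕ)) D.incl) (compGL p (glE D γ)) * X)
    (hN : X * Matrix.GeneralLinearGroup.map (mapLp (p := (p : ℕ)) σ.toAlgHom.toRingHom) X *
      Matrix.GeneralLinearGroup.map (mapLp (p := (p : ℕ)) σ.toAlgHom.toRingHom)
        (Matrix.GeneralLinearGroup.map (mapLp (p := (p : ℕ)) σ.toAlgHom.toRingHom) X) =
    Matrix.GeneralLinearGroup.map (mapLp (p := (p : ℕ)) D.incl)
      (Matrix.GeneralLinearGroup.scalar (Fin 2) z * compGL p (glE D γ)))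
    (m : D.E) (hm : m ≠ 0) (T Δ : 𝓞 D.E) (hT : (T : D.E) = m * γ.1.trace)
    (hΔ : (Δ : D.E) = m * m * γ.1.det) :
    ∃ l : ℕ, ∀ n : ℕ, ∃ (u : 𝓞 D.M × 𝓞 D.M) (w : 𝓞 D.M),
      ((p : ℕ) : 𝓞 D.M) ^ n ∣ (qNorm (intIncl D T) (intIncl D Δ) (intAut σ) u).1 ∧
      ((p : ℕ) : 𝓞 D.M) ^ n ∣
        (qNorm (intIncl D T) (intIncl D Δ) (intAut σ) u).2 * w - ((p : ℕ) : 𝓞 D.M) ^ l := by
  set P : ℕ := (p : ℕ)
  let ι : D.M →+* Lp D.M P := Algebra.TensorProduct.includeLeftRingHom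
  let g : 𝓞 D.M →+* Op D.M P := Algebra.TensorProduct.includeLeftRingHom
  set θ : Lp D.M P →+* Lp D.M P := mapLp σ.toAlgHom.toRingHom
  set θo : Op D.M P →+* Op D.M P := mapOp σ.toAlgHom.toRingHom
  set γp : Matrix (Fin 2) (Fin 2) (Lp D.M P) := γ.1.map (ι.comp D.incl) with hγp
  have hγpe : (Matrix.GeneralLinearGroup.map (mapLp (p := P) D.incl) (compGL p (glE D γ))).1 = γp :=
    by
    ext i j
    show mapLp D.incl (compAF p (toAF D.E (γ.1 i j))) = ι (D.incl (γ.1 i j))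
    rfl
  set G : Matrix (Fin 2) (Fin 2) (Lp D.M P) := (m • γ.1).map (ι.comp D.incl) with hG
  have hGγ : G = ι (D.incl m) • γp := by
    ext i j; simp [hG, hγp]
  have hGt : G.trace = ι (D.incl (T : D.E)) := by
    simp [hG, Matrix.trace_fin_two, hT, mul_add]
  have hGd : G.det = ι (D.incl (Δ : D.E)) := by
    simp [hG, Matrix.det_fin_two, hΔ]
    ring
  have hGθ : G.map θ = G := by
    ext i j
    show θ (ι (D.incl ((m • γ.1) i j))) = ι (D.incl ((m • γ.1) i j))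
    rw [show θ (ι (D.incl ((m • γ.1) i j))) = ι (σ (D.incl ((m • γ.1) i j))) from rfl]
    exact congrArg ι (hC.map _)
  have hdisc : IsUnit (G.trace ^ 2 - 4 * G.det) := by
    rw [hGt, hGd, ← map_pow, ← map_pow, ← map_ofNat (ι.comp D.incl) 4, RingHom.comp_apply,
      ← map_mul, ← map_mul, ← map_sub, ← map_sub]
    refine ((isUnit_iff_ne_zero.mpr ?_).map D.incl).map ι
    rw [hT, hΔ]
    have : (m : D.E) * m * (γ.1.trace ^ 2 - 4 * γ.1.det) ≠ 0 :=
      mul_ne_zero (mul_ne_zero hm hm) (sub_ne_zero.mpr hreg)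
    convert this using 1
    ring
  -- coordinates of the local solution
  have hXG : X.1 * G = G * X.1 := by
    have := congrArg Units.val hX
    rw [Units.val_mul, Units.val_mul, hγpe] at this
    rw [hGγ, Matrix.mul_smul, Matrix.smul_mul, this]
  obtain ⟨x, hx⟩ := exists_qMat_of_commute hdisc hXG
  obtain ⟨mi, hmi⟩ := isUnit_iff_exists_inv.mp ((isUnit_iff_ne_zero.mpr hm).map (ι.comp D.incl))
  set zz : Lp D.M P := mapLp D.incl (z : Lp D.E P) * mi
  have hzz : IsUnit zz := (z.isUnit.map _).mul (IsUnit.of_mul_eq_one _ ((mul_comm _ _).trans hmi))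
  have hnorm : qNorm (ι (D.incl (T : D.E))) (ι (D.incl (Δ : D.E))) θ x = (0, zz) := by
    refine qMat_injective hdisc ?_
    rw [← hGt, ← hGd, ← qMat_norm G θ hGθ, ← hx]
    have := congrArg Units.val hN
    simp only [map_mul, Matrix.GeneralLinearGroup.map_scalar, Units.val_mul, hγpe] at this
    refine this.trans ?_
    rw [qMat, hGγ, smul_smul, zero_smul, zero_add, mul_assoc, mul_comm mi]
    rw [show ι (D.incl m) * mi = 1 from hmi, mul_one]
    ext i j
    simp [Matrix.mul_apply, Fin.sum_univ_two, Matrix.scalar_apply]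
    fin_cases i <;> simp
  -- integral coordinates
  obtain ⟨e₁, o₁, ho₁⟩ := exists_pow_mul_eq_φp x.1
  obtain ⟨e₂, o₂, ho₂⟩ := exists_pow_mul_eq_φp x.2
  set c : Lp D.M P := (P : Lp D.M P) ^ (e₁ + e₂)
  set o : Op D.M P × Op D.M P := ((P : Op D.M P) ^ e₂ * o₁, (P : Op D.M P) ^ e₁ * o₂)
  have hoe : Prod.map (φp D.M P) (φp D.M P) o = qScale c x := by
    ext
    · simp only [o, c, Prod.map, qScale, map_mul, map_pow, map_natCast, ← ho₁, pow_add]; ring
    · simp only [o, c, Prod.map, qScale, map_mul, map_pow, map_natCast, ← ho₂, pow_add]; ring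
  set No := qNorm (g (intIncl D T)) (g (intIncl D Δ)) θo o
  have hNo : Prod.map (φp D.M P) (φp D.M P) No = qScale (c * θ c * θ (θ c)) (0, zz) := by
    rw [← hnorm, ← qNorm_scale, ← hoe,
      map_qNorm (φp D.M P) _ _ (θ' := θ) (fun y => φp_mapOp _ y) o]
    rfl
  have hNo1 : No.1 = 0 := φp_injective (by
    rw [map_zero]; simpa [qScale] using congrArg Prod.fst hNo)
  have hcu : IsUnit c := (isUnit_natCast_Lp (F := D.M) (p := P) p.2.ne_zero).pow _
  have hNo2 : IsUnit (φp D.M P No.2) := by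
    rw [show φp D.M P No.2 = c * θ c * θ (θ c) * zz from by
      simpa [qScale] using congrArg Prod.snd hNo]
    exact ((hcu.mul (hcu.map θ)).mul ((hcu.map θ).map θ)).mul hzz
  obtain ⟨w₁, hw₁⟩ := hNo2.exists_right_inv
  obtain ⟨l, o', ho'⟩ := exists_pow_mul_eq_φp w₁
  have hl : No.2 * o' = (P : Op D.M P) ^ l := φp_injective (by
    rw [map_mul, map_pow, map_natCast, ← ho', mul_left_comm, hw₁, mul_one])
  -- approximation
  refine ⟨l, fun n => ?_⟩
  set I : Ideal (Op D.M P) := Ideal.span {(P : Op D.M P) ^ n}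
  have hI : I ≤ I.comap θo := by
    rw [Ideal.span_le]
    rintro _ rfl
    show θo _ ∈ I
    rw [map_pow, map_natCast]
    exact Ideal.mem_span_singleton_self _
  obtain ⟨u₁, r₁, hu₁⟩ := exists_sub_tmul_one n o.1
  obtain ⟨u₂, r₂, hu₂⟩ := exists_sub_tmul_one n o.2
  obtain ⟨w, r₃, hw⟩ := exists_sub_tmul_one n o'
  have hg : ∀ (a : 𝓞 D.M) (y r : Op D.M P), y = a ⊗ₜ[ℤ] (1 : ℤ_[P]) + (P : Op D.M P) ^ n * r →
      y - g a ∈ I := fun a y r e => by
    rw [Ideal.mem_span_singleton, e]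
    exact ⟨r, by simp [g]⟩
  have hdvd : ∀ a : 𝓞 D.M, g a ∈ I → (P : 𝓞 D.M) ^ n ∣ a := fun a h =>
    (pow_dvd_tmul_one_iff n a).mp (Ideal.mem_span_singleton.mp h)
  obtain ⟨hA, hB⟩ := qNorm_congr I (g (intIncl D T)) (g (intIncl D Δ)) θo hI
    (hg _ _ _ hu₁) (hg _ _ _ hu₂) (v := Prod.map g g (u₁, u₂))
  rw [← map_qNorm g (intIncl D T) (intIncl D Δ) (θ := intAut σ) (fun y => rfl)] at hA hB
  refine ⟨(u₁, u₂), w, hdvd _ ?_, hdvd _ ?_⟩
  · have : No.1 - g _ ∈ I := hA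
    rw [hNo1, zero_sub, neg_mem_iff] at this
    exact this
  · rw [map_sub, map_mul, map_pow, map_natCast, ← hl]
    have h1 : No.2 - g _ ∈ I := hB
    have h2 := hg _ _ _ hw
    have : g (qNorm (intIncl D T) (intIncl D Δ) (intAut σ) (u₁, u₂)).2 * g w - No.2 * o' =
        -((No.2 - g (qNorm (intIncl D T) (intIncl D Δ) (intAut σ) (u₁, u₂)).2) * g w +
          No.2 * (o' - g w)) := by ring
    rw [this]
    exact neg_mem (add_mem (I.mul_mem_right _ h1) (I.mul_mem_left _ h2))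

/-! ### The field of eigenvalues -/

section Eigen

variable (T Δ : 𝓞 D.E) {α α' : QB}

/-- An eigenvalue of a class of trace `T` and determinant `Δ`. -/
def IsRootOf (α : QB) : Prop := α * α = ((T : D.E) : QB) * α - ((Δ : D.E) : QB)

variable {T Δ} {τ : GQ}

theorem apply_of_mem_E (hfix : ∀ x, σ (D.incl x) = D.incl x)
    (hτM : ∀ x : D.M, τ (x : QB) = ((σ x : D.M) : QB)) {x : QB} (hx : x ∈ D.E) : τ x = x := by
  have := hτM (D.incl ⟨x, hx⟩)
  rwa [hfix] at this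

theorem isIntegral_root (hα : IsRootOf T Δ α) : IsIntegral ℤ α := by
  set t : QB := ((T : D.E) : QB)
  set d : QB := ((Δ : D.E) : QB)
  have ht : t ∈ integralClosure ℤ QB := map_isIntegral_int D.E.val.toRingHom T.2
  have hd : d ∈ integralClosure ℤ QB := map_isIntegral_int D.E.val.toRingHom Δ.2
  refine isIntegral_trans (A := integralClosure ℤ QB) α
    ⟨Polynomial.X ^ 2 - (Polynomial.C ⟨t, ht⟩ * Polynomial.X - Polynomial.C ⟨d, hd⟩),
      Polynomial.monic_X_pow_sub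
        (lt_of_le_of_lt (b := 1) (by compute_degree) (by norm_num)), ?_⟩
  simp only [Polynomial.eval₂_sub, Polynomial.eval₂_pow, Polynomial.eval₂_mul,
    Polynomial.eval₂_X, Polynomial.eval₂_C]
  show α ^ 2 - (t * α - d) = 0
  have hα : α * α = t * α - d := hα
  linear_combination hα

/-- The norm of a pair, evaluated at an eigenvalue. -/
theorem eval_qNorm (hτM : ∀ x : D.M, τ (x : QB) = ((σ x : D.M) : QB)) (ha : IsRootOf T Δ α)
    (hτa : τ α = α) (u : D.M × D.M) :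
    ((u.1 : QB) + (u.2 : QB) * α) * τ ((u.1 : QB) + (u.2 : QB) * α) *
        τ (τ ((u.1 : QB) + (u.2 : QB) * α)) =
      ((qNorm (D.incl (T : D.E)) (D.incl (Δ : D.E)) σ.toAlgHom.toRingHom u).1 : QB) +
      ((qNorm (D.incl (T : D.E)) (D.incl (Δ : D.E)) σ.toAlgHom.toRingHom u).2 : QB) * α := by
  set t : QB := ((T : D.E) : QB)
  set d : QB := ((Δ : D.E) : QB)
  let κ : D.M →+* QB := D.M.val.toRingHom
  have e := map_qNorm κ (D.incl (T : D.E)) (D.incl (Δ : D.E)) (θ := σ.toAlgHom.toRingHom)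
    (θ' := τ) (fun x => (hτM x).symm) u
  rw [show ((qNorm (D.incl (T : D.E)) (D.incl (Δ : D.E)) σ.toAlgHom.toRingHom u).1 : QB) = _ from
      congrArg Prod.fst e,
    show ((qNorm (D.incl (T : D.E)) (D.incl (Δ : D.E)) σ.toAlgHom.toRingHom u).2 : QB) = _ from
      congrArg Prod.snd e]
  simp only [qNorm, show κ (D.incl (T : D.E)) = t from rfl, show κ (D.incl (Δ : D.E)) = d from rfl]
  rw [← qMul_eval ha, ← qMul_eval ha]
  simp only [map_add, map_mul, hτa]
  rfl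

/-- The fixed points of the compositum. -/
theorem mem_quadExt_of_fixed (hC : CubicData D.incl σ.toRingEquiv)
    (hτM : ∀ x : D.M, τ (x : QB) = ((σ x : D.M) : QB)) (hτα : τ α = α) {t d : QB} (ht : t ∈ D.E)
    (hd : d ∈ D.E) (hα : α * α = t * α - d) {z : QB}
    (hz : z ∈ quadExt D.M α t d (D.E_le_M ht) (D.E_le_M hd) hα) (hxy : τ z = z) :
    z ∈ quadExt D.E α t d ht hd hα := by
  have hτlin : ∀ x y : D.M, τ ((x : QB) + (y : QB) * α) = (σ x : QB) + (σ y : QB) * α :=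
    fun x y => by rw [map_add, map_mul, hτM, hτM, hτα]
  obtain ⟨x, hx, y, hy, rfl⟩ := hz
  rw [show x + y * α = ((⟨x, hx⟩ : D.M) : QB) + ((⟨y, hy⟩ : D.M) : QB) * α from rfl,
    hτlin] at hxy
  set X : D.M := ⟨x, hx⟩ with hXdef
  set Y : D.M := ⟨y, hy⟩ with hYdef
  by_cases hY : σ Y = Y
  · rw [hY, add_left_inj] at hxy
    obtain ⟨e₁, he₁⟩ := hC.fixed X (Subtype.ext hxy)
    obtain ⟨e₂, he₂⟩ := hC.fixed Y hY
    exact ⟨(e₁ : QB), e₁.2, (e₂ : QB), e₂.2, by
      rw [show x = ((D.incl e₁ : D.M) : QB) from congrArg Subtype.val he₁.symm,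
        show y = ((D.incl e₂ : D.M) : QB) from congrArg Subtype.val he₂.symm]
      rfl⟩
  · have hY' : (σ Y : QB) - (Y : QB) ≠ 0 := sub_ne_zero.mpr fun h => hY (Subtype.ext h)
    have hαM : α ∈ D.M := by
      rw [show α = ((X : QB) - (σ X : QB)) / ((σ Y : QB) - (Y : QB)) from
        (eq_div_iff hY').mpr (by linear_combination hxy)]
      exact div_mem (sub_mem X.2 (σ X).2) (sub_mem (σ Y).2 Y.2)
    have hσα : σ ⟨α, hαM⟩ = ⟨α, hαM⟩ := Subtype.ext ((hτM _).symm.trans hτα)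
    have hfx : σ (X + Y * ⟨α, hαM⟩) = X + Y * ⟨α, hαM⟩ := Subtype.ext (by
      rw [map_add, map_mul, hσα]; push_cast; exact hxy)
    obtain ⟨e, he⟩ := hC.fixed _ hfx
    rw [show x + y * α = ((D.incl e : D.M) : QB) from (congrArg Subtype.val he).symm]
    exact le_quadExt _ _ _ _ _ _ _ e.2


/-- Fixed integers of the cubic extension are integers of the field of an eigenvalue. -/
theorem exists_int_of_fixed (hC : CubicData D.incl σ.toRingEquiv) {L : IntermediateField ℚ QB}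
    (hL : D.E ≤ L) {y : 𝓞 D.M} (hy : intAut σ y = y) :
    ∃ y' : 𝓞 L, ((y' : L) : QB) = ((y : D.M) : QB) := by
  obtain ⟨e, he⟩ := hC.fixed (y : D.M) (congrArg (fun w : 𝓞 D.M => (w : D.M)) hy)
  have hmem : ((y : D.M) : QB) ∈ L := by
    rw [← congrArg Subtype.val he]
    exact hL e.2
  refine ⟨⟨⟨_, hmem⟩, (isIntegral_algHom_iff (L.val.restrictScalars ℤ) L.val.injective).mp ?_⟩,
    rfl⟩
  exact map_isIntegral_int D.M.val.toRingHom y.2

/-- The hypothesis of the Hasse norm theorem at one prime of the field of an eigenvalue. -/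
theorem exists_local_congruence (hC : CubicData D.incl σ.toRingEquiv) {γ : GL (Fin 2) D.E}
    (hreg : IsRegularMat D γ) (h : IsLocalNorm D σ γ) {m : D.E} (hm : m ≠ 0)
    (hT : (T : D.E) = m * γ.1.trace) (hΔ : (Δ : D.E) = m * m * γ.1.det)
    (hα : IsRootOf T Δ α) (hα'eq : IsRootOf T Δ α')
    (hα0 : α ≠ 0) (hα'0 : α' ≠ 0)
    (hτM : ∀ x : D.M, τ (x : QB) = ((σ x : D.M) : QB)) (hτα : τ α = α) (hτα' : τ α' = α')
    {L L' : IntermediateField ℚ QB} [NumberField L] (hEL : D.E ≤ L) (hML : D.M ≤ L')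
    (hαL'' : α ∈ L') (hα'L'' : α' ∈ L') {αL αL' : 𝓞 L} (hαLv : ((αL : L) : QB) = α)
    (hαL'v : ((αL' : L) : QB) = α') (v : Ideal (𝓞 L)) (hv : v.IsPrime) (hv0 : v ≠ ⊥) (k : ℕ) :
    ∃ y : QB, y ∈ L' ∧ y ≠ 0 ∧ ∃ a b : 𝓞 L, b ∉ v ∧ a ∈ v ^ k ∧
      (y * τ y * τ (τ y) - α / α') * ((b : L) : QB) = α / α' * ((a : L) : QB) := by
  have hfix : ∀ x, σ (D.incl x) = D.incl x := hC.map
  have hcube : ∀ x, σ (σ (σ x)) = x := hC.cube
  obtain ⟨p, hpv⟩ := exists_prime_natCast_mem hv hv0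
  obtain ⟨z, X, hX, hN⟩ := h p
  obtain ⟨l, hl⟩ := exists_congr_of_local hC γ hreg z X hX hN m hm T Δ hT hΔ
  have hc0 : ((p : ℕ) : 𝓞 L) ^ (l * 3) * (αL * αL') ≠ 0 := by
    refine mul_ne_zero (pow_ne_zero _ (Nat.cast_ne_zero.mpr p.2.ne_zero)) (mul_ne_zero ?_ ?_)
    · exact fun h0 => hα0 (by rw [← hαLv, h0]; simp)
    · exact fun h0 => hα'0 (by rw [← hαL'v, h0]; simp)
  obtain ⟨j, hj⟩ := exists_notMem_pow v hc0
  obtain ⟨u, w, ⟨q, hq⟩, hqB⟩ := hl (k + j)
  set A := (qNorm (intIncl D T) (intIncl D Δ) (intAut σ) u).1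
  set B := (qNorm (intIncl D T) (intIncl D Δ) (intAut σ) u).2
  have hs3 : ∀ y, intAut σ (intAut σ (intAut σ y)) = y := fun y =>
    RingOfIntegers.ext (hcube (y : D.M))
  obtain ⟨hsA, hsB⟩ : intAut σ A = A ∧ intAut σ B = B :=
    qNorm_fixed (intIncl D T) (intIncl D Δ) (intAut σ)
      (RingOfIntegers.ext (hfix _)) (RingOfIntegers.ext (hfix _)) hs3 u
  have hP0 : ((p : ℕ) : 𝓞 D.M) ^ (k + j) ≠ 0 :=
    pow_ne_zero _ (Nat.cast_ne_zero.mpr p.2.ne_zero)
  have hsq : intAut σ q = q := mul_left_cancel₀ hP0 (by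
    rw [← hq]
    conv_rhs => rw [← hsA, hq, map_mul, map_pow, map_natCast])
  obtain ⟨R, hR⟩ : ((p : ℕ) : 𝓞 D.M) ^ (k + j) ∣
      B * (B * B * (w * intAut σ w * intAut σ (intAut σ w))) - ((p : ℕ) : 𝓞 D.M) ^ (l * 3) := by
    obtain ⟨e, he⟩ := hqB
    have h1 := congrArg (intAut σ) he
    simp only [map_sub, map_mul, map_pow, map_natCast, hsB] at h1
    have h2 := congrArg (intAut σ) h1
    simp only [map_sub, map_mul, map_pow, map_natCast, hsB] at h2
    refine ⟨e * (B * intAut σ w) * (B * intAut σ (intAut σ w)) +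
      ((p : ℕ) : 𝓞 D.M) ^ l * intAut σ e * (B * intAut σ (intAut σ w)) +
      ((p : ℕ) : 𝓞 D.M) ^ l * ((p : ℕ) : 𝓞 D.M) ^ l * intAut σ (intAut σ e), ?_⟩
    rw [pow_mul]
    linear_combination (B * intAut σ w) * (B * intAut σ (intAut σ w)) * he +
      ((p : ℕ) : 𝓞 D.M) ^ l * (B * intAut σ (intAut σ w)) * h1 +
      ((p : ℕ) : 𝓞 D.M) ^ l * ((p : ℕ) : 𝓞 D.M) ^ l * h2
  have hsW : intAut σ (B * B * (w * intAut σ w * intAut σ (intAut σ w))) =
      B * B * (w * intAut σ w * intAut σ (intAut σ w)) := by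
    simp only [map_mul, hsB, hs3]; ring
  have hsR : intAut σ R = R := mul_left_cancel₀ hP0 (by
    rw [← hR]
    have h0 := congrArg (intAut σ) hR
    simp only [map_sub, map_pow, map_natCast, map_mul (intAut σ) B,
      map_mul (intAut σ) (((p : ℕ) : 𝓞 D.M) ^ (k + j)), hsB, hsW] at h0
    exact h0.symm)
  obtain ⟨qL, hqL⟩ := exists_int_of_fixed hC hEL hsq
  obtain ⟨BL, hBL⟩ := exists_int_of_fixed hC hEL hsB
  obtain ⟨WL, hWL⟩ := exists_int_of_fixed hC hEL hsW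
  obtain ⟨RL, hRL⟩ := exists_int_of_fixed hC hEL hsR
  set P : 𝓞 L := ((p : ℕ) : 𝓞 L) ^ (k + j)
  have hPv : P ∈ v ^ (k + j) := Ideal.pow_mem_pow hpv _
  set den : 𝓞 L := P * qL * αL + BL * (αL * αL')
  have hden : den ∉ v ^ j := fun hd1 => hj (by
    have hWv := (v ^ j).mul_mem_right WL hd1
    have hPj : P * (qL * αL * WL + RL * (αL * αL')) ∈ v ^ j :=
      (v ^ j).mul_mem_right _ (Ideal.pow_le_pow_right (by omega) hPv)
    convert (v ^ j).sub_mem hWv hPj using 1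
    refine RingOfIntegers.ext (Subtype.ext ?_)
    have e1 := congrArg (fun x : 𝓞 D.M => ((x : D.M) : QB)) hR
    simp only [map_sub, map_mul, map_pow, map_natCast] at e1 hWL
    push_cast at e1 hWL
    simp only [den, P, map_sub, map_add, map_mul, map_pow, map_natCast]
    push_cast
    rw [hWL, hBL, hqL, hRL]
    linear_combination (((αL : L) : QB) * ((αL' : L) : QB)) * e1.symm)
  obtain ⟨a, b, hb, ha, hab⟩ := exists_ratio_mem_pow v hv0 k j (P * qL * (αL' - αL)) den hden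
    ((v ^ (k + j)).mul_mem_right _ ((v ^ (k + j)).mul_mem_right _ hPv))
  have hu : Prod.map (fun x : 𝓞 D.M => (x : D.M)) (fun x : 𝓞 D.M => (x : D.M))
      (qNorm (intIncl D T) (intIncl D Δ) (intAut σ) u) =
      qNorm (D.incl (T : D.E)) (D.incl (Δ : D.E)) σ.toAlgHom.toRingHom
        ((u.1 : D.M), (u.2 : D.M)) :=
    map_qNorm (algebraMap (𝓞 D.M) D.M) _ _ (θ := intAut σ) (fun y => rfl) u
  have e₁ := eval_qNorm hτM hα hτα ((u.1 : D.M), (u.2 : D.M))
  have e₂ := eval_qNorm hτM hα'eq hτα' ((u.1 : D.M), (u.2 : D.M))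
  rw [← hu] at e₁ e₂
  simp only [Prod.map] at e₁ e₂
  have hA : ((A : D.M) : QB) = ((p : ℕ) : QB) ^ (k + j) * ((qL : L) : QB) := by
    have := congrArg (fun x : 𝓞 D.M => ((x : D.M) : QB)) hq
    simp only [map_mul, map_pow, map_natCast] at this
    push_cast at this
    rw [hqL]
    exact this
  have hQ : (((A : D.M) : QB) + ((B : D.M) : QB) * α') * α = ((den : L) : QB) := by
    simp only [den, P, map_add, map_mul, map_pow, map_natCast]
    push_cast
    rw [hαLv, hαL'v, hBL, hA]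
    ring
  have hPQ : (((A : D.M) : QB) + ((B : D.M) : QB) * α) * α' -
      (((A : D.M) : QB) + ((B : D.M) : QB) * α') * α =
      (((P * qL * (αL' - αL) : 𝓞 L) : L) : QB) := by
    simp only [P, map_sub, map_mul, map_pow, map_natCast]
    push_cast
    rw [hαLv, hαL'v, hA]
    ring
  have hQ0 : ((A : D.M) : QB) + ((B : D.M) : QB) * α' ≠ 0 := fun h0 => hden (by
    rw [h0, zero_mul] at hQ
    rw [show den = 0 from RingOfIntegers.ext (Subtype.ext hQ.symm)]
    exact zero_mem _)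
  have hP1 : ((A : D.M) : QB) + ((B : D.M) : QB) * α ≠ 0 := fun h0 => hden (by
    rw [h0, zero_mul, zero_sub, hQ] at hPQ
    have : den = -(P * qL * (αL' - αL)) := RingOfIntegers.ext (Subtype.ext (by
      show _ = -(((P * qL * (αL' - αL) : 𝓞 L) : L) : QB)
      rw [← hPQ, neg_neg]))
    rw [this]
    exact neg_mem (Ideal.pow_le_pow_right (by omega)
      ((v ^ (k + j)).mul_mem_right _ ((v ^ (k + j)).mul_mem_right _ hPv))))
  have hmem : ((u.1 : D.M) : QB) + ((u.2 : D.M) : QB) * α ∈ L' :=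
    add_mem (hML (u.1 : D.M).2) (mul_mem (hML (u.2 : D.M).2) hαL'')
  have hmem' : ((u.1 : D.M) : QB) + ((u.2 : D.M) : QB) * α' ∈ L' :=
    add_mem (hML (u.1 : D.M).2) (mul_mem (hML (u.2 : D.M).2) hα'L'')
  refine ⟨_, div_mem hmem hmem', fun h0 => ?_, a, b, hb, ha, ?_⟩
  · rcases div_eq_zero_iff.mp h0 with h1 | h1
    · exact hP1 (by rw [← e₁, h1]; simp)
    · exact hQ0 (by rw [← e₂, h1]; simp)
  · have hab' := congrArg (fun x : 𝓞 L => ((x : L) : QB)) hab
    simp only [map_mul] at hab' hPQ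
    push_cast at hab' hPQ
    simp only [map_div₀]
    rw [div_mul_div_comm, div_mul_div_comm, e₁, e₂]
    rw [← hPQ, ← hQ] at hab'
    rw [div_sub_div _ _ hQ0 hα'0, div_mul_eq_mul_div, div_mul_eq_mul_div,
      div_eq_div_iff (mul_ne_zero hQ0 hα'0) hα'0]
    linear_combination α' * hab'

/-- The quotient of the eigenvalues is a norm from the compositum with the cubic extension. -/
theorem exists_norm_eq_ratio (hH : HasseNormSpec) (hC : CubicData D.incl σ.toRingEquiv)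
    {γ : GL (Fin 2) D.E} (hreg : IsRegularMat D γ) (h : IsLocalNorm D σ γ) {m : D.E} (hm : m ≠ 0)
    (hT : (T : D.E) = m * γ.1.trace) (hΔ : (Δ : D.E) = m * m * γ.1.det)
    (hα : IsRootOf T Δ α) (hα'def : α' = ((T : D.E) : QB) - α) (hα0 : α ≠ 0) (hα'0 : α' ≠ 0)
    (hτM : ∀ x : D.M, τ (x : QB) = ((σ x : D.M) : QB)) (hτα : τ α = α) :
    ∃ y, (∃ x₁ ∈ D.M, ∃ x₂ ∈ D.M, y = x₁ + x₂ * α) ∧ y * τ y * τ (τ y) = α / α' := by
  have hfix : ∀ x, σ (D.incl x) = D.incl x := hC.map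
  have hcube : ∀ x, σ (σ (σ x)) = x := hC.cube
  have hτE : ∀ x ∈ D.E, τ x = x := fun x hx => apply_of_mem_E hfix hτM hx
  set t : QB := ((T : D.E) : QB) with ht
  set d : QB := ((Δ : D.E) : QB) with hd
  have hα : α * α = t * α - d := hα
  have hαα : α * α' = d := by rw [hα'def]; linear_combination -hα
  have htE : t ∈ D.E := (T : D.E).2
  have hdE : d ∈ D.E := (Δ : D.E).2
  have htM := D.E_le_M htE
  have hdM := D.E_le_M hdE
  have hτα' : τ α' = α' := by rw [hα'def, map_sub, hτE t htE, hτα]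
  have hα'eq : α' * α' = t * α' - d := by rw [hα'def]; linear_combination hα
  set L : IntermediateField ℚ QB := quadExt D.E α t d htE hdE hα
  set L' : IntermediateField ℚ QB := quadExt D.M α t d htM hdM hα
  have : NumberField L := numberField_quadExt D.E α t d htE hdE hα
  have : NumberField L' := numberField_quadExt D.M α t d htM hdM hα
  have hαL : α ∈ L := self_mem_quadExt _ _ _ _ _ _ _
  have hα'L : α' ∈ L := hα'def ▸ sub_mem (le_quadExt _ _ _ _ _ _ _ htE) hαL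
  have hle : L ≤ L' := by
    rintro _ ⟨x, hx, y, hy, rfl⟩
    exact ⟨x, D.E_le_M hx, y, D.E_le_M hy, rfl⟩
  -- the action of `τ`
  have hτlin : ∀ x y : D.M, τ ((x : QB) + (y : QB) * α) = (σ x : QB) + (σ y : QB) * α :=
    fun x y => by
    rw [map_add, map_mul, hτM, hτM, hτα]
  have hτL : ∀ x ∈ L, τ x = x := by
    rintro _ ⟨x, hx, y, hy, rfl⟩
    rw [map_add, map_mul, hτE x hx, hτE y hy, hτα]
  have hτL' : ∀ x ∈ L', τ x ∈ L' := by
    rintro _ ⟨x, hx, y, hy, rfl⟩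
    exact ⟨_, (σ ⟨x, hx⟩).2, _, (σ ⟨y, hy⟩).2, hτlin ⟨x, hx⟩ ⟨y, hy⟩⟩
  have hτ3 : ∀ x ∈ L', τ (τ (τ x)) = x := by
    rintro _ ⟨x, hx, y, hy, rfl⟩
    rw [show x + y * α = ((⟨x, hx⟩ : D.M) : QB) + ((⟨y, hy⟩ : D.M) : QB) * α from rfl, hτlin,
      hτlin, hτlin, hcube, hcube]
  have hτfix : ∀ x ∈ L', τ x = x → x ∈ L := fun x hx hxy =>
    mem_quadExt_of_fixed hC hτM hτα htE hdE hα hx hxy
  have hτne : ∃ x ∈ L', τ x ≠ x := by
    obtain ⟨x, hx⟩ := hC.ne_id
    refine ⟨x, le_quadExt _ _ _ _ _ _ _ x.2, fun he => hx (Subtype.ext ?_)⟩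
    rwa [hτM] at he
  obtain ⟨αL, hαLv⟩ : ∃ y : 𝓞 L, ((y : L) : QB) = α :=
    ⟨⟨⟨α, hαL⟩, (isIntegral_algHom_iff (L.val.restrictScalars ℤ) L.val.injective).mp
      (isIntegral_root hα)⟩, rfl⟩
  obtain ⟨αL', hαL'v⟩ : ∃ y : 𝓞 L, ((y : L) : QB) = α' :=
    ⟨⟨⟨α', hα'L⟩, (isIntegral_algHom_iff (L.val.restrictScalars ℤ) L.val.injective).mp
      (isIntegral_root hα'eq)⟩, rfl⟩
  -- the quotient is a norm
  set x₀ : L := ⟨α / α', div_mem hαL hα'L⟩
  obtain ⟨y, hy⟩ := hH L L' hle τ hτL hτL' hτ3 hτfix hτne x₀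
    (fun he => div_ne_zero hα0 hα'0 (congrArg Subtype.val he)) (by
    intro v hv hv0 k
    obtain ⟨y, hyL, hy0, hy⟩ := exists_local_congruence hC hreg h hm hT hΔ hα hα'eq hα0 hα'0
      hτM hτα hτα' (le_quadExt _ _ _ _ _ _ _) (le_quadExt _ _ _ _ _ _ _) (hle hαL) (hle hα'L)
      hαLv hαL'v v hv hv0 k
    exact ⟨⟨y, hyL⟩, fun h0 => hy0 (congrArg Subtype.val h0), hy⟩)
  exact ⟨y, y.2, hy⟩

/-- Coordinates whose norm is the quotient of the eigenvalues. -/
theorem exists_coords (hα : IsRootOf T Δ α) (hα'def : α' = ((T : D.E) : QB) - α) (hα0 : α ≠ 0)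
    (hα'0 : α' ≠ 0) (hαne : α ≠ α') (hfix : ∀ x, σ (D.incl x) = D.incl x)
    (hτM : ∀ x : D.M, τ (x : QB) = ((σ x : D.M) : QB)) (hτα : τ α = α) {y : QB}
    (hy : ∃ x₁ ∈ D.M, ∃ x₂ ∈ D.M, y = x₁ + x₂ * α) (hyα : y * τ y * τ (τ y) = α / α') :
    ∃ Y : D.M × D.M, qNorm (D.incl (T : D.E)) (D.incl (Δ : D.E)) σ.toAlgHom.toRingHom Y =
      (-1, D.incl (T : D.E) / D.incl (Δ : D.E)) := by
  obtain ⟨x₁, hx₁, x₂, hx₂, hye⟩ := hy
  set t : QB := ((T : D.E) : QB) with ht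
  set d : QB := ((Δ : D.E) : QB) with hd
  have hα : α * α = t * α - d := hα
  have hαα : α * α' = d := by rw [hα'def]; linear_combination -hα
  have hd' : d ≠ 0 := hαα ▸ mul_ne_zero hα0 hα'0
  have htM : t ∈ D.M := D.E_le_M (T : D.E).2
  have hdM : d ∈ D.M := D.E_le_M (Δ : D.E).2
  have hτα' : τ α' = α' := by
    rw [hα'def, map_sub, apply_of_mem_E hfix hτM (T : D.E).2, hτα]
  have hα'eq : α' * α' = t * α' - d := by rw [hα'def]; linear_combination hα
  have hB : ((D.incl (T : D.E) / D.incl (Δ : D.E) : D.M) : QB) = t / d := by push_cast; rfl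
  by_cases hαM : α ∈ D.M
  · have hα'M : α' ∈ D.M := hα'def ▸ sub_mem htM hαM
    have hyM : y ∈ D.M := by
      rw [hye]; exact add_mem hx₁ (mul_mem hx₂ hαM)
    set s : D.M := (⟨_, hyM⟩ - ⟨_, inv_mem hyM⟩) / (⟨α, hαM⟩ - ⟨α', hα'M⟩)
    refine ⟨(⟨_, hyM⟩ - s * ⟨α, hαM⟩, s), ?_⟩
    have hne' : α - α' ≠ 0 := sub_ne_zero.mpr hαne
    have hs : ((s : QB)) * (α - α') = y - y⁻¹ := by
      simp only [s]; push_cast; exact div_mul_cancel₀ _ hne'
    have e₁ := eval_qNorm hτM hα hτα (⟨_, hyM⟩ - s * ⟨α, hαM⟩, s)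
    have e₂ := eval_qNorm hτM hα'eq hτα' (⟨_, hyM⟩ - s * ⟨α, hαM⟩, s)
    set AB := qNorm (D.incl (T : D.E)) (D.incl (Δ : D.E)) σ.toAlgHom.toRingHom
      (⟨_, hyM⟩ - s * ⟨α, hαM⟩, s)
    push_cast at e₁ e₂
    rw [show y - (s : QB) * α + (s : QB) * α = y by ring, hyα] at e₁
    rw [show y - (s : QB) * α + (s : QB) * α' = y⁻¹ by linear_combination -hs,
      map_inv₀, map_inv₀, ← mul_inv, ← mul_inv, hyα, inv_div] at e₂
    have h2 : (AB.2 : QB) = t / d := by
      refine mul_right_cancel₀ hne' ?_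
      rw [eq_comm] at e₁ e₂
      rw [div_mul_eq_mul_div, eq_div_iff hd']
      field_simp at e₁ e₂
      rw [hα'def]
      rw [hα'def] at e₁ e₂ hαα
      grind
    have h1 : (AB.1 : QB) = -1 := by
      rw [h2] at e₁
      field_simp at e₁
      rw [hα'def] at e₁ hαα hα'0
      grind
    exact Prod.ext (Subtype.ext (by push_cast; exact h1)) (Subtype.ext (h2.trans hB.symm))
  · refine ⟨(⟨x₁, hx₁⟩, ⟨x₂, hx₂⟩), ?_⟩
    have e := eval_qNorm hτM hα hτα (⟨x₁, hx₁⟩, ⟨x₂, hx₂⟩)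
    set AB := qNorm (D.incl (T : D.E)) (D.incl (Δ : D.E)) σ.toAlgHom.toRingHom
      ((⟨x₁, hx₁⟩, ⟨x₂, hx₂⟩) : D.M × D.M)
    simp only [← hye] at e
    rw [hyα] at e
    have h2 : (AB.2 : QB) = t / d := by
      by_contra h2
      refine hαM ?_
      rw [show α = (-1 - (AB.1 : QB)) / ((AB.2 : QB) - t / d) from
        (eq_div_iff (sub_ne_zero.mpr h2)).mpr (by
          field_simp at e ⊢
          rw [hα'def] at e hαα
          grind)]
      exact div_mem (sub_mem (neg_mem (one_mem _)) AB.1.2)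
        (sub_mem AB.2.2 (div_mem htM hdM))
    have h1 : (AB.1 : QB) = -1 := by
      rw [h2] at e
      field_simp at e
      rw [hα'def] at e hαα hα'0
      grind
    exact Prod.ext (Subtype.ext (by push_cast; exact h1)) (Subtype.ext (h2.trans hB.symm))

end Eigen

/-- A regular class which is locally a norm everywhere is a norm. -/
theorem exists_isNormOf_of_isLocalNorm (hH : HasseNormSpec) (D : Datum) (σ : D.M ≃ₐ[ℚ] D.M)
    (hne : σ ≠ AlgEquiv.refl) (hfix : ∀ x, σ (D.incl x) = D.incl x) (γ : GL (Fin 2) D.E)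
    (hreg : IsRegularMat D γ) (h : IsLocalNorm D σ γ) : ∃ δ, IsNormOf D σ γ δ := by
  have hC := cubicData hne hfix
  have hd0 : γ.1.det ≠ 0 := ((Matrix.isUnit_iff_isUnit_det _).mp γ.isUnit).ne_zero
  -- clear denominators
  obtain ⟨m₁, hm₁, T₁, hT₁⟩ := LanglandsTunnell.Geom.exists_natCast_mul_eq_coe γ.1.trace
  obtain ⟨m₂, hm₂, Δ₁, hΔ₁⟩ := LanglandsTunnell.Geom.exists_natCast_mul_eq_coe γ.1.det
  set m : D.E := ((m₁ * m₂ : ℕ) : D.E) with hmdef
  have hm : m ≠ 0 := Nat.cast_ne_zero.mpr (mul_ne_zero hm₁ hm₂)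
  set T : 𝓞 D.E := (m₂ : 𝓞 D.E) * T₁
  set Δ : 𝓞 D.E := (m₁ : 𝓞 D.E) * m₁ * m₂ * Δ₁
  have hT : (T : D.E) = m * γ.1.trace := by
    simp only [T, hmdef, map_mul, map_natCast]; push_cast; linear_combination -(m₂ : D.E) * hT₁
  have hΔ : (Δ : D.E) = m * m * γ.1.det := by
    simp only [Δ, hmdef, map_mul, map_natCast]; push_cast
    linear_combination -(m₁ * m₁ * m₂ : D.E) * hΔ₁
  set t : QB := ((T : D.E) : QB) with ht
  set d : QB := ((Δ : D.E) : QB) with hd
  have hd' : d ≠ 0 := by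
    rw [hd, ne_eq, ZeroMemClass.coe_eq_zero, hΔ]
    exact mul_ne_zero (mul_ne_zero hm hm) hd0
  -- an eigenvalue
  obtain ⟨r, hr⟩ := IsAlgClosed.exists_pow_nat_eq (t ^ 2 - 4 * d) (n := 2) (by norm_num)
  obtain ⟨α, hαdef⟩ : ∃ a : QB, a = (t + r) / 2 := ⟨_, rfl⟩
  obtain ⟨α', hα'def⟩ : ∃ a : QB, a = t - α := ⟨_, rfl⟩
  have hα : α * α = t * α - d := by
    rw [hαdef]; linear_combination hr / 4
  have hαα : α * α' = d := by rw [hα'def]; linear_combination -hα
  have hα0 : α ≠ 0 := left_ne_zero_of_mul (hαα ▸ hd')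
  have hα'0 : α' ≠ 0 := right_ne_zero_of_mul (hαα ▸ hd')
  have hαne : α ≠ α' := fun he => by
    have h0 : (((m * m * (γ.1.trace ^ 2 - 4 * γ.1.det) : D.E)) : QB) = 0 := by
      have : t ^ 2 - 4 * d = 0 := by
        linear_combination (2 * α - t) * he + (2 * α - t) * hα'def - 4 * hα
      have e : (T : D.E) ^ 2 - 4 * (Δ : D.E) = m * m * (γ.1.trace ^ 2 - 4 * γ.1.det) := by
        rw [hT, hΔ]; ring
      rw [← this, ← e, ht, hd, show ((4 : QB)) = ((4 : D.E) : QB) from (map_ofNat D.E.val 4).symm]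
      push_cast
      rfl
    exact mul_ne_zero (mul_ne_zero hm hm) (sub_ne_zero.mpr hreg)
      ((ZeroMemClass.coe_eq_zero).mp h0)
  obtain ⟨τ, hτM, hτα⟩ := exists_extension hfix hC.cube (T : D.E) (Δ : D.E) hα
  obtain ⟨y, hy, hyα⟩ := exists_norm_eq_ratio hH hC hreg h hm hT hΔ hα hα'def hα0 hα'0 hτM hτα
  obtain ⟨Y, hY⟩ := exists_coords hα hα'def hα0 hα'0 hαne hfix hτM hτα hy hyα
  -- the element with the given norm
  let : Algebra D.E D.M := D.incl.toAlgebra
  let s : D.M ≃ₐ[D.E] D.M := AlgEquiv.ofRingEquiv (f := σ.toRingEquiv) hfix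
  set G : Matrix (Fin 2) (Fin 2) D.E := m • γ.1
  have hGt : G.trace = (T : D.E) := by simp [G, hT, Matrix.trace_smul]
  have hGd : G.det = (Δ : D.E) := by simp [G, hΔ, pow_two]
  have hd1 : D.incl (Δ : D.E) ≠ 0 := by
    rw [ne_eq, map_eq_zero, hΔ]
    exact mul_ne_zero (mul_ne_zero hm hm) hd0
  set GM : Matrix (Fin 2) (Fin 2) D.M := G.map D.incl
  have hGMt : GM.trace = D.incl (T : D.E) := by simp [GM, ← hGt, Matrix.trace_fin_two]
  have hGMd : GM.det = D.incl (Δ : D.E) := by simp [GM, ← hGd, Matrix.det_fin_two]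
  have hGMσ : GM.map σ.toAlgHom.toRingHom = GM := Matrix.ext fun i j => hfix _
  have hNY : twNorm s (qMat GM Y) = qMat GM (-1, D.incl (T : D.E) / D.incl (Δ : D.E)) := by
    rw [← hY, ← hGMt, ← hGMd, ← qMat_norm GM σ.toAlgHom.toRingHom hGMσ]
    rfl
  have hadj : GM.adjugate = qMat GM (D.incl (T : D.E), -1) := by
    rw [← hGMt]
    ext i j
    simp only [qMat_apply, Matrix.adjugate_fin_two, Matrix.trace_fin_two]
    fin_cases i <;> fin_cases j <;> simp
  have hprod : twNorm s (qMat GM Y) * GM.adjugate = GM := by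
    rw [hNY, hadj, qMat_mul, hGMt, hGMd, show qMul (D.incl (T : D.E)) (D.incl (Δ : D.E))
      (-1, D.incl (T : D.E) / D.incl (Δ : D.E)) (D.incl (T : D.E), -1) = (0, 1) by
        refine Prod.ext ?_ ?_ <;> simp only [qMul] <;> field_simp <;> ring]
    simp [qMat]
  have hYu : IsUnit (qMat GM Y) := by
    rw [Matrix.isUnit_iff_isUnit_det, isUnit_iff_ne_zero]
    intro h0
    have := congrArg Matrix.det hprod
    rw [Matrix.det_mul, det_twNorm, h0, zero_mul, zero_mul, zero_mul, hGMd] at this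
    exact hd1 this.symm
  obtain ⟨δ, hδ, hδc, hδN⟩ := exists_twNorm_of_ratio (σ := s) (γ := G)
    (by rw [hGt, hGd, hT, hΔ]; intro h0; exact hreg (by
      have : (m * m) * (γ.1.trace ^ 2 - 4 * γ.1.det) = 0 := by linear_combination h0
      exact sub_eq_zero.mp ((mul_eq_zero.mp this).resolve_left (mul_ne_zero hm hm))))
    (by rw [hGd, hΔ]; exact mul_ne_zero (mul_ne_zero hm hm) hd0) hYu (commute_qMat _ _) hprod
  refine ⟨hδ.unit, ?_, Units.mk0 (G.det * m) (mul_ne_zero (by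
    rw [hGd, hΔ]; exact mul_ne_zero (mul_ne_zero hm hm) hd0) hm), Units.ext ?_⟩
  · refine Units.ext ?_
    have h1 : GM = D.incl m • γ.1.map D.incl := by ext i j; simp [GM, G]
    have h2 : GM * δ = δ * GM := hδc.eq
    rw [h1, Matrix.smul_mul, Matrix.mul_smul] at h2
    exact ((smul_right_injective _ ((map_ne_zero D.incl).mpr hm)) h2).symm
  · show twNorm s δ = _
    rw [hδN, det_mapAlg]
    ext i j
    simp only [G, Matrix.smul_apply, Matrix.map_apply, smul_eq_mul, map_mul,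
      Units.val_mul, RingHom.algebraMap_toAlgebra]
    simp [Matrix.scalar_apply, Matrix.mul_apply, Fin.sum_univ_two]
    fin_cases i <;> simp <;> ring

end FLTAgent.LanglandsTunnell.Trace
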