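import Fermat.Agent.LanglandsTunnell.Trace.Expansions
import Fermat.Agent.LanglandsTunnell.Trace.HasseGlobal

/-!
# The identity of truncated integrals

For one word and one choice of nonnegative parts the local transfer of classes turns the two
expansions into an identity of truncated integrals, up to total slopes (`truncated_identity`).
-/

set_option autoImplicit false

noncomputable section

namespace FLTAgent.LanglandsTunnell.Trace

open FLTAgent.LanglandsTunnell FLTAgent.LanglandsTunnell.Geom NumberField Matrix MeasureTheory Set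
open FLTAgent.LanglandsTunnell.Local (overE lvE lvM glE IsNormOf IsLocalNorm IsRegularMat IsDiagMat
  ClassTransfer PlainPush TwistedPush)
open scoped ENNReal FLTAgent.LanglandsTunnell.Isolation

/-- An affine expansion in real numbers. -/
theorem expansion_real {α β : Type*} {E : α → ℝ≥0∞} {A B : β → ℝ≥0∞} {J κ : ℝ≥0∞} {L : ℝ}
    (hκ0 : κ ≠ 0) (hκ : κ ≠ ∞) (hL : 0 < L) (hJ : J ≠ ∞)
    (h : κ * J = κ * (∑' o, E o) + ∑' o, (ENNReal.ofReal (2 * L) * A o + B o)) :
    (∑' o, E o ≠ ∞ ∧ ∑' o, A o ≠ ∞ ∧ ∑' o, B o ≠ ∞) ∧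
      κ.toReal * J.toReal = κ.toReal * (∑' o, E o).toReal + 2 * L * (∑' o, A o).toReal +
        (∑' o, B o).toReal := by
  have hfin : κ * J ≠ ∞ := ENNReal.mul_ne_top hκ hJ
  rw [h, ENNReal.tsum_add, ENNReal.tsum_mul_left] at hfin
  obtain ⟨hE, hAB⟩ := ENNReal.add_ne_top.mp hfin
  obtain ⟨hA, hB⟩ := ENNReal.add_ne_top.mp hAB
  have hE' : ∑' o, E o ≠ ∞ := fun h0 => hE (by rw [h0, ENNReal.mul_top hκ0])
  have hA' : ∑' o, A o ≠ ∞ := fun h0 => hA (by
    rw [h0, ENNReal.mul_top]
    simpa using hL)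
  refine ⟨⟨hE', hA', hB⟩, ?_⟩
  have e := congrArg ENNReal.toReal h
  rw [ENNReal.tsum_add, ENNReal.tsum_mul_left, ENNReal.toReal_mul, ENNReal.toReal_add hE hAB,
    ENNReal.toReal_add hA hB, ENNReal.toReal_mul, ENNReal.toReal_mul,
    ENNReal.toReal_ofReal (by linarith)] at e
  linarith

/-- Sums of a real combination, class by class. -/
theorem tsum_combination {Ω J : Type*} [Fintype J] {F : J → Ω → ℝ≥0∞} {G : Ω → ℝ≥0∞}
    (hF : ∀ j, ∑' o, F j o ≠ ∞) (hG : ∑' o, G o ≠ ∞) (r : J → ℝ)
    (h : ∀ o, (G o).toReal = ∑ j, r j * (F j o).toReal) :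
    (∑' o, G o).toReal = ∑ j, r j * (∑' o, F j o).toReal := by
  rw [ENNReal.tsum_toReal_eq fun o => ne_top_of_le_ne_top hG (ENNReal.le_tsum o), tsum_congr h,
    Summable.tsum_finsetSum fun j _ => (ENNReal.summable_toReal (hF j)).mul_left _]
  refine Finset.sum_congr rfl fun j _ => ?_
  rw [tsum_mul_left, ENNReal.tsum_toReal_eq fun o => ne_top_of_le_ne_top (hF j) (ENNReal.le_tsum o)]

section Core

variable {E : Type} [Field E] [NumberField E] {n : Ideal (𝓞 E)} [Countable (FinPt E n)]
  (Φ : PlaceChoice E Unit) (γ : GL (Fin 2) E) {ker : ℝ → ℝ} {m : Pt E Unit n → ℝ≥0∞}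

omit [Countable (FinPt E n)] in
theorem coreInt_zero : coreInt Φ γ ker m (fun _ => ENNReal.ofReal 0) = 0 := by
  simp [coreInt, coreDensity]

theorem coreInt_ne_top (hker : Continuous ker) (hm : Measurable m) {J : Type*} [Fintype J]
    {X : FinPt E n → ℝ} (hX0 : ∀ z, 0 ≤ X z) {S : J → FinPt E n → ℝ} (hS : ∀ j z, 0 ≤ S j z)
    {r : J → ℝ} (hX : ∀ z, X z = ∑ j, r j * S j z)
    (hfin : ∀ j, coreInt Φ γ ker m (fun z => ENNReal.ofReal (S j z)) ≠ ∞) :
    coreInt Φ γ ker m (fun z => ENNReal.ofReal (X z)) ≠ ∞ := by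
  have h := coreInt_balance Φ γ hker hm (n₁ := fun z => ENNReal.ofReal (X z))
    (a := fun j => ENNReal.ofReal (-r j)) (b := fun j => ENNReal.ofReal (r j))
    (nJ := fun j z => ENNReal.ofReal (S j z))
    fun z => signed_balance r (fun j => S j z) (fun j => hS j z) (hX0 z) (hX z)
  exact (ENNReal.add_ne_top.mp (h ▸ ENNReal.sum_ne_top.mpr fun j _ =>
    ENNReal.mul_ne_top ENNReal.ofReal_ne_top (hfin j))).1

/-- An identity of real finite factors passes to functionals. -/
theorem coreInt_real (hker : Continuous ker) (hm : Measurable m) {J : Type*} [Fintype J]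
    {X : FinPt E n → ℝ} (hX0 : ∀ z, 0 ≤ X z) {S : J → FinPt E n → ℝ} (hS : ∀ j z, 0 ≤ S j z)
    {r : J → ℝ} (hX : ∀ z, X z = ∑ j, r j * S j z)
    (hfin : ∀ j, coreInt Φ γ ker m (fun z => ENNReal.ofReal (S j z)) ≠ ∞) :
    (coreInt Φ γ ker m fun z => ENNReal.ofReal (X z)).toReal =
      ∑ j, r j * (coreInt Φ γ ker m fun z => ENNReal.ofReal (S j z)).toReal := by
  have h := coreInt_balance Φ γ hker hm (n₁ := fun z => ENNReal.ofReal (X z))
    (a := fun j => ENNReal.ofReal (-r j)) (b := fun j => ENNReal.ofReal (r j))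
    (nJ := fun j z => ENNReal.ofReal (S j z))
    fun z => signed_balance r (fun j => S j z) (fun j => hS j z) (hX0 z) (hX z)
  have hb : ∀ t : J → ℝ, ∑ j, ENNReal.ofReal (t j) *
      coreInt Φ γ ker m (fun z => ENNReal.ofReal (S j z)) ≠ ∞ := fun t =>
    ENNReal.sum_ne_top.mpr fun j _ => ENNReal.mul_ne_top ENNReal.ofReal_ne_top (hfin j)
  have hx := coreInt_ne_top Φ γ hker hm hX0 hS hX hfin
  have e := congrArg ENNReal.toReal h
  rw [ENNReal.toReal_add hx (hb fun j => -r j),
    ENNReal.toReal_sum fun j _ => ENNReal.mul_ne_top ENNReal.ofReal_ne_top (hfin j),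
    ENNReal.toReal_sum fun j _ => ENNReal.mul_ne_top ENNReal.ofReal_ne_top (hfin j)] at e
  rw [eq_sub_of_add_eq e, ← Finset.sum_sub_distrib]
  refine Finset.sum_congr rfl fun j _ => ?_
  rw [ENNReal.toReal_mul, ENNReal.toReal_mul, ← sub_mul, ENNReal.toReal_ofReal',
    ENNReal.toReal_ofReal']
  congr 1
  rcases le_total (r j) 0 with h' | h'
  · rw [max_eq_right h', max_eq_left (neg_nonneg.mpr h')]; ring
  · rw [max_eq_left h', max_eq_right (neg_nonpos.mpr h')]; ring

end Core

section Classes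

variable {D : Datum} {σ : D.M ≃ₐ[ℚ] D.M} {e : Fin 3 ≃ Fin 3} {P : ExtPlaces D}
  {hfix : ∀ x, σ (D.incl x) = D.incl x}
  {he : ∀ i, P.placesM.emb (e i) = (P.placesM.emb i).comp σ.toAlgHom.toRingHom}
  {R : Finset Nat.Primes} {N₀ N₁ N N' k Bd : ℕ} {c : ℝ}
  {SM : Set (Pt D.M (Fin 3) (lvM D N'))} {SE : Set (Pt D.E Unit (lvE D N))}
  {kp : Fin 3 → ℝ → ℝ} {W : List (Ideal (𝓞 D.M))} {L₂ : List (ℂ × List (Ideal (𝓞 D.E)))}

theorem lvE_ne_bot_of_level (hlev : IsTestLevel D σ k Bd R N₀ N₁ N N') : lvE D N ≠ ⊥ := by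
  have : N ≠ 0 := fun h => hlev.ne_zero (Nat.eq_zero_of_zero_dvd (h ▸ hlev.dvd))
  simp [this]

variable {hn : lvE D N ≠ ⊥}

theorem measurable_wtE (hSE : IsFundDomain P.placesE SE) (γ : GL (Fin 2) D.E) :
    Measurable (wtE P SE γ) := by
  let := pglAction (n := lvE D N) P.placesE
  have : Countable (PGLF D.E) := countable_PGLF
  have := measurableConstSMul_pgl (n := lvE D N) P.placesE
  exact ((isWeight_of_fundDomain P.placesE hSE).restrict (torE γ)).measurable

include hn in
theorem measurable_tvE {γ : GL (Fin 2) D.E} (hreg : IsRegularMat D γ) (hd : IsDiagMat γ) :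
    Measurable (tvE (D := D) (N := N) P) := by
  let := pglAction (n := lvE D N) P.placesE
  have : Countable (FinPt D.E (lvE D N)) := countable_finPt hn
  exact (torusFlow_diag (F := D.E) (Φ := P.placesE) (n := lvE D N)
    (torE_diag hreg hd.1 hd.2)).isTransversal_std.measurable

variable (hH : HasseNormSpec) (hne : σ ≠ AlgEquiv.refl) (hlev : IsTestLevel D σ k Bd R N₀ N₁ N N')
  (hSM : IsFundDomain P.placesM SM) (hSE : IsFundDomain P.placesE SE) (hk : GoodParts kp)
  (hW : ∀ w ∈ W, w ≠ ⊥) (hL : ∀ a ∈ D.descWord W ++ L₂, ∀ w ∈ a.2, w ≠ ⊥)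

/-- The real coefficient of a member of a list. -/
def reCoeff (L : List (ℂ × List (Ideal (𝓞 D.E)))) (a : Fin L.length) : ℝ := (L[a].1).re

include hlev hL in
theorem plainSum_one {γ : GL (Fin 2) D.E} (π : PlainPush D N (D.descWord W ++ L₂) γ)
    {L' : List (ℂ × List (Ideal (𝓞 D.E)))} (hsub : ∀ a ∈ L', a ∈ D.descWord W ++ L₂)
    (z : FinPt D.E (lvE D N)) :
    (π.sum D L' (fun _ => 1) z).re =
      ∑ a : Fin L'.length, reCoeff L' a * wordSum π.proj γ L'[a].2 (fun _ => 1) z := by
  have h := plainSum_re π (lvE_ne_bot_of_level hlev) hL hsub (fun _ => (1 : ℝ)) z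
  simp only [Complex.ofReal_one] at h
  exact h

include hH hne hlev hSM hSE hk hW hL in
/-- The balance of one elliptic class. -/
theorem ell_identity (o : EllClass D)
    (h : ClassTransfer D P σ R N₀ N₁ N N' c W L₂ (classMat (.inl o)))
    (hfin : ∀ a : Fin (D.descWord W).length,
      plainEll hn SE (D.descWord W)[a].2 (triKer kp) P o ≠ ∞) :
    (twEll hlev.ne_zero SM W kp P hfix he R N₀ N₁ o).toReal =
      ∑ a : Fin (D.descWord W).length, c * reCoeff (D.descWord W) a *
        (plainEll hn SE (D.descWord W)[a].2 (triKer kp) P o).toReal := by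
  classical
  have : Countable (FinPt D.E (lvE D N)) := countable_finPt hn
  have hreg := classMat_regular (.inl o)
  set γ := classMat (.inl o)
  obtain ⟨π, hloc, dE, -, -, hδ⟩ := h
  have hmem : ∀ a : Fin (D.descWord W).length, (D.descWord W)[a] ∈ D.descWord W ++ L₂ :=
    fun a => List.mem_append_left _ (List.getElem_mem _)
  have hidx : ((classIdx γ : ℝ≥0∞))⁻¹ ≠ 0 := ENNReal.inv_ne_zero.mpr (ENNReal.natCast_ne_top _)
  have hE : ∀ a : Fin (D.descWord W).length,
      plainEll hn SE (D.descWord W)[a].2 (triKer kp) P o = (classIdx γ : ℝ≥0∞)⁻¹ *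
        coreInt P.placesE γ (triKer kp) (wtE P SE γ) (fun z =>
          ENNReal.ofReal (wordSum π.proj γ (D.descWord W)[a].2 (fun _ => 1) z)) := fun a => by
    rw [← plain_torus (hn := hn) hSE π hL (continuous_triKer hk) (hmem a)]
    rfl
  have hX : ∀ z, c * (π.sum D (D.descWord W) (fun _ => 1) z).re =
      ∑ a : Fin (D.descWord W).length,
        c * reCoeff (D.descWord W) a * wordSum π.proj γ (D.descWord W)[a].2 (fun _ => 1) z :=
    fun z => by
      rw [plainSum_one hlev hL π (fun a ha => List.mem_append_left _ ha) z, Finset.mul_sum]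
      simp only [mul_assoc]
  have key : ∀ X : FinPt D.E (lvE D N) → ℝ, (∀ z, 0 ≤ X z) →
      (∀ z, X z = c * (π.sum D (D.descWord W) (fun _ => 1) z).re) →
      ((classIdx γ : ℝ≥0∞)⁻¹ * coreInt P.placesE γ (triKer kp) (wtE P SE γ)
          (fun z => ENNReal.ofReal (X z))).toReal =
        ∑ a : Fin (D.descWord W).length, c * reCoeff (D.descWord W) a *
          (plainEll hn SE (D.descWord W)[a].2 (triKer kp) P o).toReal := by
    intro X hX0 hXe
    rw [ENNReal.toReal_mul, coreInt_real P.placesE γ (continuous_triKer hk)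
      (measurable_wtE hSE γ) hX0 (fun a z => wordSum_nonneg (fun _ => zero_le_one) z)
      (fun z => (hXe z).trans (hX z)) (fun a h0 => hfin a (by rw [hE, h0, ENNReal.mul_top hidx])),
      Finset.mul_sum]
    refine Finset.sum_congr rfl fun a _ => ?_
    rw [hE, ENNReal.toReal_mul]
    ring
  unfold twEll
  split_ifs with hN
  · obtain ⟨T, hT1, -⟩ := hδ hN.choose hN.choose_spec
    have hsum : ∀ i z, (T.sum D i (fun _ => 1) z).re =
        c * (π.sum D (D.descWord W) (fun _ => 1) z).re := fun i z => by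
      rw [hT1, Complex.re_ofReal_mul]
    have ht := twisted_torus (P := P) (hfix := hfix) (he := he) hne hlev hSM hSE hW hk hreg
      hN.choose_spec T hsum
    rw [ht]
    refine key _ (fun z => ?_) fun z => rfl
    have h2 := (fibSum_twisted hlev hW T (f := fun _ => 1) (fun _ => zero_le_one) 0 z).2
    simp only [Complex.ofReal_one] at h2
    rwa [hsum] at h2
  · have hnl : ¬ IsLocalNorm D σ γ := fun hl =>
      hN (exists_isNormOf_of_isLocalNorm hH D σ hne hfix γ hreg hl)
    rw [← key (fun _ => 0) (fun _ => le_rfl) fun z => by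
      rw [(hloc.resolve_left hnl) z, Complex.zero_re, mul_zero], coreInt_zero, mul_zero]

include hH hne hlev hSM hSE hk hW hL in
/-- The balance of the slope and of the constant of one split class. -/
theorem hyp_identity (o : HypClass D)
    (h : ClassTransfer D P σ R N₀ N₁ N N' c W L₂ (classMat (.inr o)))
    (hfinA : ∀ a ∈ D.descWord W ++ L₂, plainSlope hn SE a.2 (triKer kp) P o ≠ ∞)
    (hfinB : ∀ a ∈ D.descWord W, plainConst hn SE a.2 (triKer kp) P o ≠ ∞) :
    (twSlope hlev.ne_zero SM W kp P hfix he R N₀ N₁ o).toReal =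
        ∑ a : Fin (D.descWord W).length, c * reCoeff (D.descWord W) a *
          (plainSlope hn SE (D.descWord W)[a].2 (triKer kp) P o).toReal ∧
      (twConst hlev.ne_zero SM W kp P hfix he R N₀ N₁ o).toReal =
        (∑ a : Fin (D.descWord W).length, 3 * c * reCoeff (D.descWord W) a *
          (plainConst hn SE (D.descWord W)[a].2 (triKer kp) P o).toReal) +
        ∑ b : Fin L₂.length, reCoeff L₂ b *
          (plainSlope hn SE L₂[b].2 (triKer kp) P o).toReal := by
  classical
  have : Countable (FinPt D.E (lvE D N)) := countable_finPt hn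
  have hreg := classMat_regular (.inr o)
  obtain ⟨-, -, h01, h10⟩ := classMat_inr o
  set γ := classMat (.inr o)
  obtain ⟨π, hloc, dE, hdE0, hdiag, hδ⟩ := h
  obtain ⟨hdE, hnonnorm⟩ := hdiag ⟨h01, h10⟩
  have hker := continuous_triKer hk
  have hm1 : Measurable fun y => wtE P SE γ y * tvE P y :=
    (measurable_wtE hSE γ).mul (measurable_tvE (hn := hn) hreg ⟨h01, h10⟩)
  have hm2 : Measurable fun y => wtE P SE γ y * tvE P y * cuspWeight P y :=
    hm1.mul (measurable_cuspSum P.placesE).ennreal_ofReal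
  set I₁ := coreInt P.placesE γ (triKer kp) fun y => wtE P SE γ y * tvE P y
  set I₂ := coreInt P.placesE γ (triKer kp) fun y => wtE P SE γ y * tvE P y * cuspWeight P y
  let S₁ : List (Ideal (𝓞 D.E)) → FinPt D.E (lvE D N) → ℝ :=
    fun ws z => wordSum π.proj γ ws (fun _ => 1) z
  let S₂ : List (Ideal (𝓞 D.E)) → FinPt D.E (lvE D N) → ℝ :=
    fun ws z => wordSum π.proj γ ws dE z
  have hP : ∀ a ∈ D.descWord W ++ L₂,
      plainSlope hn SE a.2 (triKer kp) P o = I₁ (fun z => ENNReal.ofReal (S₁ a.2 z)) ∧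
      plainConst hn SE a.2 (triKer kp) P o = I₂ (fun z => ENNReal.ofReal (S₁ a.2 z)) +
        I₁ (fun z => ENNReal.ofReal (S₂ a.2 z)) := fun a ha =>
    plain_hyperbolic (hn := hn) hSE π hL hker ha h01 h10 hreg hdE0 hdE
  have hl : ∀ a : Fin (D.descWord W).length, (D.descWord W)[a] ∈ D.descWord W :=
    fun a => List.getElem_mem _
  have hl₂ : ∀ b : Fin L₂.length, L₂[b] ∈ D.descWord W ++ L₂ :=
    fun b => List.mem_append_right _ (List.getElem_mem _)
  have hlA : ∀ a : Fin (D.descWord W).length, (D.descWord W)[a] ∈ D.descWord W ++ L₂ :=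
    fun a => List.mem_append_left _ (hl a)
  have hf1 : ∀ a : Fin (D.descWord W).length,
      I₁ (fun z => ENNReal.ofReal (S₁ (D.descWord W)[a].2 z)) ≠ ∞ := fun a =>
    (hP _ (hlA a)).1 ▸ hfinA _ (hlA a)
  have hf2 : ∀ a : Fin (D.descWord W).length,
      I₂ (fun z => ENNReal.ofReal (S₁ (D.descWord W)[a].2 z)) ≠ ∞ ∧
        I₁ (fun z => ENNReal.ofReal (S₂ (D.descWord W)[a].2 z)) ≠ ∞ := fun a =>
    ENNReal.add_ne_top.mp ((hP _ (hlA a)).2 ▸ hfinB _ (hl a))
  have hf3 : ∀ b : Fin L₂.length, I₁ (fun z => ENNReal.ofReal (S₁ L₂[b].2 z)) ≠ ∞ := fun b =>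
    (hP _ (hl₂ b)).1 ▸ hfinA _ (hl₂ b)
  have hX : ∀ z, c * (π.sum D (D.descWord W) (fun _ => 1) z).re =
      ∑ a : Fin (D.descWord W).length,
        c * reCoeff (D.descWord W) a * S₁ (D.descWord W)[a].2 z := fun z => by
    rw [plainSum_one hlev hL π (fun a ha => List.mem_append_left _ ha) z, Finset.mul_sum]
    simp only [mul_assoc, S₁]
  have hY : ∀ z, 3 * c * (π.sum D (D.descWord W) (fun u => (dE u : ℂ)) z).re +
      (π.sum D L₂ (fun _ => 1) z).re =
      (∑ a : Fin (D.descWord W).length,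
        3 * c * reCoeff (D.descWord W) a * S₂ (D.descWord W)[a].2 z) +
      ∑ b : Fin L₂.length, reCoeff L₂ b * S₁ L₂[b].2 z := fun z => by
    rw [plainSum_one hlev hL π (fun a ha => List.mem_append_right _ ha) z,
      plainSum_re π hn hL (fun a ha => List.mem_append_left _ ha) dE z, Finset.mul_sum]
    simp only [mul_assoc, S₁, S₂, reCoeff]
  have key : ∀ X Y : FinPt D.E (lvE D N) → ℝ, (∀ z, 0 ≤ X z) → (∀ z, 0 ≤ Y z) →
      (∀ z, X z = c * (π.sum D (D.descWord W) (fun _ => 1) z).re) →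
      (∀ z, Y z = 3 * c * (π.sum D (D.descWord W) (fun u => (dE u : ℂ)) z).re +
        (π.sum D L₂ (fun _ => 1) z).re) →
      (I₁ fun z => ENNReal.ofReal (X z)).toReal =
          ∑ a : Fin (D.descWord W).length, c * reCoeff (D.descWord W) a *
            (plainSlope hn SE (D.descWord W)[a].2 (triKer kp) P o).toReal ∧
        (3 * I₂ (fun z => ENNReal.ofReal (X z)) + I₁ (fun z => ENNReal.ofReal (Y z))).toReal =
          (∑ a : Fin (D.descWord W).length, 3 * c * reCoeff (D.descWord W) a *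
            (plainConst hn SE (D.descWord W)[a].2 (triKer kp) P o).toReal) +
          ∑ b : Fin L₂.length, reCoeff L₂ b *
            (plainSlope hn SE L₂[b].2 (triKer kp) P o).toReal := by
    intro X Y hX0 hY0 hXe hYe
    have e1 := coreInt_real P.placesE γ hker hm1 hX0
      (fun a z => wordSum_nonneg (fun _ => zero_le_one) z) (fun z => (hXe z).trans (hX z)) hf1
    have e2 := coreInt_real P.placesE γ hker hm2 hX0
      (fun a z => wordSum_nonneg (fun _ => zero_le_one) z) (fun z => (hXe z).trans (hX z))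
      fun a => (hf2 a).1
    let S₃ : Fin (D.descWord W).length ⊕ Fin L₂.length → FinPt D.E (lvE D N) → ℝ :=
      Sum.elim (fun a => S₂ (D.descWord W)[a].2) fun b => S₁ L₂[b].2
    have hS3 : ∀ j z, 0 ≤ S₃ j z := by
      rintro (a | b) z
      · exact wordSum_nonneg hdE0 z
      · exact wordSum_nonneg (fun _ => zero_le_one) z
    have hY3 : ∀ z, Y z = ∑ j, Sum.elim (fun a => 3 * c * reCoeff (D.descWord W) a)
        (reCoeff L₂) j * S₃ j z := fun z => by
      rw [hYe, hY, Fintype.sum_sum_type]; rfl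
    have hf' : ∀ j, I₁ (fun z => ENNReal.ofReal (S₃ j z)) ≠ ∞ := by
      rintro (a | b)
      · exact (hf2 a).2
      · exact hf3 b
    have e3 := coreInt_real P.placesE γ hker hm1 hY0 hS3 hY3 hf'
    rw [Fintype.sum_sum_type] at e3
    simp only [Sum.elim_inl, Sum.elim_inr, S₃] at e3
    have hxY := coreInt_ne_top P.placesE γ hker hm1 hY0 hS3 hY3 hf'
    have hxX := coreInt_ne_top P.placesE γ hker hm2 hX0
      (fun a z => wordSum_nonneg (fun _ => zero_le_one) z) (fun z => (hXe z).trans (hX z))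
      fun a => (hf2 a).1
    have hxf := And.intro hxX hxY
    constructor
    · rw [e1]
      exact Finset.sum_congr rfl fun a _ => by rw [(hP _ (hlA a)).1]
    · rw [ENNReal.toReal_add (ENNReal.mul_ne_top (by norm_num) hxf.1) hxf.2, ENNReal.toReal_mul,
        e2, e3, Finset.mul_sum, ← add_assoc, ← Finset.sum_add_distrib]
      simp only [ENNReal.toReal_ofNat]
      refine congrArg₂ (· + ·) (Finset.sum_congr rfl fun a _ => ?_)
        (Finset.sum_congr rfl fun b _ => by rw [(hP _ (hl₂ b)).1])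
      rw [(hP _ (hlA a)).2, ENNReal.toReal_add (hf2 a).1 (hf2 a).2]
      ring
  unfold twSlope twConst
  split_ifs with hN
  · obtain ⟨T, hT1, hT2⟩ := hδ hN.choose hN.choose_spec
    obtain ⟨dM, hdM0, hdM, hTd⟩ := hT2 ⟨h01, h10⟩
    have hsum : ∀ i z, (T.sum D i (fun _ => 1) z).re =
        c * (π.sum D (D.descWord W) (fun _ => 1) z).re := fun i z => by
      rw [hT1, Complex.re_ofReal_mul]
    obtain ⟨hs, hc'⟩ := twisted_hyperbolic (P := P) (hfix := hfix) (he := he) hne hlev hSM hSE hW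
      hk hreg hN.choose_spec T hsum h01 h10 hdM0 hdM
    have hk2 := key _ _
      (fun z => by
        have h2 := (fibSum_twisted hlev hW T (f := fun _ => 1) (fun _ => zero_le_one) 0 z).2
        simp only [Complex.ofReal_one] at h2
        rwa [hsum] at h2)
      (fun z => (fibSum_twisted hlev hW T hdM0 0 z).2) (fun z => rfl)
      (fun z => by
        have h3 := congrArg Complex.re (hTd z)
        rw [Complex.sub_re, show 3 * (c : ℂ) = ((3 * c : ℝ) : ℂ) by push_cast; rfl,
          Complex.re_ofReal_mul] at h3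
        linarith)
    exact ⟨(congrArg ENNReal.toReal hs).trans hk2.1, (congrArg ENNReal.toReal hc').trans hk2.2⟩
  · have hnl : ¬ IsLocalNorm D σ γ := fun hl =>
      hN (exists_isNormOf_of_isLocalNorm hH D σ hne hfix γ hreg hl)
    have h0 := key (fun _ => 0) (fun _ => 0) (fun _ => le_rfl) (fun _ => le_rfl)
      (fun z => by rw [(hloc.resolve_left hnl) z, Complex.zero_re, mul_zero])
      (fun z => by
        have h3 := congrArg Complex.re (hnonnorm hnl z)
        rw [show -(3 * (c : ℂ)) = ((-(3 * c) : ℝ) : ℂ) by push_cast; rfl,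
          Complex.re_ofReal_mul] at h3
        linarith)
    simp only [I₁, I₂, coreInt_zero, mul_zero, add_zero] at h0
    exact h0

section Totals

variable {ws : List (Ideal (𝓞 D.E))} {ker : ℝ → ℝ}

/-- The total slope of a plain word. -/
def totalSlope (hn : lvE D N ≠ ⊥) (SE : Set (Pt D.E Unit (lvE D N)))
    (ws : List (Ideal (𝓞 D.E))) (ker : ℝ → ℝ) (P : ExtPlaces D) : ℝ≥0∞ :=
  ∑' o, plainSlope hn SE ws ker P o

theorem plainTrunc_ne_top (hSE : IsFundDomain P.placesE SE) (hker : Continuous ker)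
    (hkerc : HasCompactSupport ker) (hws : ∀ w ∈ ws, w ≠ ⊥) (L : ℝ) :
    plainTrunc hn SE ws ker P L ≠ ∞ :=
  lintegral_trunc_ne_top (plainTwist P.placesE hn)
    (⟨fun h v u => wordCount_smul ws h v u, wordCount_finite hn hws, fun _ => hker,
      fun _ => hkerc⟩ : GoodPair (ι := Unit) (wordCount (lvE D N) ws) fun _ => ker) hSE L

/-- The plain side is affine in the truncation. -/
theorem plain_affine (hSE : IsFundDomain P.placesE SE) (hker : Continuous ker)
    (hkerc : HasCompactSupport ker) (hws : ∀ w ∈ ws, w ≠ ⊥)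
    (hodd : ∀ (q : PGLF D.E) (y : Pt D.E Unit (lvE D N)),
      sideDensity (plainTwist P.placesE hn) (wordCount (lvE D N) ws) (fun _ => ker)
        (Twisted.of _ q) y ≠ 0 → IsNonsq q) :
    ∃ L₀ : ℝ, 0 < L₀ ∧ ∀ L, L₀ ≤ L → 2 * plainTrunc hn SE ws ker P L =
      ENNReal.ofReal (2 * L) * totalSlope hn SE ws ker P +
        (2 * (∑' o, plainEll hn SE ws ker P o) + ∑' o, plainConst hn SE ws ker P o) := by
  obtain ⟨L₀, hL₀, h⟩ := plain_expansion hSE hker hkerc hws hodd
  refine ⟨L₀, hL₀, fun L hL => ?_⟩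
  rw [h L hL, ENNReal.tsum_add, ENNReal.tsum_mul_left, totalSlope]
  ring

end Totals

include hH hne hlev hSM hSE hk hW hL in
/-- **The identity of truncated integrals** for one word and one choice of parts. -/
theorem truncated_identity
    (hT : ∀ γ, IsRegularMat D γ → ClassTransfer D P σ R N₀ N₁ N N' c W L₂ γ)
    (hoddM : ∀ (d : PGLF D.M) (x : Pt D.M (Fin 3) (lvM D N')),
      sideDensity (cubicTwist P hfix he hlev.ne_zero) (preCount (ramCount D σ R N₀ N₁ N') W) kp
        (Twisted.of _ d) x ≠ 0 → IsNonsq (pglNorm (overE hfix) d))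
    (hoddE : ∀ a ∈ D.descWord W ++ L₂, ∀ (q : PGLF D.E) (y : Pt D.E Unit (lvE D N)),
      sideDensity (plainTwist P.placesE hn) (wordCount (lvE D N) a.2) (fun _ => triKer kp)
        (Twisted.of _ q) y ≠ 0 → IsNonsq q) :
    ∃ L₀ : ℝ, 0 < L₀ ∧ ∀ L, L₀ ≤ L →
      6 * (twTrunc hlev.ne_zero SM W kp P hfix he R N₀ N₁ (3 * L)).toReal =
        6 * c * (∑ a : Fin (D.descWord W).length, reCoeff (D.descWord W) a *
          (plainTrunc hn SE (D.descWord W)[a].2 (triKer kp) P L).toReal) +
        ∑ b : Fin L₂.length, reCoeff L₂ b *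
          (totalSlope hn SE L₂[b].2 (triKer kp) P).toReal := by
  classical
  have hker := continuous_triKer hk
  have hkerc := hasCompactSupport_triKer hk
  have hlA : ∀ a : Fin (D.descWord W).length, (D.descWord W)[a] ∈ D.descWord W ++ L₂ :=
    fun a => List.mem_append_left _ (List.getElem_mem _)
  have hpl : ∀ a : Fin (D.descWord W ++ L₂).length, ∃ L₀ : ℝ, 0 < L₀ ∧ ∀ L, L₀ ≤ L →
      2 * plainTrunc hn SE (D.descWord W ++ L₂)[a].2 (triKer kp) P L =
        2 * (∑' o, plainEll hn SE (D.descWord W ++ L₂)[a].2 (triKer kp) P o) +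
          ∑' o, (ENNReal.ofReal (2 * L) *
            plainSlope hn SE (D.descWord W ++ L₂)[a].2 (triKer kp) P o +
              plainConst hn SE (D.descWord W ++ L₂)[a].2 (triKer kp) P o) := fun a =>
    plain_expansion hSE hker hkerc (hL _ (List.getElem_mem _)) (hoddE _ (List.getElem_mem _))
  choose Lp hLp0 hLp using hpl
  obtain ⟨LM, hLM0, hLM⟩ := tw_expansion (hN' := hlev.ne_zero) hne hlev hSM hk hW hoddM
  have hsum0 : 0 ≤ ∑ a, Lp a := Finset.sum_nonneg fun a _ => (hLp0 a).le
  refine ⟨LM + ∑ a, Lp a, by linarith, fun L hLL => ?_⟩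
  have hL0 : 0 < L := by linarith
  -- the plain expansions at `L`
  have hpe : ∀ a ∈ D.descWord W ++ L₂,
      ((∑' o, plainEll hn SE a.2 (triKer kp) P o ≠ ∞) ∧
          (∑' o, plainSlope hn SE a.2 (triKer kp) P o ≠ ∞) ∧
            ∑' o, plainConst hn SE a.2 (triKer kp) P o ≠ ∞) ∧
        2 * (plainTrunc hn SE a.2 (triKer kp) P L).toReal =
          2 * (∑' o, plainEll hn SE a.2 (triKer kp) P o).toReal +
            2 * L * (∑' o, plainSlope hn SE a.2 (triKer kp) P o).toReal +
              (∑' o, plainConst hn SE a.2 (triKer kp) P o).toReal := by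
    intro a ha
    obtain ⟨i, hi, rfl⟩ := List.getElem_of_mem ha
    have hle : Lp ⟨i, hi⟩ ≤ ∑ a, Lp a :=
      Finset.single_le_sum (fun a _ => (hLp0 a).le) (Finset.mem_univ _)
    have h := expansion_real (κ := 2) (by norm_num) (by norm_num) hL0
      (plainTrunc_ne_top (hn := hn) hSE hker hkerc (hL _ ha) L)
      (hLp ⟨i, hi⟩ L (by linarith))
    simp only [ENNReal.toReal_ofNat] at h
    exact h
  obtain ⟨⟨hEM, hAM, hBM⟩, hMr⟩ := expansion_real (κ := 6) (by norm_num) (by norm_num)
    (by linarith : (0 : ℝ) < 3 * L)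
    (lintegral_trunc_ne_top (cubicTwist P hfix he hlev.ne_zero)
      (⟨preCount_smul ramCount_smul W, preCount_finite (by simp [hlev.ne_zero])
        (ramCount_finite hlev) hW, fun i => (hk i).1, fun i => (hk i).2.1⟩ :
          GoodPair (preCount (ramCount D σ R N₀ N₁ N') W) kp) hSM (3 * L))
    (hLM (3 * L) (by linarith))
  simp only [ENNReal.toReal_ofNat] at hMr
  -- the three balances
  have cE : (∑' o, twEll hlev.ne_zero SM W kp P hfix he R N₀ N₁ o).toReal =
      ∑ a : Fin (D.descWord W).length, c * reCoeff (D.descWord W) a *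
        (∑' o, plainEll hn SE (D.descWord W)[a].2 (triKer kp) P o).toReal :=
    tsum_combination (fun a => (hpe _ (hlA a)).1.1) hEM _ fun o =>
      ell_identity hH hne hlev hSM hSE hk hW hL o (hT _ (classMat_regular _))
        fun a => ne_top_of_le_ne_top (hpe _ (hlA a)).1.1 (ENNReal.le_tsum o)
  have hhyp := fun o => hyp_identity (hn := hn) (hfix := hfix) (he := he) hH hne hlev hSM hSE hk hW
    hL o (hT _ (classMat_regular _))
    (fun a ha => ne_top_of_le_ne_top (hpe a ha).1.2.1 (ENNReal.le_tsum o))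
    (fun a ha => ne_top_of_le_ne_top (hpe a (List.mem_append_left _ ha)).1.2.2 (ENNReal.le_tsum o))
  have cA : (∑' o, twSlope hlev.ne_zero SM W kp P hfix he R N₀ N₁ o).toReal =
      ∑ a : Fin (D.descWord W).length, c * reCoeff (D.descWord W) a *
        (∑' o, plainSlope hn SE (D.descWord W)[a].2 (triKer kp) P o).toReal :=
    tsum_combination (fun a => (hpe _ (hlA a)).1.2.1) hAM _ fun o => (hhyp o).1
  let F : Fin (D.descWord W).length ⊕ Fin L₂.length → HypClass D → ℝ≥0∞ :=
    Sum.elim (fun a => plainConst hn SE (D.descWord W)[a].2 (triKer kp) P)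
      fun b => plainSlope hn SE L₂[b].2 (triKer kp) P
  have cB : (∑' o, twConst hlev.ne_zero SM W kp P hfix he R N₀ N₁ o).toReal =
      (∑ a : Fin (D.descWord W).length, 3 * c * reCoeff (D.descWord W) a *
        (∑' o, plainConst hn SE (D.descWord W)[a].2 (triKer kp) P o).toReal) +
      ∑ b : Fin L₂.length, reCoeff L₂ b *
        (∑' o, plainSlope hn SE L₂[b].2 (triKer kp) P o).toReal := by
    have hF : ∀ j, ∑' o, F j o ≠ ∞ := by
      rintro (a | b)
      · exact (hpe _ (hlA a)).1.2.2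
      · exact (hpe _ (List.mem_append_right _ (List.getElem_mem _))).1.2.1
    rw [tsum_combination hF hBM
        (Sum.elim (fun a => 3 * c * reCoeff (D.descWord W) a) (reCoeff L₂))
        (fun o => by rw [(hhyp o).2, Fintype.sum_sum_type]; rfl),
      Fintype.sum_sum_type]
    rfl
  have hJ : ∀ a : Fin (D.descWord W).length,
      3 * c * reCoeff (D.descWord W) a *
        (2 * (plainTrunc hn SE (D.descWord W)[a].2 (triKer kp) P L).toReal) =
      6 * (c * reCoeff (D.descWord W) a *
          (∑' o, plainEll hn SE (D.descWord W)[a].2 (triKer kp) P o).toReal) +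
        2 * (3 * L) * (c * reCoeff (D.descWord W) a *
          (∑' o, plainSlope hn SE (D.descWord W)[a].2 (triKer kp) P o).toReal) +
        3 * c * reCoeff (D.descWord W) a *
          (∑' o, plainConst hn SE (D.descWord W)[a].2 (triKer kp) P o).toReal := fun a => by
    rw [(hpe _ (hlA a)).2]
    ring
  rw [twTrunc, hMr, cE, cA, cB]
  simp only [totalSlope, Finset.mul_sum]
  rw [← add_assoc, ← Finset.sum_add_distrib, ← Finset.sum_add_distrib]
  refine congrArg₂ (· + ·) (Finset.sum_congr rfl fun a _ => ?_) rfl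
  rw [← hJ a]
  ring

end Classes

end FLTAgent.LanglandsTunnell.Trace
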