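import Fermat.Agent.LanglandsTunnell.Trace.Expansion
import Mathlib.MeasureTheory.Integral.DominatedConvergence
import Mathlib.MeasureTheory.Function.StronglyMeasurable.AEStronglyMeasurable

/-!
# Removing the truncation

For signed kernels, convergence of the truncated integrals kills the total slope and turns exact
identities of truncated integrals into identities of the integrals.
-/

set_option autoImplicit false

noncomputable section

namespace FLTAgent.LanglandsTunnell.Trace

open MeasureTheory Set Filter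
open scoped ENNReal Topology

/-- An affine function with a limit at infinity is constant. -/
theorem slope_eq_zero {V : Type*} [NormedAddCommGroup V] [NormedSpace ℝ V] {f : ℝ → V} {a b l : V}
    {L₀ : ℝ} (hf : ∀ L, L₀ ≤ L → f L = L • a + b) (hl : Tendsto f atTop (𝓝 l)) :
    a = 0 ∧ b = l := by
  have h1 : Tendsto (fun L : ℝ => f (L + 1) - f L) atTop (𝓝 0) := by
    simpa using (hl.comp (tendsto_atTop_add_const_right _ 1 tendsto_id)).sub hl
  have h2 : (fun L : ℝ => f (L + 1) - f L) =ᶠ[atTop] fun _ => a := by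
    filter_upwards [eventually_ge_atTop L₀] with L hL
    rw [hf L hL, hf (L + 1) (by linarith), add_smul, one_smul]
    abel
  have ha : a = 0 := tendsto_nhds_unique (h1.congr' h2) tendsto_const_nhds |>.symm
  refine ⟨ha, (tendsto_nhds_unique (hl.congr' ?_) tendsto_const_nhds).symm⟩
  filter_upwards [eventually_ge_atTop L₀] with L hL
  rw [hf L hL, ha, smul_zero, zero_add]

variable {Y C : Type*} [MeasurableSpace Y] [Countable C] {ℓ : C → Y → ℝ}
  {V : Type*} [NormedAddCommGroup V] [NormedSpace ℝ V] {μ : Measure Y}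

/-- Truncated integrals tend to the integral. -/
theorem tendsto_truncated (hℓ : ∀ c, Measurable (ℓ c)) (hbdd : ∀ x, ∃ L, ∀ c, ℓ c x ≤ L)
    {w : Y → ℝ≥0∞} {K : Y → V} (hK : Integrable K (μ.withDensity w)) :
    Tendsto (fun L => ∫ x, (cuspTrunc ℓ L x).toReal • K x ∂μ.withDensity w) atTop
      (𝓝 (∫ x, K x ∂μ.withDensity w)) := by
  refine tendsto_integral_filter_of_dominated_convergence (fun x => ‖K x‖) ?_ ?_ hK.norm ?_
  · exact Eventually.of_forall fun L =>
      ((measurable_cuspTrunc hℓ L).ennreal_toReal.aemeasurable.aestronglyMeasurable).smul hK.1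
  · refine Eventually.of_forall fun L => Eventually.of_forall fun x => ?_
    rw [norm_smul]
    refine mul_le_of_le_one_left (norm_nonneg _) ?_
    by_cases h : x ∈ {x | ∀ c, ℓ c x ≤ L} <;> simp [cuspTrunc, h]
  · refine Eventually.of_forall fun x => ?_
    obtain ⟨L₁, h⟩ := hbdd x
    refine tendsto_const_nhds.congr' ?_
    filter_upwards [eventually_ge_atTop L₁] with L hL
    have hx : x ∈ {x | ∀ c, ℓ c x ≤ L} := fun c => (h c).trans hL
    simp [cuspTrunc, hx]

variable {J : Type*} [Fintype J]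

/-- The truncated integral of a finite combination of nonnegative functions. -/
theorem integral_truncated [CompleteSpace V] (hℓ : ∀ c, Measurable (ℓ c)) {w : Y → ℝ≥0∞}
    (hw : Measurable w) {K : Y → V} (c : J → V) {G : J → Y → ℝ≥0∞} (hG : ∀ j, Measurable (G j))
    (hK : ∀ x, K x = ∑ j, (G j x).toReal • c j) {L : ℝ}
    (hfin : ∀ j, ∫⁻ x, w x * (cuspTrunc ℓ L x * G j x) ∂μ ≠ ∞) :
    ∫ x, (cuspTrunc ℓ L x).toReal • K x ∂μ.withDensity w =
      ∑ j, (∫⁻ x, w x * (cuspTrunc ℓ L x * G j x) ∂μ).toReal • c j := by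
  have hm : ∀ j, Measurable fun x => cuspTrunc ℓ L x * G j x :=
    fun j => (measurable_cuspTrunc hℓ L).fun_mul (hG j)
  have hf : ∀ j, ∫⁻ x, cuspTrunc ℓ L x * G j x ∂μ.withDensity w =
      ∫⁻ x, w x * (cuspTrunc ℓ L x * G j x) ∂μ :=
    fun j => lintegral_withDensity_eq_lintegral_mul _ hw (hm j)
  simp only [hK, Finset.smul_sum, smul_smul, ← ENNReal.toReal_mul]
  have hint : ∀ j, Integrable (fun x => (cuspTrunc ℓ L x * G j x).toReal) (μ.withDensity w) :=
    fun j => integrable_toReal_of_lintegral_ne_top (hm j).aemeasurable (hf j ▸ hfin j)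
  rw [integral_finsetSum _ fun j _ => (hint j).smul_const _]
  refine Finset.sum_congr rfl fun j _ => ?_
  rw [integral_smul_const, integral_toReal (hm j).aemeasurable
    (ae_lt_top (hm j) (hf j ▸ hfin j)), hf]

/-- The total slope of a signed kernel with convergent integral vanishes. -/
theorem total_slope_eq_zero [CompleteSpace V] (hℓ : ∀ c, Measurable (ℓ c))
    (hbdd : ∀ x, ∃ L, ∀ c, ℓ c x ≤ L) {w : Y → ℝ≥0∞} (hw : Measurable w)
    {K : Y → V} (c : J → V) {G : J → Y → ℝ≥0∞} (hG : ∀ j, Measurable (G j))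
    (hK : ∀ x, K x = ∑ j, (G j x).toReal • c j) (hi : Integrable K (μ.withDensity w))
    {κ L₀ : ℝ} (hκ : 0 < κ) (hL₀ : 0 < L₀) (A B : J → ℝ≥0∞)
    (hfin : ∀ j L, ∫⁻ x, w x * (cuspTrunc ℓ L x * G j x) ∂μ ≠ ∞)
    (hexp : ∀ j L, L₀ ≤ L → ENNReal.ofReal κ * ∫⁻ x, w x * (cuspTrunc ℓ L x * G j x) ∂μ =
      ENNReal.ofReal (2 * L) * A j + B j) :
    ∑ j, (A j).toReal • c j = 0 := by
  have hAB : ∀ j, A j ≠ ∞ ∧ B j ≠ ∞ := fun j => by
    have h : ENNReal.ofReal (2 * L₀) * A j + B j ≠ ∞ :=
      hexp j L₀ le_rfl ▸ ENNReal.mul_ne_top ENNReal.ofReal_ne_top (hfin j L₀)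
    obtain ⟨h1, h2⟩ := ENNReal.add_ne_top.mp h
    refine ⟨fun hA => h1 ?_, h2⟩
    rw [hA, ENNReal.mul_top]
    simpa using hL₀
  have hlim := (tendsto_truncated hℓ hbdd hi).const_smul κ
  have hf : ∀ L, L₀ ≤ L → κ • ∫ x, (cuspTrunc ℓ L x).toReal • K x ∂μ.withDensity w =
      L • ((2 : ℝ) • ∑ j, (A j).toReal • c j) + ∑ j, (B j).toReal • c j := by
    intro L hL
    rw [integral_truncated hℓ hw c hG hK (fun j => hfin j L), Finset.smul_sum, Finset.smul_sum,
      Finset.smul_sum, ← Finset.sum_add_distrib]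
    refine Finset.sum_congr rfl fun j _ => ?_
    rw [smul_smul, smul_smul, smul_smul, ← add_smul]
    congr 1
    have h := congrArg ENNReal.toReal (hexp j L hL)
    rw [ENNReal.toReal_mul, ENNReal.toReal_ofReal hκ.le,
      ENNReal.toReal_add (ENNReal.mul_ne_top ENNReal.ofReal_ne_top (hAB j).1) (hAB j).2,
      ENNReal.toReal_mul, ENNReal.toReal_ofReal (by linarith)] at h
    linarith
  have h2 := (slope_eq_zero hf hlim).1
  exact (smul_eq_zero.mp h2).resolve_left two_ne_zero

end FLTAgent.LanglandsTunnell.Trace
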