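import Fermat.Agent.LanglandsTunnell.Trace.Expansions
import Fermat.Agent.LanglandsTunnell.Isolation.DescComb

/-!
# The classes that occur have nonsquare determinant

A marked prime occurring once in every word makes every class occurring on either side regular
with determinant not `±` a square.
-/

set_option autoImplicit false

noncomputable section

namespace FLTAgent.LanglandsTunnell.Trace

open FLTAgent.LanglandsTunnell FLTAgent.LanglandsTunnell.Geom NumberField Matrix MeasureTheory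
open FLTAgent.LanglandsTunnell.Local (lvE lvM overE)
open IsDedekindDomain
open scoped ENNReal FLTAgent.LanglandsTunnell.Isolation

variable {D : Datum}

theorem under_spec {w : Ideal (𝓞 D.M)} (h : D.DegreeOne w ∨ D.DegreeThree w) :
    w.IsPrime ∧ w ≠ ⊥ ∧ (D.under w).IsPrime ∧ D.under w ≠ ⊥ := by
  obtain ⟨hp, h0, e⟩ : w.IsPrime ∧ w ≠ ⊥ ∧
      (Ideal.absNorm w = Ideal.absNorm (D.under w) ∨
        Ideal.absNorm w = Ideal.absNorm (D.under w) ^ 3) := by
    rcases h with ⟨a, b, c⟩ | ⟨a, b, c⟩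
    · exact ⟨a, b, Or.inl c⟩
    · exact ⟨a, b, Or.inr c⟩
  have := hp
  refine ⟨hp, h0, Ideal.comap_isPrime _ w, fun hb => ?_⟩
  rw [hb, Ideal.absNorm_bot] at e
  exact h0 (Ideal.absNorm_eq_zero_iff.mp (by simpa using e))

open scoped Classical in
/-- The number of letters equal to `v`, modulo two. -/
def letterParity {F : Type} [Field F] (v : Ideal (𝓞 F)) (ws : List (Ideal (𝓞 F))) : ZMod 2 :=
  (ws.map fun w => if v = w then (1 : ZMod 2) else 0).sum

theorem letterParity_append {F : Type} [Field F] (v : Ideal (𝓞 F)) (xs ys : List (Ideal (𝓞 F))) :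
    letterParity v (xs ++ ys) = letterParity v xs + letterParity v ys := by
  simp [letterParity]

theorem letterParity_eq_zero {F : Type} [Field F] {v : Ideal (𝓞 F)} {ws : List (Ideal (𝓞 F))}
    (h : ∀ w ∈ ws, w ≠ v) : letterParity v ws = 0 := by
  refine List.sum_eq_zero fun x hx => ?_
  obtain ⟨w, hw, rfl⟩ := List.mem_map.mp hx
  rw [if_neg (Ne.symm (h w hw))]

theorem letterParity_marked {F : Type} [Field F] {v : Ideal (𝓞 F)}
    {xs ys : List (Ideal (𝓞 F))} (hx : ∀ w ∈ xs, w ≠ v) (hy : ∀ w ∈ ys, w ≠ v) :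
    letterParity v (xs ++ v :: ys) = 1 := by
  rw [← List.singleton_append, letterParity_append, letterParity_append, letterParity_eq_zero hx,
    letterParity_eq_zero hy]
  simp [letterParity]

theorem plain_isNonsq {P : ExtPlaces D} {N : ℕ} (hn : lvE D N ≠ ⊥) {ker : ℝ → ℝ}
    {ws : List (Ideal (𝓞 D.E))} (hws : ∀ w ∈ ws, w.IsPrime ∧ w ≠ ⊥) {v : Ideal (𝓞 D.E)}
    (hv : v.IsPrime) (hv0 : v ≠ ⊥) (hodd : letterParity v ws = 1) (q : PGLF D.E)
    (y : Pt D.E Unit (lvE D N))
    (h : sideDensity (plainTwist P.placesE hn) (wordCount (lvE D N) ws) (fun _ => ker)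
      (Twisted.of _ q) y ≠ 0) : IsNonsq q := by
  classical
  have hc : wordCount (lvE D N) ws y.1 (act P.placesE q.out y).1 ≠ 0 := fun h0 => h (by
    show pairDensity _ _ y (act P.placesE q.out y) = 0
    rw [pairDensity, h0, Nat.cast_zero, zero_mul])
  obtain ⟨g, hg⟩ := QuotientGroup.mk_surjective y.1
  refine ⟨q.out, QuotientGroup.out_eq' q, plain_regular (n := lvE D N) ⟨v, hv, hv0⟩ hws ?_
    (g := g) ?_⟩
  · exact hodd
  · rw [hg]
    exact hc

variable {σ : D.M ≃ₐ[ℚ] D.M} {e : Fin 3 ≃ Fin 3} {P : ExtPlaces D}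
  {hfix : ∀ x, σ (D.incl x) = D.incl x}
  {he : ∀ i, P.placesM.emb (e i) = (P.placesM.emb i).comp σ.toAlgHom.toRingHom}
  {R : Finset Nat.Primes} {N₀ N₁ N' : ℕ} {hN' : N' ≠ 0}

theorem twisted_isNonsq (hne : σ ≠ AlgEquiv.refl) {kp : Fin 3 → ℝ → ℝ}
    {u₀ : Ideal (𝓞 D.M)} (hu : u₀.IsPrime) (hu0 : u₀ ≠ ⊥) {W : List (Ideal (𝓞 D.M))}
    (hW : ∀ w ∈ W, w.IsPrime ∧ w ≠ ⊥) (hsep : ∀ w ∈ W, w = u₀ ∨ D.under w ≠ D.under u₀)
    (hodd : letterParity u₀ W = 1) (d : PGLF D.M) (x : Pt D.M (Fin 3) (lvM D N'))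
    (h : sideDensity (cubicTwist P hfix he hN') (preCount (ramCount D σ R N₀ N₁ N') W) kp
      (Twisted.of _ d) x ≠ 0) : IsNonsq (pglNorm (overE hfix) d) := by
  classical
  have hs := isCubicTwist_overE hfix hne
  set f := σ.toAlgHom.toRingHom
  have hc : preCount (ramCount D σ R N₀ N₁ N') W x.1
      (act P.placesM d.out ((cubicTwist P hfix he hN').τ x)).1 ≠ 0 := fun h0 => h (by
    show pairDensity _ _ x (act P.placesM d.out ((cubicTwist P hfix he hN').τ x)) = 0
    rw [pairDensity, h0, Nat.cast_zero, zero_mul])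
  obtain ⟨u, hu'⟩ : ∃ u, ramCount D σ R N₀ N₁ N' x.1 u *
      wordCount (lvM D N') W u (act P.placesM d.out ((cubicTwist P hfix he hN').τ x)).1 ≠ 0 := by
    by_contra h0
    push Not at h0
    exact hc (finsum_eq_zero_of_forall_eq_zero h0)
  obtain ⟨g, ω, hω, hg, hgω⟩ := ramCount_ne_zero (left_ne_zero_of_mul hu')
  have hσ : ((GeneralLinearGroup.map (mapAF f).toRingHom x.1.out : GL (Fin 2) (AF D.M)) :
      FinPt D.M (lvM D N')) = ((GeneralLinearGroup.map (mapAF f).toRingHom g :
        GL (Fin 2) (AF D.M)) : FinPt D.M (lvM D N')) := by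
    have hout : ((x.1.out : GL (Fin 2) (AF D.M)) : FinPt D.M (lvM D N')) =
        (g : FinPt D.M (lvM D N')) := (QuotientGroup.out_eq' x.1).trans hg.symm
    obtain ⟨κ, hκ, hκ'⟩ : ∃ κ, κ ∈ levelGroup (lvM D N') ∧ g = x.1.out * κ :=
      ⟨_, QuotientGroup.eq.mp hout, (mul_inv_cancel_left _ _).symm⟩
    rw [hκ', map_mul, QuotientGroup.mk_mul_of_mem _
      (map_mem_levelGroup _ (map_span_natCast_le _ N') hκ)]
  have hw : wordCount (lvM D N') W ((g * ω : GL (Fin 2) (AF D.M)) : FinPt D.M (lvM D N'))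
      ((GeneralLinearGroup.map (toAF D.M) d.out *
        GeneralLinearGroup.map (mapAF σ.toRingEquiv.toRingHom).toRingHom g :
          GL (Fin 2) (AF D.M)) : FinPt D.M (lvM D N')) ≠ 0 := by
    rw [hgω, ← smul_eq_mul, ← MulAction.Quotient.smul_coe]
    have hr := right_ne_zero_of_mul hu'
    change wordCount _ W u (GeneralLinearGroup.map (toAF D.M) d.out •
      ((GeneralLinearGroup.map (mapAF f).toRingHom x.1.out : GL (Fin 2) (AF D.M)) :
        FinPt D.M (lvM D N'))) ≠ 0 at hr
    rw [hσ] at hr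
    exact hr
  refine ⟨d.out * GeneralLinearGroup.map f d.out *
    GeneralLinearGroup.map f (GeneralLinearGroup.map f d.out), ?_, fun y => ?_⟩
  · conv_rhs => rw [← QuotientGroup.out_eq' d]
    rfl
  · have hdet : (d.out * GeneralLinearGroup.map f d.out *
        GeneralLinearGroup.map f (GeneralLinearGroup.map f d.out)).val.det =
        d.out.val.det * σ d.out.val.det * σ (σ d.out.val.det) := by
      have hm : ∀ X : GL (Fin 2) D.M, (GeneralLinearGroup.map f X).val.det = σ X.val.det :=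
        fun X => (f.map_det X.val).symm
      rw [Units.val_mul, Units.val_mul, Matrix.det_mul, Matrix.det_mul, hm, hm, hm]
    rw [hdet]
    exact twisted_regular hfix (fun z => hs.cube z) hu hu0 hW hsep hodd (det_ramElement hω) hw y

/-- The descent of a word wrapped by primes of degree one. -/
theorem descWord_wrap {A B : List (Ideal (𝓞 D.M))} (hA : ∀ w ∈ A, D.DegreeOne w)
    (hB : ∀ w ∈ B, D.DegreeOne w) (W : List (Ideal (𝓞 D.M))) :
    D.descWord (A ++ W ++ B) =
      (D.descWord W).map fun b => (b.1, A.map D.under ++ b.2 ++ B.map D.under) := by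
  rw [LanglandsTunnell.Isolation.descWord_append, LanglandsTunnell.Isolation.descWord_append,
    descWord_degreeOne hA, descWord_degreeOne hB]
  simp [List.flatMap_map, ← List.map_eq_flatMap]

end FLTAgent.LanglandsTunnell.Trace
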