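import Fermat.Agent.LanglandsTunnell.Trace.ParityTwist
import Fermat.Agent.LanglandsTunnell.Local.TransferSpec
import Fermat.Agent.LanglandsTunnell.Geom.Lattices

/-!
# The test element as a count

The kernel of the test element is a natural number valued count `ramCount`, invariant under
translations and of finite support at every point; `cM_eq` reads the combined kernel from it.
-/

set_option autoImplicit false

noncomputable section

namespace FLTAgent.LanglandsTunnell.Trace

open FLTAgent.LanglandsTunnell FLTAgent.LanglandsTunnell.Geom NumberField Matrix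
open FLTAgent.LanglandsTunnell.Local (lvM twAct cM)

variable (D : Datum) (σ : D.M ≃ₐ[ℚ] D.M) (R : Finset Nat.Primes) (N₀ N₁ N' : ℕ)

open scoped Classical in
/-- The test kernel as a count. -/
def ramCount (v v' : FinPt D.M (lvM D N')) : ℕ :=
  if ∃ g ω : GL (Fin 2) (AF D.M), ramElement D σ R N₀ N₁ N' ω ∧
      (g : FinPt D.M (lvM D N')) = v ∧
      ((g * ω : GL (Fin 2) (AF D.M)) : FinPt D.M (lvM D N')) = v'
  then 1 else 0

variable {D σ R N₀ N₁ N'}

theorem ramKernel_eq (v v' : FinPt D.M (lvM D N')) :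
    ramKernel D σ R N₀ N₁ N' v v' = (ramCount D σ R N₀ N₁ N' v v' : ℂ) := by
  classical
  simp only [ramKernel, ramCount]
  split_ifs <;> simp

theorem ramCount_ne_zero {v v' : FinPt D.M (lvM D N')} (h : ramCount D σ R N₀ N₁ N' v v' ≠ 0) :
    ∃ g ω : GL (Fin 2) (AF D.M), ramElement D σ R N₀ N₁ N' ω ∧
      (g : FinPt D.M (lvM D N')) = v ∧
      ((g * ω : GL (Fin 2) (AF D.M)) : FinPt D.M (lvM D N')) = v' := by
  classical
  simp only [ramCount, ne_eq, ite_eq_right_iff, Classical.not_imp] at h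
  exact h.1

theorem ramCount_smul (h : GL (Fin 2) (AF D.M)) (v v' : FinPt D.M (lvM D N')) :
    ramCount D σ R N₀ N₁ N' (h • v) (h • v') = ramCount D σ R N₀ N₁ N' v v' := by
  classical
  refine if_congr ⟨?_, ?_⟩ rfl rfl
  · rintro ⟨g, ω, hω, h1, h2⟩
    refine ⟨h⁻¹ * g, ω, hω, ?_, ?_⟩
    · rw [← smul_eq_mul, ← MulAction.Quotient.smul_coe, h1, inv_smul_smul]
    · rw [mul_assoc, ← smul_eq_mul, ← MulAction.Quotient.smul_coe, h2, inv_smul_smul]
  · rintro ⟨g, ω, hω, h1, h2⟩
    refine ⟨h * g, ω, hω, ?_, ?_⟩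
    · rw [← h1, MulAction.Quotient.smul_coe, smul_eq_mul]
    · rw [← h2, MulAction.Quotient.smul_coe, smul_eq_mul, mul_assoc]

theorem bounded_ramElement {ω : GL (Fin 2) (AF D.M)} (h : ramElement D σ R N₀ N₁ N' ω) :
    Bounded 1 ω := by
  have key : ∀ p : Nat.Primes, ∃ X : GL (Fin 2) (AF D.M),
      (IsIntMat X.val ∧ IsIntMat (X⁻¹).val) ∧
      GeneralLinearGroup.map (compAF (F := D.M) p).toRingHom ω =
        GeneralLinearGroup.map (compAF (F := D.M) p).toRingHom X := by
    intro p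
    have hmap : ∀ {F' : Type} [Field F'] [NumberField F'] (f : F' →+* D.M) {n : Ideal (𝓞 F')}
        {k : GL (Fin 2) (AF F')}, k ∈ principalSubgroup n →
        IsIntMat (GeneralLinearGroup.map (mapAF f).toRingHom k).val ∧
        IsIntMat (GeneralLinearGroup.map (mapAF f).toRingHom k)⁻¹.val := fun f n k hk =>
      ⟨fun i j => mapAF_mem_intAF f (hk.1.mem_intAF i j), by
        rw [← map_inv]; exact fun i j => mapAF_mem_intAF f (hk.2.mem_intAF i j)⟩
    by_cases hp : p ∈ R
    · obtain ⟨k, hk, y, hy, he⟩ := h.1 p hp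
      refine ⟨_, ⟨?_, ?_⟩, he⟩
      · rw [Units.val_mul, Units.val_mul]
        exact (IsIntMat.mul (fun i j => hk.1.mem_intAF i j) (hmap D.incl hy).1).mul
          (hmap σ.toAlgHom.toRingHom hk).2
      · rw [_root_.mul_inv_rev, _root_.mul_inv_rev, inv_inv, Units.val_mul, Units.val_mul]
        exact (hmap σ.toAlgHom.toRingHom hk).1.mul
          ((hmap D.incl hy).2.mul fun i j => hk.2.mem_intAF i j)
    · obtain ⟨k, hk, he⟩ := h.2 p hp
      exact ⟨k, ⟨fun i j => hk.1.mem_intAF i j, fun i j => hk.2.mem_intAF i j⟩, he⟩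
  rw [bounded_one_iff]
  refine ⟨fun i j => LanglandsTunnell.Local.mem_intAF_iff_comp.mpr fun p => ?_,
    fun i j => LanglandsTunnell.Local.mem_intAF_iff_comp.mpr fun p => ?_⟩
  · obtain ⟨X, hX, he⟩ := key p
    obtain ⟨o, ho⟩ := LanglandsTunnell.Local.mem_intAF_iff_comp.mp (hX.1 i j) p
    refine ⟨o, ho.trans ?_⟩
    exact (congrArg (fun Z : GL (Fin 2) _ => Z.val i j) he).symm
  · obtain ⟨X, hX, he⟩ := key p
    obtain ⟨o, ho⟩ := LanglandsTunnell.Local.mem_intAF_iff_comp.mp (hX.2 i j) p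
    refine ⟨o, ho.trans ?_⟩
    have he' := congrArg Inv.inv he
    rw [← map_inv, ← map_inv] at he'
    exact (congrArg (fun Z : GL (Fin 2) _ => Z.val i j) he').symm

variable {k Bd : ℕ} {N : ℕ}

theorem ramCount_finite (hlev : IsTestLevel D σ k Bd R N₀ N₁ N N') (v : FinPt D.M (lvM D N')) :
    {v' | ramCount D σ R N₀ N₁ N' v v' ≠ 0}.Finite := by
  have hn : lvM D N' ≠ ⊥ := by simp [hlev.ne_zero]
  refine ((finite_bounded hn (one_ne_zero : (1 : ℕ) ≠ 0)).image (v.out • ·)).subset fun v' hv' => ?_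
  obtain ⟨g, ω, hω, hg, hgω⟩ := ramCount_ne_zero hv'
  obtain ⟨k, hk, z, hk'⟩ := exists_level_decomp ((QuotientGroup.out_eq' v).trans hg.symm)
  have hkω := (hlev.ram_invariant ω k hω hk).2
  refine ⟨_, ⟨k * ω, bounded_ramElement hkω, rfl⟩, ?_⟩
  rw [← hgω, hk']
  show v.out • ((k * ω : GL (Fin 2) (AF D.M)) : FinPt D.M (lvM D N')) = _
  rw [MulAction.Quotient.smul_coe, smul_eq_mul, QuotientGroup.eq]
  refine Subgroup.mem_sup_right ?_
  rw [GeneralLinearGroup.center_eq_range_scalar]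
  refine ⟨z, ?_⟩
  have hc : ∀ X : GL (Fin 2) (AF D.M),
      GeneralLinearGroup.scalar (Fin 2) z * X = X * GeneralLinearGroup.scalar (Fin 2) z := fun X =>
    (Subgroup.mem_center_iff.mp (by
      rw [GeneralLinearGroup.center_eq_range_scalar]
      exact ⟨z, rfl⟩) X).symm
  rw [eq_inv_mul_iff_mul_eq]
  simp only [mul_assoc]
  rw [hc ω]

theorem cM_eq (hlev : IsTestLevel D σ k Bd R N₀ N₁ N N') {W : List (Ideal (𝓞 D.M))}
    (hW : ∀ w ∈ W, w ≠ ⊥) (v v' : FinPt D.M (lvM D N')) :
    cM D σ R N₀ N₁ N' W v v' = (preCount (ramCount D σ R N₀ N₁ N') W v v' : ℂ) := by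
  have hn : lvM D N' ≠ ⊥ := by simp [hlev.ne_zero]
  rw [cM, preCount, finsum_eq_sum_of_support_subset (fun u => ramCount D σ R N₀ N₁ N' v u *
      wordCount (lvM D N') W u v') (s := (ramCount_finite hlev v).toFinset) fun u hu =>
      (ramCount_finite hlev v).mem_toFinset.mpr (left_ne_zero_of_mul (Function.mem_support.mp hu)),
    finsum_eq_sum_of_support_subset (fun u => ramKernel D σ R N₀ N₁ N' v u *
      wordKernel (lvM D N') W u v') (s := (ramCount_finite hlev v).toFinset) fun u hu =>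
      (ramCount_finite hlev v).mem_toFinset.mpr fun h0 =>
        left_ne_zero_of_mul (Function.mem_support.mp hu) (by rw [ramKernel_eq, h0, Nat.cast_zero]),
    Nat.cast_sum]
  exact Finset.sum_congr rfl fun u _ => by rw [ramKernel_eq, wordKernel_eq hn hW, Nat.cast_mul]

end FLTAgent.LanglandsTunnell.Trace
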