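import Fermat.Agent.LanglandsTunnell.Trace.Transfer
import Fermat.Agent.LanglandsTunnell.Trace.RamCount
import Fermat.Agent.LanglandsTunnell.Trace.Twists

/-!
# Both sides of one class push to common core densities

The twisted density of a class and the plain density of its norm are pushed forward to densities
`coreDensity` on the points of `E` (`twisted_transfer`, `plain_transfer`).
-/

set_option autoImplicit false

noncomputable section

namespace FLTAgent.LanglandsTunnell.Trace

open FLTAgent.LanglandsTunnell FLTAgent.LanglandsTunnell.Geom NumberField Matrix MeasureTheory Set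
open FLTAgent.LanglandsTunnell.Local (lvE lvM glE glEM twAct PlainPush TwistedPush IsNormOf cM)
open scoped ENNReal FLTAgent.LanglandsTunnell.Isolation

/-- The sum over a fibre. -/
def fibSum {X X' : Type*} (q : X' → X) (a : X' → ℝ≥0∞) (z : X) : ℝ≥0∞ :=
  ∑' v, {v | q v = z}.indicator a v

theorem map_prod_density {X X' A B : Type*} [Countable X] [Countable X'] [MeasurableSpace X]
    [MeasurableSingletonClass X] [MeasurableSpace X'] [MeasurableSingletonClass X']
    [MeasurableSpace A] [MeasurableSpace B] {ν : Measure A} {ν' : Measure B} [SFinite ν]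
    [SFinite ν'] (qf : X' → X) {q : B → A} (hq : Measurable q) (a : X' → ℝ≥0∞) {b : B → ℝ≥0∞}
    (hb : Measurable b) {b₀ : A → ℝ≥0∞} (hb₀ : Measurable b₀)
    (h : Measure.map q (ν'.withDensity b) = ν.withDensity b₀) :
    Measure.map (fun p => (qf p.1, q p.2))
        (((Measure.count : Measure X').prod ν').withDensity fun p => a p.1 * b p.2) =
      ((Measure.count : Measure X).prod ν).withDensity fun p => fibSum qf a p.1 * b₀ p.2 := by
  have hqf : Measurable qf := measurable_of_countable qf
  have hf : Measure.map qf ((Measure.count : Measure X').withDensity a) =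
      (Measure.count : Measure X).withDensity (fibSum qf a) := by
    refine Measure.ext_of_singleton fun z => ?_
    rw [Measure.map_apply hqf (measurableSet_singleton z),
      withDensity_apply _ (hqf (measurableSet_singleton z)),
      withDensity_apply _ (measurableSet_singleton z), lintegral_singleton,
      ← lintegral_indicator (hqf (measurableSet_singleton z)), lintegral_count,
      Measure.count_singleton, mul_one]
    rfl
  rw [← prod_withDensity (measurable_of_countable a) hb,
    ← prod_withDensity (measurable_of_countable _) hb₀, ← hf, ← h,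
    Measure.map_prod_map _ _ hqf hq]
  rfl

/-- The density on the common points. -/
def coreDensity {E : Type} [Field E] [NumberField E] {n : Ideal (𝓞 E)} (Φ : PlaceChoice E Unit)
    (γ : GL (Fin 2) E) (n₀ : FinPt E n → ℝ≥0∞) (ker : ℝ → ℝ) (y : Pt E Unit n) : ℝ≥0∞ :=
  n₀ y.1 * ENNReal.ofReal
    (ker (H3.coshDist (y.2 ()) (GeneralLinearGroup.map (Φ.emb ()) γ • y.2 ())))

theorem measurable_core_inf {E : Type} [Field E] (Φ : PlaceChoice E Unit) (γ : GL (Fin 2) E)
    {ker : ℝ → ℝ} (hker : Continuous ker) : Measurable fun P : Unit → H3 =>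
      ENNReal.ofReal (ker (H3.coshDist (P ()) (GeneralLinearGroup.map (Φ.emb ()) γ • P ()))) :=
  (hker.measurable.comp (measurable_coshDist (measurable_pi_apply ())
    ((continuous_const_smul _).measurable.comp (measurable_pi_apply ())))).ennreal_ofReal

theorem measurable_coreDensity {E : Type} [Field E] [NumberField E] {n : Ideal (𝓞 E)}
    [Countable (FinPt E n)] (Φ : PlaceChoice E Unit) (γ : GL (Fin 2) E)
    (n₀ : FinPt E n → ℝ≥0∞) {ker : ℝ → ℝ} (hker : Continuous ker) :
    Measurable (coreDensity Φ γ n₀ ker) :=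
  ((measurable_of_countable n₀).comp measurable_fst).mul
    ((measurable_core_inf Φ γ hker).comp measurable_snd)

theorem injective_pglMap {K L : Type} [Field K] [Field L] (f : K →+* L) :
    Function.Injective (pglMap f) := by
  refine (injective_iff_map_eq_one _).mpr fun q hq => ?_
  obtain ⟨g, rfl⟩ := QuotientGroup.mk_surjective q
  have h : GeneralLinearGroup.map f g ∈ Subgroup.center (GL (Fin 2) L) :=
    (QuotientGroup.eq_one_iff _).mp hq
  rw [QuotientGroup.eq_one_iff, GeneralLinearGroup.center_eq_range_scalar]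
  rw [GeneralLinearGroup.center_eq_range_scalar] at h
  obtain ⟨z, hz⟩ := h
  have he := fun i j => congrArg (fun X : GL (Fin 2) L => X.val i j) hz
  have h00 := he 0 0
  have h11 := he 1 1
  have h01 := he 0 1
  have h10 := he 1 0
  simp [GeneralLinearGroup.scalar] at h00 h11 h01 h10
  have hg : g.val 0 0 ≠ 0 := fun h0 => z.ne_zero (by rw [h00, h0, map_zero])
  refine ⟨Units.mk0 _ hg, Units.ext (Matrix.ext fun i j => ?_)⟩
  have e11 : g.val 1 1 = g.val 0 0 := f.injective (by rw [← h11, ← h00])
  have e01 : g.val 0 1 = 0 := (map_eq_zero f).mp h01.symm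
  have e10 : g.val 1 0 = 0 := (map_eq_zero f).mp h10.symm
  fin_cases i <;> fin_cases j <;> simp [GeneralLinearGroup.scalar, e01, e10, e11]

section Datum

variable {D : Datum} {σ : D.M ≃ₐ[ℚ] D.M} {e : Fin 3 ≃ Fin 3} {P : ExtPlaces D}
  {hfix : ∀ x, σ (D.incl x) = D.incl x}
  {he : ∀ i, P.placesM.emb (e i) = (P.placesM.emb i).comp σ.toAlgHom.toRingHom}
  {R : Finset Nat.Primes} {N₀ N₁ N N' k Bd : ℕ}

theorem emb_incl (i : Fin 3) (t : GL (Fin 2) D.E) :
    GeneralLinearGroup.map (P.placesM.emb i) (GeneralLinearGroup.map D.incl t) =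
      GeneralLinearGroup.map (P.placesE.emb ()) t := by
  rw [← P.compat i]
  rfl

theorem act_incl_fst (t : GL (Fin 2) D.E) (x : Pt D.M (Fin 3) (lvM D N')) :
    (act P.placesM (GeneralLinearGroup.map D.incl t) x).1 = glEM D t • x.1 := rfl

theorem act_incl_snd (t : GL (Fin 2) D.E) (x : Pt D.M (Fin 3) (lvM D N')) (i : Fin 3) :
    (act P.placesM (GeneralLinearGroup.map D.incl t) x).2 i =
      GeneralLinearGroup.map (P.placesE.emb ()) t • x.2 i := by
  show GeneralLinearGroup.map (P.placesM.emb i) (GeneralLinearGroup.map D.incl t) • x.2 i = _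
  rw [emb_incl]

/-- The point map of the twisted side at one place. -/
def pushM (q : FinPt D.M (lvM D N') → FinPt D.E (lvE D N)) (i : Fin 3)
    (x : Pt D.M (Fin 3) (lvM D N')) : Pt D.E Unit (lvE D N) :=
  (q x.1, fun _ => x.2 i)

/-- The point map of the plain side. -/
def pushE (q : FinPt D.E (lvE D N) → FinPt D.E (lvE D N))
    (x : Pt D.E Unit (lvE D N)) : Pt D.E Unit (lvE D N) :=
  (q x.1, x.2)

/-- The count of the twisted side at `δ`. -/
def twCount (D : Datum) (σ : D.M ≃ₐ[ℚ] D.M) (R : Finset Nat.Primes) (N₀ N₁ N' : ℕ)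
    (W : List (Ideal (𝓞 D.M))) (δ : GL (Fin 2) D.M) (v : FinPt D.M (lvM D N')) : ℕ :=
  preCount (ramCount D σ R N₀ N₁ N') W v (twAct D σ δ v)

theorem twCount_smul {W : List (Ideal (𝓞 D.M))} {γ : GL (Fin 2) D.E} {δ : GL (Fin 2) D.M}
    (hfix : ∀ x, σ (D.incl x) = D.incl x) (h : IsNormOf D σ γ δ)
    (hreg : γ.1.trace ^ 2 ≠ 4 * γ.1.det)
    {t : GL (Fin 2) D.E} (ht : Commute t γ) (v : FinPt D.M (lvM D N')) :
    twCount D σ R N₀ N₁ N' W δ (glEM D t • v) = twCount D σ R N₀ N₁ N' W δ v := by
  have hc : Commute δ (GeneralLinearGroup.map D.incl t) := by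
    have h1 : Commute (γ.val.map (algebraMap D.E D.M)) (t.val.map (algebraMap D.E D.M)) := by
      have := congrArg Units.val (congrArg (GeneralLinearGroup.map D.incl) ht.symm.eq)
      rw [map_mul, map_mul] at this
      exact this
    have h2 : Commute (γ.val.map (algebraMap D.E D.M)) δ.val :=
      (congrArg Units.val h.1.eq).symm
    exact Units.ext (commute_comm hreg h2 h1).eq
  unfold twCount twAct
  conv_rhs => rw [← preCount_smul ramCount_smul W (glEM D t)]
  congr 1
  set g := v.out with hg
  have hout : (((glEM D t • v).out : GL (Fin 2) (AF D.M)) : FinPt D.M (lvM D N')) =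
      ((glEM D t * g : GL (Fin 2) (AF D.M)) : FinPt D.M (lvM D N')) := coe_out_smul _ v
  have hmapped : ((GeneralLinearGroup.map (mapAF σ.toAlgHom.toRingHom).toRingHom
        (glEM D t • v).out : GL (Fin 2) (AF D.M)) : FinPt D.M (lvM D N')) =
      ((GeneralLinearGroup.map (mapAF σ.toAlgHom.toRingHom).toRingHom (glEM D t * g) :
        GL (Fin 2) (AF D.M)) : FinPt D.M (lvM D N')) := by
    obtain ⟨κ, hκ, hκ'⟩ : ∃ κ, κ ∈ levelGroup (lvM D N') ∧
        glEM D t * g = (glEM D t • v).out * κ :=
      ⟨_, QuotientGroup.eq.mp hout, (mul_inv_cancel_left _ _).symm⟩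
    rw [hκ', map_mul, QuotientGroup.mk_mul_of_mem _
      (map_mem_levelGroup _ (map_span_natCast_le _ N') hκ)]
  rw [hmapped, map_mul]
  have hfixt : GeneralLinearGroup.map (mapAF σ.toAlgHom.toRingHom).toRingHom (glEM D t) =
      GeneralLinearGroup.map (toAF D.M) (GeneralLinearGroup.map D.incl t) := by
    refine Units.ext (Matrix.ext fun i j => ?_)
    show mapAF σ.toAlgHom.toRingHom (toAF D.M (D.incl (t.1 i j))) = toAF D.M (D.incl (t.1 i j))
    rw [mapAF_toAF]
    exact congrArg _ (hfix _)
  rw [hfixt, ← smul_eq_mul (GeneralLinearGroup.map (toAF D.M) (GeneralLinearGroup.map D.incl t)),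
    ← MulAction.Quotient.smul_coe, smul_smul, ← map_mul, hc.eq, map_mul, mul_smul]
  rfl

theorem chain_push_unit {e : Fin 3 ≃ Fin 3} (he1 : ∀ j, e j ≠ j) (he3 : ∀ j, e (e (e j)) = j)
    {kp : Fin 3 → ℝ → ℝ} (hk : GoodParts kp) (g : Fin 3 → GL (Fin 2) ℂ) (i : Fin 3)
    {G : GL (Fin 2) ℂ} (hG : ∀ Q : H3, (g i * g (e i) * g (e (e i))) • Q = G • Q) :
    Measure.map (fun Q : Fin 3 → H3 => fun _ : Unit => Q i)
        ((Measure.pi fun _ : Fin 3 => H3.volH3).withDensity (chainDensity e (posWeight kp) g)) =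
      (Measure.pi fun _ : Unit => H3.volH3).withDensity fun Q =>
        ENNReal.ofReal (triKer kp (H3.coshDist (Q ()) (G • Q ()))) := by
  have hp := chain_push he1 he3 (k := posWeight kp)
    (fun j => (hk j).1.measurable.ennreal_ofReal) g i
  have hs := (measurePreserving_funUnique H3.volH3 Unit).symm
  have hcomp : (fun Q : Fin 3 → H3 => fun _ : Unit => Q i) =
      (MeasurableEquiv.funUnique Unit H3).symm ∘ fun Q => Q i := rfl
  rw [hcomp]
  refine (Measure.map_map (MeasurableEquiv.measurable _) (measurable_pi_apply i)).symm.trans ?_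
  rw [hp]
  refine Measure.ext fun s hs' => ?_
  rw [MeasurableEquiv.map_apply, withDensity_apply _ (MeasurableEquiv.measurable _ hs'),
    withDensity_apply _ hs',
    ← hs.setLIntegral_comp_preimage_emb (MeasurableEquiv.measurableEmbedding _)]
  refine lintegral_congr fun Q => ?_
  rw [(triKer_eq hk he1 he3 i _).1.symm]
  show _ = chainKernel e (fun j x => ENNReal.ofReal (kp j x)) i
    (H3.coshDist Q (G • Q))
  rw [← hG]
  rfl

theorem twisted_transfer (hne : σ ≠ AlgEquiv.refl) (hlev : IsTestLevel D σ k Bd R N₀ N₁ N N')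
    {hN' : N' ≠ 0} {W : List (Ideal (𝓞 D.M))} (hW : ∀ w ∈ W, w ≠ ⊥)
    {kp : Fin 3 → ℝ → ℝ} (hk : GoodParts kp) {γ : GL (Fin 2) D.E} {δ : GL (Fin 2) D.M}
    (hreg : γ.1.trace ^ 2 ≠ 4 * γ.1.det) (hδ : IsNormOf D σ γ δ)
    (T : TwistedPush D σ R N₀ N₁ N N' W γ δ) (H : Subgroup (PGLF D.E))
    (hH : ∀ h ∈ H, ∃ t : GL (Fin 2) D.E, (t : PGLF D.E) = h ∧ Commute t γ) (i : Fin 3)
    (f : FinPt D.M (lvM D N') → ℝ≥0∞)
    (hf : ∀ h ∈ H, ∀ t : GL (Fin 2) D.E, (t : PGLF D.E) = h → Commute t γ → ∀ v,
      twCount D σ R N₀ N₁ N' W δ v ≠ 0 → f (glEM D t • v) = f v) :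
    letI := pglAction (n := lvM D N') P.placesM
    letI := pglAction (n := lvE D N) P.placesE
    IsTransfer (volPt : Measure (Pt D.E Unit (lvE D N))) volPt
      (H.equivMapOfInjective _ (injective_pglMap (algebraMap D.E D.M))).symm
      (pushM (T.q i) i)
      (fun x => sideDensity (cubicTwist P hfix he hN') (preCount (ramCount D σ R N₀ N₁ N') W) kp
        (Twisted.of _ (δ : PGLF D.M)) x * f x.1)
      (coreDensity P.placesE γ
        (fibSum (T.q i) fun v => (twCount D σ R N₀ N₁ N' W δ v : ℝ≥0∞) * f v) (triKer kp)) := by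
  let := pglAction (n := lvM D N') P.placesM
  let := pglAction (n := lvE D N) P.placesE
  have hnM : lvM D N' ≠ ⊥ := by simp [hN']
  have hnE : lvE D N ≠ ⊥ := by
    have : N ≠ 0 := fun h => hN' (Nat.eq_zero_of_zero_dvd (h ▸ hlev.dvd))
    simp [this]
  have : Countable (FinPt D.M (lvM D N')) := countable_finPt hnM
  have : Countable (FinPt D.E (lvE D N)) := countable_finPt hnE
  obtain ⟨he1, he3⟩ := placePerm_spec P hfix hne he
  set tw := cubicTwist P hfix he hN'
  set g : Fin 3 → GL (Fin 2) ℂ := fun j => GeneralLinearGroup.map (P.placesM.emb j) δ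
  have hden : ∀ x : Pt D.M (Fin 3) (lvM D N'),
      sideDensity tw (preCount (ramCount D σ R N₀ N₁ N') W) kp (Twisted.of _ (δ : PGLF D.M)) x =
        (twCount D σ R N₀ N₁ N' W δ x.1 : ℝ≥0∞) * chainDensity e (posWeight kp) g x.2 := by
    intro x
    show pairDensity _ _ x (act P.placesM (δ : PGLF D.M).out _) = _
    rw [act_out]
    rfl
  have hbm : Measurable (chainDensity e (posWeight kp) g) :=
    measurable_chainDensity (fun j => (hk j).1.measurable.ennreal_ofReal) g
  refine ⟨?_, ?_, measurable_coreDensity _ _ _ (continuous_triKer hk), ?_, ?_, ?_⟩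
  · exact ((measurable_of_countable (T.q i)).comp measurable_fst).prodMk
      (measurable_pi_lambda _ fun _ => (measurable_pi_apply i).comp measurable_snd)
  · simp only [hden]
    exact (((measurable_of_countable fun v => (twCount D σ R N₀ N₁ N' W δ v : ℝ≥0∞)).comp
      measurable_fst).mul (hbm.comp measurable_snd)).mul
      ((measurable_of_countable f).comp measurable_fst)
  · rintro ⟨h, hh⟩ x
    obtain ⟨q, hq, rfl⟩ := hh
    obtain ⟨t, rfl, ht⟩ := hH q hq
    show sideDensity tw (preCount (ramCount D σ R N₀ N₁ N') W) kp (Twisted.of _ (δ : PGLF D.M))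
        (act P.placesM ((GeneralLinearGroup.map D.incl t : GL (Fin 2) D.M) : PGLF D.M).out x) *
      f (act P.placesM ((GeneralLinearGroup.map D.incl t : GL (Fin 2) D.M) : PGLF D.M).out x).1 = _
    rw [act_out, hden, hden, act_incl_fst, twCount_smul hfix hδ hreg ht]
    by_cases h0 : twCount D σ R N₀ N₁ N' W δ x.1 = 0
    · simp [h0]
    rw [hf _ hq t rfl ht _ h0]
    congr 2
    refine Finset.prod_congr rfl fun j _ => ?_
    rw [act_incl_snd, act_incl_snd]
    set u := GeneralLinearGroup.map (P.placesE.emb ()) t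
    have hc : g j * u = u * g j := by
      have hc' : Commute δ (GeneralLinearGroup.map D.incl t) := by
        refine Units.ext (commute_comm hreg ((congrArg Units.val hδ.1.eq).symm) ?_).eq
        have := congrArg Units.val (congrArg (GeneralLinearGroup.map D.incl) ht.symm.eq)
        rw [map_mul, map_mul] at this
        exact this
      have := congrArg (GeneralLinearGroup.map (P.placesM.emb j)) hc'.eq
      rw [map_mul, map_mul, emb_incl] at this
      exact this
    rw [smul_smul, hc, ← smul_smul, H3.coshDist_smul]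
  · have hG : ∀ Q : H3, (g i * g (e i) * g (e (e i))) • Q =
        GeneralLinearGroup.map (P.placesE.emb ()) γ • Q := by
      intro Q
      obtain ⟨-, z, hz⟩ := hδ
      have h1 : g (e i) = GeneralLinearGroup.map (P.placesM.emb i)
          (GeneralLinearGroup.map σ.toAlgHom.toRingHom δ) := by
        simp only [g, he i]; rfl
      have h2 : g (e (e i)) = GeneralLinearGroup.map (P.placesM.emb i)
          (GeneralLinearGroup.map σ.toAlgHom.toRingHom
            (GeneralLinearGroup.map σ.toAlgHom.toRingHom δ)) := by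
        simp only [g, he (e i), he i]; rfl
      rw [h1, h2]
      show (GeneralLinearGroup.map (P.placesM.emb i) δ * _ * _) • Q = _
      rw [← map_mul, ← map_mul, hz, emb_incl, map_mul, mul_smul, map_scalar_two, scalar_smul_h3]
    have hp := map_prod_density (T.q i)
      (q := fun Q : Fin 3 → H3 => fun _ : Unit => Q i)
      (measurable_pi_lambda _ fun _ => measurable_pi_apply i)
      (fun v => (twCount D σ R N₀ N₁ N' W δ v : ℝ≥0∞) * f v) hbm
      (measurable_core_inf P.placesE γ (continuous_triKer hk))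
      (chain_push_unit he1 he3 hk g i hG)
    refine Eq.trans ?_ hp
    congr 1
    refine congrArg _ (funext fun x => ?_)
    show _ * f x.1 = _
    rw [hden]
    ring
  · rintro ⟨h, hh⟩ x hx
    have hmem := hh
    obtain ⟨q, hq, rfl⟩ := hh
    obtain ⟨t, rfl, ht⟩ := hH q hq
    have hsym : (H.equivMapOfInjective _ (injective_pglMap (algebraMap D.E D.M))).symm
        ⟨_, hmem⟩ = ⟨(t : PGLF D.E), hq⟩ := by
      rw [MulEquiv.symm_apply_eq]
      rfl
    rw [hsym]
    show pushM (T.q i) i (act P.placesM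
      ((GeneralLinearGroup.map D.incl t : GL (Fin 2) D.M) : PGLF D.M).out x) =
      act P.placesE (t : PGLF D.E).out (pushM (T.q i) i x)
    rw [act_out, act_out]
    refine Prod.ext ?_ (funext fun _ => act_incl_snd t x i)
    show T.q i (glEM D t • x.1) = glE D t • T.q i x.1
    refine T.q_smul i t ht _ ?_
    rw [cM_eq hlev hW, Nat.cast_ne_zero]
    intro h0
    refine hx ?_
    show _ * _ = (0 : ℝ≥0∞)
    rw [hden, show twCount D σ R N₀ N₁ N' W δ x.1 = 0 from h0]
    simp

theorem plain_transfer {hn : lvE D N ≠ ⊥} {L : List (ℂ × List (Ideal (𝓞 D.E)))}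
    {cnt : FinPt D.E (lvE D N) → FinPt D.E (lvE D N) → ℕ}
    (hcnt : ∀ (h : GL (Fin 2) (AF D.E)) v u, cnt (h • v) (h • u) = cnt v u)
    {ker : ℝ → ℝ} (hker : Continuous ker) {γ : GL (Fin 2) D.E}
    (π : PlainPush D N L γ) (H : Subgroup (PGLF D.E))
    (hH : ∀ h ∈ H, ∃ t : GL (Fin 2) D.E, (t : PGLF D.E) = h ∧ Commute t γ)
    (f : FinPt D.E (lvE D N) → ℝ≥0∞)
    (hf : ∀ h ∈ H, ∀ t : GL (Fin 2) D.E, (t : PGLF D.E) = h → Commute t γ → ∀ u,
      f (glE D t • u) = f u) :
    letI := pglAction (n := lvE D N) P.placesE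
    IsTransfer (volPt : Measure (Pt D.E Unit (lvE D N))) volPt (MulEquiv.refl H)
      (pushE π.proj)
      (fun x => sideDensity (plainTwist P.placesE hn) cnt (fun _ => ker)
        (Twisted.of _ (γ : PGLF D.E)) x * f x.1)
      (coreDensity P.placesE γ
        (fibSum π.proj fun u => (cnt u (glE D γ • u) : ℝ≥0∞) * f u) ker) := by
  let := pglAction (n := lvE D N) P.placesE
  have : Countable (FinPt D.E (lvE D N)) := countable_finPt hn
  have hden : ∀ x : Pt D.E Unit (lvE D N),
      sideDensity (plainTwist P.placesE hn) cnt (fun _ => ker) (Twisted.of _ (γ : PGLF D.E)) x =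
        (cnt x.1 (glE D γ • x.1) : ℝ≥0∞) * ENNReal.ofReal
          (ker (H3.coshDist (x.2 ()) (GeneralLinearGroup.map (P.placesE.emb ()) γ • x.2 ()))) := by
    intro x
    show pairDensity _ _ x (act P.placesE (γ : PGLF D.E).out x) = _
    rw [act_out, pairDensity, Fintype.prod_unique]
    rfl
  refine ⟨((measurable_of_countable π.proj).comp measurable_fst).prodMk measurable_snd, ?_,
    measurable_coreDensity _ _ _ hker, ?_, ?_, ?_⟩
  · simp only [hden]
    exact (((measurable_of_countable fun u => (cnt u (glE D γ • u) : ℝ≥0∞)).comp measurable_fst).mul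
      ((measurable_core_inf P.placesE γ hker).comp measurable_snd)).mul
      ((measurable_of_countable f).comp measurable_fst)
  · rintro ⟨h, hh⟩ x
    obtain ⟨t, rfl, ht⟩ := hH h hh
    show sideDensity (plainTwist P.placesE hn) cnt (fun _ => ker) (Twisted.of _ (γ : PGLF D.E))
        (act P.placesE (t : PGLF D.E).out x) * f (act P.placesE (t : PGLF D.E).out x).1 = _
    rw [act_out, hden, hden]
    show (cnt (glE D t • x.1) (glE D γ • glE D t • x.1) : ℝ≥0∞) *
      ENNReal.ofReal (ker (H3.coshDist (GeneralLinearGroup.map (P.placesE.emb ()) t • x.2 ())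
        (GeneralLinearGroup.map (P.placesE.emb ()) γ •
          GeneralLinearGroup.map (P.placesE.emb ()) t • x.2 ()))) * f (glE D t • x.1) = _
    refine congrArg₂ (· * ·) (congrArg₂ (· * ·) (congrArg Nat.cast ?_)
      (congrArg ENNReal.ofReal (congrArg ker ?_))) (hf _ hh t rfl ht x.1)
    · rw [smul_smul (glE D γ), ← map_mul, ← ht.eq, map_mul, mul_smul, hcnt]
    · rw [smul_smul (GeneralLinearGroup.map (P.placesE.emb ()) γ), ← map_mul, ← ht.eq, map_mul,
        mul_smul, H3.coshDist_smul]
  · have hb := measurable_core_inf P.placesE γ hker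
    have hp := map_prod_density (ν := Measure.pi fun _ : Unit => H3.volH3)
      (ν' := Measure.pi fun _ : Unit => H3.volH3) π.proj (q := fun Q : Unit → H3 => Q) measurable_id
      (fun u => (cnt u (glE D γ • u) : ℝ≥0∞) * f u) hb hb
      (Measure.map_id (μ := (Measure.pi fun _ : Unit => H3.volH3).withDensity _))
    refine Eq.trans ?_ hp
    congr 1
    refine congrArg _ (funext fun x => ?_)
    show _ * f x.1 = _
    rw [hden]
    ring
  · rintro ⟨h, hh⟩ x -
    obtain ⟨t, rfl, ht⟩ := hH h hh
    show pushE π.proj (act P.placesE (t : PGLF D.E).out x) =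
      act P.placesE (t : PGLF D.E).out (pushE π.proj x)
    rw [act_out, act_out]
    exact Prod.ext (π.proj_smul t ht x.1) rfl

end Datum

end FLTAgent.LanglandsTunnell.Trace
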