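import Fermat.Agent.LanglandsTunnell.Trace.Expansion
import Fermat.Agent.LanglandsTunnell.Trace.KernelParts
import Fermat.Agent.LanglandsTunnell.Trace.ClassIndex
import Fermat.Agent.LanglandsTunnell.Geom.Twist
import Fermat.Agent.LanglandsTunnell.Geom.Lattices

/-!
# One side of the truncated comparison

The periodised density of a count and weights at infinity along a twist, its local finiteness, and
its truncated expansion over the classes.
-/

set_option autoImplicit false

noncomputable section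

namespace FLTAgent.LanglandsTunnell.Trace

open FLTAgent.LanglandsTunnell FLTAgent.LanglandsTunnell.Geom NumberField Matrix MeasureTheory Set
open scoped ENNReal

variable {F : Type} [Field F] [NumberField F] {ι : Type} [Fintype ι] {n : Ideal (𝓞 F)}

/-- A twist of the points, compatible with a twist of the group and of the cusps. -/
structure SideTwist (Φ : PlaceChoice F ι) (n : Ideal (𝓞 F)) : Type where
  θ : PGLF F →* PGLF F
  θc : Cusp F → Cusp F
  τ : Pt F ι n → Pt F ι n
  measurable : Measurable τ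
  act_comm : ∀ (q : PGLF F) x, τ (act Φ q.out x) = act Φ (θ q).out (τ x)
  height : ∀ c x, logHeight Φ (θc c) (τ x) = logHeight Φ c x
  flow_comm : ∀ s x, τ (flow s x) = flow s (τ x)
  count : ∀ (T : Set (FinPt F n)), T.Finite → ∀ B L : ℝ, ∃ N : ℕ, ∀ x : Pt F ι n,
    (∀ v, v ≠ 0 → LanglandsTunnell.Geom.height Φ x v ≤ L) → ∀ g : GL (Fin 2) (AF F),
      (g : FinPt F n) = x.1 → {q : PGLF F | g⁻¹ • (act Φ q.out (τ x)).1 ∈ T ∧
        ∀ i, H3.coshDist (x.2 i) ((act Φ q.out (τ x)).2 i) ≤ B}.encard ≤ N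

/-- An invariant count with finite rows and continuous compactly supported weights. -/
structure GoodPair (cnt : FinPt F n → FinPt F n → ℕ) (k : ι → ℝ → ℝ) : Prop where
  invariant : ∀ (h : GL (Fin 2) (AF F)) v u, cnt (h • v) (h • u) = cnt v u
  finite : ∀ v, {u | cnt v u ≠ 0}.Finite
  continuous : ∀ i, Continuous (k i)
  compact : ∀ i, HasCompactSupport (k i)

variable {Φ : PlaceChoice F ι} {cnt : FinPt F n → FinPt F n → ℕ} {k : ι → ℝ → ℝ}

/-- The weights as nonnegative functions. -/
def posWeight (k : ι → ℝ → ℝ) (i : ι) (c : ℝ) : ℝ≥0∞ := ENNReal.ofReal (k i c)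

/-- The density at one element of the twisted space. -/
def sideDensity (tw : SideTwist Φ n) (cnt : FinPt F n → FinPt F n → ℕ) (k : ι → ℝ → ℝ)
    (s : Twisted tw.θ) (x : Pt F ι n) : ℝ≥0∞ :=
  pairDensity cnt (posWeight k) x (act Φ (Twisted.val s).out (tw.τ x))

omit [NumberField F] in
theorem pairDensity_support (hP : GoodPair cnt k) :
    ∃ B : ℝ, ∀ x y : Pt F ι n, pairDensity cnt (posWeight k) x y ≠ 0 →
      cnt x.1 y.1 ≠ 0 ∧ ∀ i, H3.coshDist (x.2 i) (y.2 i) ≤ B := by
  choose B hB using fun i => (hP.compact i).isBounded.bddAbove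
  refine ⟨∑ i, |B i|, fun x y h => ?_⟩
  rw [pairDensity, mul_ne_zero_iff, Nat.cast_ne_zero, Finset.prod_ne_zero_iff] at h
  refine ⟨h.1, fun i => le_trans (hB i (subset_tsupport _ ?_)) ((le_abs_self _).trans
    (Finset.single_le_sum (f := fun j => |B j|) (fun j _ => abs_nonneg _) (Finset.mem_univ i)))⟩
  intro h0
  exact h.2 i (Finset.mem_univ i) (by rw [posWeight, h0, ENNReal.ofReal_zero])

omit [NumberField F] in
theorem pairDensity_le (hP : GoodPair cnt k) : ∃ K : ℝ≥0∞, K ≠ ∞ ∧
    ∀ x y : Pt F ι n, pairDensity cnt (posWeight k) x y ≤ K := by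
  choose B hB using fun i => (hP.continuous i).bounded_above_of_compact_support (hP.compact i)
  set T := (hP.finite ((1 : GL (Fin 2) (AF F)) : FinPt F n)).toFinset
  refine ⟨((∑ u ∈ T, cnt ((1 : GL (Fin 2) (AF F)) : FinPt F n) u : ℕ) : ℝ≥0∞) *
    ∏ i, ENNReal.ofReal (B i), ENNReal.mul_ne_top (ENNReal.natCast_ne_top _)
      (ENNReal.prod_ne_top fun i _ => ENNReal.ofReal_ne_top), fun x y => ?_⟩
  refine mul_le_mul' (Nat.cast_le.mpr ?_) (Finset.prod_le_prod' fun i _ =>
    ENNReal.ofReal_le_ofReal ((le_abs_self _).trans ((Real.norm_eq_abs _).symm.le.trans (hB i _))))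
  obtain ⟨g, hg⟩ := QuotientGroup.mk_surjective x.1
  have h1 : cnt x.1 y.1 = cnt ((1 : GL (Fin 2) (AF F)) : FinPt F n) (g⁻¹ • y.1) := by
    rw [← hP.invariant g⁻¹ x.1 y.1, ← hg, MulAction.Quotient.smul_coe, smul_eq_mul, inv_mul_cancel]
  rw [h1]
  by_cases h0 : cnt ((1 : GL (Fin 2) (AF F)) : FinPt F n) (g⁻¹ • y.1) = 0
  · rw [h0]; exact zero_le
  · exact Finset.single_le_sum (fun u _ => Nat.zero_le _)
      ((hP.finite _).mem_toFinset.mpr h0)

/-- Only finitely many translates of a point are joined to a given point. -/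
theorem finite_joined (hP : GoodPair cnt k) (x y : Pt F ι n) :
    {q : PGLF F | pairDensity cnt (posWeight k) x (act Φ q.out y) ≠ 0}.Finite := by
  obtain ⟨B, hB⟩ := pairDensity_support hP
  refine (((hP.finite x.1).biUnion fun u _ => finite_act_inter Φ (isCompact_singleton (x := y.2))
    (isCompact_univ_pi fun i => isCompact_ball (x.2 i) B) y.1 u)).subset fun q hq => ?_
  obtain ⟨h1, h2⟩ := hB _ _ hq
  exact Set.mem_biUnion h1 ⟨y.2, rfl, rfl, fun i _ => h2 i⟩

variable (tw : SideTwist Φ n)

theorem sideDensity_equivariant (hP : GoodPair cnt k) (g : PGLF F) (s : Twisted tw.θ)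
    (x : Pt F ι n) :
    letI := pglAction (n := n) Φ
    sideDensity tw cnt k (g • s) (g • x) = sideDensity tw cnt k s x := by
  let := pglAction (n := n) Φ
  show pairDensity cnt _ (act Φ g.out x)
    (act Φ ((g * s.val * (tw.θ g)⁻¹ : PGLF F)).out (tw.τ (act Φ g.out x))) = _
  rw [tw.act_comm]
  show pairDensity cnt _ (g • x) ((g * s.val * (tw.θ g)⁻¹) • (tw.θ g • tw.τ x)) = _
  rw [smul_smul, inv_mul_cancel_right, mul_smul]
  exact pairDensity_act Φ hP.invariant _ g.out x _

theorem measurable_sideDensity [Countable (FinPt F n)] (hP : GoodPair cnt k) (s : Twisted tw.θ) :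
    Measurable (sideDensity tw cnt k s) := by
  have hy : Measurable fun x => act Φ (Twisted.val s).out (tw.τ x) :=
    (measurable_act Φ _).comp tw.measurable
  exact ((measurable_of_countable fun p : FinPt F n × FinPt F n => (cnt p.1 p.2 : ℝ≥0∞)).comp
    (measurable_fst.prodMk (measurable_fst.comp hy))).mul
    (Finset.measurable_prod _ fun i _ => ((hP.continuous i).measurable.ennreal_ofReal).comp
      (measurable_coshDist ((measurable_pi_apply i).comp measurable_snd)
        ((measurable_pi_apply i).comp (measurable_snd.comp hy))))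

/-- Uniform local finiteness below a height. -/
theorem exists_bound_tsum (hP : GoodPair cnt k) (L : ℝ) : ∃ K : ℝ≥0∞, K ≠ ∞ ∧
    ∀ x : Pt F ι n, (∀ c, logHeight Φ c x ≤ L) →
      ∑' s : Twisted tw.θ, sideDensity tw cnt k s x ≤ K := by
  obtain ⟨B, hB⟩ := pairDensity_support hP
  obtain ⟨K, hK, hle⟩ := pairDensity_le hP
  obtain ⟨N, hN⟩ := tw.count _ (hP.finite ((1 : GL (Fin 2) (AF F)) : FinPt F n)) B (Real.exp L)
  refine ⟨N * K, ENNReal.mul_ne_top (ENNReal.natCast_ne_top _) hK, fun x hx => ?_⟩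
  obtain ⟨g, hg⟩ := QuotientGroup.mk_surjective x.1
  have hht : ∀ v, v ≠ 0 → LanglandsTunnell.Geom.height Φ x v ≤ Real.exp L := fun v hv => by
    have h := hx (Projectivization.mk F v hv)
    rw [logHeight_mk] at h
    by_cases h0 : LanglandsTunnell.Geom.height Φ x v ≤ 0
    · exact h0.trans (Real.exp_pos L).le
    · exact (Real.log_le_iff_le_exp (not_le.mp h0)).mp h
  set A := {q : PGLF F | g⁻¹ • (act Φ q.out (tw.τ x)).1 ∈
    {u | cnt ((1 : GL (Fin 2) (AF F)) : FinPt F n) u ≠ 0} ∧
        ∀ i, H3.coshDist (x.2 i) ((act Φ q.out (tw.τ x)).2 i) ≤ B}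
  have hsub : ∀ s : Twisted tw.θ, sideDensity tw cnt k s x ≤ A.indicator (fun _ => K) s.val := by
    intro s
    by_cases h0 : sideDensity tw cnt k s x = 0
    · rw [h0]; exact zero_le
    obtain ⟨h1, h2⟩ := hB _ _ h0
    rw [Set.indicator_of_mem]
    · exact hle _ _
    refine ⟨?_, h2⟩
    rw [← hP.invariant g⁻¹, ← hg, MulAction.Quotient.smul_coe, smul_eq_mul, inv_mul_cancel] at h1
    exact h1
  refine (ENNReal.tsum_le_tsum hsub).trans ?_
  show ∑' q : PGLF F, A.indicator (fun _ => K) q ≤ _
  have hfin : A.Finite := Set.finite_of_encard_le_coe (hN x hht g hg)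
  rw [tsum_eq_sum (s := hfin.toFinset) fun q hq =>
    Set.indicator_of_notMem (fun h => hq (hfin.mem_toFinset.mpr h)) _]
  refine (Finset.sum_le_sum fun q _ => Set.indicator_le_self _ _ q).trans ?_
  rw [Finset.sum_const, nsmul_eq_mul]
  refine mul_le_mul' (Nat.cast_le.mpr ?_) le_rfl
  have h := hN x hht g hg
  rw [hfin.encard_eq_coe_toFinset_card, Nat.cast_le] at h
  exact h

/-- The truncated integral is finite. -/
theorem lintegral_trunc_ne_top (hP : GoodPair cnt k) {S : Set (Pt F ι n)}
    (hS : IsFundDomain Φ S) (L : ℝ) :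
    ∫⁻ x, S.indicator 1 x * (cuspTrunc (logHeight (n := n) Φ) L x *
      ∑' s : Twisted tw.θ, sideDensity tw cnt k s x) ∂volPt ≠ ∞ := by
  obtain ⟨K, hK, hle⟩ := exists_bound_tsum tw hP L
  refine ne_top_of_le_ne_top (ENNReal.mul_ne_top hS.finite_volume.ne hK) ?_
  rw [← mul_comm K, ← lintegral_indicator_const hS.measurable]
  refine lintegral_mono fun x => ?_
  by_cases hx : x ∈ S
  · rw [Set.indicator_of_mem hx, Set.indicator_of_mem hx, Pi.one_apply, one_mul]
    by_cases hc : x ∈ {x | ∀ c, logHeight Φ c x ≤ L}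
    · rw [cuspTrunc, Set.indicator_of_mem hc, Pi.one_apply, one_mul]
      exact hle x hc
    · rw [cuspTrunc, Set.indicator_of_notMem hc, zero_mul]
      exact zero_le
  · simp [Set.indicator_of_notMem hx]

/-- Joined points have close heights. -/
theorem exists_near (hP : GoodPair cnt k) : ∃ D : ℝ, ∀ (s : Twisted tw.θ) (x : Pt F ι n),
    sideDensity tw cnt k s x ≠ 0 →
      ∀ c, |logHeight Φ c x - logHeight Φ c (act Φ s.val.out (tw.τ x))| ≤ D := by
  obtain ⟨B, hB⟩ := pairDensity_support hP
  obtain ⟨D, hD⟩ := exists_displacement Φ (hP.finite ((1 : GL (Fin 2) (AF F)) : FinPt F n)) B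
  refine ⟨D, fun s x hs c => ?_⟩
  obtain ⟨h1, h2⟩ := hB _ _ hs
  obtain ⟨g, hg⟩ := QuotientGroup.mk_surjective x.1
  refine hD x _ g hg ?_ h2 c
  rw [← hP.invariant g⁻¹, ← hg, MulAction.Quotient.smul_coe, smul_eq_mul, inv_mul_cancel] at h1
  exact h1

/-- Diagonal classes. -/
def IsDiagClass (q : PGLF F) : Prop :=
  ∃ d : GL (Fin 2) F, (d : PGLF F) = q ∧ d.val 0 1 = 0 ∧ d.val 1 0 = 0

theorem IsDiagClass.fix {q : PGLF F} (h : IsDiagClass q) :
    q • cuspInf F = cuspInf F ∧ q • cuspZero F = cuspZero F := by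
  obtain ⟨d, rfl, h01, h10⟩ := h
  simp only [cusp_smul_mk, cuspInf, cuspZero, Projectivization.smul_mk]
  refine ⟨?_, ?_⟩ <;> rw [Projectivization.mk_eq_mk_iff']
  · exact ⟨d.val 0 0, funext fun j => by fin_cases j <;> simp [h10]⟩
  · exact ⟨d.val 1 1, funext fun j => by fin_cases j <;> simp [h01]⟩

theorem IsDiagClass.flow {q : PGLF F} (h : IsDiagClass q) (s : ℝ) (x : Pt F ι n) :
    flow s (act Φ q.out x) = act Φ q.out (flow s x) := by
  obtain ⟨d, rfl, h01, h10⟩ := h
  rw [act_out, act_out, flow_act Φ h01 h10]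

/-- The flow does not move the density of a diagonal class. -/
theorem sideDensity_flow {s : Twisted tw.θ} (hs : IsDiagClass s.val) (t : ℝ) (x : Pt F ι n) :
    sideDensity tw cnt k s (flow t x) = sideDensity tw cnt k s x := by
  rw [sideDensity, tw.flow_comm, ← hs.flow]
  simp only [sideDensity, pairDensity, LanglandsTunnell.Trace.flow, H3.coshDist_smul]

/-- The speed of the flow. -/
def speed (ι : Type) [Fintype ι] : ℝ := 2 * Fintype.card ι

/-- The torus flow of a group of diagonal classes. -/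
theorem torusFlow_diag [Countable (FinPt F n)] [Nonempty ι] {H : Subgroup (PGLF F)}
    (hH : ∀ h ∈ H, IsDiagClass h) :
    letI := pglAction (n := n) Φ
    TorusFlow H volPt (flow (n := n)) (logHeight Φ (cuspInf F)) (logHeight Φ (cuspZero F))
      (speed ι) := by
  let := pglAction (n := n) Φ
  refine ⟨measurable_flow, measurePreserving_flow, flow_neg, fun s h x => (hH h h.2).flow s x,
    measurable_logHeight Φ _, measurable_logHeight Φ _, fun h x => ?_, fun h x => ?_,
    fun s x => logHeight_inf_flow Φ s x, fun s x => logHeight_zero_flow Φ s x,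
    fun x => logHeight_add_le Φ cuspInf_ne_zero x, ?_⟩
  · conv_lhs => rw [← (hH h h.2).fix.1]
    exact logHeight_pgl Φ _ _ x
  · conv_lhs => rw [← (hH h h.2).fix.2]
    exact logHeight_pgl Φ _ _ x
  · have := Fintype.card_pos (α := ι)
    rw [speed]
    positivity

/-- **The truncated expansion of one side.** -/
theorem side_expansion [Nonempty ι] (hn : n ≠ ⊥) (hP : GoodPair cnt k) {S : Set (Pt F ι n)}
    (hS : IsFundDomain Φ S) {Ωe Ωh : Type*} [Countable Ωe] [Countable Ωh]
    (rep : Ωe ⊕ Ωh → Twisted tw.θ)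
    (hinj : ∀ o o' (g : PGLF F), g • rep o = rep o' → o = o')
    (hsurj : ∀ s x, sideDensity tw cnt k s x ≠ 0 → ∃ o, ∃ g : PGLF F, g • rep o = s)
    (hell : ∀ o c, (rep (.inl o)).val • tw.θc c ≠ c)
    (hhyp : ∀ o c, (rep (.inr o)).val • tw.θc c = c → c = cuspInf F ∨ c = cuspZero F)
    (hdiag : ∀ o, IsDiagClass (rep (.inr o)).val) (H : Ωh → Subgroup (PGLF F))
    (hHdiag : ∀ o, ∀ h ∈ H o, IsDiagClass h)
    (hH : ∀ o, MulAction.stabilizer (PGLF F) (rep (.inr o)) = H o) :
    ∃ L₀ : ℝ, 0 < L₀ ∧ ∀ L, L₀ ≤ L →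
      letI := pglAction (n := n) Φ
      ENNReal.ofReal (speed ι) * ∫⁻ x, S.indicator 1 x * (cuspTrunc (logHeight (n := n) Φ) L x *
          ∑' s : Twisted tw.θ, sideDensity tw cnt k s x) ∂volPt =
        ENNReal.ofReal (speed ι) * (∑' o, ∫⁻ x,
          restrictWeight (MulAction.stabilizer (PGLF F) (rep (.inl o))) (S.indicator 1) x *
            sideDensity tw cnt k (rep (.inl o)) x ∂volPt) +
        ∑' o, (ENNReal.ofReal (2 * L) *
            slopeTerm volPt (restrictWeight (H o) (S.indicator 1))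
              (stdTransversal (logHeight Φ (cuspInf F)) (speed ι))
              (sideDensity tw cnt k (rep (.inr o))) +
          constTerm volPt (restrictWeight (H o) (S.indicator 1))
              (stdTransversal (logHeight Φ (cuspInf F)) (speed ι))
              (sideDensity tw cnt k (rep (.inr o))) (logHeight Φ (cuspInf F))
              (logHeight Φ (cuspZero F))) := by
  let := pglAction (n := n) Φ
  have : Countable (FinPt F n) := countable_finPt hn
  have : Countable (PGLF F) := countable_PGLF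
  have := measurableConstSMul_pgl (n := n) Φ
  have := smulInvariant_pgl (ι := ι) Φ hn
  have := sfinite_volPt (F := F) (ι := ι) (n := n)
  obtain ⟨D, hD⟩ := exists_near tw hP
  refine ⟨max D 1, lt_max_of_lt_right one_pos, fun L hL => ?_⟩
  have hfix : ∀ s x, sideDensity tw cnt k s x ≠ 0 → ∀ c, D < logHeight Φ c x →
      s.val • tw.θc c = c := fun s x hs c hc =>
    fixed_of_high (G := PGLF F) (ℓ := logHeight (n := n) Φ) (θ := tw.θc) (τ := tw.τ)
      (fun g c x => logHeight_pgl Φ g c x) tw.height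
      (fun c c' x h => logHeight_add_le Φ h x) (hD s x hs) hc
  have hwS := isWeight_of_fundDomain Φ hS
  have hT : ∀ o, TorusFlow (MulAction.stabilizer (PGLF F) (rep (.inr o))) volPt (flow (n := n))
      (logHeight Φ (cuspInf F)) (logHeight Φ (cuspZero F)) (speed ι) := fun o => by
    rw [hH o]; exact torusFlow_diag (hHdiag o)
  have h := lintegral_truncated_expansion (G := PGLF F) (μ := volPt)
    (F := sideDensity tw cnt k) (fun s => measurable_sideDensity tw hP s)
    (fun g s x => sideDensity_equivariant tw hP g s x) (ℓ := logHeight (n := n) Φ)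
    (fun c => measurable_logHeight Φ c) (fun g c x => logHeight_pgl Φ g c x) hwS rep hinj hsurj
    (D := D) (fun o x hx c => by
      by_contra hc
      exact hell o c (hfix _ x hx c (not_le.mp hc)))
    (fun _ => cuspInf F) (fun _ => cuspZero F) (fun o x hx c h1 h0 => by
      by_contra hc
      rcases hhyp o c (hfix _ x hx c (not_le.mp hc)) with h | h
      · exact h1 h
      · exact h0 h)
    (fun _ => flow (n := n)) hT
    (fun o t x => sideDensity_flow tw (hdiag o) t x)
    (fun _ => stdTransversal (logHeight Φ (cuspInf F)) (speed ι))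
    (fun o => (hT o).isTransversal_std)
    (fun o => restrictWeight (MulAction.stabilizer (PGLF F) (rep (.inr o))) (S.indicator 1))
    (fun o => hwS.restrict _) (L := L)
    (le_trans (zero_le_one.trans (le_max_right D 1)) hL) ((le_max_left D 1).trans hL)
  simpa only [hH] using h

end FLTAgent.LanglandsTunnell.Trace
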