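import Fermat.Agent.LanglandsTunnell.Trace.Identity
import Fermat.Agent.LanglandsTunnell.Trace.Odd
import Fermat.Agent.LanglandsTunnell.Trace.Limit

/-!
# Tools for assembling the trace identity

Limits of truncated integrals for combinations of side densities, sums over triples of terms, and
the letters of the wrapped words.
-/

set_option autoImplicit false

noncomputable section

namespace FLTAgent.LanglandsTunnell.Trace

open FLTAgent.LanglandsTunnell FLTAgent.LanglandsTunnell.Geom NumberField Matrix MeasureTheory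
open Filter
open FLTAgent.LanglandsTunnell.Local (lvE lvM)
open scoped ENNReal Topology FLTAgent.LanglandsTunnell.Isolation

theorem sum_fin_list {α M : Type*} [AddCommMonoid M] (L : List α) (φ : α → M) :
    ∑ i : Fin L.length, φ L[i] = (L.map φ).sum := by
  rw [← List.sum_ofFn]
  congr 1
  exact List.ext_getElem (by simp) fun i h1 h2 => by simp

theorem sum_triples {α β γ : Type} (K : List α) (C : List β) (g : α → β → α → List γ)
    (φ : γ → ℂ) :
    ((K.flatMap fun a => C.flatMap fun b => K.flatMap fun d => g a b d).map φ).sum =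
      ∑ t : Fin K.length × Fin C.length × Fin K.length,
        ((g K[t.1] C[t.2.1] K[t.2.2]).map φ).sum := by
  rw [LanglandsTunnell.sum_flatMap_map, Fintype.sum_prod_type, ← sum_fin_list]
  refine Finset.sum_congr rfl fun a _ => ?_
  rw [LanglandsTunnell.sum_flatMap_map, Fintype.sum_prod_type, ← sum_fin_list]
  refine Finset.sum_congr rfl fun b _ => ?_
  rw [LanglandsTunnell.sum_flatMap_map, ← sum_fin_list]

section Side

variable {F : Type} [Field F] [NumberField F] {ι : Type} [Fintype ι] {n : Ideal (𝓞 F)}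
  {Φ : PlaceChoice F ι}

theorem exists_logHeight_le (Φ : PlaceChoice F ι) (x : Pt F ι n) :
    ∃ L, ∀ c, logHeight Φ c x ≤ L := by
  obtain ⟨T, hT⟩ := exists_height_le Φ x
  refine ⟨Real.log T, fun c => Real.log_le_log (height_pos Φ x c.rep_nonzero) (hT _ c.rep_nonzero)⟩

variable (tw : SideTwist Φ n) {S : Set (Pt F ι n)} {J : Type} [Fintype J]
  {cnt : J → FinPt F n → FinPt F n → ℕ} {k : J → ι → ℝ → ℝ} {coe : J → ℂ} {Z : Pt F ι n → ℂ}

theorem measurable_sideSum (hn : n ≠ ⊥) {c₀ : FinPt F n → FinPt F n → ℕ} {k₀ : ι → ℝ → ℝ}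
    (hP : GoodPair c₀ k₀) :
    Measurable fun x => ∑' s : Twisted tw.θ, sideDensity tw c₀ k₀ s x := by
  have : Countable (FinPt F n) := countable_finPt hn
  have : Countable (PGLF F) := countable_PGLF
  have : Countable (Twisted tw.θ) := inferInstanceAs (Countable (PGLF F))
  exact Measurable.tsum fun s => measurable_sideDensity tw hP s

/-- The truncated integrals of the parts tend to the integral. -/
theorem tendsto_sum_trunc (hn : n ≠ ⊥) (hS : IsFundDomain Φ S)
    (hP : ∀ j, GoodPair (cnt j) (k j))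
    (hZ : ∀ x, Z x = ∑ j, coe j *
      ((∑' s : Twisted tw.θ, sideDensity tw (cnt j) (k j) s x).toReal : ℂ))
    (hi : IntegrableOn Z S volPt) :
    Tendsto (fun L => ∑ j, coe j * ((∫⁻ x, S.indicator 1 x * (cuspTrunc (logHeight (n := n) Φ) L x *
        ∑' s : Twisted tw.θ, sideDensity tw (cnt j) (k j) s x) ∂volPt).toReal : ℂ))
      atTop (𝓝 (∫ x in S, Z x ∂volPt)) := by
  have : Countable (FinPt F n) := countable_finPt hn
  have hw := withDensity_indicator_one (μ := (volPt : Measure (Pt F ι n))) hS.measurable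
  have hlim := tendsto_truncated (ℓ := logHeight (n := n) Φ) (μ := volPt)
    (fun c => measurable_logHeight Φ c) (exists_logHeight_le Φ) (w := S.indicator 1) (K := Z)
    (by rw [hw]; exact hi)
  rw [← hw]
  refine hlim.congr fun L => ?_
  rw [integral_truncated (fun c => measurable_logHeight Φ c)
    (measurable_one.indicator hS.measurable)
    coe (fun j => measurable_sideSum tw hn (hP j))
    (fun x => by simp only [hZ, Complex.real_smul, mul_comm]) fun j =>
      lintegral_trunc_ne_top tw (hP j) hS L]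
  simp only [Complex.real_smul, mul_comm]

/-- The total slope of a combination with integrable diagonal vanishes. -/
theorem sum_slope_eq_zero (hn : n ≠ ⊥) (hS : IsFundDomain Φ S)
    (hP : ∀ j, GoodPair (cnt j) (k j))
    (hZ : ∀ x, Z x = ∑ j, coe j *
      ((∑' s : Twisted tw.θ, sideDensity tw (cnt j) (k j) s x).toReal : ℂ))
    (hi : IntegrableOn Z S volPt) {κ L₀ : ℝ} (hκ : 0 < κ) (hL₀ : 0 < L₀) (A B : J → ℝ≥0∞)
    (hexp : ∀ j L, L₀ ≤ L → ENNReal.ofReal κ *
      ∫⁻ x, S.indicator 1 x * (cuspTrunc (logHeight (n := n) Φ) L x *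
        ∑' s : Twisted tw.θ, sideDensity tw (cnt j) (k j) s x) ∂volPt =
      ENNReal.ofReal (2 * L) * A j + B j) :
    ∑ j, coe j * ((A j).toReal : ℂ) = 0 := by
  have : Countable (FinPt F n) := countable_finPt hn
  have h := total_slope_eq_zero (ℓ := logHeight (n := n) Φ) (μ := volPt)
    (fun c => measurable_logHeight Φ c) (exists_logHeight_le Φ) (w := S.indicator 1)
    (measurable_one.indicator hS.measurable) (K := Z) coe
    (fun j => measurable_sideSum tw hn (hP j))
      (fun x => by simp only [hZ, Complex.real_smul, mul_comm])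
    (by rw [withDensity_indicator_one hS.measurable]; exact hi) hκ hL₀ A B
    (fun j L => lintegral_trunc_ne_top tw (hP j) hS L) hexp
  simpa only [Complex.real_smul, mul_comm] using h

end Side

variable {D : Datum} {N N' : ℕ}

theorem testOK_of_splitOK {w : Ideal (𝓞 D.M)} (h : D.SplitOK N' w) : D.TestOK N' w := by
  refine ⟨Or.inl h.1, h.2.2, fun hd => h.2.2 ?_⟩
  rw [Ideal.dvd_iff_le, Ideal.span_singleton_le_iff_mem] at hd ⊢
  have h' : RingOfIntegers.mapRingHom D.incl (N' : 𝓞 D.E) ∈ w := hd
  rwa [map_natCast] at h'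

theorem under_ok (hd : N ∣ N') {w : Ideal (𝓞 D.M)} (h : D.TestOK N' w) :
    (D.under w).IsPrime ∧ D.under w ≠ ⊥ ∧ ¬ D.under w ∣ lvE D N := by
  refine ⟨(under_spec h.1).2.2.1, (under_spec h.1).2.2.2, fun hv => h.2.2 (hv.trans ?_)⟩
  rw [Ideal.dvd_iff_le, Ideal.span_singleton_le_span_singleton]
  exact Nat.cast_dvd_cast hd

theorem descWord_real (ws : List (Ideal (𝓞 D.M))) :
    ∀ a ∈ D.descWord ws, ((a.1.re : ℝ) : ℂ) = a.1 := by
  induction ws with
  | nil =>
    intro a ha
    simp only [Datum.descWord, List.mem_singleton] at ha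
    subst ha
    simp
  | cons w ws ih =>
    intro a ha
    simp only [Datum.descWord, List.mem_flatMap, List.mem_map] at ha
    obtain ⟨x, hx, y, hy, rfl⟩ := ha
    have hx' : ((x.1.re : ℝ) : ℂ) = x.1 := by
      unfold Datum.descPrime at hx
      split_ifs at hx <;> simp only [List.mem_cons, List.not_mem_nil, or_false] at hx
      · subst hx; simp
      · rcases hx with rfl | rfl <;> simp [Complex.mul_re]
    show (((x.1 * y.1).re : ℝ) : ℂ) = x.1 * y.1
    rw [← hx', ← ih y hy]
    simp [Complex.mul_re]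

variable {u₀ : Ideal (𝓞 D.M)} (hu : D.DegreeOne u₀)
  {A B ws : List (Ideal (𝓞 D.M))}
  (hA : ∀ w ∈ A, D.DegreeOne w ∧ D.under w ≠ D.under u₀)
  (hB : ∀ w ∈ B, D.DegreeOne w ∧ D.under w ≠ D.under u₀)
  (hws : ∀ w ∈ ws, (D.DegreeOne w ∨ D.DegreeThree w) ∧ D.under w ≠ D.under u₀)

include hu hA hB hws in
/-- The letters of a wrapped word over `E`. -/
theorem wrap_letters {b : List (Ideal (𝓞 D.E))} (hb : ∀ v ∈ b, ∃ w ∈ ws, v = D.under w) :
    (∀ v ∈ (A ++ [u₀]).map D.under ++ b ++ B.map D.under, v.IsPrime ∧ v ≠ ⊥) ∧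
      letterParity (D.under u₀) ((A ++ [u₀]).map D.under ++ b ++ B.map D.under) = 1 := by
  refine ⟨fun v hv => ?_, ?_⟩
  · obtain ⟨w, hw, rfl⟩ : ∃ w, (D.DegreeOne w ∨ D.DegreeThree w) ∧ v = D.under w := by
      rcases List.mem_append.mp hv with hv | hv
      · rcases List.mem_append.mp hv with hv | hv
        · obtain ⟨w, hw, rfl⟩ := List.mem_map.mp hv
          rcases List.mem_append.mp hw with hw | hw
          · exact ⟨w, Or.inl (hA w hw).1, rfl⟩
          · rw [List.mem_singleton] at hw
            exact ⟨w, Or.inl (hw ▸ hu), rfl⟩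
        · obtain ⟨w, hw, rfl⟩ := hb v hv
          exact ⟨w, (hws w hw).1, rfl⟩
      · obtain ⟨w, hw, rfl⟩ := List.mem_map.mp hv
        exact ⟨w, Or.inl (hB w hw).1, rfl⟩
    exact ⟨(under_spec hw).2.2.1, (under_spec hw).2.2.2⟩
  · rw [List.map_append, List.map_singleton, List.append_assoc, List.append_assoc,
      List.singleton_append]
    refine letterParity_marked (fun v hv => ?_) fun v hv => ?_
    · obtain ⟨w, hw, rfl⟩ := List.mem_map.mp hv
      exact (hA w hw).2
    · rcases List.mem_append.mp hv with hv | hv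
      · obtain ⟨w, hw, rfl⟩ := hb v hv
        exact (hws w hw).2
      · obtain ⟨w, hw, rfl⟩ := List.mem_map.mp hv
        exact (hB w hw).2

include hu hA hB hws in
/-- The letters of a marked word over `M`. -/
theorem marked_letters :
    (∀ w ∈ A ++ [u₀] ++ ws ++ B, (D.DegreeOne w ∨ D.DegreeThree w) ∧
        (w = u₀ ∨ D.under w ≠ D.under u₀)) ∧
      letterParity u₀ (A ++ [u₀] ++ ws ++ B) = 1 := by
  refine ⟨fun w hw => ?_, ?_⟩
  · simp only [List.mem_append, List.mem_singleton] at hw
    rcases hw with ((hw | hw) | hw) | hw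
    · exact ⟨Or.inl (hA w hw).1, Or.inr (hA w hw).2⟩
    · exact ⟨Or.inl (hw ▸ hu), Or.inl hw⟩
    · exact ⟨(hws w hw).1, Or.inr (hws w hw).2⟩
    · exact ⟨Or.inl (hB w hw).1, Or.inr (hB w hw).2⟩
  · rw [List.append_assoc, List.append_assoc, List.singleton_append]
    refine letterParity_marked (fun w hw h => (hA w hw).2 (by rw [h])) fun w hw h => ?_
    rcases List.mem_append.mp hw with hw | hw
    · exact (hws w hw).2 (by rw [h])
    · exact (hB w hw).2 (by rw [h])

end FLTAgent.LanglandsTunnell.Trace
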