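import Fermat.Agent.LanglandsTunnell.Trace.TraceAssembly
import Fermat.Agent.LanglandsTunnell.Trace.DecompositionInt
import Fermat.Agent.LanglandsTunnell.Trace.DecompositionAlgebra

/-!
# The twisted trace identity

The local comparison gives the identity of truncated integrals for every triple of terms; the
slopes of the correction words add up to zero, and the limit gives the identity of the traces.
-/

set_option autoImplicit false

noncomputable section

namespace FLTAgent.LanglandsTunnell.Trace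

open FLTAgent.LanglandsTunnell FLTAgent.LanglandsTunnell.Geom NumberField Matrix MeasureTheory
open Filter
open FLTAgent.LanglandsTunnell.Local (lvE lvM IsRegularMat ClassTransfer LocalTransferSpec)
open scoped ENNReal Topology FLTAgent.LanglandsTunnell.Isolation

variable {D : Datum} {σ : D.M ≃ₐ[ℚ] D.M} {e : Fin 3 ≃ Fin 3} {P : ExtPlaces D}
  {R : Finset Nat.Primes} {N₀ N₁ N N' k Bd : ℕ} {c : ℝ}
  {SM : Set (Pt D.M (Fin 3) (lvM D N'))} {SE : Set (Pt D.E Unit (lvE D N))}
  {K C : Comb D.M (Fin 3)} {u₀ : Ideal (𝓞 D.M)}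
  {W₂ : Term D.M (Fin 3) → List (ℂ × List (Ideal (𝓞 D.E)))}

/-- Indices of the triples of a sandwich. -/
abbrev Triple (K C : Comb D.M (Fin 3)) : Type :=
  Fin K.length × Fin C.length × Fin K.length

/-- Indices of the parts of the triples. -/
abbrev TriplePart (K C : Comb D.M (Fin 3)) : Type := Triple K C × (Fin 3 → Fin 4)

/-- The term of a triple. -/
def tripleAt (K C : Comb D.M (Fin 3)) (t : Triple K C) : Term D.M (Fin 3) :=
  tripleTerm K[t.1] C[t.2.1] K[t.2.2]

/-- The weights at infinity of a part of a triple. -/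
def triplePartKer (K C : Comb D.M (Fin 3)) (p : TriplePart K C) : Fin 3 → ℝ → ℝ :=
  parts (tripleAt K C p.1) p.2

/-- The wrapped correction words of a triple. -/
def corrList (W₂ : Term D.M (Fin 3) → List (ℂ × List (Ideal (𝓞 D.E)))) (u₀ : Ideal (𝓞 D.M))
    (K C : Comb D.M (Fin 3)) (t : Triple K C) : List (ℂ × List (Ideal (𝓞 D.E))) :=
  (W₂ C[t.2.1]).map fun b =>
    (b.1, (K[t.1].word ++ [u₀]).map D.under ++ b.2 ++ K[t.2.2].word.map D.under)

/-- The hypotheses of the trace identity with chosen correction lists. -/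
structure TraceData (P : ExtPlaces D) (σ : D.M ≃ₐ[ℚ] D.M) (R : Finset Nat.Primes)
    (N₀ N₁ N N' : ℕ) (c : ℝ) (SM : Set (Pt D.M (Fin 3) (lvM D N')))
    (SE : Set (Pt D.E Unit (lvE D N))) (K C : Comb D.M (Fin 3)) (u₀ : Ideal (𝓞 D.M))
    (W₂ : Term D.M (Fin 3) → List (ℂ × List (Ideal (𝓞 D.E)))) : Prop where
  pair : IsKillingPair P N N' SM SE K
  split : D.SplitOK N' u₀
  avoid : ∀ T ∈ K, ∀ w ∈ T.word, D.under w ≠ D.under u₀
  test : C.Good (D.TestOK N')
  marked : ∀ T ∈ C, ∃ ws : List (Ideal (𝓞 D.M)), T.word = u₀ :: ws ∧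
    ∀ w ∈ ws, D.under w ≠ D.under u₀
  corr : ∀ T ∈ C, (∀ a ∈ W₂ T, ∀ v ∈ a.2, v.IsPrime ∧ v ≠ ⊥ ∧ ¬ v ∣ lvE D N ∧
        ∃ w ∈ T.word.tail, v = D.under w) ∧
    ∀ A B : List (Ideal (𝓞 D.M)), (∀ w ∈ A ++ B, D.TestOK N' w ∧ D.DegreeOne w) →
      ∀ γ, IsRegularMat D γ → ClassTransfer D P σ R N₀ N₁ N N' c (A ++ T.word.tail ++ B)
        ((W₂ T).map fun b => (b.1, A.map D.under ++ b.2 ++ B.map D.under)) γ

variable (h : TraceData P σ R N₀ N₁ N N' c SM SE K C u₀ W₂)
include h

theorem TraceData.degreeOne : ∀ T ∈ K, ∀ w ∈ T.word, D.DegreeOne w :=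
  fun T hT w hw => ((h.pair.good T hT).2 w hw).1

theorem TraceData.word_eq (t : Triple K C) :
    (tripleAt K C t).word = K[t.1].word ++ [u₀] ++ C[t.2.1].word.tail ++ K[t.2.2].word := by
  obtain ⟨ws, hws, -⟩ := h.marked _ (List.getElem_mem (l := C) t.2.1.isLt)
  show K[t.1].word ++ C[t.2.1].word ++ K[t.2.2].word = _
  simp only [Fin.getElem_fin] at hws ⊢
  rw [hws]
  simp

theorem TraceData.letters (t : Triple K C) :
    (∀ w ∈ K[t.1].word, D.DegreeOne w ∧ D.under w ≠ D.under u₀) ∧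
      (∀ w ∈ K[t.2.2].word, D.DegreeOne w ∧ D.under w ≠ D.under u₀) ∧
      ∀ w ∈ C[t.2.1].word.tail, (D.DegreeOne w ∨ D.DegreeThree w) ∧
        D.under w ≠ D.under u₀ := by
  have mK : ∀ i : Fin K.length, K[i] ∈ K := fun i => List.getElem_mem _
  have mC : C[t.2.1] ∈ C := List.getElem_mem _
  obtain ⟨ws, hws, hne'⟩ := h.marked _ mC
  refine ⟨fun w hw => ⟨h.degreeOne _ (mK _) w hw, h.avoid _ (mK _) w hw⟩,
    fun w hw => ⟨h.degreeOne _ (mK _) w hw, h.avoid _ (mK _) w hw⟩, fun w hw =>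
    ⟨((h.test _ mC).2 w (List.mem_of_mem_tail hw)).1, hne' w ?_⟩⟩
  rw [hws] at hw
  exact hw

theorem TraceData.inf_good (t : Triple K C) (i : Fin 3) :
    Continuous ((tripleAt K C t).inf i) ∧ HasCompactSupport ((tripleAt K C t).inf i) :=
  good_inf_tripleTerm (h.pair.good _ (List.getElem_mem (l := K) t.1.isLt)).1
    (h.test _ (List.getElem_mem (l := C) t.2.1.isLt)).1
    (h.pair.good _ (List.getElem_mem (l := K) t.2.2.isLt)).1 i

theorem TraceData.goodParts (p : TriplePart K C) : GoodParts (triplePartKer K C p) :=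
  goodParts_parts (h.inf_good p.1) p.2

theorem TraceData.word_letters (t : Triple K C) :
    (∀ w ∈ (tripleAt K C t).word, w.IsPrime ∧ w ≠ ⊥ ∧
        (w = u₀ ∨ D.under w ≠ D.under u₀)) ∧
      letterParity u₀ (tripleAt K C t).word = 1 := by
  obtain ⟨h1, h2, h3⟩ := h.letters t
  obtain ⟨m1, m2⟩ := marked_letters h.split.1 h1 h2 h3
  rw [h.word_eq t]
  exact ⟨fun w hw => ⟨(under_spec (m1 w hw).1).1, (under_spec (m1 w hw).1).2.1, (m1 w hw).2⟩, m2⟩

theorem TraceData.desc_letters (t : Triple K C) :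
    ∀ a ∈ D.descWord (tripleAt K C t).word ++ corrList W₂ u₀ K C t,
      (∀ v ∈ a.2, v.IsPrime ∧ v ≠ ⊥) ∧ letterParity (D.under u₀) a.2 = 1 := by
  intro a ha
  obtain ⟨h1, h2, h3⟩ := h.letters t
  obtain ⟨b, hb, rfl⟩ : ∃ b : ℂ × List (Ideal (𝓞 D.E)),
      (∀ v ∈ b.2, ∃ w ∈ C[t.2.1].word.tail, v = D.under w) ∧
      a = (b.1, (K[t.1].word ++ [u₀]).map D.under ++ b.2 ++ K[t.2.2].word.map D.under) := by
    rcases List.mem_append.mp ha with ha | ha
    · rw [h.word_eq t, descWord_wrap (fun w hw => ?_) fun w hw => (h2 w hw).1] at ha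
      · obtain ⟨b, hb, rfl⟩ := List.mem_map.mp ha
        exact ⟨b, LanglandsTunnell.mem_descWord D hb, rfl⟩
      · rcases List.mem_append.mp hw with hw | hw
        · exact (h1 w hw).1
        · rw [List.mem_singleton.mp hw]; exact h.split.1
    · obtain ⟨b, hb, rfl⟩ := List.mem_map.mp ha
      exact ⟨b, fun v hv =>
        ((h.corr _ (List.getElem_mem (l := C) t.2.1.isLt)).1 b hb v hv).2.2.2, rfl⟩
  exact wrap_letters h.split.1 h1 h2 h3 hb

theorem TraceData.plain_ne_bot (t : Triple K C) :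
    ∀ a ∈ D.descWord (tripleAt K C t).word ++ corrList W₂ u₀ K C t, ∀ v ∈ a.2, v ≠ ⊥ :=
  fun a ha v hv => ((h.desc_letters t a ha).1 v hv).2

omit h in
theorem sandwich_sum (φ : Term D.M (Fin 3) → ℂ) :
    (((K.mul C).mul K).map φ).sum = ∑ t : Triple K C, φ (tripleAt K C t) := by
  have hl : (K.mul C).mul K =
      K.flatMap fun a => C.flatMap fun b => K.flatMap fun d => [tripleTerm a b d] := by
    rw [mul_mul_eq]
    refine List.flatMap_congr fun a _ => List.flatMap_congr fun b _ => ?_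
    rw [List.map_eq_flatMap]
  rw [hl, sum_triples]
  exact Finset.sum_congr rfl fun t _ => by
    simp only [List.map_cons, List.map_nil, List.sum_cons, List.sum_nil, add_zero]
    rfl

/-- The truncated sums on the sextic side tend to the twisted trace. -/
theorem TraceData.tendsto_twisted (hlev : IsTestLevel D σ k Bd R N₀ N₁ N N')
    (hfix : ∀ x, σ (D.incl x) = D.incl x)
    (he : ∀ i, P.placesM.emb (e i) = (P.placesM.emb i).comp σ.toAlgHom.toRingHom)
    (hSM : IsFundDomain P.placesM SM) :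
    Tendsto (fun L => ∑ p : TriplePart K C, termCoeff (tripleAt K C p.1) p.2 *
        ((twTrunc hlev.ne_zero SM (tripleAt K C p.1).word (triplePartKer K C p) P hfix he R N₀ N₁
          L).toReal : ℂ)) atTop
      (𝓝 (∫ x in SM, twistedDiag P σ e R N₀ N₁ N' ((K.mul C).mul K) x ∂volPt)) := by
  have hnM : lvM D N' ≠ ⊥ := by simp [hlev.ne_zero]
  have hX : ((K.mul C).mul K).Good fun w => w ≠ ⊥ := by
    intro T hT
    rw [mul_mul_eq] at hT
    simp only [List.mem_flatMap, List.mem_map] at hT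
    obtain ⟨a, ha, b, hb, d, hd, rfl⟩ := hT
    refine ⟨good_inf_tripleTerm (h.pair.good a ha).1 (h.test b hb).1 (h.pair.good d hd).1,
      fun w hw => ?_⟩
    simp only [tripleTerm, List.mem_append] at hw
    rcases hw with (hw | hw) | hw
    · exact (h.degreeOne a ha w hw).2.1
    · exact (under_spec ((h.test b hb).2 w hw).1).2.1
    · exact (h.degreeOne d hd w hw).2.1
  refine tendsto_sum_trunc (cubicTwist P hfix he hlev.ne_zero) hnM hSM
    (cnt := fun p : TriplePart K C =>
      preCount (ramCount D σ R N₀ N₁ N') (tripleAt K C p.1).word)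
    (k := triplePartKer K C) (coe := fun p => termCoeff (tripleAt K C p.1) p.2)
    (fun p => goodPair_preCount hlev (fun w hw => ((h.word_letters p.1).1 w hw).2.1)
      (fun i => (h.goodParts p i).1) fun i => (h.goodParts p i).2.1)
    (fun x => ?_) ?_
  · rw [twistedDiag_parts P hfix he hlev hX x]
    refine (sum_fin_list _ fun T => ∑ j : Fin 3 → Fin 4, termCoeff T j *
      ((∑' s : Twisted (cubicTwist P hfix he hlev.ne_zero).θ,
        sideDensity (cubicTwist P hfix he hlev.ne_zero)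
          (preCount (ramCount D σ R N₀ N₁ N') T.word) (parts T j) s x).toReal : ℂ)).trans ?_
    refine (sandwich_sum _).trans ?_
    rw [Fintype.sum_prod_type (α₂ := Fin 3 → Fin 4)]
    rfl
  · obtain ⟨B, hB⟩ := h.pair.boundedM C h.test
    exact integrableOn_twistedDiag P hlev hSM hX hB

/-- A combination of descended terms indexed by the triples. -/
theorem TraceData.good_family (Lw : Term D.M (Fin 3) → Term D.M (Fin 3) → Term D.M (Fin 3) →
      List (ℂ × List (Ideal (𝓞 D.E))))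
    (hLw : ∀ t : Triple K C, ∀ a ∈ Lw K[t.1] C[t.2.1] K[t.2.2], ∀ v ∈ a.2, v ≠ ⊥) :
    Comb.Good (fun v : Ideal (𝓞 D.E) => v ≠ ⊥) (K.flatMap fun a => C.flatMap fun b =>
      K.flatMap fun d => (Lw a b d).map (descTerm D (tripleTerm a b d))) := by
  intro S hS
  simp only [List.mem_flatMap, List.mem_map] at hS
  obtain ⟨a, ha, b, hb, d, hd, x, hx, rfl⟩ := hS
  obtain ⟨i, hi, rfl⟩ := List.getElem_of_mem ha
  obtain ⟨j, hj, rfl⟩ := List.getElem_of_mem hb
  obtain ⟨l, hl, rfl⟩ := List.getElem_of_mem hd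
  exact good_descTerm (h.inf_good (⟨i, hi⟩, ⟨j, hj⟩, ⟨l, hl⟩))
    (hLw (⟨i, hi⟩, ⟨j, hj⟩, ⟨l, hl⟩) x hx) _ (List.mem_singleton_self _)

/-- The diagonal of such a combination in side densities. -/
theorem TraceData.family_parts (hnE : lvE D N ≠ ⊥)
    (Lw : Term D.M (Fin 3) → Term D.M (Fin 3) → Term D.M (Fin 3) →
      List (ℂ × List (Ideal (𝓞 D.E))))
    (hLw : ∀ t : Triple K C, ∀ a ∈ Lw K[t.1] C[t.2.1] K[t.2.2], ∀ v ∈ a.2, v ≠ ⊥)
    (y : Pt D.E Unit (lvE D N)) :
    Kernel.periodise P.placesE (Comb.kernel (lvE D N) (K.flatMap fun a => C.flatMap fun b =>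
        K.flatMap fun d => (Lw a b d).map (descTerm D (tripleTerm a b d)))) y y =
      ∑ t : Triple K C, ((Lw K[t.1] C[t.2.1] K[t.2.2]).map fun x => ∑ j : Fin 3 → Fin 4,
        x.1 * termCoeff (tripleAt K C t) j *
          ((∑' s : Twisted (plainTwist P.placesE hnE).θ, sideDensity (plainTwist P.placesE hnE)
            (wordCount (lvE D N) x.2) (fun _ => triKer (triplePartKer K C (t, j))) s y).toReal :
              ℂ)).sum := by
  rw [periodise_eq_sum_fin P.placesE hnE (h.good_family Lw hLw),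
    sum_fin_list _ (fun S => Kernel.periodise P.placesE (Comb.kernel (lvE D N) [S]) y y),
    sum_triples]
  refine Finset.sum_congr rfl fun t _ => ?_
  rw [List.map_map]
  refine congrArg List.sum (List.map_congr_left fun x hx => ?_)
  exact plain_parts P hnE (h.inf_good t) (hLw t x hx) y

/-- The truncated sums on the quadratic side tend to the descended trace. -/
theorem TraceData.tendsto_plain (hlev : IsTestLevel D σ k Bd R N₀ N₁ N N')
    (hnE : lvE D N ≠ ⊥) (hSE : IsFundDomain P.placesE SE) :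
    Tendsto (fun L => ∑ p : TriplePart K C, ∑ a : Fin (D.descWord (tripleAt K C p.1).word).length,
      (D.descWord (tripleAt K C p.1).word)[a].1 * termCoeff (tripleAt K C p.1) p.2 *
        ((plainTrunc hnE SE (D.descWord (tripleAt K C p.1).word)[a].2
          (triKer (triplePartKer K C p)) P L).toReal : ℂ)) atTop
      (𝓝 (∫ y in SE, Kernel.periodise P.placesE
        ((((D.descComb K).mul (D.descComb C)).mul (D.descComb K)).kernel (lvE D N)) y y
          ∂volPt)) := by
  have hlist : D.descComb ((K.mul C).mul K) = K.flatMap fun a => C.flatMap fun b =>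
      K.flatMap fun d => (D.descWord (tripleTerm a b d).word).map
        (descTerm D (tripleTerm a b d)) := by
    rw [descComb_eq, mul_mul_eq]
    simp only [List.flatMap_assoc, List.flatMap_map]
  obtain ⟨B, hB⟩ := h.pair.boundedE (D.descComb C)
    (LanglandsTunnell.Isolation.good_descComb D (fun w hw => under_ok hlev.dvd hw) h.test)
  have hker := kernel_desc_sandwich (n := lvE D N) h.pair.good h.test h.degreeOne
  rw [hker, hlist] at hB ⊢
  have hne : ∀ t : Triple K C, ∀ a ∈ D.descWord (tripleAt K C t).word, ∀ v ∈ a.2, v ≠ ⊥ :=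
    fun t a ha => h.plain_ne_bot t a (List.mem_append_left _ ha)
  refine (tendsto_sum_trunc (plainTwist P.placesE hnE) hnE hSE
    (cnt := fun q : Σ t : Triple K C,
        Fin (D.descWord (tripleAt K C t).word).length × (Fin 3 → Fin 4) =>
      wordCount (lvE D N) (D.descWord (tripleAt K C q.1).word)[q.2.1].2)
    (k := fun q _ => triKer (triplePartKer K C (q.1, q.2.2)))
    (coe := fun q => (D.descWord (tripleAt K C q.1).word)[q.2.1].1 *
      termCoeff (tripleAt K C q.1) q.2.2)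
    (fun q => goodPair_triKer hnE (h.inf_good q.1) (hne q.1 _ (List.getElem_mem _)) q.2.2)
    (fun y => ?_) (integrableOn_periodise_diag P.placesE hnE hSE
      (h.good_family (fun a b d => D.descWord (tripleTerm a b d).word) hne) hB)).congr fun L => ?_
  · refine (h.family_parts hnE (fun a b d => D.descWord (tripleTerm a b d).word) hne y).trans ?_
    rw [Fintype.sum_sigma]
    refine Finset.sum_congr rfl fun t _ => ?_
    refine (sum_fin_list _ _).symm.trans ?_
    rw [Fintype.sum_prod_type]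
    rfl
  · rw [Fintype.sum_sigma, Fintype.sum_prod_type (α₂ := Fin 3 → Fin 4)]
    refine Finset.sum_congr rfl fun t _ => ?_
    exact (Fintype.sum_prod_type _).trans Finset.sum_comm

theorem TraceData.odd_plain (hnE : lvE D N ≠ ⊥) (p : TriplePart K C) :
    ∀ a ∈ D.descWord (tripleAt K C p.1).word ++ corrList W₂ u₀ K C p.1,
      ∀ (q : PGLF D.E) (y : Pt D.E Unit (lvE D N)),
        sideDensity (plainTwist P.placesE hnE) (wordCount (lvE D N) a.2)
          (fun _ => triKer (triplePartKer K C p)) (Twisted.of _ q) y ≠ 0 → IsNonsq q := fun a ha =>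
  plain_isNonsq hnE (h.desc_letters p.1 a ha).1 (under_spec (Or.inl h.split.1)).2.2.1
    (under_spec (Or.inl h.split.1)).2.2.2 (h.desc_letters p.1 a ha).2

/-- The slopes of the correction words add up to zero. -/
theorem TraceData.slope_zero (hlev : IsTestLevel D σ k Bd R N₀ N₁ N N')
    (hnE : lvE D N ≠ ⊥) (hSE : IsFundDomain P.placesE SE) :
    ∑ p : TriplePart K C, ∑ b : Fin (corrList W₂ u₀ K C p.1).length,
      termCoeff (tripleAt K C p.1) p.2 * ((reCoeff (corrList W₂ u₀ K C p.1) b *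
        (totalSlope hnE SE (corrList W₂ u₀ K C p.1)[b].2 (triKer (triplePartKer K C p))
          P).toReal : ℝ) : ℂ) = 0 := by
  let f : Term D.M (Fin 3) → List (ℂ × List (Ideal (𝓞 D.E))) := fun Tc =>
    (W₂ Tc).map fun b => (((b.1.re : ℝ) : ℂ), D.under u₀ :: b.2)
  let L₃ : Term D.M (Fin 3) → Term D.M (Fin 3) → Term D.M (Fin 3) →
      List (ℂ × List (Ideal (𝓞 D.E))) := fun a b d =>
    (f b).map fun x => (x.1, a.word.map D.under ++ x.2 ++ d.word.map D.under)
  have hL₃ : ∀ t : Triple K C, L₃ K[t.1] C[t.2.1] K[t.2.2] =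
      (corrList W₂ u₀ K C t).map fun b => (((b.1.re : ℝ) : ℂ), b.2) := fun t => by
    simp [corrList, L₃, f, List.map_map, Function.comp_def]
  have hL₃0 : ∀ t : Triple K C, ∀ a ∈ L₃ K[t.1] C[t.2.1] K[t.2.2], ∀ v ∈ a.2, v ≠ ⊥ := by
    intro t a ha v hv
    rw [hL₃ t] at ha
    obtain ⟨b, hb, rfl⟩ := List.mem_map.mp ha
    exact h.plain_ne_bot t b (List.mem_append_right _ hb) v hv
  have hC₂ : Comb.Good (fun v => v.IsPrime ∧ v ≠ ⊥ ∧ ¬ v ∣ lvE D N)
      (C.flatMap fun Tc => (f Tc).map (descTerm D Tc)) := by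
    intro S hS
    simp only [List.mem_flatMap, List.mem_map] at hS
    obtain ⟨Tc, hTc, x, hx, rfl⟩ := hS
    obtain ⟨b, hb, rfl⟩ := List.mem_map.mp hx
    refine good_descTerm (ok := fun v : Ideal (𝓞 D.E) => v.IsPrime ∧ v ≠ ⊥ ∧ ¬ v ∣ lvE D N)
      (h.test Tc hTc).1 (fun v hv => ?_) _ (List.mem_singleton_self _)
    rcases List.mem_cons.mp hv with rfl | hv
    · exact under_ok hlev.dvd (testOK_of_splitOK h.split)
    · exact ⟨((h.corr Tc hTc).1 b hb v hv).1, ((h.corr Tc hTc).1 b hb v hv).2.1,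
        ((h.corr Tc hTc).1 b hb v hv).2.2.1⟩
  obtain ⟨B, hB⟩ := h.pair.boundedE _ hC₂
  rw [kernel_desc_mul_mul h.pair.good h.test h.degreeOne f (lvE D N)] at hB
  let L₂ : Triple K C → List (ℂ × List (Ideal (𝓞 D.E))) := corrList W₂ u₀ K C
  let ker : (Σ t : Triple K C, Fin (L₂ t).length × (Fin 3 → Fin 4)) → ℝ → ℝ := fun q =>
    triKer (triplePartKer K C (q.1, q.2.2))
  have hm : ∀ q : Σ t : Triple K C, Fin (L₂ t).length × (Fin 3 → Fin 4),
      (L₂ q.1)[q.2.1] ∈ D.descWord (tripleAt K C q.1).word ++ L₂ q.1 := fun q =>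
    List.mem_append_right _ (List.getElem_mem _)
  have haff : ∀ q : Σ t : Triple K C, Fin (L₂ t).length × (Fin 3 → Fin 4), ∃ L₀ : ℝ, 0 < L₀ ∧
      ∀ L, L₀ ≤ L → 2 * plainTrunc hnE SE (L₂ q.1)[q.2.1].2 (ker q) P L =
        ENNReal.ofReal (2 * L) * totalSlope hnE SE (L₂ q.1)[q.2.1].2 (ker q) P +
        (2 * (∑' o, plainEll hnE SE (L₂ q.1)[q.2.1].2 (ker q) P o) +
          ∑' o, plainConst hnE SE (L₂ q.1)[q.2.1].2 (ker q) P o) := fun q =>
    plain_affine hSE (continuous_triKer (h.goodParts _)) (hasCompactSupport_triKer (h.goodParts _))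
      (h.plain_ne_bot q.1 _ (hm q)) (h.odd_plain hnE (q.1, q.2.2) _ (hm q))
  choose La hLa0 hLa using haff
  have hL0 : (0 : ℝ) < 1 + ∑ q, La q :=
    add_pos_of_pos_of_nonneg one_pos (Finset.sum_nonneg fun q _ => (hLa0 q).le)
  have hsum := sum_slope_eq_zero (plainTwist P.placesE hnE) hnE hSE
    (cnt := fun q : Σ t : Triple K C, Fin (L₂ t).length × (Fin 3 → Fin 4) =>
      wordCount (lvE D N) (L₂ q.1)[q.2.1].2)
    (k := fun q _ => ker q)
    (coe := fun q => ((reCoeff (L₂ q.1) q.2.1 : ℝ) : ℂ) * termCoeff (tripleAt K C q.1) q.2.2)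
    (fun q => goodPair_triKer hnE (h.inf_good q.1) (h.plain_ne_bot q.1 _ (hm q)) q.2.2)
    (fun y => ?_) (integrableOn_periodise_diag P.placesE hnE hSE (h.good_family L₃ hL₃0) hB)
    (κ := 2) two_pos hL0 (fun q => totalSlope hnE SE (L₂ q.1)[q.2.1].2 (ker q) P)
    (fun q => 2 * (∑' o, plainEll hnE SE (L₂ q.1)[q.2.1].2 (ker q) P o) +
      ∑' o, plainConst hnE SE (L₂ q.1)[q.2.1].2 (ker q) P o)
    (fun q L hL => by
      rw [ENNReal.ofReal_ofNat]
      exact hLa q L ((Finset.single_le_sum (fun q _ => (hLa0 q).le) (Finset.mem_univ q)).trans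
        ((le_add_iff_nonneg_left _).mpr zero_le_one) |>.trans hL))
  · rw [Fintype.sum_sigma] at hsum
    refine Eq.trans ?_ hsum
    refine (Fintype.sum_prod_type _).trans (Finset.sum_congr rfl fun t _ => ?_)
    rw [Fintype.sum_prod_type, Finset.sum_comm]
    refine Finset.sum_congr rfl fun b _ => Finset.sum_congr rfl fun j _ => ?_
    simp only [L₂, ker]
    push_cast
    ring
  · refine (h.family_parts hnE L₃ hL₃0 y).trans ?_
    rw [Fintype.sum_sigma]
    refine Finset.sum_congr rfl fun t _ => ?_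
    rw [hL₃ t, List.map_map]
    refine (sum_fin_list _ _).symm.trans ?_
    rw [Fintype.sum_prod_type]
    rfl

/-- The truncated identity of one part of a triple. -/
theorem TraceData.part_identity (hH : HasseNormSpec) (hne : σ ≠ AlgEquiv.refl)
    (hlev : IsTestLevel D σ k Bd R N₀ N₁ N N')
    (hfix : ∀ x, σ (D.incl x) = D.incl x)
    (he : ∀ i, P.placesM.emb (e i) = (P.placesM.emb i).comp σ.toAlgHom.toRingHom)
    (hnE : lvE D N ≠ ⊥) (hSM : IsFundDomain P.placesM SM) (hSE : IsFundDomain P.placesE SE)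
    (p : TriplePart K C) :
    ∃ L₀ : ℝ, 0 < L₀ ∧ ∀ L, L₀ ≤ L →
      6 * (twTrunc hlev.ne_zero SM (tripleAt K C p.1).word (triplePartKer K C p) P hfix he R N₀ N₁
          (3 * L)).toReal =
        6 * c * (∑ a : Fin (D.descWord (tripleAt K C p.1).word).length,
          reCoeff (D.descWord (tripleAt K C p.1).word) a *
            (plainTrunc hnE SE (D.descWord (tripleAt K C p.1).word)[a].2
              (triKer (triplePartKer K C p)) P L).toReal) +
        ∑ b : Fin (corrList W₂ u₀ K C p.1).length, reCoeff (corrList W₂ u₀ K C p.1) b *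
          (totalSlope hnE SE (corrList W₂ u₀ K C p.1)[b].2 (triKer (triplePartKer K C p))
            P).toReal := by
  obtain ⟨h1, h2, -⟩ := h.letters p.1
  obtain ⟨hw, hpar⟩ := h.word_letters p.1
  refine truncated_identity (hfix := hfix) (he := he) (hn := hnE) hH hne hlev hSM hSE
    (h.goodParts p) (fun w hm => (hw w hm).2.1) (h.plain_ne_bot p.1) (fun γ hγ => ?_)
    (fun d x hd => twisted_isNonsq hne (under_spec (Or.inl h.split.1)).1
      (under_spec (Or.inl h.split.1)).2.1 (fun w hm => ⟨(hw w hm).1, (hw w hm).2.1⟩)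
      (fun w hm => (hw w hm).2.2) hpar d x hd)
    (h.odd_plain hnE p)
  have hm : ∀ i : Fin K.length, K[i] ∈ K := fun i => List.getElem_mem _
  have hct := (h.corr _ (List.getElem_mem (l := C) p.1.2.1.isLt)).2 (K[p.1.1].word ++ [u₀])
    K[p.1.2.2].word (fun w hm' => ?_) γ hγ
  · rw [h.word_eq p.1]
    exact hct
  · simp only [List.mem_append, List.mem_singleton] at hm'
    rcases hm' with (hm' | hm') | hm'
    · exact ⟨testOK_of_splitOK ((h.pair.good _ (hm _)).2 w hm'), (h1 w hm').1⟩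
    · exact ⟨hm' ▸ testOK_of_splitOK h.split, hm' ▸ h.split.1⟩
    · exact ⟨testOK_of_splitOK ((h.pair.good _ (hm _)).2 w hm'), (h2 w hm').1⟩

/-- The identity for given correction lists. -/
theorem TraceData.trace_identity (hH : HasseNormSpec) (hne : σ ≠ AlgEquiv.refl)
    (hfix : ∀ x, σ (D.incl x) = D.incl x)
    (he : ∀ i, P.placesM.emb (e i) = (P.placesM.emb i).comp σ.toAlgHom.toRingHom)
    (hlev : IsTestLevel D σ k Bd R N₀ N₁ N N') (hSM : IsFundDomain P.placesM SM)
    (hSE : IsFundDomain P.placesE SE) :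
    ∫ x in SM, twistedDiag P σ e R N₀ N₁ N' ((K.mul C).mul K) x ∂volPt =
      (c : ℂ) * ∫ y in SE, Kernel.periodise P.placesE
        ((((D.descComb K).mul (D.descComb C)).mul (D.descComb K)).kernel (lvE D N)) y y ∂volPt := by
  have hnE : lvE D N ≠ ⊥ := lvE_ne_bot_of_level hlev
  have hid := h.part_identity hH hne hlev hfix he hnE hSM hSE
  choose Li hLi0 hLi using hid
  have hzero := h.slope_zero hlev hnE hSE
  refine tendsto_nhds_unique
    ((h.tendsto_twisted hlev hfix he hSM).comp (tendsto_id.const_mul_atTop (three_pos (α := ℝ)))) ?_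
  refine ((h.tendsto_plain hlev hnE hSE).const_mul (c : ℂ)).congr' ?_
  filter_upwards [eventually_ge_atTop (1 + ∑ p, Li p)] with L hL
  have hJ : ∀ p : TriplePart K C, ((twTrunc hlev.ne_zero SM (tripleAt K C p.1).word
      (triplePartKer K C p) P hfix he R N₀ N₁ (3 * L)).toReal : ℂ) =
      (c : ℂ) * (∑ a : Fin (D.descWord (tripleAt K C p.1).word).length,
        (D.descWord (tripleAt K C p.1).word)[a].1 *
          ((plainTrunc hnE SE (D.descWord (tripleAt K C p.1).word)[a].2
            (triKer (triplePartKer K C p)) P L).toReal : ℂ)) +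
      (6 : ℂ)⁻¹ * ∑ b : Fin (corrList W₂ u₀ K C p.1).length,
        ((reCoeff (corrList W₂ u₀ K C p.1) b *
          (totalSlope hnE SE (corrList W₂ u₀ K C p.1)[b].2 (triKer (triplePartKer K C p))
            P).toReal : ℝ) : ℂ) := by
    intro p
    have hp := congrArg (fun x : ℝ => (x : ℂ)) (hLi p L ((Finset.single_le_sum
      (fun p _ => (hLi0 p).le) (Finset.mem_univ p)).trans
        ((le_add_iff_nonneg_left _).mpr zero_le_one) |>.trans hL))
    have e1 : ∀ a : Fin (D.descWord (tripleAt K C p.1).word).length,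
        ((reCoeff (D.descWord (tripleAt K C p.1).word) a : ℝ) : ℂ) =
          (D.descWord (tripleAt K C p.1).word)[a].1 := fun a =>
      descWord_real _ _ (List.getElem_mem _)
    push_cast at hp ⊢
    simp only [e1] at hp
    linear_combination hp / 6
  simp only [Function.comp_apply, id_eq, hJ]
  simp only [mul_add, Finset.sum_add_distrib, Finset.mul_sum]
  rw [show ∑ p : TriplePart K C, ∑ b : Fin (corrList W₂ u₀ K C p.1).length,
      termCoeff (tripleAt K C p.1) p.2 * ((6 : ℂ)⁻¹ * ((reCoeff (corrList W₂ u₀ K C p.1) b *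
        (totalSlope hnE SE (corrList W₂ u₀ K C p.1)[b].2 (triKer (triplePartKer K C p))
          P).toReal : ℝ) : ℂ)) = (6 : ℂ)⁻¹ * 0 by
      rw [← hzero, Finset.mul_sum]
      refine Finset.sum_congr rfl fun p _ => ?_
      rw [Finset.mul_sum]
      exact Finset.sum_congr rfl fun b _ => mul_left_comm _ _ _,
    mul_zero, add_zero]
  exact Finset.sum_congr rfl fun p _ => Finset.sum_congr rfl fun a _ => by ring

omit h

/-- **The twisted trace identity** from the local comparison and the Hasse norm theorem. -/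
theorem traceSpec_of (hH : HasseNormSpec) (hT : LocalTransferSpec) : TraceSpec := by
  intro D P σ e hne hfix he k Bd hBd hk
  obtain ⟨R, N₀, N₁, N, N', c, hc, hlev, hloc⟩ := hT D P σ hne hfix k Bd hBd hk
  refine ⟨R, N₀, N₁, N, N', (c : ℂ), Complex.ofReal_ne_zero.mpr hc.ne', hlev,
    fun SM SE hSM hSE K hK u₀ hu hKu C hC hCw => ?_⟩
  classical
  have h : ∀ T : Term D.M (Fin 3), ∃ W₂ : List (ℂ × List (Ideal (𝓞 D.E))), T ∈ C →
      (∀ a ∈ W₂, ∀ v ∈ a.2, v.IsPrime ∧ v ≠ ⊥ ∧ ¬ v ∣ lvE D N ∧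
        ∃ w ∈ T.word.tail, v = D.under w) ∧
      ∀ A B : List (Ideal (𝓞 D.M)), (∀ w ∈ A ++ B, D.TestOK N' w ∧ D.DegreeOne w) →
        ∀ γ, IsRegularMat D γ → ClassTransfer D P σ R N₀ N₁ N N' c (A ++ T.word.tail ++ B)
          (W₂.map fun b => (b.1, A.map D.under ++ b.2 ++ B.map D.under)) γ := by
    intro T
    by_cases hm : T ∈ C
    · obtain ⟨ws, hws, -, hcount⟩ := hCw T hm
      obtain ⟨W₂, h⟩ := hloc T.word.tail
        (fun w hw => (hC T hm).2 w (List.mem_of_mem_tail hw))
        (by rw [hws]; exact hcount)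
      exact ⟨W₂, fun _ => h⟩
    · exact ⟨[], fun h => absurd h hm⟩
  choose W₂ hW₂ using h
  exact TraceData.trace_identity (W₂ := W₂) ⟨hK, hu, hKu, hC,
    fun T hm => by obtain ⟨ws, h1, h2, -⟩ := hCw T hm; exact ⟨ws, h1, h2⟩, hW₂⟩
    hH hne hfix he hlev hSM hSE

end FLTAgent.LanglandsTunnell.Trace
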