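import Fermat.Agent.LanglandsTunnell.Trace.Truncation
import Mathlib.MeasureTheory.Measure.WithDensity

/-!
# Transfer of class terms along equivariant push forwards

If `q` pushes the twisted density to the plain density and is equivariant, then the elliptic term,
the slope and the constant of the two classes agree; the constant picks up the number of
coordinates and the defect of the height.
-/

set_option autoImplicit false

noncomputable section

namespace FLTAgent.LanglandsTunnell.Trace

open MeasureTheory Set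
open scoped ENNReal

variable {H H' Y Y' : Type*} [Group H] [Group H'] [MeasurableSpace Y] [MeasurableSpace Y']
  [MulAction H Y] [MulAction H' Y'] [Countable H] [Countable H']
  [MeasurableConstSMul H Y] [MeasurableConstSMul H' Y']
  {μ : Measure Y} {μ' : Measure Y'} [SMulInvariantMeasure H Y μ] [SMulInvariantMeasure H' Y' μ']
  {e : H' ≃* H} {q : Y' → Y} {F : Y → ℝ≥0∞} {F' : Y' → ℝ≥0∞}

/-- The data of a transfer of one class. -/
structure IsTransfer (μ : Measure Y) (μ' : Measure Y') (e : H' ≃* H) (q : Y' → Y)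
    (F' : Y' → ℝ≥0∞) (F : Y → ℝ≥0∞) : Prop where
  measurable : Measurable q
  measurable_src : Measurable F'
  measurable_tgt : Measurable F
  invariant_src : ∀ (h : H') x, F' (h • x) = F' x
  push : Measure.map q (μ'.withDensity F') = μ.withDensity F
  equivariant : ∀ (h : H') x, F' x ≠ 0 → q (h • x) = e h • q x

omit [Countable H] [MeasurableConstSMul H Y] [SMulInvariantMeasure H Y μ] in
/-- Integrals against weights transfer. -/
theorem IsTransfer.lintegral_eq (T : IsTransfer μ μ' e q F' F) {w : Y → ℝ≥0∞} {w' : Y' → ℝ≥0∞}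
    (hw' : IsWeight H' μ' w') (hw : IsWeight H μ w) {P : Y → ℝ≥0∞} (hP : Measurable P)
    (hPinv : ∀ (h : H) y, P (h • y) = P y) :
    ∫⁻ x, w' x * (F' x * P (q x)) ∂μ' = ∫⁻ y, w y * (F y * P y) ∂μ := by
  have h0 : ∀ᵐ y ∂μ.withDensity F, ∑' h : H, w (h • y) = 1 :=
    (withDensity_absolutelyContinuous μ F).ae_le hw.sum_eq
  rw [← T.push] at h0
  have h1 := (ae_withDensity_iff T.measurable_src).mp (ae_of_ae_map T.measurable.aemeasurable h0)
  calc ∫⁻ x, w' x * (F' x * P (q x)) ∂μ'
      = ∫⁻ x, w (q x) * (F' x * P (q x)) ∂μ' := by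
        refine hw'.lintegral_eq_of_support (hw.measurable.comp T.measurable) ?_
          (T.measurable_src.fun_mul (hP.comp T.measurable)) fun h x => ?_
        · refine h1.mono fun x hx hne => ?_
          have hF := left_ne_zero_of_mul hne
          rw [← hx hF, ← e.toEquiv.tsum_eq]
          refine tsum_congr fun h => ?_
          simp only [Function.comp_apply, T.equivariant h x hF]
          rfl
        · rw [T.invariant_src]
          rcases eq_or_ne (F' x) 0 with h0' | h0'
          · simp [h0']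
          · rw [T.equivariant h x h0', hPinv]
    _ = ∫⁻ x, F' x * (fun y => w y * P y) (q x) ∂μ' :=
        lintegral_congr fun x => by ring
    _ = ∫⁻ y, w y * P y ∂(μ.withDensity F) := by
        rw [← T.push, lintegral_map (hw.measurable.fun_mul hP) T.measurable,
          lintegral_withDensity_eq_lintegral_mul _ T.measurable_src
            (g := fun x => w (q x) * P (q x)) ((hw.measurable.fun_mul hP).comp T.measurable)]
        rfl
    _ = ∫⁻ y, w y * (F y * P y) ∂μ := by
        rw [lintegral_withDensity_eq_lintegral_mul _ T.measurable_tgt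
          (hw.measurable.fun_mul hP)]
        exact lintegral_congr fun y => by simp only [Pi.mul_apply]; ring

omit [Countable H] [MeasurableConstSMul H Y] [SMulInvariantMeasure H Y μ] in
/-- The elliptic terms agree. -/
theorem IsTransfer.lintegral_weight_eq (T : IsTransfer μ μ' e q F' F) {w : Y → ℝ≥0∞}
    {w' : Y' → ℝ≥0∞} (hw' : IsWeight H' μ' w') (hw : IsWeight H μ w) :
    ∫⁻ x, w' x * F' x ∂μ' = ∫⁻ y, w y * F y ∂μ := by
  simpa using T.lintegral_eq hw' hw (measurable_const (a := (1 : ℝ≥0∞))) fun _ _ => rfl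

section Flow

variable {Φ : ℝ → Y → Y} {ℓ₁ ℓ₀ : Y → ℝ} {κ : ℝ} [SFinite μ]

omit [Countable H'] [MeasurableConstSMul H' Y'] [SMulInvariantMeasure H' Y' μ'] in
/-- Integrals with a transversal depend neither on the weight nor on the transversal. -/
theorem TorusFlow.lintegral_indep (hΦ : TorusFlow H μ Φ ℓ₁ ℓ₀ κ) {R R' : Y → ℝ≥0∞}
    (hR : IsTransversal H Φ R) (hR' : IsTransversal H Φ R') {w w' : Y → ℝ≥0∞}
    (hw : IsWeight H μ w) (hw' : IsWeight H μ w') (hF : Measurable F)
    (hFH : ∀ (h : H) x, F (h • x) = F x) (hFΦ : ∀ s x, F (Φ s x) = F x) :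
    ∫⁻ x, w x * R x * F x ∂μ = ∫⁻ x, w' x * R' x * F x ∂μ := by
  have h := hΦ.lintegral_flow hR' hw hw' hF hFH hFΦ hR.measurable hR.invariant
  simp only [hR.total, mul_one] at h
  rw [← h]
  exact lintegral_congr fun x => by ring

variable {ι : Type*} [Fintype ι] {q : ι → Y' → Y} {Φ' : ℝ → Y' → Y'} {ℓ₁' ℓ₀' : Y' → ℝ}
  {κ' : ℝ} [SFinite μ']

omit [Countable H] [MeasurableConstSMul H Y] [SMulInvariantMeasure H Y μ] [SFinite μ] in
/-- The slope and the constant of a hyperbolic class transfer. -/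
theorem hyperbolic_transfer (hΦ : TorusFlow H μ Φ ℓ₁ ℓ₀ κ)
    (hΦ' : TorusFlow H' μ' Φ' ℓ₁' ℓ₀' κ') (T : ∀ i, IsTransfer μ μ' e (q i) F' F) (i₀ : ι)
    (hF'Φ : ∀ s x, F' (Φ' s x) = F' x) (hqΦ : ∀ i s x, q i (Φ' s x) = Φ s (q i x))
    {d : Y' → ℝ≥0∞} (hd : Measurable d) (hdH : ∀ (h : H') x, F' x ≠ 0 → d (h • x) = d x)
    {F₂ : Y → ℝ≥0∞} (T₂ : IsTransfer μ μ' e (q i₀) (fun x => F' x * d x) F₂)
    (hP : ∀ x, F' x ≠ 0 → ENNReal.ofReal (-(ℓ₁' x + ℓ₀' x)) =
      (∑ i, ENNReal.ofReal (-(ℓ₁ (q i x) + ℓ₀ (q i x)))) + d x)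
    (hdΦ : ∀ s x, F' x ≠ 0 → d (Φ' s x) = d x)
    {R : Y → ℝ≥0∞} (hR : IsTransversal H Φ R) {R' : Y' → ℝ≥0∞} (hR' : IsTransversal H' Φ' R')
    {w : Y → ℝ≥0∞} (hw : IsWeight H μ w) {w' : Y' → ℝ≥0∞} (hw' : IsWeight H' μ' w') :
    slopeTerm μ' w' R' F' = slopeTerm μ w R F ∧
      constTerm μ' w' R' F' ℓ₁' ℓ₀' =
        Fintype.card ι * constTerm μ w R F ℓ₁ ℓ₀ + slopeTerm μ w R F₂ := by
  classical
  have hF'm : Measurable F' := (T i₀).measurable_src
  let S : Set Y' := {x | F' x ≠ 0}
  have hS : MeasurableSet S := hF'm (measurableSet_singleton 0).compl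
  let Ri : ι → Y' → ℝ≥0∞ := fun i => S.piecewise (fun x => R (q i x)) R'
  have hRi : ∀ i, IsTransversal H' Φ' (Ri i) := by
    intro i
    refine ⟨(hR.measurable.comp (T i).measurable).piecewise hS hR'.measurable,
      fun h x => ?_, fun x => ?_⟩
    · by_cases hx : x ∈ S
      · have hx' : h • x ∈ S := by
          simpa only [S, mem_ofPred_eq, (T i).invariant_src h x] using hx
        simp only [Ri, piecewise_eq_of_mem _ _ _ hx, piecewise_eq_of_mem _ _ _ hx',
          (T i).equivariant h x hx, hR.invariant]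
      · have hx' : h • x ∉ S := by
          simpa only [S, mem_ofPred_eq, (T i).invariant_src h x] using hx
        simp only [Ri, piecewise_eq_of_notMem _ _ _ hx, piecewise_eq_of_notMem _ _ _ hx',
          hR'.invariant]
    · by_cases hx : x ∈ S
      · have hs : ∀ s, Φ' s x ∈ S := fun s => by
          simpa only [S, mem_ofPred_eq, hF'Φ s x] using hx
        simp only [Ri, piecewise_eq_of_mem _ _ _ (hs _), hqΦ, hR.total]
      · have hs : ∀ s, Φ' s x ∉ S := fun s => by
          simpa only [S, mem_ofPred_eq, hF'Φ s x] using hx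
        simp only [Ri, piecewise_eq_of_notMem _ _ _ (hs _), hR'.total]
  have hred : ∀ (i : ι) (G' : Y' → ℝ≥0∞), Measurable G' →
      (∀ (h : H') x, G' (h • x) = G' x) → (∀ s x, G' (Φ' s x) = G' x) →
      (∀ x, F' x = 0 → G' x = 0) →
      ∫⁻ x, w' x * R' x * G' x ∂μ' = ∫⁻ x, w' x * (G' x * R (q i x)) ∂μ' := by
    intro i G' hm hH hΦG h0
    rw [hΦ'.lintegral_indep hR' (hRi i) hw' hw' hm hH hΦG]
    refine lintegral_congr fun x => ?_
    by_cases hx : x ∈ S
    · simp only [Ri, piecewise_eq_of_mem _ _ _ hx]; ring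
    · simp [h0 x (by simpa [S] using hx)]
  refine ⟨?_, ?_⟩
  · rw [slopeTerm, hred i₀ F' hF'm (T i₀).invariant_src hF'Φ (fun _ h => h),
      (T i₀).lintegral_eq hw' hw hR.measurable hR.invariant, slopeTerm]
    exact lintegral_congr fun y => by ring
  · let Pf : Y → ℝ≥0∞ := fun y => ENNReal.ofReal (-(ℓ₁ y + ℓ₀ y))
    have hPf : Measurable Pf := (hΦ.measurable_hi.add hΦ.measurable_lo).neg.ennreal_ofReal
    have hPfH : ∀ (h : H) y, Pf (h • y) = Pf y := fun h y => by
      simp only [Pf, hΦ.invariant_fst, hΦ.invariant_snd]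
    have hPfΦ : ∀ s y, Pf (Φ s y) = Pf y := fun s y => by
      simp only [Pf, hΦ.shift_fst, hΦ.shift_snd]
      ring_nf
    have hsplit : ∀ x, w' x * R' x * F' x * ENNReal.ofReal (-(ℓ₁' x + ℓ₀' x)) =
        (∑ i, w' x * R' x * (F' x * Pf (q i x))) + w' x * R' x * (F' x * d x) := by
      intro x
      rcases eq_or_ne (F' x) 0 with h | h
      · simp [h]
      · rw [hP x h, mul_add, Finset.mul_sum]
        congr 1
        · exact Finset.sum_congr rfl fun i _ => by ring
        · ring
    have hwR : Measurable fun x => w' x * R' x := hw'.measurable.fun_mul hR'.measurable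
    have hmi : ∀ i, Measurable fun x => w' x * R' x * (F' x * Pf (q i x)) := fun i =>
      hwR.fun_mul (hF'm.fun_mul (hPf.comp (T i).measurable))
    rw [constTerm, lintegral_congr hsplit,
      lintegral_add_left (Finset.measurable_fun_sum _ fun i _ => hmi i),
      lintegral_finsetSum _ fun i _ => hmi i, slopeTerm]
    congr 1
    · rw [Finset.sum_eq_card_nsmul (b := constTerm μ w R F ℓ₁ ℓ₀) fun i _ => ?_,
        nsmul_eq_mul, Finset.card_univ]
      rw [hred i (fun x => F' x * Pf (q i x)) (hF'm.fun_mul (hPf.comp (T i).measurable))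
        (fun h x => ?_) (fun s x => by rw [hF'Φ, hqΦ, hPfΦ]) (fun x h => by simp [h])]
      · calc ∫⁻ x, w' x * (F' x * Pf (q i x) * R (q i x)) ∂μ'
            = ∫⁻ x, w' x * (F' x * (fun y => Pf y * R y) (q i x)) ∂μ' :=
              lintegral_congr fun x => by ring
          _ = ∫⁻ y, w y * (F y * (Pf y * R y)) ∂μ :=
              (T i).lintegral_eq hw' hw (P := fun y => Pf y * R y)
                (hPf.fun_mul hR.measurable) fun h y => by rw [hPfH, hR.invariant]
          _ = constTerm μ w R F ℓ₁ ℓ₀ := lintegral_congr fun y => by simp only [Pf]; ring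
      · rw [(T i).invariant_src]
        rcases eq_or_ne (F' x) 0 with h0 | h0
        · simp [h0]
        · rw [(T i).equivariant h x h0, hPfH]
    · rw [hred i₀ _ (hF'm.fun_mul hd) (fun h x => ?_)
        (fun s x => ?_) (fun x h => by simp [h]), T₂.lintegral_eq hw' hw hR.measurable hR.invariant]
      · exact lintegral_congr fun y => by ring
      · rw [(T i₀).invariant_src]
        rcases eq_or_ne (F' x) 0 with h0 | h0
        · simp [h0]
        · rw [hdH h x h0]
      · rw [hF'Φ]
        rcases eq_or_ne (F' x) 0 with h0 | h0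
        · simp [h0]
        · rw [hdΦ s x h0]

end Flow

end FLTAgent.LanglandsTunnell.Trace
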