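import Fermat.Agent.LanglandsTunnell.Trace.Unfold
import Mathlib.MeasureTheory.Measure.Prod
import Mathlib.MeasureTheory.Measure.Haar.Unique

/-!
# Truncated integrals along the flow of a split torus

A term attached to a split torus, integrated over the region where both logarithmic heights are
at most `L`, is exactly affine in `L`.
-/

set_option autoImplicit false

noncomputable section

namespace FLTAgent.LanglandsTunnell.Trace

open MeasureTheory Set
open scoped ENNReal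

variable (H : Type*) [Group H] {Y : Type*} [MeasurableSpace Y] [MulAction H Y] (μ : Measure Y)

/-- A measure preserving flow commuting with `H`, moving two invariant logarithmic heights in
opposite directions with speed `κ`. -/
structure TorusFlow (Φ : ℝ → Y → Y) (ℓ₁ ℓ₀ : Y → ℝ) (κ : ℝ) : Prop where
  measurable : Measurable fun p : ℝ × Y => Φ p.1 p.2
  preserving : ∀ s, MeasurePreserving (Φ s) μ μ
  cancel : ∀ s x, Φ s (Φ (-s) x) = x
  commute : ∀ s (h : H) x, Φ s (h • x) = h • Φ s x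
  measurable_hi : Measurable ℓ₁
  measurable_lo : Measurable ℓ₀
  invariant_fst : ∀ (h : H) x, ℓ₁ (h • x) = ℓ₁ x
  invariant_snd : ∀ (h : H) x, ℓ₀ (h • x) = ℓ₀ x
  shift_fst : ∀ s x, ℓ₁ (Φ s x) = ℓ₁ x + κ * s
  shift_snd : ∀ s x, ℓ₀ (Φ s x) = ℓ₀ x - κ * s
  sum_nonpos : ∀ x, ℓ₁ x + ℓ₀ x ≤ 0
  pos : 0 < κ

/-- A function of total mass one along every flow line. -/
structure IsTransversal (Φ : ℝ → Y → Y) (R : Y → ℝ≥0∞) : Prop where
  measurable : Measurable R
  invariant : ∀ (h : H) x, R (h • x) = R x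
  total : ∀ x, ∫⁻ s, R (Φ s x) = 1

variable {H μ}
variable {Φ : ℝ → Y → Y} {ℓ₁ ℓ₀ : Y → ℝ} {κ : ℝ}

/-- The standard transversal. -/
def stdTransversal (ℓ₁ : Y → ℝ) (κ : ℝ) : Y → ℝ≥0∞ :=
  (ℓ₁ ⁻¹' Ico 0 κ).indicator 1

theorem TorusFlow.isTransversal_std (hΦ : TorusFlow H μ Φ ℓ₁ ℓ₀ κ) :
    IsTransversal H Φ (stdTransversal ℓ₁ κ) := by
  refine ⟨measurable_one.indicator (hΦ.measurable_hi measurableSet_Ico), fun h x => ?_,
    fun x => ?_⟩
  · simp only [stdTransversal, indicator, mem_preimage, hΦ.invariant_fst, Pi.one_apply]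
  · have he : (fun s => stdTransversal ℓ₁ κ (Φ s x)) =
        (Ico (-ℓ₁ x / κ) (-ℓ₁ x / κ + 1)).indicator 1 := by
      funext s
      have hiff : ℓ₁ (Φ s x) ∈ Ico 0 κ ↔ s ∈ Ico (-ℓ₁ x / κ) (-ℓ₁ x / κ + 1) := by
        rw [hΦ.shift_fst, mem_Ico, mem_Ico, div_le_iff₀ hΦ.pos,
          show -ℓ₁ x / κ + 1 = (κ - ℓ₁ x) / κ by field_simp [hΦ.pos.ne']; ring,
          lt_div_iff₀ hΦ.pos]
        constructor <;> rintro ⟨h1, h2⟩ <;> constructor <;> nlinarith
      simp only [stdTransversal, indicator, mem_preimage, Pi.one_apply, hiff]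
    rw [he, lintegral_indicator_one measurableSet_Ico, Real.volume_Ico]
    simp

variable [Countable H] [MeasurableConstSMul H Y] [SMulInvariantMeasure H Y μ] [SFinite μ]

/-- Integration along flow lines. -/
theorem TorusFlow.lintegral_flow (hΦ : TorusFlow H μ Φ ℓ₁ ℓ₀ κ) {R : Y → ℝ≥0∞}
    (hR : IsTransversal H Φ R) {w w' : Y → ℝ≥0∞} (hw : IsWeight H μ w) (hw' : IsWeight H μ w')
    {F : Y → ℝ≥0∞} (hF : Measurable F) (hFH : ∀ (h : H) x, F (h • x) = F x)
    (hFΦ : ∀ s x, F (Φ s x) = F x)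
    {ψ : Y → ℝ≥0∞} (hψ : Measurable ψ) (hψH : ∀ (h : H) x, ψ (h • x) = ψ x) :
    ∫⁻ x, w x * (F x * ψ x) ∂μ = ∫⁻ x, w' x * R x * F x * (∫⁻ s, ψ (Φ s x)) ∂μ := by
  have hmΦ : ∀ s, Measurable (Φ s) := fun s => (hΦ.preserving s).measurable
  have h1 : Measurable fun p : Y × ℝ => R (Φ p.2 p.1) :=
    hR.measurable.comp (hΦ.measurable.comp measurable_swap)
  have h2 : Measurable fun p : Y × ℝ => ψ (Φ p.2 p.1) :=
    hψ.comp (hΦ.measurable.comp measurable_swap)
  have h3 : Measurable fun p : Y × ℝ => ψ (Φ (-p.2) p.1) :=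
    hψ.comp (hΦ.measurable.comp (measurable_snd.neg.prodMk measurable_fst))
  have key : ∀ s : ℝ, ∫⁻ x, w x * (F x * ψ x) * R (Φ s x) ∂μ =
      ∫⁻ x, w' x * R x * F x * ψ (Φ (-s) x) ∂μ := by
    intro s
    have hws : IsWeight H μ fun x => w (Φ (-s) x) := by
      refine ⟨hw.measurable.comp (hmΦ _), ?_⟩
      refine ((hΦ.preserving (-s)).quasiMeasurePreserving.ae hw.sum_eq).mono fun x hx => ?_
      simpa only [hΦ.commute] using hx
    calc ∫⁻ x, w x * (F x * ψ x) * R (Φ s x) ∂μ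
        = ∫⁻ x, w (Φ (-s) x) * (R x * F x * ψ (Φ (-s) x)) ∂μ := by
          rw [← (hΦ.preserving (-s)).lintegral_comp ((hw.measurable.fun_mul
            (hF.fun_mul hψ)).fun_mul (g := fun x => R (Φ s x)) (hR.measurable.comp (hmΦ s)))]
          refine lintegral_congr fun x => ?_
          rw [hΦ.cancel, hFΦ]
          ring
      _ = ∫⁻ x, w' x * (R x * F x * ψ (Φ (-s) x)) ∂μ :=
          hws.lintegral_eq hw' ((hR.measurable.fun_mul hF).fun_mul (hψ.comp (hmΦ _)))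
            fun h x => by rw [hR.invariant, hFH, hΦ.commute, hψH]
      _ = ∫⁻ x, w' x * R x * F x * ψ (Φ (-s) x) ∂μ :=
          lintegral_congr fun x => by ring
  calc ∫⁻ x, w x * (F x * ψ x) ∂μ
      = ∫⁻ x, (∫⁻ s, w x * (F x * ψ x) * R (Φ s x)) ∂μ := by
        refine lintegral_congr fun x => ?_
        rw [lintegral_const_mul _ (show Measurable fun s => R (Φ s x) from
          h1.comp measurable_prodMk_left), hR.total, mul_one]
    _ = ∫⁻ (s : ℝ), ∫⁻ x, w x * (F x * ψ x) * R (Φ s x) ∂μ := lintegral_lintegral_swap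
        ((((hw.measurable.fun_mul (hF.fun_mul hψ)).comp measurable_fst).fun_mul h1).aemeasurable)
    _ = ∫⁻ (s : ℝ), ∫⁻ x, w' x * R x * F x * ψ (Φ (-s) x) ∂μ := lintegral_congr key
    _ = ∫⁻ x, (∫⁻ s, w' x * R x * F x * ψ (Φ (-s) x)) ∂μ := (lintegral_lintegral_swap
        (((((hw'.measurable.fun_mul hR.measurable).fun_mul hF).comp measurable_fst).fun_mul
          h3).aemeasurable)).symm
    _ = ∫⁻ x, w' x * R x * F x * (∫⁻ s, ψ (Φ s x)) ∂μ := by
        refine lintegral_congr fun x => ?_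
        rw [lintegral_const_mul _ (show Measurable fun s => ψ (Φ (-s) x) from
          h3.comp measurable_prodMk_left)]
        congr 1
        exact (Measure.measurePreserving_neg (volume : Measure ℝ)).lintegral_comp
          (h2.comp measurable_prodMk_left)

/-- The truncation function. -/
def truncation (ℓ₁ ℓ₀ : Y → ℝ) (L : ℝ) : Y → ℝ≥0∞ :=
  {x | ℓ₁ x ≤ L ∧ ℓ₀ x ≤ L}.indicator 1

/-- The coefficient of `2 L` of a hyperbolic term. -/
def slopeTerm (μ : Measure Y) (w R F : Y → ℝ≥0∞) : ℝ≥0∞ :=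
  ∫⁻ x, w x * R x * F x ∂μ

/-- The constant of a hyperbolic term. -/
def constTerm (μ : Measure Y) (w R F : Y → ℝ≥0∞) (ℓ₁ ℓ₀ : Y → ℝ) : ℝ≥0∞ :=
  ∫⁻ x, w x * R x * F x * ENNReal.ofReal (-(ℓ₁ x + ℓ₀ x)) ∂μ

/-- A hyperbolic term is exactly affine in the truncation parameter. -/
theorem TorusFlow.lintegral_truncation (hΦ : TorusFlow H μ Φ ℓ₁ ℓ₀ κ) {R : Y → ℝ≥0∞}
    (hR : IsTransversal H Φ R) {w w' : Y → ℝ≥0∞} (hw : IsWeight H μ w) (hw' : IsWeight H μ w')
    {F : Y → ℝ≥0∞} (hF : Measurable F) (hFH : ∀ (h : H) x, F (h • x) = F x)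
    (hFΦ : ∀ s x, F (Φ s x) = F x) {L : ℝ} (hL : 0 ≤ L) :
    ENNReal.ofReal κ * ∫⁻ x, w x * (F x * truncation ℓ₁ ℓ₀ L x) ∂μ =
      ENNReal.ofReal (2 * L) * slopeTerm μ w' R F + constTerm μ w' R F ℓ₁ ℓ₀ := by
  have hmS : MeasurableSet {x | ℓ₁ x ≤ L ∧ ℓ₀ x ≤ L} :=
    (hΦ.measurable_hi measurableSet_Iic).inter (hΦ.measurable_lo measurableSet_Iic)
  have hinner : ∀ x, ENNReal.ofReal κ * ∫⁻ s, truncation ℓ₁ ℓ₀ L (Φ s x) =
      ENNReal.ofReal (2 * L) + ENNReal.ofReal (-(ℓ₁ x + ℓ₀ x)) := by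
    intro x
    have he : (fun s => truncation ℓ₁ ℓ₀ L (Φ s x)) =
        (Icc ((ℓ₀ x - L) / κ) ((L - ℓ₁ x) / κ)).indicator 1 := by
      funext s
      have hiff : (ℓ₁ (Φ s x) ≤ L ∧ ℓ₀ (Φ s x) ≤ L) ↔
          s ∈ Icc ((ℓ₀ x - L) / κ) ((L - ℓ₁ x) / κ) := by
        rw [hΦ.shift_fst, hΦ.shift_snd, mem_Icc, div_le_iff₀ hΦ.pos, le_div_iff₀ hΦ.pos]
        constructor <;> rintro ⟨h1, h2⟩ <;> constructor <;> linarith
      simp only [truncation, indicator, mem_ofPred_eq, Pi.one_apply, hiff]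
    have hs := hΦ.sum_nonpos x
    have hκ := hΦ.pos
    rw [he, lintegral_indicator_one measurableSet_Icc, Real.volume_Icc,
      ← ENNReal.ofReal_mul hΦ.pos.le, ← ENNReal.ofReal_add (by linarith) (by linarith)]
    congr 1
    field_simp
    ring
  have hm : Measurable fun x => w' x * R x * F x :=
    (hw'.measurable.fun_mul hR.measurable).fun_mul hF
  rw [hΦ.lintegral_flow hR hw hw' hF hFH hFΦ (ψ := truncation ℓ₁ ℓ₀ L)
      (measurable_one.indicator hmS)
      (fun h x => by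
        simp only [truncation, indicator, mem_ofPred_eq, hΦ.invariant_fst, hΦ.invariant_snd,
          Pi.one_apply]),
    ← lintegral_const_mul' _ _ ENNReal.ofReal_ne_top, slopeTerm, constTerm,
    ← lintegral_const_mul' _ _ ENNReal.ofReal_ne_top, ← lintegral_add_left (hm.const_mul _)]
  refine lintegral_congr fun x => ?_
  rw [mul_left_comm, hinner]
  ring

end FLTAgent.LanglandsTunnell.Trace
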