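import Mathlib.LinearAlgebra.Matrix.GeneralLinearGroup.Defs
import Mathlib.LinearAlgebra.Matrix.Charpoly.Coeff
import Mathlib.LinearAlgebra.LinearIndependent.Lemmas
import Mathlib.FieldTheory.Fixed
import Mathlib.Tactic.LinearCombination
import Mathlib.Tactic.FieldSimp

/-!
# Twisted conjugacy classes with regular norm, for a cyclic cubic extension

Classes of `δ` over `M` with regular semisimple norm correspond, modulo scalars, to classes over
`E` of their norms.
-/

set_option autoImplicit false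

noncomputable section

namespace FLTAgent.LanglandsTunnell.Trace

open Matrix

variable {E M : Type*} [Field E] [Field M] [Algebra E M]

/-- `σ` generates the group of a cubic extension with fixed field `E`. -/
structure IsCubicTwist (σ : M ≃ₐ[E] M) : Prop where
  cube : ∀ x, σ (σ (σ x)) = x
  fixed : ∀ x, σ x = x → ∃ e : E, algebraMap E M e = x
  ne_one : ∃ x, σ x ≠ x

variable {σ : M ≃ₐ[E] M}

/-- Entrywise twist. -/
abbrev twist (σ : M ≃ₐ[E] M) (A : Matrix (Fin 2) (Fin 2) M) : Matrix (Fin 2) (Fin 2) M :=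
  A.map σ

/-- The norm `A σ(A) σ²(A)`. -/
def twNorm (σ : M ≃ₐ[E] M) (A : Matrix (Fin 2) (Fin 2) M) : Matrix (Fin 2) (Fin 2) M :=
  A * twist σ A * twist σ (twist σ A)

theorem twist_mul (A B : Matrix (Fin 2) (Fin 2) M) : twist σ (A * B) = twist σ A * twist σ B :=
  Matrix.map_mul

theorem twist_one : twist σ (1 : Matrix (Fin 2) (Fin 2) M) = 1 :=
  Matrix.map_one _ (map_zero σ) (map_one σ)

theorem twist_smul (z : M) (A : Matrix (Fin 2) (Fin 2) M) :
    twist σ (z • A) = σ z • twist σ A := by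
  ext i j; simp

theorem twist_algebraMap (A : Matrix (Fin 2) (Fin 2) E) :
    twist σ (A.map (algebraMap E M)) = A.map (algebraMap E M) := by
  ext i j; simp

theorem twist_cube (hσ : IsCubicTwist σ) (A : Matrix (Fin 2) (Fin 2) M) :
    twist σ (twist σ (twist σ A)) = A := by
  ext i j; simp [hσ.cube]

theorem det_twist (A : Matrix (Fin 2) (Fin 2) M) : (twist σ A).det = σ A.det := by
  simp [Matrix.det_fin_two]

theorem isUnit_twist {g : Matrix (Fin 2) (Fin 2) M} (hg : IsUnit g) : IsUnit (twist σ g) := by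
  rw [Matrix.isUnit_iff_isUnit_det, det_twist] at *
  exact hg.map σ

/-- The norm of a twisted conjugate is a conjugate. -/
theorem twNorm_conj (hσ : IsCubicTwist σ) {g A B : Matrix (Fin 2) (Fin 2) M}
    (h : g * A = B * twist σ g) : g * twNorm σ A = twNorm σ B * g := by
  have h1 : twist σ g * twist σ A = twist σ B * twist σ (twist σ g) := by
    rw [← twist_mul, h, twist_mul]
  have h2 : twist σ (twist σ g) * twist σ (twist σ A) =
      twist σ (twist σ B) * twist σ (twist σ (twist σ g)) := by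
    rw [← twist_mul, h1, twist_mul]
  rw [twist_cube hσ] at h2
  calc g * twNorm σ A = g * A * twist σ A * twist σ (twist σ A) := by
        simp only [twNorm, Matrix.mul_assoc]
    _ = B * (twist σ g * twist σ A) * twist σ (twist σ A) := by
        rw [h]; simp only [Matrix.mul_assoc]
    _ = B * twist σ B * (twist σ (twist σ g) * twist σ (twist σ A)) := by
        rw [h1]; simp only [Matrix.mul_assoc]
    _ = twNorm σ B * g := by rw [h2]; simp only [twNorm, Matrix.mul_assoc]

/-- The norm commutes with `σ` up to conjugation by `A`. -/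
theorem mul_twist_twNorm (hσ : IsCubicTwist σ) (A : Matrix (Fin 2) (Fin 2) M) :
    A * twist σ (twNorm σ A) = twNorm σ A * A := by
  simp only [twNorm, twist_mul, twist_cube hσ, Matrix.mul_assoc]

theorem det_twNorm (A : Matrix (Fin 2) (Fin 2) M) :
    (twNorm σ A).det = A.det * σ A.det * σ (σ A.det) := by
  simp only [twNorm, Matrix.det_mul, det_twist]

theorem twNorm_smul (z : M) (A : Matrix (Fin 2) (Fin 2) M) :
    twNorm σ (z • A) = (z * σ z * σ (σ z)) • twNorm σ A := by
  simp only [twNorm, twist_smul, Matrix.smul_mul, Matrix.mul_smul, smul_smul]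
  ring_nf

/-- An element with square in `E` is in `E`. -/
theorem mem_of_sq_mem (hσ : IsCubicTwist σ) (h2 : (2 : M) ≠ 0) {z : M}
    (hz : σ (z ^ 2) = z ^ 2) : σ z = z := by
  rw [map_pow] at hz
  rcases eq_or_eq_neg_of_sq_eq_sq _ _ hz with h | h
  · exact h
  · have h3 := hσ.cube z
    rw [h, map_neg, h, neg_neg, h] at h3
    have : (2 : M) * z = 0 := by linear_combination -h3
    rw [(mul_eq_zero.mp this).resolve_left h2, map_zero]

/-- Trace and determinant of a norm lie in `E`. -/
theorem twNorm_invariants (hσ : IsCubicTwist σ) {A : Matrix (Fin 2) (Fin 2) M} (hA : IsUnit A) :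
    σ (twNorm σ A).trace = (twNorm σ A).trace ∧ σ (twNorm σ A).det = (twNorm σ A).det := by
  obtain ⟨u, rfl⟩ := hA
  have h := mul_twist_twNorm hσ (u : Matrix (Fin 2) (Fin 2) M)
  have hc : twist σ (twNorm σ (u : Matrix (Fin 2) (Fin 2) M)) =
      (↑u⁻¹ : Matrix (Fin 2) (Fin 2) M) * twNorm σ (u : Matrix (Fin 2) (Fin 2) M) * u := by
    rw [Matrix.mul_assoc, ← h, ← Matrix.mul_assoc, Units.inv_mul, Matrix.one_mul]
  refine ⟨?_, ?_⟩
  · have : (twist σ (twNorm σ (u : Matrix (Fin 2) (Fin 2) M))).trace =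
        (twNorm σ (u : Matrix (Fin 2) (Fin 2) M)).trace := by
      rw [hc]; exact Matrix.trace_units_conj' u _
    simpa [Matrix.trace_fin_two] using this
  · rw [← det_twist, hc, Matrix.det_units_conj']

/-! ### Normal forms -/

/-- The companion matrix of `X² - t X + d`. -/
def companion2 {R : Type*} [Ring R] (t d : R) : Matrix (Fin 2) (Fin 2) R := !![0, -d; 1, t]

/-- A regular semisimple matrix is conjugate to its companion matrix. -/
theorem exists_conj_companion {K : Type*} [Field K] {A : Matrix (Fin 2) (Fin 2) K}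
    (hA : A.trace ^ 2 ≠ 4 * A.det) :
    ∃ P : Matrix (Fin 2) (Fin 2) K, IsUnit P ∧ A * P = P * companion2 A.trace A.det := by
  obtain ⟨a, b, c, d, rfl⟩ : ∃ a b c d, A = !![a, b; c, d] := ⟨_, _, _, _, Matrix.eta_fin_two A⟩
  simp only [Matrix.trace_fin_two, Matrix.det_fin_two, Matrix.of_apply, cons_val', cons_val_zero,
    cons_val_one, cons_val_fin_one, empty_val'] at hA
  suffices h : ∃ x y, x * (c * x + d * y) - y * (a * x + b * y) ≠ 0 by
    obtain ⟨x, y, hxy⟩ := h
    refine ⟨!![x, a * x + b * y; y, c * x + d * y], ?_, ?_⟩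
    · rw [Matrix.isUnit_iff_isUnit_det, isUnit_iff_ne_zero, Matrix.det_fin_two]
      simpa [mul_comm (a * x + b * y) y] using hxy
    · ext i j
      fin_cases i <;> fin_cases j <;>
        simp [companion2, Matrix.mul_apply, Fin.sum_univ_two, Matrix.trace_fin_two,
          Matrix.det_fin_two] <;> ring
  by_cases hc : c = 0
  · by_cases hb : b = 0
    · refine ⟨1, 1, fun h => hA ?_⟩
      have had : a = d := by rw [hc, hb] at h; linear_combination -h
      rw [had, hb]; ring
    · exact ⟨0, 1, by simpa using hb⟩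
  · exact ⟨1, 0, by simpa using hc⟩

/-- The centraliser of a regular semisimple matrix. -/
theorem exists_eq_of_commute {K : Type*} [Field K] {A B : Matrix (Fin 2) (Fin 2) K}
    (hA : A.trace ^ 2 ≠ 4 * A.det) (h : A * B = B * A) :
    ∃ x y : K, B = x • (1 : Matrix (Fin 2) (Fin 2) K) + y • A := by
  obtain ⟨P, hP, hAP⟩ := exists_conj_companion hA
  obtain ⟨u, rfl⟩ := hP
  set C := companion2 A.trace A.det with hC
  set B' := (↑u⁻¹ : Matrix (Fin 2) (Fin 2) K) * B * u with hB'
  have hA' : A = (u : Matrix (Fin 2) (Fin 2) K) * C * (↑u⁻¹ : Matrix (Fin 2) (Fin 2) K) := by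
    rw [← hAP, Matrix.mul_assoc, Units.mul_inv, Matrix.mul_one]
  have hcomm : C * B' = B' * C := by
    have : C = (↑u⁻¹ : Matrix (Fin 2) (Fin 2) K) * A * u := by
      rw [Matrix.mul_assoc, hAP, ← Matrix.mul_assoc, Units.inv_mul, Matrix.one_mul]
    rw [this, hB']
    simp only [Matrix.mul_assoc, Units.mul_inv_cancel_left]
    rw [← Matrix.mul_assoc A, h, Matrix.mul_assoc]
  have h00 : -A.det * B' 1 0 = B' 0 1 := by
    have := congrFun (congrFun hcomm 0) 0
    simpa [hC, companion2, Matrix.mul_apply, Fin.sum_univ_two] using this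
  have h10 : B' 0 0 + A.trace * B' 1 0 = B' 1 1 := by
    have := congrFun (congrFun hcomm 1) 0
    simpa [hC, companion2, Matrix.mul_apply, Fin.sum_univ_two] using this
  refine ⟨B' 0 0, B' 1 0, ?_⟩
  have hB : B = (u : Matrix (Fin 2) (Fin 2) K) * B' * (↑u⁻¹ : Matrix (Fin 2) (Fin 2) K) := by
    rw [hB']; simp [Matrix.mul_assoc]
  have hB'' : B' = B' 0 0 • (1 : Matrix (Fin 2) (Fin 2) K) + B' 1 0 • C := by
    ext i j
    fin_cases i <;> fin_cases j <;> simp [hC, companion2] <;>
      first | linear_combination h00 | linear_combination h10 | linear_combination -h00 |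
        linear_combination -h10
  calc B = (u : Matrix (Fin 2) (Fin 2) K) *
        (B' 0 0 • (1 : Matrix (Fin 2) (Fin 2) K) + B' 1 0 • C) *
          (↑u⁻¹ : Matrix (Fin 2) (Fin 2) K) := by rw [← hB'', ← hB]
    _ = _ := by rw [hA']; simp [Matrix.mul_add, Matrix.add_mul, Matrix.mul_assoc]

/-- Every class with regular norm has a representative whose norm is rational. -/
theorem exists_rational_norm (hσ : IsCubicTwist σ) {A : Matrix (Fin 2) (Fin 2) M} (hA : IsUnit A)
    (hreg : (twNorm σ A).trace ^ 2 ≠ 4 * (twNorm σ A).det) :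
    ∃ (g B : Matrix (Fin 2) (Fin 2) M) (t d : E), IsUnit g ∧ g * A = B * twist σ g ∧ d ≠ 0 ∧
      t ^ 2 ≠ 4 * d ∧ twNorm σ B = (companion2 t d).map (algebraMap E M) := by
  obtain ⟨ht', hd'⟩ := twNorm_invariants hσ hA
  obtain ⟨t, ht⟩ := hσ.fixed _ ht'
  obtain ⟨d, hd⟩ := hσ.fixed _ hd'
  obtain ⟨P, hP, hAP⟩ := exists_conj_companion hreg
  obtain ⟨u, rfl⟩ := hP
  obtain ⟨v, hv⟩ := isUnit_twist (σ := σ) u⁻¹.isUnit
  refine ⟨(↑u⁻¹ : Matrix (Fin 2) (Fin 2) M),
    (↑u⁻¹ : Matrix (Fin 2) (Fin 2) M) * A * (↑v⁻¹ : Matrix (Fin 2) (Fin 2) M),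
    t, d, u⁻¹.isUnit, ?_, ?_, ?_, ?_⟩
  · rw [← hv, Matrix.mul_assoc, Units.inv_mul, Matrix.mul_one]
  · rintro rfl
    have h0 : (twNorm σ A).det = 0 := by rw [← hd, map_zero]
    rw [det_twNorm] at h0
    have hne : A.det ≠ 0 := ((Matrix.isUnit_iff_isUnit_det A).mp hA).ne_zero
    simp [hne] at h0
  · intro h
    apply hreg
    rw [← ht, ← hd, ← map_pow, h, map_mul, map_ofNat]
  · have hC : (companion2 t d).map (algebraMap E M) =
        companion2 (twNorm σ A).trace (twNorm σ A).det := by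
      ext i j
      fin_cases i <;> fin_cases j <;> simp [companion2, ht, hd]
    have h := twNorm_conj hσ (g := (↑u⁻¹ : Matrix (Fin 2) (Fin 2) M)) (A := A)
      (B := (↑u⁻¹ : Matrix (Fin 2) (Fin 2) M) * A * (↑v⁻¹ : Matrix (Fin 2) (Fin 2) M))
        (by rw [← hv, Matrix.mul_assoc, Units.inv_mul, Matrix.mul_one])
    rw [hC]
    calc twNorm σ ((↑u⁻¹ : Matrix (Fin 2) (Fin 2) M) * A * (↑v⁻¹ : Matrix (Fin 2) (Fin 2) M)) =
      (↑u⁻¹ : Matrix (Fin 2) (Fin 2) M) * twNorm σ A * ↑u := by
          rw [h, Units.inv_mul_cancel_right]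
      _ = companion2 (twNorm σ A).trace (twNorm σ A).det := by
          rw [Matrix.mul_assoc, hAP, ← Matrix.mul_assoc, Units.inv_mul, Matrix.one_mul]

/-- A rational norm commutes with the element. -/
theorem commute_of_rational_norm (hσ : IsCubicTwist σ) {B : Matrix (Fin 2) (Fin 2) M}
    {γ : Matrix (Fin 2) (Fin 2) E} (h : twNorm σ B = γ.map (algebraMap E M)) :
    γ.map (algebraMap E M) * B = B * γ.map (algebraMap E M) := by
  have h1 := mul_twist_twNorm hσ B
  rw [h, twist_algebraMap] at h1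
  exact h1.symm

end FLTAgent.LanglandsTunnell.Trace
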